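import Fermat.Agent.CFT.PT.JSTower
import Fermat.Agent.CFT.Global.SemiLocalH
import Fermat.Agent.CFT.GalMapTransport
import Fermat.Agent.CFT.LC.Finite
import Fermat.Agent.CFT.LC.Res

/-!
# Node D2a (i): `H¹(U, J_S) = 0` in level cohomology

* `subsingleton_H1_sProdRep`: `H¹(Gal(F/K), ∏_{q ∈ S} A_q(F)) = 0` for number fields
  (Hilbert 90 + Shapiro, componentwise from `semiLocal_h1TrivialOn`);
* `subsingleton_H1_jsInvariants`: the same for `J_S^{Gal(Ω/E')}` as a `Gal(Ω/E)/Gal(Ω/E')`-module,
  through the dictionary `jsInvariantsIso`;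
* `subsingleton_lcH1_jsTowerRep`: `LC.H1 (L.comap U.subtype) (res U J_S) = 0` for
  `U = Gal(Ω/E)` open, when every level of `L` is the fixing subgroup of a finite normal subfield.
-/

set_option autoImplicit false
set_option linter.unusedSectionVars false
set_option linter.style.haveILetI false

noncomputable section

namespace Fermat.Agent.CFT.PT

open Fermat.Agent.CFT Fermat.Agent.CFT.GaloisTower IntermediateField groupCohomology

section Finite

variable {H K : Type} [Group H] [Field K] [MulSemiringAction H K] (S : Set Nat.Primes)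

/-- `H¹` of a product vanishes if `H¹` of every factor does (cocycle form). -/
theorem h1TrivialOn_sIdeleProd
    (hq : ∀ q : S, H1TrivialOn H (⊤ : Subgroup (semiLocalUnits ((q : Nat.Primes) : ℕ) K))) :
    H1TrivialOn H (⊤ : Subgroup (SIdeleProd K S)) := by
  intro f _ hf
  have hcomp : ∀ q : S, IsMulCocycle₁ (fun g : H => f g q) := fun q g g' => by
    have := congrFun (hf g g') q
    exact this
  choose x _ hx using fun q : S => hq q (fun g => f g q) (fun _ => Subgroup.mem_top _) (hcomp q)
  exact ⟨x, Subgroup.mem_top _, fun g => funext fun q => hx q g⟩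

end Finite

section NumberFields

variable (K : Type) [Field K] [NumberField K] {F : Type} [Field F] [NumberField F] [Algebra K F]
  [Normal K F] (S : Set Nat.Primes)

/-- `H¹(Gal(F/K), ∏_{q ∈ S} A_q(F)) = 0`. -/
theorem subsingleton_H1_sProdRep :
    Subsingleton (groupCohomology.H1 (sProdRep (F ≃ₐ[K] F) F S)) :=
  subsingleton_H1_of_h1TrivialOn
    (h1TrivialOn_sIdeleProd S fun q => semiLocal_h1TrivialOn (q := ((q : Nat.Primes) : ℕ)) K)

end NumberFields

section Tower

variable {Ω : Type} [Field Ω] [Algebra ℚ Ω] [IsGalois ℚ Ω]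
variable (L : LevelStructure (Ω ≃ₐ[ℚ] Ω)) (S : Set Nat.Primes)
variable {E E' : IntermediateField ℚ Ω} (h : E ≤ E')

omit [IsGalois ℚ Ω] in
/-- A finite subextension of `Ω/ℚ` is a number field. -/
theorem numberField_intermediateField (E : IntermediateField ℚ Ω) [FiniteDimensional ℚ E] :
    NumberField E := by
  have : CharZero Ω := algebraRat.charZero Ω
  refine @NumberField.mk E _ inferInstance ?_
  convert ‹FiniteDimensional ℚ E›
  exact Subsingleton.elim _ _

/-- `H¹(Gal(Ω/E)/Gal(Ω/E'), J_S^{Gal(Ω/E')}) = 0` for finite `E ≤ E'`, `E'/E` normal,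
`Gal(Ω/E')` open. -/
theorem subsingleton_H1_jsInvariants [FiniteDimensional ℚ E] [FiniteDimensional ℚ E']
    [Normal E (layer h)] (hopen : L.IsOpen E'.fixingSubgroup) :
    Subsingleton (groupCohomology.H1
      ((jsTowerRep L S E).quotientToInvariants (layerRes h).ker)) := by
  haveI : NumberField E := numberField_intermediateField E
  haveI : FiniteDimensional E (layer h) := finiteDimensional_layer h
  haveI : NumberField (layer h) := NumberField.of_module_finite E (layer h)
  have e := cohLinearEquivOfRepIso _ _ (layerEquiv h) (jsInvariantsIso L S h hopen) 1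
  haveI := subsingleton_H1_sProdRep E (F := layer h) S
  exact e.toEquiv.subsingleton

/-- A level structure of Galois type: every level is the fixing subgroup of a finite normal
subextension. -/
def IsGaloisType : Prop :=
  ∀ N, L.IsLevel N → ∃ F : IntermediateField ℚ Ω, @Normal ℚ F _ _ F.algebra' ∧
    FiniteDimensional ℚ F ∧ N = F.fixingSubgroup

variable {L}

theorem le_of_fixingSubgroup_le {E F : IntermediateField ℚ Ω}
    (hle : F.fixingSubgroup ≤ E.fixingSubgroup) : E ≤ F := by
  intro x hx
  rw [← forall_fixingSubgroup_apply_eq_iff F x]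
  intro σ hσ
  exact (forall_fixingSubgroup_apply_eq_iff E x).2 hx σ (hle hσ)

/-- Below every level and inside an open `Gal(Ω/E)` there is a level `Gal(Ω/F)`, `F ⊇ E` finite
normal over `ℚ`. -/
theorem IsGaloisType.exists_level_le (hL : IsGaloisType L) {E : IntermediateField ℚ Ω}
    (hU : L.IsOpen E.fixingSubgroup) {N : Subgroup (Ω ≃ₐ[ℚ] Ω)} (hN : L.IsLevel N) :
    ∃ F : IntermediateField ℚ Ω, @Normal ℚ F _ _ F.algebra' ∧ FiniteDimensional ℚ F ∧ E ≤ F ∧
      L.IsLevel F.fixingSubgroup ∧ F.fixingSubgroup ≤ N := by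
  obtain ⟨N₀, hN₀, hN₀U⟩ := hU
  obtain ⟨N₁, hN₁, hle⟩ := L.directed hN hN₀
  obtain ⟨F, hFn, hFf, rfl⟩ := hL N₁ hN₁
  exact ⟨F, hFn, hFf, le_of_fixingSubgroup_le ((hle.trans inf_le_right).trans hN₀U), hN₁,
    hle.trans inf_le_left⟩

/-- **D2a (i)**: `H¹(U, J_S) = 0` in level cohomology, for `U = Gal(Ω/E)` open. -/
theorem subsingleton_lcH1_jsTowerRep (hL : IsGaloisType L) (E : IntermediateField ℚ Ω)
    [FiniteDimensional ℚ E] (hU : L.IsOpen E.fixingSubgroup) :
    Subsingleton (LC.H1 (L.comap E.fixingSubgroup.subtype) (jsTowerRep L S E)) := by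
  have hA : IsSmooth (L.comap E.fixingSubgroup.subtype) (jsTowerRep L S E) :=
    (isSmooth_jsRep L Ω S).res (LevelStructure.compat_comap L _)
  have key : ∀ c : LC.H1 (L.comap E.fixingSubgroup.subtype) (jsTowerRep L S E), c = 0 := by
    intro c
    obtain ⟨l, y, rfl⟩ := LC.exists_inflH1_eq hA c
    obtain ⟨N, hN, hlN⟩ := l.isLevel
    obtain ⟨F, hFn, hFf, hEF, hFlev, hFN⟩ := hL.exists_level_le hU hN
    haveI : @Normal ℚ F _ _ F.algebra' := hFn
    haveI := hFf
    haveI : Normal E (layer hEF) := normal_layer hEF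
    have hker : (layerRes hEF).ker = F.fixingSubgroup.comap E.fixingSubgroup.subtype :=
      ker_layerRes hEF
    have hlev' : (L.comap E.fixingSubgroup.subtype).IsLevel (layerRes hEF).ker :=
      ⟨F.fixingSubgroup, hFlev, hker⟩
    have hle : (layerRes hEF).ker ≤ l.N := by
      rw [hker, hlN]
      exact Subgroup.comap_mono hFN
    have hopen' : (L.comap E.fixingSubgroup.subtype).IsOpen (layerRes hEF).ker :=
      LevelStructure.isOpen_of_isLevel _ hlev'
    rw [← LC.inflH1_inflFin hle hopen' y]
    haveI := subsingleton_H1_jsInvariants L S hEF (LevelStructure.isOpen_of_isLevel _ hFlev)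
    rw [Subsingleton.elim ((LC.inflFin (jsTowerRep L S E) hle 1).hom y) 0, map_zero]
  exact ⟨fun a b => (key a).trans (key b).symm⟩

end Tower

end Fermat.Agent.CFT.PT

end
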