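import Fermat.Agent.CFT.PT.CSFullDict
import Fermat.Agent.CFT.PT.JSH1
import Fermat.Agent.CFT.Global.SClassTowerDescent
import Fermat.Agent.CFT.Global.UnramOutsideS
import Fermat.Agent.CFT.Global.IdeleDict.DictAdapters
import Fermat.Agent.S55.LCBridgeGlobal

/-!
# Layer C, node C1d (part S, 5): the dictionary for `G_ℚ`, `ℚ̄` and `globalLevel S`

Instantiation of `PT/CSFullDict.lean` at `k = ℚ`, `Ω = ℚ̄`, `L = S55.globalLevel S`,
`Adm E' := E'.IsUnramifiedOutside S` (finite over `ℚ` and unramified outside `S`):

* `AdmS S`, `admS_fd`, `globalLevel_galType`, `globalLevel_cofinal`, `exists_mem_localEmb_Qb`;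
* `hasSClassDescent_of_admS`: the descent hypothesis, unconditionally (the vanishing of `H¹` of the
  integral semi-local units outside `S` on admissible layers is `Global/UnramOutsideS.lean`);
* `csFullDictQ S hS E hE : CoeffDict (sClassCoeff ℚ ℚ̄ S) (AdmS S) E _ (csFullTowerRep …)` and
  `csFullDictQ_invLC_resLC2`.
-/

set_option autoImplicit false
set_option linter.unusedSectionVars false
set_option linter.style.haveILetI false

noncomputable section

open CategoryTheory groupCohomology IntermediateField

namespace Fermat.Agent.CFT.PT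

open Fermat.Agent.CFT Fermat.Agent.CFT.GaloisTower Fermat.Agent.CFT.LayerMaps Fermat.Agent.S55
open Fermat.Agent.S54.FrobExists

local notation "Qb" => AlgebraicClosure ℚ

local instance instIsGaloisQbCS : IsGalois ℚ Qb := isGalois_rat_algebraicClosure

variable (S : Finset Nat.Primes)

/-- Admissible fields: finite over `ℚ` and unramified outside `S`. -/
def AdmS (E : IntermediateField ℚ Qb) : Prop := E.IsUnramifiedOutside S

variable {S}

theorem admS_fd {F : IntermediateField ℚ Qb} (hF : AdmS S F) :
    @FiniteDimensional ℚ F _ _ F.algebra'.toModule := by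
  convert hF.1

theorem admS_sup {B B' : IntermediateField ℚ Qb} (hB : AdmS S B) (hB' : AdmS S B') :
    AdmS S (B ⊔ B') := IntermediateField.IsUnramifiedOutside.sup hB hB'

theorem admS_mono {B B' : IntermediateField ℚ Qb} (hle : B ≤ B') (hB' : AdmS S B') :
    AdmS S B := IntermediateField.IsUnramifiedOutside.of_le hle hB'

variable (S)

/-- The levels of `globalLevel S` are the `Gal(ℚ̄/F)`, `F` admissible and normal over `ℚ`. -/
theorem globalLevel_galType (N : Subgroup (Qb ≃ₐ[ℚ] Qb)) (hN : (globalLevel S).IsLevel N) :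
    ∃ F : IntermediateField ℚ Qb, AdmS S F ∧ @Normal ℚ F _ _ F.algebra' ∧
      N = F.fixingSubgroup := by
  obtain ⟨F, hgal, hF, rfl⟩ := hN
  refine ⟨F, hF, ?_, rfl⟩
  have e : (DivisionRing.toRatAlgebra : Algebra ℚ ↥F) = F.algebra' := Subsingleton.elim _ _
  rw [← e]
  exact hgal.to_normal

/-- Every admissible field is cut out by a level. -/
theorem globalLevel_cofinal (E' : IntermediateField ℚ Qb) (hE' : AdmS S E') :
    ∃ N, (globalLevel S).IsLevel N ∧ N ≤ E'.fixingSubgroup := by
  obtain ⟨F, hle, -, hF, hgal⟩ := exists_isGalois_isUnramifiedOutside_ge hE' hE'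
  exact ⟨F.fixingSubgroup, ⟨F, hgal, hF, rfl⟩, IntermediateField.fixingSubgroup_antitone hle⟩

theorem exists_mem_localEmb_Qb (hS : S.Nonempty) :
    ∃ q ∈ (↑S : Set Nat.Primes), Nonempty (LocalEmb ((q : Nat.Primes) : ℕ) Qb) := by
  obtain ⟨q, hq⟩ := hS
  exact ⟨q, Finset.mem_coe.2 hq, ⟨(padicEmbedding (q : ℕ) : Qb →+* PadicAlgCl (q : ℕ))⟩⟩

section Package

variable (hS : S.Nonempty)

include hS in
/-- The finite-level descent hypothesis on admissible layers: `C_S(B'')^{Gal(B''/B')} = C_S(B')`
for `B ≤ B' ≤ B''` unramified outside `S`, `B''/B` normal. -/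
theorem hasSClassDescent_of_admS {B B' B'' : IntermediateField ℚ Qb} (h : B ≤ B')
    (h' : B' ≤ B'') (hB'' : AdmS S B'') [Normal B (layer (h.trans h'))] :
    HasSClassDescent h (↑S : Set Nat.Primes) h' := by
  haveI := admS_fd hB''
  haveI := admS_fd (admS_mono h' hB'')
  haveI := admS_fd (admS_mono (h.trans h') hB'')
  haveI : FiniteDimensional B (layer (h.trans h')) := finiteDimensional_layer (h.trans h')
  haveI : FiniteDimensional B (layer h) := finiteDimensional_layer h
  haveI : NumberField B := numberField_intermediateField B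
  haveI : NumberField (layer (h.trans h')) := NumberField.of_module_finite B (layer (h.trans h'))
  haveI : NumberField (layer h) := NumberField.of_module_finite B (layer h)
  obtain ⟨q, hq, ⟨τ⟩⟩ := exists_mem_localEmb_Qb S hS
  refine hasSClassDescent_of_h1Trivial h h' (↑S : Set Nat.Primes)
    ⟨q, hq, ⟨τ.comp (algebraMap (layer (h.trans h')) Qb)⟩⟩ ?_
    (IdeleDict.principalIsIdele (layer (h.trans h')))
  letI := algTop h (h.trans h') h'
  haveI : IsScalarTower B (layer h) (layer (h.trans h')) :=
    IsScalarTower.of_algebraMap_eq fun _ => rfl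
  haveI : IsGalois (layer h) (layer (h.trans h')) := isGalois_algTop_of_normal h h'
  haveI : FiniteDimensional (layer h) (layer (h.trans h')) :=
    FiniteDimensional.right B (layer h) (layer (h.trans h'))
  intro q hq
  exact h1TrivialOn_gal_of_isUnramifiedOutside hB'' (fun hqS => hq (Finset.mem_coe.2 hqS))
    (layer h) (algebraMap (layer (h.trans h')) Qb) (fun x => x.2)

/-- **The dictionary (C1d) for `G_ℚ`**: finite levels of `(Gal(ℚ̄/E), globalLevel S, C_S')` ↔
layers `E'/E` unramified outside `S`, coefficients `C_S(E')`. -/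
def csFullDictQ (E : IntermediateField ℚ Qb) (hE : AdmS S E) :
    CoeffDict (sClassCoeff ℚ Qb (↑S : Set Nat.Primes)) (AdmS S) E
      ((globalLevel S).comap E.fixingSubgroup.subtype)
      (csFullTowerRep (globalLevel S) (↑S : Set Nat.Primes) E) :=
  csFullDict (globalLevel S) (↑S : Set Nat.Primes) (AdmS S) (fun hF => admS_fd hF)
    (globalLevel_galType S) (globalLevel_cofinal S) (fun hB hB' => admS_sup hB hB')
    (exists_mem_localEmb_Qb S hS)
    (fun h h' hB'' _ => hasSClassDescent_of_admS S hS h h' hB'') E hE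

/-- `inv_F (res c) = [F : E] • inv_E c` on `LC.H2 (Gal(ℚ̄/E), C_S')`. -/
theorem csFullDictQ_invLC_resLC2 {p : ℕ}
    (I : PLayerInvSystem (sClassCoeff ℚ Qb (↑S : Set Nat.Primes)) (AdmS S) p)
    {E F : IntermediateField ℚ Qb} (hE : AdmS S E) (hF : AdmS S F) (hEF : E ≤ F)
    (c : LC.H2 ((globalLevel S).comap E.fixingSubgroup.subtype)
      (csFullTowerRep (globalLevel S) (↑S : Set Nat.Primes) E)) :
    CoeffDict.invLC (A := Rep.res (fixIncl hEF) (csFullTowerRep (globalLevel S) (↑S : Set Nat.Primes) E))
        (csFullDictQ S hS F hF) I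
        ((isSmooth_csFullTowerRep (globalLevel S) (↑S : Set Nat.Primes) E).res
          (compat_fixIncl (globalLevel S) hEF))
        (LC.resLC2 (compat_fixIncl (globalLevel S) hEF)
          (isSmooth_csFullTowerRep (globalLevel S) (↑S : Set Nat.Primes) E) c) =
      Module.finrank E (layer hEF) •
        (csFullDictQ S hS E hE).invLC I
          (isSmooth_csFullTowerRep (globalLevel S) (↑S : Set Nat.Primes) E) c :=
  csFullDict_invLC_resLC2 (globalLevel S) (↑S : Set Nat.Primes) (AdmS S) (fun hF => admS_fd hF)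
    (globalLevel_galType S) (globalLevel_cofinal S) (fun hB hB' => admS_sup hB hB')
    (exists_mem_localEmb_Qb S hS)
    (fun h h' hB'' _ => hasSClassDescent_of_admS S hS h h' hB'') hE hF hEF I c

end Package

end Fermat.Agent.CFT.PT

end
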