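import Fermat.Agent.CFT.PT.CSFullHardDict
import Fermat.Agent.CFT.PT.CSFullGlobal

/-!
# Layer C, node C9 [G4-DICT] for `G_ℚ`: instantiation at `csFullDictQ`

`csFullDictQ_hard_dict`: for `F` unramified outside `S` and `d := csFullDictQ S hS F hF`, every
invariant element `a` of `C_S'` (restricted to `Gal(ℚ̄/F)`) is represented by an idele `x` of `F`
such that `d.levelInv l a ha` is the class of `x` at every level `l`, and `a` is `p` times an
invariant element as soon as the class of `x` in `C_S(F)` is a `p`-th power.
-/

set_option autoImplicit false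
set_option linter.unusedSectionVars false
set_option linter.style.haveILetI false

noncomputable section

open CategoryTheory groupCohomology IntermediateField

namespace Fermat.Agent.CFT.PT

open Fermat.Agent.CFT Fermat.Agent.CFT.GaloisTower Fermat.Agent.CFT.LayerMaps Fermat.Agent.S55
  Fermat.Agent.CFT.LCSym
open Fermat.Agent.S54.FrobExists

local notation "Qb" => AlgebraicClosure ℚ

local instance instIsGaloisQbHD : IsGalois ℚ Qb := isGalois_rat_algebraicClosure

variable (S : Finset Nat.Primes) (hS : S.Nonempty)

/-- **[G4-DICT] for `G_ℚ`.** -/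
theorem csFullDictQ_hard_dict (p : ℕ) (F : IntermediateField ℚ Qb) (hF : AdmS S F)
    (a : csFullTowerRep (globalLevel S) (↑S : Set Nat.Primes) F)
    (ha : IsInv (csFullTowerRep (globalLevel S) (↑S : Set Nat.Primes) F) a) :
    ∃ x : ideleGroup ↥F,
      (∀ l : ((globalLevel S).comap F.fixingSubgroup.subtype).Level,
        (csFullDictQ S hS F hF).levelInv l a ha =
          (classToClassSRepHom _ _ (↑S : Set Nat.Primes)).hom
            (ExistenceModP.ideleClassOfBase ↥F
              ↥(layer ((csFullDictQ S hS F hF).le_top l)) x)) ∧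
      ((∃ y : ideleClassS ↥F (↑S : Set Nat.Primes), y ^ p = QuotientGroup.mk x) →
        ∃ b : csFullTowerRep (globalLevel S) (↑S : Set Nat.Primes) F,
          IsInv (csFullTowerRep (globalLevel S) (↑S : Set Nat.Primes) F) b ∧ a = p • b) :=
  csFullDict_hard_dict (globalLevel S) (↑S : Set Nat.Primes) (AdmS S) (fun hF => admS_fd hF)
    (globalLevel_galType S) (globalLevel_cofinal S) (fun hB hB' => admS_sup hB hB')
    (exists_mem_localEmb_Qb S hS)
    (fun h h' hB'' _ => hasSClassDescent_of_admS S hS h h' hB'') F hF p a ha

end Fermat.Agent.CFT.PT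

end
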