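import Fermat.Agent.CFT.PT.CSFullTower
import Fermat.Agent.CFT.Global.LCInvCoeff
import Fermat.Agent.CFT.Local.LCDictRes

/-!
# Layer C, node C1d (part S, 3): the `CoeffDict` of `C_S'` (levels ↔ layers, `S`-idele classes)

For `C_S' = csFullRep L Ω S` restricted to `Gal(Ω/E)` and the coefficient system
`sClassCoeff k Ω S` (`C_S(E')` on the layer `E'/E`):

* `csDictRepIso`: `(C_S')^N ≅ C_S(E')` along `dictEquiv` for `N = ker(res)`;
* `exists_sClassCoeff_map_eq_map`: explicit description of `(sClassCoeff k Ω S).map`;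
* `csDict_coh_infl`, `csDict_coh_res`: the inflation and restriction squares;
* `csFullDict : CoeffDict (sClassCoeff k Ω S) Adm E _ (csFullTowerRep L S E)` for a level structure
  of `Adm`-Galois type, and `csFullDict_invLC_resLC2`: `inv_F (res c) = [F : E] • inv_E c`.
-/

set_option autoImplicit false
set_option linter.unusedSectionVars false
set_option linter.style.haveILetI false

noncomputable section

open CategoryTheory groupCohomology IntermediateField

namespace Fermat.Agent.CFT.PT

open Fermat.Agent.CFT Fermat.Agent.CFT.GaloisTower Fermat.Agent.CFT.LayerMaps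

variable {k Ω : Type} [Field k] [Field Ω] [Algebra k Ω] [IsGalois k Ω]
variable (L : LevelStructure (Ω ≃ₐ[k] Ω)) (S : Set Nat.Primes)
variable {E : IntermediateField k Ω}

section Single

variable {E' : IntermediateField k Ω} (h : E ≤ E') [Normal E (layer h)]
  (N : Subgroup E.fixingSubgroup) [N.Normal] (hN : N = (layerRes h).ker)
  (hopen : L.IsOpen E'.fixingSubgroup)
  (hne : ∃ q ∈ S, Nonempty (LocalEmb ((q : Nat.Primes) : ℕ) Ω))
  (hdesc : HasCofinalSClassDescent L S h)

/-- `(C_S')^N ≅ C_S(E')` along `dictEquiv`. -/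
def csDictRepIso :
    (csFullTowerRep L S E).quotientToInvariants N ≅
      Rep.res (dictEquiv h N hN).toMonoidHom
        (ideleClassSRep (layer h) ((layer h) ≃ₐ[E] (layer h)) S) := by
  subst hN
  exact csFullInvariantsIso L S h hopen hne hdesc

theorem csDictRepIso_hom_coe (x : ((csFullTowerRep L S E).quotientToInvariants N).V) :
    sClassIncl h S (Additive.toMul
        ((csDictRepIso L S h N hN hopen hne hdesc).hom.hom x :
          Additive (ideleClassS (layer h) S))) =
      ((Additive.toMul (x.1 : Additive (CSFull L Ω S)) : CSFull L Ω S) : ideleClassS Ω S) := by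
  subst hN
  exact sClassIncl_csFullInvariantsIso_hom L S h hopen hne hdesc x

end Single

section MapDesc

variable {E' F F' : IntermediateField k Ω}

omit [IsGalois k Ω] in
/-- Explicit description of `(sClassCoeff k Ω S).map` as a `groupCohomology.map`. -/
theorem exists_sClassCoeff_map_eq_map (hEE' : E ≤ E') (hFF' : F ≤ F') (hEF : E ≤ F)
    (hE'F' : E' ≤ F') [Normal E (layer hEE')] (n : ℕ) :
    ∃ (g : (layer hFF' ≃ₐ[F] layer hFF') →* (layer hEE' ≃ₐ[E] layer hEE'))
      (ψ : Rep.res g (ideleClassSRep (layer hEE') (layer hEE' ≃ₐ[E] layer hEE') S) ⟶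
        ideleClassSRep (layer hFF') (layer hFF' ≃ₐ[F] layer hFF') S),
      (∀ (τ : layer hFF' ≃ₐ[F] layer hFF') (x : layer hEE'),
        ((g τ x : layer hEE') : Ω) = ((τ (layerIncl hEE' hFF' hE'F' x) : layer hFF') : Ω)) ∧
      (∀ c : Additive (ideleClassS (layer hEE') S),
        (Additive.toMul (ψ.hom c : Additive (ideleClassS (layer hFF') S)) :
            ideleClassS (layer hFF') S) =
          sClassLayerIncl S hEE' hFF' hE'F' (Additive.toMul c)) ∧
      (sClassCoeff k Ω S).map hEE' hFF' hEF hE'F' n = groupCohomology.map g ψ n := by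
  letI := algBase hEF
  letI := algTop hEE' hFF' hE'F'
  letI := algDiag hEF hFF'
  haveI := tower_base hEF hFF'
  haveI := tower_top hEE' hFF' hEF hE'F'
  refine ⟨galRes E (layer hEE') F (layer hFF'),
    ideleClassSGalHom E (layer hEE') F (layer hFF') S, ?_, ?_, rfl⟩
  · intro τ x
    have := galRes_commutes (K₁ := E) (L₁ := layer hEE') (K₂ := F) (L₂ := layer hFF') τ x
    exact congrArg Subtype.val this
  · intro c
    rfl

end MapDesc

section Square

variable {E₁ E₂ : IntermediateField k Ω} (h₁ : E ≤ E₁) (h₂ : E ≤ E₂) (h12 : E₁ ≤ E₂)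
  [Normal E (layer h₁)] [Normal E (layer h₂)]
  (N₁ N₂ : Subgroup E.fixingSubgroup) [N₁.Normal] [N₂.Normal]
  (hN₁ : N₁ = (layerRes h₁).ker) (hN₂ : N₂ = (layerRes h₂).ker) (hle : N₂ ≤ N₁)
  (hopen₁ : L.IsOpen E₁.fixingSubgroup) (hopen₂ : L.IsOpen E₂.fixingSubgroup)
  (hne : ∃ q ∈ S, Nonempty (LocalEmb ((q : Nat.Primes) : ℕ) Ω))
  (hdesc₁ : HasCofinalSClassDescent L S h₁) (hdesc₂ : HasCofinalSClassDescent L S h₂)

/-- **Inflation square**: under the dictionaries of two layers `E ≤ E₁ ≤ E₂`, inflation between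
the finite levels of `C_S'` corresponds to inflation of `S`-idele classes of layers. -/
theorem csDict_coh_infl
    (y : groupCohomology ((csFullTowerRep L S E).quotientToInvariants N₁) 2) :
    cohLinearEquivOfRepIso _ _ (dictEquiv h₂ N₂ hN₂)
        (csDictRepIso L S h₂ N₂ hN₂ hopen₂ hne hdesc₂) 2
        ((LC.inflFin (csFullTowerRep L S E) hle 2).hom y) =
      ((sClassCoeff k Ω S).map h₁ h₂ le_rfl h12 2).hom
        (cohLinearEquivOfRepIso _ _ (dictEquiv h₁ N₁ hN₁)
          (csDictRepIso L S h₁ N₁ hN₁ hopen₁ hne hdesc₁) 2 y) := by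
  obtain ⟨g, ψ, hg, hψ, hmap⟩ := exists_sClassCoeff_map_eq_map S h₁ h₂ le_rfl h12 2
  obtain ⟨φ₁, hφ₁, hc₁⟩ := exists_cohLinearEquivOfRepIso_eq_map _ _ (dictEquiv h₁ N₁ hN₁)
    (csDictRepIso L S h₁ N₁ hN₁ hopen₁ hne hdesc₁) 2
  obtain ⟨φ₂, hφ₂, hc₂⟩ := exists_cohLinearEquivOfRepIso_eq_map _ _ (dictEquiv h₂ N₂ hN₂)
    (csDictRepIso L S h₂ N₂ hN₂ hopen₂ hne hdesc₂) 2
  rw [hmap, hc₁, hc₂]
  have hgrp : (LC.quotMap hle).comp (dictEquiv h₂ N₂ hN₂).symm.toMonoidHom =
      (dictEquiv h₁ N₁ hN₁).symm.toMonoidHom.comp g := by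
    refine MonoidHom.ext fun τ => ?_
    obtain ⟨σ, rfl⟩ := layerRes_surjective h₂ τ
    have hgσ : g (layerRes h₂ σ) = layerRes h₁ σ := by
      ext x
      rw [hg, layerRes_apply, layerRes_apply]
      rfl
    simp only [MonoidHom.comp_apply, MulEquiv.toMonoidHom_eq_coe, MonoidHom.coe_coe]
    rw [dictEquiv_symm_layerRes, hgσ, dictEquiv_symm_layerRes]
    rfl
  have key : LC.inflFin (csFullTowerRep L S E) hle 2 ≫
        groupCohomology.map (dictEquiv h₂ N₂ hN₂).symm.toMonoidHom φ₂ 2 =
      groupCohomology.map (dictEquiv h₁ N₁ hN₁).symm.toMonoidHom φ₁ 2 ≫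
        groupCohomology.map g ψ 2 := by
    unfold LC.inflFin
    rw [← groupCohomology.map_comp, ← groupCohomology.map_comp]
    refine groupCohomology.map_congr hgrp ?_ 2
    refine LinearMap.ext fun x => ?_
    apply Additive.toMul.injective
    apply sClassIncl_injective h₂ S hne
    change sClassIncl h₂ S (Additive.toMul
        (φ₂.hom ((LC.invIncl (csFullTowerRep L S E) hle).hom x) :
          Additive (ideleClassS (layer h₂) S))) =
      sClassIncl h₂ S (Additive.toMul (ψ.hom (φ₁.hom x) : Additive (ideleClassS (layer h₂) S)))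
    rw [hψ, hφ₁, hφ₂, sClassIncl_sClassLayerIncl, csDictRepIso_hom_coe, csDictRepIso_hom_coe]
    rfl
  exact congrArg (fun F => F.hom y) key

end Square

section ResSquare

variable {F E₁ F₁ : IntermediateField k Ω} (h₁ : E ≤ E₁) (h₂ : F ≤ F₁) (hEF : E ≤ F)
  (h12 : E₁ ≤ F₁) [Normal E (layer h₁)] [Normal F (layer h₂)]
  (N : Subgroup E.fixingSubgroup) [N.Normal] (M : Subgroup F.fixingSubgroup) [M.Normal]
  (hN : N = (layerRes h₁).ker) (hM : M = (layerRes h₂).ker)
  (hle : M ≤ N.comap (fixIncl hEF))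
  (hopen₁ : L.IsOpen E₁.fixingSubgroup) (hopen₂ : L.IsOpen F₁.fixingSubgroup)
  (hne : ∃ q ∈ S, Nonempty (LocalEmb ((q : Nat.Primes) : ℕ) Ω))
  (hdesc₁ : HasCofinalSClassDescent L S h₁) (hdesc₂ : HasCofinalSClassDescent L S h₂)

lemma res_fixIncl_csFullTowerRep :
    Rep.res (fixIncl hEF) (csFullTowerRep L S E) = csFullTowerRep L S F := rfl

/-- **Restriction square**: under the dictionaries, restriction between the finite levels of
`Gal(Ω/E)` and `Gal(Ω/F)` (coefficients `C_S'`) corresponds to base change of `S`-idele classes of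
layers. -/
theorem csDict_coh_res
    (y : groupCohomology ((csFullTowerRep L S E).quotientToInvariants N) 2) :
    cohLinearEquivOfRepIso _ _ (dictEquiv h₂ M hM)
        (csDictRepIso L S h₂ M hM hopen₂ hne hdesc₂) 2
        ((LC.resFin (csFullTowerRep L S E) hle 2).hom y) =
      ((sClassCoeff k Ω S).map h₁ h₂ hEF h12 2).hom
        (cohLinearEquivOfRepIso _ _ (dictEquiv h₁ N hN)
          (csDictRepIso L S h₁ N hN hopen₁ hne hdesc₁) 2 y) := by
  obtain ⟨g, ψ, hg, hψ, hmap⟩ := exists_sClassCoeff_map_eq_map S h₁ h₂ hEF h12 2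
  obtain ⟨φ₁, hφ₁, hc₁⟩ := exists_cohLinearEquivOfRepIso_eq_map _ _ (dictEquiv h₁ N hN)
    (csDictRepIso L S h₁ N hN hopen₁ hne hdesc₁) 2
  obtain ⟨φ₂, hφ₂, hc₂⟩ := exists_cohLinearEquivOfRepIso_eq_map
    (ideleClassSRep (layer h₂) ((layer h₂) ≃ₐ[F] (layer h₂)) S)
    ((Rep.res (fixIncl hEF) (csFullTowerRep L S E)).quotientToInvariants M) (dictEquiv h₂ M hM)
    (csDictRepIso L S h₂ M hM hopen₂ hne hdesc₂) 2
  rw [hmap, hc₁]
  erw [hc₂]
  have hgrp : (LC.quotRes hle).comp (dictEquiv h₂ M hM).symm.toMonoidHom =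
      (dictEquiv h₁ N hN).symm.toMonoidHom.comp g := by
    refine MonoidHom.ext fun τ => ?_
    obtain ⟨σ, rfl⟩ := layerRes_surjective h₂ τ
    have hgσ : g (layerRes h₂ σ) = layerRes h₁ (fixIncl hEF σ) := by
      ext x
      rw [hg, layerRes_apply, layerRes_apply]
      rfl
    simp only [MonoidHom.comp_apply, MulEquiv.toMonoidHom_eq_coe, MonoidHom.coe_coe]
    rw [dictEquiv_symm_layerRes, hgσ, dictEquiv_symm_layerRes]
    rfl
  have key : LC.resFin (csFullTowerRep L S E) hle 2 ≫
        groupCohomology.map (dictEquiv h₂ M hM).symm.toMonoidHom φ₂ 2 =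
      groupCohomology.map (dictEquiv h₁ N hN).symm.toMonoidHom φ₁ 2 ≫
        groupCohomology.map g ψ 2 := by
    unfold LC.resFin
    rw [← groupCohomology.map_comp, ← groupCohomology.map_comp]
    refine groupCohomology.map_congr hgrp ?_ 2
    refine LinearMap.ext fun x => ?_
    apply Additive.toMul.injective
    apply sClassIncl_injective h₂ S hne
    change sClassIncl h₂ S (Additive.toMul
        (φ₂.hom ((LC.invRes (csFullTowerRep L S E) hle).hom x) :
          Additive (ideleClassS (layer h₂) S))) =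
      sClassIncl h₂ S (Additive.toMul (ψ.hom (φ₁.hom x) : Additive (ideleClassS (layer h₂) S)))
    rw [hψ, hφ₁, hφ₂, sClassIncl_sClassLayerIncl, csDictRepIso_hom_coe]
    exact (csDictRepIso_hom_coe L S h₂ M hM hopen₂ hne hdesc₂
      ((LC.invRes (csFullTowerRep L S E) hle).hom x)).trans rfl
  exact congrArg (fun F => F.hom y) key

end ResSquare

/-! ### The dictionary of a level structure of admissible Galois type -/

/-- `E ≤ F` if `Gal(Ω/F) ≤ Gal(Ω/E)` (Galois correspondence, easy direction). -/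
theorem le_of_fixingSubgroup_le_of_isGalois {E F : IntermediateField k Ω}
    (hle : F.fixingSubgroup ≤ E.fixingSubgroup) : E ≤ F := by
  intro x hx
  rw [← forall_fixingSubgroup_apply_eq_iff F x]
  intro σ hσ
  exact (forall_fixingSubgroup_apply_eq_iff E x).2 hx σ (hle hσ)

omit [IsGalois k Ω] in
theorem normal_layer_of_eq {E E₁ E₂ : IntermediateField k Ω} (h₁ : E ≤ E₁) (h₂ : E ≤ E₂)
    (he : E₁ = E₂) [Normal E (layer h₁)] : Normal E (layer h₂) := by
  subst he
  infer_instance

section Dict

variable (Adm : IntermediateField k Ω → Prop)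
  (hfd : ∀ {F : IntermediateField k Ω}, Adm F → FiniteDimensional k F)
  (hGalA : ∀ N, L.IsLevel N → ∃ F : IntermediateField k Ω,
    Adm F ∧ Normal k F ∧ N = F.fixingSubgroup)
  (hcofA : ∀ E' : IntermediateField k Ω, Adm E' → ∃ N, L.IsLevel N ∧ N ≤ E'.fixingSubgroup)
  (hsup : ∀ {B B' : IntermediateField k Ω}, Adm B → Adm B' → Adm (B ⊔ B'))
  (hne : ∃ q ∈ S, Nonempty (LocalEmb ((q : Nat.Primes) : ℕ) Ω))
  (hdescA : ∀ {B B' B'' : IntermediateField k Ω} (h : B ≤ B') (h' : B' ≤ B''), Adm B'' →
    ∀ [Normal B (layer (h.trans h'))], HasSClassDescent h S h')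
  (E : IntermediateField k Ω) (hE : Adm E)

include hfd hGalA in
/-- The levels are cut out by finite normal extensions (the shape used in `Local/LCDict.lean`). -/
theorem galType_of_adm : ∀ N, L.IsLevel N → ∃ F : IntermediateField k Ω,
    FiniteDimensional k F ∧ Normal k F ∧ N = F.fixingSubgroup := by
  intro N hN
  obtain ⟨F, hF, hn, rfl⟩ := hGalA N hN
  exact ⟨F, hfd hF, hn, rfl⟩

include hsup hE in
/-- The top field of the layer of a level is admissible. -/
theorem adm_levelTop (l : (L.comap E.fixingSubgroup.subtype).Level) :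
    Adm (levelTop L (galType_of_adm L Adm hfd hGalA) E l) := by
  obtain ⟨N, hN, hl⟩ := l.isLevel
  obtain ⟨F, hF, _, rfl⟩ := hGalA N hN
  have hEq : levelTop L (galType_of_adm L Adm hfd hGalA) E l = E ⊔ F := by
    apply le_antisymm
    · apply le_of_fixingSubgroup_le_of_isGalois
      intro σ hσ
      rw [IntermediateField.fixingSubgroup_sup, Subgroup.mem_inf] at hσ
      have h1 : (⟨σ, hσ.1⟩ : E.fixingSubgroup) ∈ l.N := by
        rw [hl]
        exact hσ.2
      exact (mem_level_iff L (galType_of_adm L Adm hfd hGalA) E l _).1 h1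
    · apply le_of_fixingSubgroup_le_of_isGalois
      intro σ hσ
      have hσE : σ ∈ E.fixingSubgroup :=
        IntermediateField.fixingSubgroup_antitone
          (le_levelTop L (galType_of_adm L Adm hfd hGalA) E l) hσ
      have h1 := (mem_level_iff L (galType_of_adm L Adm hfd hGalA) E l ⟨σ, hσE⟩).2 hσ
      rw [hl] at h1
      rw [IntermediateField.fixingSubgroup_sup, Subgroup.mem_inf]
      exact ⟨hσE, h1⟩
  rw [hEq]
  exact hsup hE hF

include hcofA hsup hE in
theorem isOpen_fixingSubgroup_levelTop (l : (L.comap E.fixingSubgroup.subtype).Level) :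
    L.IsOpen (levelTop L (galType_of_adm L Adm hfd hGalA) E l).fixingSubgroup :=
  hcofA _ (adm_levelTop L Adm hfd hGalA hsup E hE l)

include hsup hdescA hE in
theorem hasCofinalSClassDescent_levelTop (l : (L.comap E.fixingSubgroup.subtype).Level) :
    HasCofinalSClassDescent L S (le_levelTop L (galType_of_adm L Adm hfd hGalA) E l) := by
  intro N hN
  obtain ⟨F, hF, hFn, rfl⟩ := hGalA N hN
  have hadm := adm_levelTop L Adm hfd hGalA hsup E hE l
  have h' : levelTop L (galType_of_adm L Adm hfd hGalA) E l ≤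
      levelTop L (galType_of_adm L Adm hfd hGalA) E l ⊔ F := le_sup_left
  haveI := levelBase_normal L (galType_of_adm L Adm hfd hGalA) E l
  haveI : Normal k ↥(levelBase L (galType_of_adm L Adm hfd hGalA) E l ⊔ F) :=
    IntermediateField.normal_sup k Ω _ _
  haveI : Normal E (layer (le_sup_left :
      E ≤ E ⊔ (levelBase L (galType_of_adm L Adm hfd hGalA) E l ⊔ F))) :=
    normal_layer_sup_left E _
  have hnorm : Normal E (layer ((le_levelTop L (galType_of_adm L Adm hfd hGalA) E l).trans h')) :=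
    normal_layer_of_eq (le_sup_left :
      E ≤ E ⊔ (levelBase L (galType_of_adm L Adm hfd hGalA) E l ⊔ F)) _
      (sup_assoc _ _ _).symm
  refine ⟨_, h', ?_, hnorm, hdescA _ h' (hsup hadm hF)⟩
  rw [IntermediateField.fixingSubgroup_sup]
  exact inf_le_right

include hcofA in
theorem exists_le_levelTop_of_adm (E' : IntermediateField k Ω) (hE' : Adm E') :
    ∃ l : (L.comap E.fixingSubgroup.subtype).Level,
      E' ≤ levelTop L (galType_of_adm L Adm hfd hGalA) E l := by
  obtain ⟨N, hN, hle⟩ := hcofA E' hE'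
  refine ⟨⟨N.comap E.fixingSubgroup.subtype, N, hN, rfl⟩, ?_⟩
  apply le_of_fixingSubgroup_le_of_isGalois
  intro σ hσ
  have hσE : σ ∈ E.fixingSubgroup :=
    IntermediateField.fixingSubgroup_antitone
      (le_levelTop L (galType_of_adm L Adm hfd hGalA) E _) hσ
  have h1 := (mem_level_iff L (galType_of_adm L Adm hfd hGalA) E
    ⟨N.comap E.fixingSubgroup.subtype, N, hN, rfl⟩ (⟨σ, hσE⟩ : E.fixingSubgroup)).2 hσ
  have h2 : σ ∈ N := h1
  exact hle h2

/-- **The dictionary (C1d)** for the open subgroup `Gal(Ω/E)` of a level group of admissible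
Galois type, with coefficients `C_S'` and the coefficient system of `S`-idele classes. -/
def csFullDict :
    CoeffDict (sClassCoeff k Ω S) Adm E (L.comap E.fixingSubgroup.subtype)
      (csFullTowerRep L S E) where
  top := levelTop L (galType_of_adm L Adm hfd hGalA) E
  le_top := le_levelTop L (galType_of_adm L Adm hfd hGalA) E
  adm := adm_levelTop L Adm hfd hGalA hsup E hE
  normal := normal_levelTop L (galType_of_adm L Adm hfd hGalA) E
  mono := levelTop_mono L (galType_of_adm L Adm hfd hGalA) E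
  quotEquiv l :=
    haveI := normal_levelTop L (galType_of_adm L Adm hfd hGalA) E l
    dictEquiv (le_levelTop L (galType_of_adm L Adm hfd hGalA) E l) l.N
      (level_eq_ker L (galType_of_adm L Adm hfd hGalA) E l)
  repIso l :=
    haveI := normal_levelTop L (galType_of_adm L Adm hfd hGalA) E l
    csDictRepIso L S (le_levelTop L (galType_of_adm L Adm hfd hGalA) E l) l.N
      (level_eq_ker L (galType_of_adm L Adm hfd hGalA) E l)
      (isOpen_fixingSubgroup_levelTop L Adm hfd hGalA hcofA hsup E hE l) hne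
      (hasCofinalSClassDescent_levelTop L S Adm hfd hGalA hsup hdescA E hE l)
  coh_infl l l' h y := by
    haveI := normal_levelTop L (galType_of_adm L Adm hfd hGalA) E l
    haveI := normal_levelTop L (galType_of_adm L Adm hfd hGalA) E l'
    exact csDict_coh_infl L S (le_levelTop L (galType_of_adm L Adm hfd hGalA) E l)
      (le_levelTop L (galType_of_adm L Adm hfd hGalA) E l')
      (levelTop_mono L (galType_of_adm L Adm hfd hGalA) E h) l.N l'.N
      (level_eq_ker L (galType_of_adm L Adm hfd hGalA) E l)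
      (level_eq_ker L (galType_of_adm L Adm hfd hGalA) E l') h
      (isOpen_fixingSubgroup_levelTop L Adm hfd hGalA hcofA hsup E hE l)
      (isOpen_fixingSubgroup_levelTop L Adm hfd hGalA hcofA hsup E hE l') hne
      (hasCofinalSClassDescent_levelTop L S Adm hfd hGalA hsup hdescA E hE l)
      (hasCofinalSClassDescent_levelTop L S Adm hfd hGalA hsup hdescA E hE l') y
  cofinal E' _ hE' := exists_le_levelTop_of_adm L Adm hfd hGalA hcofA E E' hE'

/-- `C_S'` restricted to `Gal(Ω/E)` is smooth. -/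
theorem isSmooth_csFullTowerRep :
    IsSmooth (L.comap E.fixingSubgroup.subtype) (csFullTowerRep L S E) :=
  (isSmooth_csFullRep L Ω S).res (LevelStructure.compat_comap L _)

end Dict

/-! ### Compatibility with restriction -/

section DictRes

variable (Adm : IntermediateField k Ω → Prop)
  (hfd : ∀ {F : IntermediateField k Ω}, Adm F → FiniteDimensional k F)
  (hGalA : ∀ N, L.IsLevel N → ∃ F : IntermediateField k Ω,
    Adm F ∧ Normal k F ∧ N = F.fixingSubgroup)
  (hcofA : ∀ E' : IntermediateField k Ω, Adm E' → ∃ N, L.IsLevel N ∧ N ≤ E'.fixingSubgroup)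
  (hsup : ∀ {B B' : IntermediateField k Ω}, Adm B → Adm B' → Adm (B ⊔ B'))
  (hne : ∃ q ∈ S, Nonempty (LocalEmb ((q : Nat.Primes) : ℕ) Ω))
  (hdescA : ∀ {B B' B'' : IntermediateField k Ω} (h : B ≤ B') (h' : B' ≤ B''), Adm B'' →
    ∀ [Normal B (layer (h.trans h'))], HasSClassDescent h S h')
  {E F : IntermediateField k Ω} (hE : Adm E) (hF : Adm F) (hEF : E ≤ F)

/-- The dictionary of `Gal(Ω/F)`, with the coefficients written as the restriction of those of
`Gal(Ω/E)`. -/
def csFullDictRes :
    CoeffDict (sClassCoeff k Ω S) Adm F (L.comap F.fixingSubgroup.subtype)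
      (Rep.res (fixIncl hEF) (csFullTowerRep L S E)) :=
  csFullDict L S Adm hfd hGalA hcofA hsup hne hdescA F hF

/-- **Restriction multiplies the global invariant by the degree**: for admissible `E ≤ F`,
`inv_F (res c) = [F : E] • inv_E c` on `LC.H2 (Gal(Ω/E), C_S')`, for every `p`-primary invariant
system on the `S`-idele classes of the layers. -/
theorem csFullDict_invLC_resLC2 {p : ℕ} (I : PLayerInvSystem (sClassCoeff k Ω S) Adm p)
    (c : LC.H2 (L.comap E.fixingSubgroup.subtype) (csFullTowerRep L S E)) :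
    (csFullDictRes L S Adm hfd hGalA hcofA hsup hne hdescA hF hEF).invLC I
        ((isSmooth_csFullTowerRep L S E).res (compat_fixIncl L hEF))
        (LC.resLC2 (compat_fixIncl L hEF) (isSmooth_csFullTowerRep L S E) c) =
      Module.finrank E (layer hEF) •
        (csFullDict L S Adm hfd hGalA hcofA hsup hne hdescA E hE).invLC I
          (isSmooth_csFullTowerRep L S E) c := by
  refine CoeffDict.invLC_resLC2 (csFullDict L S Adm hfd hGalA hcofA hsup hne hdescA E hE) I
    (csFullDictRes L S Adm hfd hGalA hcofA hsup hne hdescA hF hEF)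
    (compat_fixIncl L hEF) (isSmooth_csFullTowerRep L S E) hEF
    (fun l l' hle =>
      levelTop_le_of_le_comap L (galType_of_adm L Adm hfd hGalA) hEF l l' hle) ?_ c
  intro l l' hle y
  haveI := normal_levelTop L (galType_of_adm L Adm hfd hGalA) E l
  haveI := normal_levelTop L (galType_of_adm L Adm hfd hGalA) F l'
  exact csDict_coh_res L S (le_levelTop L (galType_of_adm L Adm hfd hGalA) E l)
    (le_levelTop L (galType_of_adm L Adm hfd hGalA) F l') hEF
    (levelTop_le_of_le_comap L (galType_of_adm L Adm hfd hGalA) hEF l l' hle) l.N l'.N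
    (level_eq_ker L (galType_of_adm L Adm hfd hGalA) E l)
    (level_eq_ker L (galType_of_adm L Adm hfd hGalA) F l') hle
    (isOpen_fixingSubgroup_levelTop L Adm hfd hGalA hcofA hsup E hE l)
    (isOpen_fixingSubgroup_levelTop L Adm hfd hGalA hcofA hsup F hF l') hne
    (hasCofinalSClassDescent_levelTop L S Adm hfd hGalA hsup hdescA E hE l)
    (hasCofinalSClassDescent_levelTop L S Adm hfd hGalA hsup hdescA F hF l') y

end DictRes

end Fermat.Agent.CFT.PT

end
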