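import Fermat.Agent.CFT.PT.InvCompat
import Fermat.Agent.CFT.Local.LCDict

/-!
# Node D3c (InvCompat), dictionary part: the level formula from Rep-level squares

Complement to `PT/InvCompat.lean`.  The hypothesis `(hLG)` of `LC.sum_loc_of_levels` /
`PT.invCompat_zmod_of_levels` (the local–global formula between the invariant maps of one finite
level `N` of `G`) is reduced to

* dictionaries `A^N ≅ MJ`, `C^N ≅ MC` along `G ⧸ N ≃* Γ` and `(Y i)^{r⁻¹N} ≅ MY i` along
  `H i ⧸ r⁻¹N ≃* Γq i` (for D3c: `Γ = Gal(F/ℚ)`, `MJ = ∏_{q ∈ S} A_q(F)`, `MC = C_S(F)`,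
  `Γq q = Gal(F_w/ℚ_q)`, `MY q = F_wˣ`);
* the commutative squares of representations `hsqG` (coefficient map `f` versus `π : MJ ⟶ MC`),
  `hgrp`, `hsqL` (localisation versus `(g i, ψ i)`: decomposition group and evaluation);
* the layer formula `hlayer : invC (π_* w) = Σ_i invY i ((g i, ψ i)_* w)` on `H²(Γ, MJ)`.

Main statements: `LC.locFinRep`, `LC.locFin_eq_map` (the finite-level localisation as a single
`groupCohomology.map`), `PT.cohLinearEquivOfRepIso_map` (naturality of `cohLinearEquivOfRepIso`),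
`PT.coh_coeffFinMap`, `PT.coh_locFin` (the two cohomology squares) and
`PT.level_formula_of_squares`.
-/

set_option autoImplicit false

open CategoryTheory groupCohomology

namespace Fermat.Agent.CFT

namespace LC

open HExt LevelStructure

section LocFinRep

universe u

variable {k G : Type u} [CommRing k] [Group G]
  {ι : Type*} {H : ι → Type u} [∀ i, Group (H i)] {r : ∀ i, H i →* G}
  {A : Rep.{u} k G} {Y : ∀ i, Rep.{u} k (H i)} (lam : ∀ i, Rep.res (r i) A ⟶ Y i)

/-- The linear map `A^N → (Y i)^{r⁻¹ N}` induced by `lam i`. -/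
noncomputable def locFinLin (i : ι) (N : Subgroup G) [N.Normal] :
    (A.quotientToInvariants N) →ₗ[k] ((Y i).quotientToInvariants (N.comap (r i))) where
  toFun a := ⟨(lam i).hom (a : A), fun s => by
    have h1 : A.ρ (r i (s : H i)) (a : A) = (a : A) := a.2 ⟨r i s.1, s.2⟩
    have h2 := Rep.hom_comm_apply (lam i) (s : H i) (a : A)
    rw [Rep.coe_res_obj_ρ', h1] at h2
    exact h2.symm⟩
  map_add' _ _ := Subtype.ext (map_add _ _ _)
  map_smul' _ _ := Subtype.ext (map_smul _ _ _)

/-- The map `A^N → (Y i)^{r⁻¹ N}` induced by `lam i`, as a morphism of representations of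
`H i ⧸ r⁻¹ N`. -/
noncomputable def locFinRep (i : ι) (N : Subgroup G) [N.Normal] :
    Rep.res (quotRes (le_refl (N.comap (r i)))) (A.quotientToInvariants N) ⟶
      (Y i).quotientToInvariants (N.comap (r i)) :=
  Rep.ofHom ⟨locFinLin lam i N, fun h => by
    induction h using QuotientGroup.induction_on with
    | H h =>
      refine LinearMap.ext fun a => Subtype.ext ?_
      exact Rep.hom_comm_apply (lam i) h (a : A)⟩

@[simp] lemma coe_locFinRep_apply (i : ι) (N : Subgroup G) [N.Normal]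
    (a : A.quotientToInvariants N) :
    (((locFinRep lam i N).hom a : (Y i).quotientToInvariants (N.comap (r i))) : Y i) =
      (lam i).hom (a : A) := rfl

/-- The localisation at a finite level as a single `groupCohomology.map`. -/
theorem locFin_eq_map (i : ι) (N : Subgroup G) [N.Normal] (n : ℕ) :
    locFin lam i N n =
      groupCohomology.map (quotRes (le_refl (N.comap (r i)))) (locFinRep lam i N) n := by
  unfold locFin resFin coeffFinMap
  rw [← groupCohomology.map_comp]
  refine groupCohomology.map_congr rfl ?_ n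
  rfl

end LocFinRep

end LC

namespace PT

/-- **Naturality of `cohLinearEquivOfRepIso`**: a commutative square of groups and of modules
induces a commutative square on cohomology. -/
theorem cohLinearEquivOfRepIso_map {R : Type} [CommRing R] {G₁ H₁ G₂ H₂ : Type} [Group G₁]
    [Group H₁] [Group G₂] [Group H₂]
    (A₁ : Rep R H₁) (B₁ : Rep R G₁) (e₁ : G₁ ≃* H₁) (i₁ : B₁ ≅ Rep.res e₁.toMonoidHom A₁)
    (A₂ : Rep R H₂) (B₂ : Rep R G₂) (e₂ : G₂ ≃* H₂) (i₂ : B₂ ≅ Rep.res e₂.toMonoidHom A₂)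
    (g : G₂ →* G₁) (φ : Rep.res g B₁ ⟶ B₂) (g' : H₂ →* H₁) (ψ : Rep.res g' A₁ ⟶ A₂)
    (hgrp : ∀ x : G₂, e₁ (g x) = g' (e₂ x))
    (hmod : ∀ b : B₁.V, i₂.hom.hom (φ.hom b) = ψ.hom (i₁.hom.hom b)) (n : ℕ)
    (x : groupCohomology B₁ n) :
    cohLinearEquivOfRepIso A₂ B₂ e₂ i₂ n ((groupCohomology.map g φ n).hom x) =
      (groupCohomology.map g' ψ n).hom (cohLinearEquivOfRepIso A₁ B₁ e₁ i₁ n x) := by
  obtain ⟨φ₁, hφ₁, hc₁⟩ := exists_cohLinearEquivOfRepIso_eq_map A₁ B₁ e₁ i₁ n
  obtain ⟨φ₂, hφ₂, hc₂⟩ := exists_cohLinearEquivOfRepIso_eq_map A₂ B₂ e₂ i₂ n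
  rw [hc₁, hc₂]
  have hgrp' : g.comp e₂.symm.toMonoidHom = e₁.symm.toMonoidHom.comp g' := by
    refine MonoidHom.ext fun y => ?_
    obtain ⟨x, rfl⟩ := e₂.surjective y
    simp only [MonoidHom.comp_apply, MulEquiv.toMonoidHom_eq_coe, MonoidHom.coe_coe,
      MulEquiv.symm_apply_apply]
    rw [← hgrp x, MulEquiv.symm_apply_apply]
  have key : groupCohomology.map g φ n ≫ groupCohomology.map e₂.symm.toMonoidHom φ₂ n =
      groupCohomology.map e₁.symm.toMonoidHom φ₁ n ≫ groupCohomology.map g' ψ n := by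
    rw [← groupCohomology.map_comp, ← groupCohomology.map_comp]
    refine groupCohomology.map_congr hgrp' ?_ n
    refine LinearMap.ext fun b => ?_
    change φ₂.hom (φ.hom b) = ψ.hom (φ₁.hom b)
    rw [hφ₂, hφ₁, hmod]
  exact congrArg (fun F => F.hom x) key

section Level

variable {G : Type} [Group G]
  {ι : Type*} [Fintype ι] {H : ι → Type} [∀ i, Group (H i)] {r : ∀ i, H i →* G}
  {A C : Rep.{0} ℤ G} {Y : ∀ i, Rep.{0} ℤ (H i)}
  (f : A ⟶ C) (lam : ∀ i, Rep.res (r i) A ⟶ Y i)
  (N : Subgroup G) [N.Normal]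
  {Γ : Type} [Group Γ] (eG : G ⧸ N ≃* Γ) {MJ MC : Rep.{0} ℤ Γ} (π : MJ ⟶ MC)
  (iJ : A.quotientToInvariants N ≅ Rep.res eG.toMonoidHom MJ)
  (iC : C.quotientToInvariants N ≅ Rep.res eG.toMonoidHom MC)

/-- **The global cohomology square** at a finite level: under dictionaries `A^N ≅ MJ`,
`C^N ≅ MC` along `G ⧸ N ≃* Γ` which are compatible with `f` and `π : MJ ⟶ MC`, the coefficient map
of the level is `H^n(π)`. -/
theorem coh_coeffFinMap
    (hsqG : ∀ a : A.quotientToInvariants N,
      iC.hom.hom ((LC.coeffFin f N).hom a) = π.hom (iJ.hom.hom a))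
    (n : ℕ) (y : groupCohomology (A.quotientToInvariants N) n) :
    cohLinearEquivOfRepIso MC _ eG iC n ((LC.coeffFinMap f N n).hom y) =
      (groupCohomology.map (MonoidHom.id Γ) π n).hom
        (cohLinearEquivOfRepIso MJ _ eG iJ n y) :=
  cohLinearEquivOfRepIso_map MJ _ eG iJ MC _ eG iC (MonoidHom.id _) (LC.coeffFin f N)
    (MonoidHom.id Γ) π (fun _ => rfl) hsqG n y

variable {Γq : ι → Type} [∀ i, Group (Γq i)] (eH : ∀ i, (H i ⧸ N.comap (r i)) ≃* Γq i)
  {MY : ∀ i, Rep.{0} ℤ (Γq i)}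
  (iY : ∀ i, (Y i).quotientToInvariants (N.comap (r i)) ≅ Rep.res (eH i).toMonoidHom (MY i))
  (g : ∀ i, Γq i →* Γ) (ψ : ∀ i, Rep.res (g i) MJ ⟶ MY i)

omit [Fintype ι] in
/-- **The local cohomology squares** at a finite level: under dictionaries `A^N ≅ MJ` along
`G ⧸ N ≃* Γ` and `(Y i)^{r⁻¹N} ≅ MY i` along `H i ⧸ r⁻¹N ≃* Γq i` which are compatible with
`lam i` and `(g i, ψ i)`, the localisation of the level is `H^n(g i, ψ i)`. -/
theorem coh_locFin (i : ι)
    (hgrp : ∀ x : H i ⧸ N.comap (r i),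
      eG (LC.quotRes (le_refl (N.comap (r i))) x) = g i (eH i x))
    (hsqL : ∀ a : A.quotientToInvariants N,
      (iY i).hom.hom ((LC.locFinRep lam i N).hom a) = (ψ i).hom (iJ.hom.hom a))
    (n : ℕ) (y : groupCohomology (A.quotientToInvariants N) n) :
    cohLinearEquivOfRepIso (MY i) _ (eH i) (iY i) n ((LC.locFin lam i N n).hom y) =
      (groupCohomology.map (g i) (ψ i) n).hom (cohLinearEquivOfRepIso MJ _ eG iJ n y) := by
  rw [LC.locFin_eq_map]
  exact cohLinearEquivOfRepIso_map MJ _ eG iJ (MY i) _ (eH i) (iY i)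
    (LC.quotRes (le_refl (N.comap (r i)))) (LC.locFinRep lam i N) (g i) (ψ i) hgrp hsqL n y

/-- **The formula `(hLG)` at one finite level**, from the dictionary squares and the layer
formula.  Here `invC`, `invY i` are the invariant maps of the layers (e.g. `I.inv h` of a
`PLayerInvSystem`, `T.inv h` of a `LayerInvSystem`); the conclusion is the hypothesis `hLG` of
`LC.descH2Add_sum_loc` for level families of the form `inv ∘ cohLinearEquivOfRepIso`. -/
theorem level_formula_of_squares {T : Type*} [AddCommGroup T]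
    (invC : groupCohomology MC 2 →+ T) (invY : ∀ i, groupCohomology (MY i) 2 →+ T)
    (hsqG : ∀ a : A.quotientToInvariants N,
      iC.hom.hom ((LC.coeffFin f N).hom a) = π.hom (iJ.hom.hom a))
    (hgrp : ∀ i, ∀ x : H i ⧸ N.comap (r i),
      eG (LC.quotRes (le_refl (N.comap (r i))) x) = g i (eH i x))
    (hsqL : ∀ i, ∀ a : A.quotientToInvariants N,
      (iY i).hom.hom ((LC.locFinRep lam i N).hom a) = (ψ i).hom (iJ.hom.hom a))
    (m : ℕ)
    (hlayer : ∀ w : groupCohomology MJ 2, m • w = 0 →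
      invC ((groupCohomology.map (MonoidHom.id Γ) π 2).hom w) =
        ∑ i, invY i ((groupCohomology.map (g i) (ψ i) 2).hom w))
    (y : groupCohomology (A.quotientToInvariants N) 2) (hy : m • y = 0) :
    invC (cohLinearEquivOfRepIso MC _ eG iC 2 ((LC.coeffFinMap f N 2).hom y)) =
      ∑ i, invY i (cohLinearEquivOfRepIso (MY i) _ (eH i) (iY i) 2
        ((LC.locFin lam i N 2).hom y)) := by
  rw [coh_coeffFinMap f N eG π iJ iC hsqG 2 y,
    hlayer _ (by rw [← map_nsmul, hy, map_zero])]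
  refine Finset.sum_congr rfl fun i _ => ?_
  rw [coh_locFin lam N eG iJ eH iY g ψ i (hgrp i) (hsqL i) 2 y]

end Level

end PT

end Fermat.Agent.CFT
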