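import Fermat.Agent.CFT.PT.JSFullSquare

/-!
# Layer C, node C1d (J4c, part 2): `J' → C_S'` in the Galois tower

Under the dictionaries `jFullInvariantsIso` (`(J')^{Gal(Ω/E')} ≅ J_{E'}`) and `csFullInvariantsIso`
(`(C_S')^{Gal(Ω/E')} ≅ C_S(E')`) the map induced by `jFullToCsFull : J' ⟶ C_S'` on invariants is the
projection `J_{E'} → C_S(E')` of the layer.  Combined with `PT/JSFullSquare.lean` this gives the
square for `J_S → C_S'` (`∏_{q ∈ S} A_q(E') → J_{E'} → C_S(E')`).

* `ideleToClassSRepHom` : the projection `J_K ⟶ C_S(K)` as a morphism of representations;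
* `csFullInvariantsEquiv_of_jFullToCsFull` : elementwise form;
* `jFullToCsFull_invariants_square` : the commutative square in `Rep`;
* `jsToCsFull_invariants_square` : the composite square for `J_S ⟶ J' ⟶ C_S'`.
-/

set_option autoImplicit false
set_option linter.unusedSectionVars false
set_option linter.style.haveILetI false

noncomputable section

namespace Fermat.Agent.CFT.PT

open Fermat.Agent.CFT Fermat.Agent.CFT.GaloisTower IntermediateField CategoryTheory

/-- The projection `J_K ⟶ C_S(K)` as a morphism of representations. -/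
def ideleToClassSRepHom (H K : Type) [Group H] [Field K] [MulSemiringAction H K]
    (S : Set Nat.Primes) : ideleRep K H ⟶ ideleClassSRep K H S :=
  mulRepHom (QuotientGroup.mk' (principalUnitSubgroup K S)) fun _ _ => rfl

@[simp]
theorem ideleToClassSRepHom_apply (H K : Type) [Group H] [Field K] [MulSemiringAction H K]
    (S : Set Nat.Primes) (x : Additive (ideleGroup K)) :
    ((ideleToClassSRepHom H K S).hom x : Additive (ideleClassS K S)) =
      Additive.ofMul (QuotientGroup.mk (Additive.toMul x) : ideleClassS K S) := rfl

variable {k Ω : Type} [Field k] [Field Ω] [Algebra k Ω] [IsGalois k Ω]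
variable (L : LevelStructure (Ω ≃ₐ[k] Ω)) (S : Set Nat.Primes)
variable {E E' : IntermediateField k Ω} (h : E ≤ E')
variable [Normal E (layer h)] (hopen : L.IsOpen E'.fixingSubgroup)
variable (hne : ∃ q ∈ S, Nonempty (LocalEmb ((q : Nat.Primes) : ℕ) Ω))
  (hdesc : HasCofinalSClassDescent L S h)

/-- **Elementwise square on invariants** for `J' → C_S'`. -/
theorem csFullInvariantsEquiv_of_jFullToCsFull
    (x : Representation.invariants ((jFullTowerRep L E).ρ.comp (layerRes h).ker.subtype))
    (x' : Representation.invariants ((csFullTowerRep L S E).ρ.comp (layerRes h).ker.subtype))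
    (hx : (Additive.toMul (x'.1 : Additive (CSFull L Ω S)) : CSFull L Ω S) =
      jFullToCsFullFun L Ω S (Additive.toMul (x.1 : Additive (JFull L Ω)))) :
    csFullInvariantsEquiv L S h hopen hne hdesc x' =
      Additive.ofMul (QuotientGroup.mk (Additive.toMul (jFullInvariantsEquiv L h hopen x)) :
        ideleClassS (layer h) S) := by
  apply Additive.toMul.injective
  apply sClassIncl_injective h S hne
  rw [sClassIncl_csFullInvariantsEquiv, hx, toMul_ofMul, sClassIncl_mk,
    ideleIncl_jFullInvariantsEquiv]
  rfl

/-- **The square in `Rep`** for `J' ⟶ C_S'`. -/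
theorem jFullToCsFull_invariants_square :
    (Rep.quotientToInvariantsFunctor ℤ (layerRes h).ker).map
        ((Rep.resFunctor E.fixingSubgroup.subtype).map (jFullToCsFull L Ω S)) ≫
      (csFullInvariantsIso L S h hopen hne hdesc).hom =
    (jFullInvariantsIso L h hopen).hom ≫
      (Rep.resFunctor (layerEquiv h).toMonoidHom).map
        (ideleToClassSRepHom ((layer h) ≃ₐ[E] (layer h)) (layer h) S) := by
  ext x
  exact csFullInvariantsEquiv_of_jFullToCsFull L S h hopen hne hdesc x _ rfl

/-- **The composite square** for `J_S ⟶ J' ⟶ C_S'`: on `Gal(Ω/E')`-invariants it is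
`∏_{q ∈ S} A_q(E') → J_{E'} → C_S(E')`. -/
theorem jsToCsFull_invariants_square (hS : S.Finite) :
    (Rep.quotientToInvariantsFunctor ℤ (layerRes h).ker).map
        ((Rep.resFunctor E.fixingSubgroup.subtype).map
          (jsToJFullHom L Ω S hS ≫ jFullToCsFull L Ω S)) ≫
      (csFullInvariantsIso L S h hopen hne hdesc).hom =
    (jsInvariantsIso L S h hopen).hom ≫
      (Rep.resFunctor (layerEquiv h).toMonoidHom).map
        (extendRepHom ((layer h) ≃ₐ[E] (layer h)) (layer h) S hS ≫
          ideleToClassSRepHom ((layer h) ≃ₐ[E] (layer h)) (layer h) S) := by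
  rw [Functor.map_comp, Functor.map_comp, Functor.map_comp, Category.assoc,
    jFullToCsFull_invariants_square, ← Category.assoc (jsInvariantsIso L S h hopen).hom,
    ← jsToJFull_invariants_square]
  exact (Category.assoc _ _ _).symm

end Fermat.Agent.CFT.PT
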