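import Fermat.Agent.CFT.HyperExt.LCExt2nd
import Fermat.Agent.CFT.LC.Res
import Fermat.Agent.CFT.CoindPairing
import Fermat.Agent.S55.LCHom

/-!
# Restriction naturality of the hyper-Ext pairing (S55, node D3f)

* `HExt.Cx.Epair_natural`: the fibre/cone pairing `Epair` is natural for morphisms of the whole
  pairing datum (all three variables covariant);
* `LC.cxRes_cxMap`: restriction of LC cochains commutes with coefficient maps;
* `LC.cxPairing_res`: restriction naturality of the cochain pairing `cxPairing`;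
* `LatticeRes.res hf R`: the restriction of a two-term resolution along a compatible homomorphism
  `f : H →* G`;
* `LatticeRes.Ext.res`: restriction on hyper-Ext, `Ext^n_G(N, X) → Ext^n_H(N, X)`;
* `LatticeRes.pair_res`: `⟨res e, res c⟩ = res ⟨e, c⟩`;
* `LatticeRes.pair_res_map₂`: the same followed by a coefficient map `w : Res X ⟶ Y`.

(Naturality in the coefficient module `X` is `LatticeRes.pair_map₂` of `LCExt2nd.lean`.)
-/

set_option autoImplicit false
set_option linter.unusedSectionVars false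

universe u v

open CategoryTheory

namespace Fermat.Agent.CFT

open HExt

/-! ### Generic naturality of `Epair` -/

namespace HExt.Cx

variable {k : Type u} [CommRing k]
  {A₀ A₁ B₁ B₀ BN Z A₀' A₁' B₁' B₀' BN' Z' : Cx.{u, v} k}

/-- **Naturality of the fibre/cone pairing** for a morphism of pairing data (everything
covariant): `⟨α_* e, β_* c⟩' = ζ_* ⟨e, c⟩`. -/
theorem Epair_natural {φ : Hom A₀ A₁} {i : Hom B₁ B₀} {π : Hom B₀ BN} (hB : ShortExact i π)
    {φ' : Hom A₀' A₁'} {i' : Hom B₁' B₀'} {π' : Hom B₀' BN'} (hB' : ShortExact i' π')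
    (P₀ : Pairing A₀ B₀ Z) (P₁ : Pairing A₁ B₁ Z) (hadj : P₀.Adj P₁ φ i)
    (P₀' : Pairing A₀' B₀' Z') (P₁' : Pairing A₁' B₁' Z') (hadj' : P₀'.Adj P₁' φ' i')
    (α₀ : Hom A₀ A₀') (α₁ : Hom A₁ A₁')
    (hsq : ∀ n (x : A₀.X n), α₁.f n (φ.f n x) = φ'.f n (α₀.f n x))
    (β₁ : Hom B₁ B₁') (β₀ : Hom B₀ B₀') (βN : Hom BN BN')
    (hi : ∀ n (y : B₁.X n), i'.f n (β₁.f n y) = β₀.f n (i.f n y))
    (hπ : ∀ n (y : B₀.X n), π'.f n (β₀.f n y) = βN.f n (π.f n y))
    (ζ : Hom Z Z')
    (h₀ : ∀ (a b c : ℕ) (h : a + b = c) (x : A₀.X a) (y : B₀.X b),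
      P₀'.cup a b c h (α₀.f a x) (β₀.f b y) = ζ.f c (P₀.cup a b c h x y))
    (h₁ : ∀ (a b c : ℕ) (h : a + b = c) (x : A₁.X a) (y : B₁.X b),
      P₁'.cup a b c h (α₁.f a x) (β₁.f b y) = ζ.f c (P₁.cup a b c h x y))
    (n s m : ℕ) (hm : n + s = m) (e : E φ (n + 1)) (c : BN.H s) :
    Epair P₀' P₁' hB' hadj' n s m hm (EMap φ φ' α₀ α₁ hsq (n + 1) e) (βN.mapH s c) =
      ζ.mapH (m + 1) (Epair P₀ P₁ hB hadj n s m hm e c) := by
  induction e using E.induction_on' with
  | _ a₀ a₁ ha₀ ha₁ =>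
    induction c using H.induction_on with
    | _ c hc =>
      obtain ⟨b₀, b₁, hb₀, hb₁⟩ := hB.exists_lift s c hc
      rw [EMap_Emk, Hom.mapH_mk]
      obtain ⟨hz, e1⟩ := Epair_Emk P₀' P₁' hB' hadj' n s m hm (α₀.f (n + 1) a₀) (α₁.f n a₁)
        (by rw [← α₀.comm, ha₀, map_zero]) (by rw [← hsq, ha₁, α₁.comm]) (βN.f s c)
        (by rw [← βN.comm, hc, map_zero]) (β₀.f s b₀) (β₁.f (s + 1) b₁)
        (by rw [hπ, hb₀]) (by rw [hi, hb₁, β₀.comm])
      obtain ⟨hz', e2⟩ := Epair_Emk P₀ P₁ hB hadj n s m hm a₀ a₁ ha₀ ha₁ c hc b₀ b₁ hb₀ hb₁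
      rw [e1, e2, Hom.mapH_mk]
      refine H.mk_congr' ?_
      rw [fibCup_apply, fibCup_apply, h₀, h₁, map_add, map_smul]

end HExt.Cx

/-! ### Restriction of LC cochains: coefficient maps and pairings -/

variable {k G H : Type u} [CommRing k] [Group G] [Group H]
  {LH : LevelStructure H} {LG : LevelStructure G} {f : H →* G}

instance instModuleFiniteRes (f : H →* G) (P : Rep.{u} k G) [Module.Finite k P] :
    Module.Finite k (Rep.res f P) :=
  inferInstanceAs (Module.Finite k P)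

namespace LC

open LevelStructure

/-- Restriction commutes with coefficient maps. -/
lemma cxRes_cxMap (hf : LH.Compat LG f) {A B : Rep.{u} k G} (hA : IsSmooth LG A)
    (hB : IsSmooth LG B) (g : A ⟶ B) (n : ℕ) (x : (cx hA).X n) :
    (cxRes hf hB).f n ((cxMap hA hB g).f n x) =
      (cxMap (hA.res hf) (hB.res hf) (Rep.resMap f g)).f n ((cxRes hf hA).f n x) := by
  match n, x with
  | 0, x => rfl
  | 1, x => rfl
  | 2, x => rfl
  | 3, x => rfl
  | _ + 4, _ => rfl

section pairing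

variable {A B C : Rep.{u} k G} (ψ : RepPairing A B C) (hf : LH.Compat LG f)
  (hA : IsSmooth LG A) (hB : IsSmooth LG B) (hC : IsSmooth LG C)

/-- **Restriction naturality of the cochain pairing**: `res (x ∪ y) = res x ∪ res y`. -/
theorem cxPairing_res (a b c : ℕ) (h : a + b = c) (x : (cx hA).X a) (y : (cx hB).X b) :
    (cxRes hf hC).f c ((cxPairing ψ hA hB hC).cup a b c h x y) =
      (cxPairing (ψ.res f) (hA.res hf) (hB.res hf) (hC.res hf)).cup a b c h
        ((cxRes hf hA).f a x) ((cxRes hf hB).f b y) := by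
  subst h
  by_cases hab : 4 ≤ a + b
  · have : Subsingleton ((cx (hC.res hf)).X (a + b)) :=
      subsingleton_cxX_of_le (Rep.res f C) hab
    exact Subsingleton.elim _ _
  · match a, b, x, y, hab with
    | 0, 0, x, y, _ => rfl
    | 0, 1, x, y, _ => rfl
    | 1, 0, x, y, _ => rfl
    | 1, 1, x, y, _ => rfl
    | 0, 2, x, y, _ => rfl
    | 2, 0, x, y, _ =>
      refine Subtype.ext (funext fun p => ?_)
      change ψ.toLin (x.1 (f p.1, f p.2)) (B.ρ (f p.1 * f p.2) y) =
        ψ.toLin (x.1 (f p.1, f p.2)) (B.ρ (f (p.1 * p.2)) y)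
      rw [map_mul f]
    | 1, 2, x, y, _ => rfl
    | 2, 1, x, y, _ =>
      refine Subtype.ext (funext fun p => ?_)
      change ψ.toLin (x.1 (f p.1, f p.2.1)) (B.ρ (f p.1 * f p.2.1) (y.1 (f p.2.2))) =
        ψ.toLin (x.1 (f p.1, f p.2.1)) (B.ρ (f (p.1 * p.2.1)) (y.1 (f p.2.2)))
      rw [map_mul f]
    | 0, 3, x, y, _ => rfl
    | 3, 0, x, y, _ =>
      refine Subtype.ext (funext fun p => ?_)
      change ψ.toLin (x.1 (f p.1, f p.2.1, f p.2.2)) (B.ρ (f p.1 * f p.2.1 * f p.2.2) y) =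
        ψ.toLin (x.1 (f p.1, f p.2.1, f p.2.2)) (B.ρ (f (p.1 * p.2.1 * p.2.2)) y)
      rw [map_mul f, map_mul f]
    | 0, b + 4, _, _, h => exact absurd (by omega) h
    | 1, b + 3, _, _, h => exact absurd (by omega) h
    | 2, b + 2, _, _, h => exact absurd (by omega) h
    | 3, b + 1, _, _, h => exact absurd (by omega) h
    | a + 4, b, _, _, h => exact absurd (by omega) h

end pairing

/-- The restriction chain map on `Hom`-complexes:
`C(G, Hom(P, X)) → C(H, Res Hom(P, X)) ≅ C(H, Hom(Res P, Res X))`. -/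
noncomputable def cxResIhom (hf : LH.Compat LG f) {P X : Rep.{u} k G} [Module.Finite k P]
    (hP : IsSmooth LG P) (hX : IsSmooth LG X) :
    Cx.Hom (cx (hP.ihom hX)) (cx ((hP.res hf).ihom (hX.res hf))) :=
  (cxMap ((hP.ihom hX).res hf) ((hP.res hf).ihom (hX.res hf))
    (Fermat.Agent.S55.resIhomIso f P X).hom).comp (cxRes hf (hP.ihom hX))

lemma cxResIhom_apply (hf : LH.Compat LG f) {P X : Rep.{u} k G} [Module.Finite k P]
    (hP : IsSmooth LG P) (hX : IsSmooth LG X) (n : ℕ) (x : (cx (hP.ihom hX)).X n) :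
    (cxResIhom hf hP hX).f n x =
      (cxMap ((hP.ihom hX).res hf) ((hP.res hf).ihom (hX.res hf))
        (Fermat.Agent.S55.resIhomIso f P X).hom).f n ((cxRes hf (hP.ihom hX)).f n x) := rfl

/-- The restriction on `Hom`-complexes is compatible with the evaluation pairings. -/
theorem cxPairing_eval_res (hf : LH.Compat LG f) {P X : Rep.{u} k G} [Module.Finite k P]
    (hP : IsSmooth LG P) (hX : IsSmooth LG X) (a b c : ℕ) (h : a + b = c)
    (x : (cx (hP.ihom hX)).X a) (y : (cx hP).X b) :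
    (cxPairing (RepPairing.eval (Rep.res f P) (Rep.res f X)) ((hP.res hf).ihom (hX.res hf))
        (hP.res hf) (hX.res hf)).cup a b c h ((cxResIhom hf hP hX).f a x) ((cxRes hf hP).f b y) =
      (cxRes hf hX).f c ((cxPairing (RepPairing.eval P X) (hP.ihom hX) hP hX).cup a b c h x y) := by
  rw [cxPairing_res (RepPairing.eval P X) hf (hP.ihom hX) hP hX a b c h x y]
  have key := cxPairing_natural ((RepPairing.eval P X).res f)
    (RepPairing.eval (Rep.res f P) (Rep.res f X)) (Fermat.Agent.S55.resIhomIso f P X).hom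
    (𝟙 (Rep.res f P)) (𝟙 (Rep.res f X)) ((hP.ihom hX).res hf) (hP.res hf) (hX.res hf)
    ((hP.res hf).ihom (hX.res hf)) (hP.res hf) (hX.res hf) (fun _ _ => rfl) a b c h
    ((cxRes hf (hP.ihom hX)).f a x) ((cxRes hf hP).f b y)
  rw [cxMap_id_apply, cxMap_id_apply] at key
  rw [key]
  rfl

end LC

/-! ### Restriction of resolutions, of hyper-Ext and of the pairing -/

namespace LatticeRes

open LevelStructure

variable {N : Rep.{u} k G} (R : LatticeRes LG N) (hf : LH.Compat LG f)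

/-- The restriction of a two-term resolution along a compatible homomorphism. -/
noncomputable def res : LatticeRes LH (Rep.res f N) where
  P₀ := Rep.res f R.P₀
  P₁ := Rep.res f R.P₁
  i := Rep.resMap f R.i
  fin₀ := instModuleFiniteRes f R.P₀
  fin₁ := instModuleFiniteRes f R.P₁
  smooth₀ := R.smooth₀.res hf
  smooth₁ := R.smooth₁.res hf
  π := Rep.resMap f R.π
  surj := R.surj
  exact := R.exact
  inj := R.inj

variable {X : Rep.{u} k G} (hX : IsSmooth LG X)

/-- The square defining restriction on hyper-Ext commutes. -/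
lemma res_sq (n : ℕ) (x : (LC.cx (R.smooth₀.ihom hX)).X n) :
    (LC.cxResIhom hf R.smooth₁ hX).f n ((R.homMap hX).f n x) =
      ((R.res hf).homMap (hX.res hf)).f n ((LC.cxResIhom hf R.smooth₀ hX).f n x) := by
  rw [LC.cxResIhom_apply, LC.cxResIhom_apply]
  change (LC.cxMap _ _ (Fermat.Agent.S55.resIhomIso f R.P₁ X).hom).f n
      ((LC.cxRes hf (R.smooth₁.ihom hX)).f n
        ((LC.cxMap (R.smooth₀.ihom hX) (R.smooth₁.ihom hX) (Cup.precomp R.i X)).f n x)) = _
  rw [LC.cxRes_cxMap]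
  exact LC.cxMap_comm_of_comm ((R.smooth₀.ihom hX).res hf) ((R.smooth₁.ihom hX).res hf)
    ((R.res hf).smooth₀.ihom (hX.res hf)) ((R.res hf).smooth₁.ihom (hX.res hf))
    (Rep.resMap f (Cup.precomp R.i X)) (Fermat.Agent.S55.resIhomIso f R.P₁ X).hom
    (Fermat.Agent.S55.resIhomIso f R.P₀ X).hom (Cup.precomp (R.res hf).i (Rep.res f X))
    (fun _ => rfl) n _

/-- **Restriction on hyper-Ext**: `Ext^n_G(N, X) → Ext^n_H(Res N, Res X)`. -/
noncomputable def Ext.res (n : ℕ) : R.Ext hX n →ₗ[k] (R.res hf).Ext (hX.res hf) n :=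
  Cx.EMap (R.homMap hX) ((R.res hf).homMap (hX.res hf)) (LC.cxResIhom hf R.smooth₀ hX)
    (LC.cxResIhom hf R.smooth₁ hX) (R.res_sq hf hX) n

/-- **Restriction naturality of the hyper-Ext pairing**: `⟨res e, res c⟩ = res ⟨e, c⟩`. -/
theorem pair_res (n s m : ℕ) (hm : n + s = m) (e : R.Ext hX (n + 1))
    (c : (LC.cx R.smooth).H s) :
    (R.res hf).pair (hX.res hf) n s m hm (Ext.res R hf hX (n + 1) e)
        (LC.resH hf R.smooth s c) =
      LC.resH hf hX (m + 1) (R.pair hX n s m hm e c) := by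
  refine Cx.Epair_natural R.shortExact (R.res hf).shortExact (R.P0 hX) (R.P1 hX) (R.adj hX)
    ((R.res hf).P0 (hX.res hf)) ((R.res hf).P1 (hX.res hf)) ((R.res hf).adj (hX.res hf))
    (LC.cxResIhom hf R.smooth₀ hX) (LC.cxResIhom hf R.smooth₁ hX) (R.res_sq hf hX)
    (LC.cxRes hf R.smooth₁) (LC.cxRes hf R.smooth₀) (LC.cxRes hf R.smooth) ?_ ?_
    (LC.cxRes hf hX) ?_ ?_ n s m hm e c
  · intro n y
    exact (LC.cxRes_cxMap hf R.smooth₁ R.smooth₀ R.i n y).symm
  · intro n y
    exact (LC.cxRes_cxMap hf R.smooth₀ R.smooth R.π n y).symm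
  · intro a b c h x y
    exact LC.cxPairing_eval_res hf R.smooth₀ hX a b c h x y
  · intro a b c h x y
    exact LC.cxPairing_eval_res hf R.smooth₁ hX a b c h x y

/-- Restriction followed by a change of coefficients `w : Res X ⟶ Y` (the shape of the
localisation maps): `⟨w_* res e, res c⟩ = w_* res ⟨e, c⟩`. -/
theorem pair_res_map₂ {Y : Rep.{u} k H} (hY : IsSmooth LH Y) (w : Rep.res f X ⟶ Y)
    (n s m : ℕ) (hm : n + s = m) (e : R.Ext hX (n + 1)) (c : (LC.cx R.smooth).H s) :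
    (R.res hf).pair hY n s m hm
        (LatticePair.Ext.map₂ (R.res hf).toLatticePair (hX.res hf) hY w (n + 1)
          (Ext.res R hf hX (n + 1) e)) (LC.resH hf R.smooth s c) =
      (LC.cxMap (hX.res hf) hY w).mapH (m + 1)
        (LC.resH hf hX (m + 1) (R.pair hX n s m hm e c)) := by
  rw [pair_map₂, pair_res]

end LatticeRes

end Fermat.Agent.CFT
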