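import Fermat.Agent.CFT.Global.SModules
import Fermat.Agent.CFT.LC.LocCoind
import Fermat.Agent.S55.KrasnerCofinal
import Fermat.Agent.S55.LCBridgeGlobal
import Fermat.Agent.S55.LCHom

/-!
# D2.2: `Hom(P, J_S)` is locally coinduced from the local modules `Hom(P, ℚ̄_qˣ)`

* Torsor structure: every embedding `τ : ℚ̄ → ℚ̄_q` is `τ₀ ∘ g` for a unique `g ∈ G_ℚ`
  (`embGal`, `galEmb`, `embEquivGal`, `embGal_comp`, `embGal_smul`), `τ₀ = padicEmbedding q`.
* `primeUnitsRep q : Rep ℤ (primeLocalGaloisGroup q)`: the module `ℚ̄_qˣ`.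
* `evQ S q : Res_{G_q} J_S ⟶ ℚ̄_qˣ`: evaluation of the `q`-component at `τ₀`.
* `jsOfFun`: the `S`-idele with prescribed values `x_q(τ₀ ∘ g) = c q g`.
* `isLocCoind_js`, `lamP`, `isLocCoind_ihom_js`: the `LC.IsLocCoind` instances.
-/

set_option autoImplicit false

open CategoryTheory

noncomputable section

namespace Fermat.Agent.CFT.PT

open Fermat.Agent.CFT

local notation "Qb" => AlgebraicClosure ℚ
local notation "GQ" => (AlgebraicClosure ℚ ≃ₐ[ℚ] AlgebraicClosure ℚ)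

section Torsor

variable (q : ℕ) [Fact q.Prime]

/-- The fixed embedding `ℚ̄ → ℚ̄_q` of the Prelude, as a `LocalEmb`. -/
def emb₀ : LocalEmb q Qb := (padicEmbedding q : Qb →+* PadicAlgCl q)

@[simp] lemma emb₀_apply (x : Qb) : emb₀ q x = padicEmbedding q x := rfl

variable {q}

lemma exists_padicEmbedding_eq_emb (τ : LocalEmb q Qb) (x : Qb) :
    ∃ b : Qb, padicEmbedding q b = τ x := by
  have halg : Algebra.IsIntegral ℚ Qb :=
    (AlgebraicClosure.instIsAlgClosure ℚ).isAlgebraic.isIntegral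
  have hx : IsIntegral ℚ x := halg.isIntegral x
  refine Fermat.Agent.S55.exists_padicEmbedding_eq_of_aeval_eq_zero q (minpoly.ne_zero hx) ?_
  have : Polynomial.aeval (τ.toRatAlgHom x) (minpoly ℚ x) = 0 := by
    rw [Polynomial.aeval_algHom_apply, minpoly.aeval, map_zero]
  exact this

/-- The `ℚ`-algebra endomorphism `g` of `ℚ̄` with `τ = τ₀ ∘ g`. -/
def embGalHom (τ : LocalEmb q Qb) : Qb →ₐ[ℚ] Qb :=
  ((AlgEquiv.ofInjectiveField (padicEmbedding q)).symm : _ →ₐ[ℚ] Qb).comp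
    (τ.toRatAlgHom.codRestrict (padicEmbedding q).range fun x => by
      obtain ⟨b, hb⟩ := exists_padicEmbedding_eq_emb τ x
      exact ⟨b, hb⟩)

lemma padicEmbedding_embGalHom (τ : LocalEmb q Qb) (x : Qb) :
    padicEmbedding q (embGalHom τ x) = τ x := by
  set e := AlgEquiv.ofInjectiveField (padicEmbedding q) with he
  have h1 : ∀ y : (padicEmbedding q).range, padicEmbedding q (e.symm y) = y := by
    intro y
    have : e (e.symm y) = y := e.apply_symm_apply y
    exact congrArg Subtype.val this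
  exact h1 _

/-- The element `g ∈ G_ℚ` with `τ = τ₀ ∘ g`. -/
def embGal (τ : LocalEmb q Qb) : GQ :=
  haveI : Algebra.IsAlgebraic ℚ Qb := (AlgebraicClosure.instIsAlgClosure ℚ).isAlgebraic
  AlgEquiv.ofBijective (embGalHom τ) (Algebra.IsAlgebraic.algHom_bijective _)

@[simp] lemma padicEmbedding_embGal (τ : LocalEmb q Qb) (x : Qb) :
    padicEmbedding q (embGal τ x) = τ x := padicEmbedding_embGalHom τ x

lemma embGal_eq_iff (τ : LocalEmb q Qb) (g : GQ) :
    embGal τ = g ↔ ∀ x, padicEmbedding q (g x) = τ x := by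
  constructor
  · rintro rfl x
    exact padicEmbedding_embGal τ x
  · intro h
    ext x
    have hinj : Function.Injective (padicEmbedding q) := (padicEmbedding q).injective
    apply hinj
    rw [padicEmbedding_embGal, h]

/-- `g ↦ τ₀ ∘ g`. -/
def galEmb (g : GQ) : LocalEmb q Qb :=
  (emb₀ q).comp ((g : Qb ≃+* Qb) : Qb →+* Qb)

@[simp] lemma galEmb_apply (g : GQ) (x : Qb) : galEmb (q := q) g x = padicEmbedding q (g x) := rfl

@[simp] lemma embGal_galEmb (g : GQ) : embGal (galEmb (q := q) g) = g :=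
  (embGal_eq_iff _ _).2 fun _ => rfl

@[simp] lemma galEmb_embGal (τ : LocalEmb q Qb) : galEmb (embGal τ) = τ := by
  ext x
  exact padicEmbedding_embGal τ x

/-- The embeddings `ℚ̄ → ℚ̄_q` form a torsor under `G_ℚ`. -/
def embEquivGal : LocalEmb q Qb ≃ GQ where
  toFun := embGal
  invFun := galEmb
  left_inv := galEmb_embGal
  right_inv := embGal_galEmb

lemma embGal_emb₀ : embGal (emb₀ q) = 1 :=
  (embGal_eq_iff _ _).2 fun _ => rfl

/-- Precomposition with `σ ∈ G_ℚ` is right translation. -/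
lemma embGal_comp (τ : LocalEmb q Qb) (σ : GQ) :
    embGal (τ.comp (MulSemiringAction.toRingHom GQ Qb σ)) = embGal τ * σ :=
  (embGal_eq_iff _ _).2 fun x => by
    rw [AlgEquiv.mul_apply, padicEmbedding_embGal]
    rfl

/-- The action of `G_{ℚ_q}` is left translation through `localGaloisToGlobal`. -/
lemma embGal_smul (γ : Gq q) (τ : LocalEmb q Qb) :
    embGal (γ • τ) = localGaloisToGlobal q γ * embGal τ :=
  (embGal_eq_iff _ _).2 fun x => by
    rw [AlgEquiv.mul_apply, padicEmbedding_localGaloisToGlobal, padicEmbedding_embGal]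
    rfl

lemma galEmb_mul_localGaloisToGlobal (γ : Gq q) (g : GQ) :
    galEmb (localGaloisToGlobal q γ * g) = γ • galEmb (q := q) g := by
  apply embEquivGal.injective
  show embGal _ = embGal _
  rw [embGal_smul, embGal_galEmb, embGal_galEmb]

lemma galEmb_mul (g σ : GQ) :
    galEmb (q := q) (g * σ) = (galEmb g).comp (MulSemiringAction.toRingHom GQ Qb σ) := by
  apply embEquivGal.injective
  show embGal _ = embGal _
  rw [embGal_comp, embGal_galEmb, embGal_galEmb]


lemma emb₀_comp_localGaloisToGlobal (γ : Gq q) :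
    (emb₀ q).comp (MulSemiringAction.toRingHom GQ Qb (localGaloisToGlobal q γ)) = γ • emb₀ q := by
  ext x
  exact padicEmbedding_localGaloisToGlobal q γ x

lemma galEmb_one : galEmb (q := q) 1 = emb₀ q := by
  ext x
  rfl

end Torsor

/-- The local module `ℚ̄_qˣ` of the local Galois group of the Prelude. -/
def primeUnitsRep (q : Nat.Primes) : Rep.{0} ℤ (ExtCitation.primeLocalGaloisGroup q) :=
  (Rep.ofAlgebraAutOnUnits ℚ_[(q : ℕ)] (PadicAlgCl (q : ℕ)) :
    Rep.{0} ℤ (PadicAlgCl (q : ℕ) ≃ₐ[ℚ_[(q : ℕ)]] PadicAlgCl (q : ℕ)))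

section EvQ

/-- Shortcut instance (instance search for this `SMul` is slow otherwise). -/
instance smulSIdeleProdGQ (T : Set Nat.Primes) : SMul GQ (SIdeleProd Qb T) :=
  (sIdeleProdAction Qb T : MulDistribMulAction GQ (SIdeleProd Qb T)).toSMul

/-- Shortcut instance (instance search for this `SMul` is slow otherwise). -/
instance smulJSGQ (L : LevelStructure GQ) (T : Set Nat.Primes) : SMul GQ (JS L Qb T) :=
  (smoothAction : MulDistribMulAction GQ (JS L Qb T)).toSMul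

variable (L : LevelStructure GQ) (S : Finset Nat.Primes)

/-- Index conversion `↥S → ↥(↑S : Set Nat.Primes)`. -/
abbrev toSetIdx (q : ↥S) : ↥(↑S : Set Nat.Primes) := ⟨q.1, Finset.mem_coe.2 q.2⟩

/-- Index conversion `↥(↑S : Set Nat.Primes) → ↥S`. -/
abbrev fromSetIdx (q : ↥(↑S : Set Nat.Primes)) : ↥S := ⟨q.1, Finset.mem_coe.1 q.2⟩

/-- Evaluation of the `q`-component of an `S`-idele at the fixed embedding. -/
def evQFun (q : ↥S) : JS L Qb (↑S : Set Nat.Primes) →* (PadicAlgCl (q.1 : ℕ))ˣ where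
  toFun x := (x.1 (toSetIdx S q)).1 (emb₀ (q.1 : ℕ))
  map_one' := rfl
  map_mul' _ _ := rfl

lemma evQFun_smul (q : ↥S) (γ : Gq (q.1 : ℕ)) (x : JS L Qb (↑S : Set Nat.Primes)) :
    evQFun L S q (localGaloisToGlobal (q.1 : ℕ) γ • x) = γ • evQFun L S q x := by
  show (x.1 (toSetIdx S q)).1
      ((emb₀ (q.1 : ℕ)).comp
        (MulSemiringAction.toRingHom GQ Qb (localGaloisToGlobal (q.1 : ℕ) γ))) = _
  rw [emb₀_comp_localGaloisToGlobal, (x.1 (toSetIdx S q)).2 γ (emb₀ (q.1 : ℕ))]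
  rfl

/-- Translating by `g` and evaluating at `τ₀` is evaluating at `τ₀ ∘ g`. -/
lemma evQFun_smul_eq (q : ↥S) (g : GQ) (x : JS L Qb (↑S : Set Nat.Primes)) :
    evQFun L S q (g • x) = (x.1 (toSetIdx S q)).1 (galEmb g) := rfl

/-- **`evQ`**: evaluation at the fixed embedding, `Res_{G_q} J_S ⟶ ℚ̄_qˣ`. -/
def evQ (q : ↥S) :
    Rep.res (ExtCitation.primeLocalToGlobal q.1) (jsRep L Qb (↑S : Set Nat.Primes)) ⟶
      primeUnitsRep q.1 :=
  mulRepHomRes (H := PadicAlgCl (q.1 : ℕ) ≃ₐ[ℚ_[(q.1 : ℕ)]] PadicAlgCl (q.1 : ℕ))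
    (localGaloisToGlobal (q.1 : ℕ)) (evQFun L S q) (evQFun_smul L S q)

lemma evQ_apply (q : ↥S) (x : jsRep L Qb (↑S : Set Nat.Primes)) :
    (evQ L S q).hom x = Additive.ofMul (evQFun L S q (Additive.toMul x)) := rfl

end EvQ

section JsOfFun

variable (L : LevelStructure GQ) (S : Finset Nat.Primes)

/-- The semi-local unit with prescribed values `f (τ₀ ∘ g) = c g`. -/
def slOfFun (q : ℕ) [Fact q.Prime] (c : GQ → (PadicAlgCl q)ˣ)
    (ha : ∀ (γ : Gq q) (g : GQ), c (localGaloisToGlobal q γ * g) = gqUnitsHom γ (c g)) :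
    semiLocalUnits q Qb :=
  ⟨fun τ => c (embGal τ), fun γ τ => by
    show c (embGal (γ • τ)) = gqUnitsHom γ (c (embGal τ))
    rw [embGal_smul, ha]⟩

@[simp] lemma slOfFun_apply (q : ℕ) [Fact q.Prime] (c : GQ → (PadicAlgCl q)ˣ)
    (ha : ∀ (γ : Gq q) (g : GQ), c (localGaloisToGlobal q γ * g) = gqUnitsHom γ (c g))
    (τ : LocalEmb q Qb) : (slOfFun q c ha).1 τ = c (embGal τ) := rfl

/-- The `S`-idele with prescribed values `x_q (τ₀ ∘ g) = c q g`. -/
def jsOfFun (c : ∀ q : ↥S, GQ → (PadicAlgCl (q.1 : ℕ))ˣ)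
    (ha : ∀ (q : ↥S) (γ : Gq (q.1 : ℕ)) (g : GQ),
      c q (localGaloisToGlobal (q.1 : ℕ) γ * g) = gqUnitsHom γ (c q g))
    (hb : ∃ N, L.IsLevel N ∧ ∀ (q : ↥S) (g : GQ), ∀ n ∈ N, c q (g * n) = c q g) :
    JS L Qb (↑S : Set Nat.Primes) :=
  ⟨fun q' => slOfFun (q'.1 : ℕ) (c (fromSetIdx S q')) (ha (fromSetIdx S q')), by
    obtain ⟨N, hN, hinv⟩ := hb
    refine ⟨N, hN, fun n hn => ?_⟩
    funext q'
    apply Subtype.ext
    funext τ
    show c (fromSetIdx S q') (embGal (τ.comp (MulSemiringAction.toRingHom GQ Qb n))) =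
      c (fromSetIdx S q') (embGal τ)
    rw [embGal_comp, hinv _ _ n hn]⟩

lemma evQFun_smul_jsOfFun (c : ∀ q : ↥S, GQ → (PadicAlgCl (q.1 : ℕ))ˣ)
    (ha : ∀ (q : ↥S) (γ : Gq (q.1 : ℕ)) (g : GQ),
      c q (localGaloisToGlobal (q.1 : ℕ) γ * g) = gqUnitsHom γ (c q g))
    (hb : ∃ N, L.IsLevel N ∧ ∀ (q : ↥S) (g : GQ), ∀ n ∈ N, c q (g * n) = c q g)
    (q : ↥S) (g : GQ) : evQFun L S q (g • jsOfFun L S c ha hb) = c q g := by
  rw [evQFun_smul_eq]
  show c q (embGal (galEmb g)) = c q g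
  rw [embGal_galEmb]

/-- An `S`-idele is determined by the values `evQ (g • x)`. -/
lemma js_ext {x y : JS L Qb (↑S : Set Nat.Primes)}
    (h : ∀ (q : ↥S) (g : GQ), evQFun L S q (g • x) = evQFun L S q (g • y)) : x = y := by
  apply Subtype.ext
  funext q'
  apply Subtype.ext
  funext τ
  have := h (fromSetIdx S q') (embGal τ)
  rw [evQFun_smul_eq, evQFun_smul_eq, galEmb_embGal] at this
  exact this

end JsOfFun

section LocCoindJS

variable (L : LevelStructure GQ) (S : Finset Nat.Primes)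

lemma jsRep_ρ_apply (g : GQ) (a : jsRep L Qb (↑S : Set Nat.Primes)) :
    (jsRep L Qb (↑S : Set Nat.Primes)).ρ g a =
      Additive.ofMul (g • (Additive.toMul a : JS L Qb (↑S : Set Nat.Primes))) := rfl

lemma primeUnitsRep_ρ_apply (q : Nat.Primes) (γ : ExtCitation.primeLocalGaloisGroup q)
    (u : primeUnitsRep q) :
    (primeUnitsRep q).ρ γ u =
      Additive.ofMul (gqUnitsHom (q := (q : ℕ)) γ (Additive.toMul u : (PadicAlgCl (q : ℕ))ˣ)) :=
  rfl

/-- **`J_S` is locally coinduced** from the local modules `ℚ̄_qˣ`, `q ∈ S`. -/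
theorem isLocCoind_js :
    LC.IsLocCoind L (fun q : ↥S => ExtCitation.primeLocalToGlobal q.1)
      (jsRep L Qb (↑S : Set Nat.Primes)) (fun q : ↥S => primeUnitsRep q.1) (evQ L S) where
  inj a h := by
    have : (Additive.toMul a : JS L Qb (↑S : Set Nat.Primes)) = 1 := by
      apply js_ext L S
      intro q g
      have h2 : evQFun L S q (g • (Additive.toMul a : JS L Qb (↑S : Set Nat.Primes))) = 1 :=
        congrArg Additive.toMul (h q g)
      rw [h2]
      exact (map_one (evQFun L S q)).symm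
    exact congrArg Additive.ofMul this
  surj F ha hb := by
    have ha' : ∀ (q : ↥S) (γ : Gq (q.1 : ℕ)) (g : GQ),
        (Additive.toMul (F q (localGaloisToGlobal (q.1 : ℕ) γ * g)) : (PadicAlgCl (q.1 : ℕ))ˣ) =
          gqUnitsHom γ (Additive.toMul (F q g)) :=
      fun q γ g => congrArg Additive.toMul (ha q γ g)
    have hb' : ∃ N, L.IsLevel N ∧ ∀ (q : ↥S) (g : GQ), ∀ n ∈ N,
        (Additive.toMul (F q (g * n)) : (PadicAlgCl (q.1 : ℕ))ˣ) = Additive.toMul (F q g) := by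
      obtain ⟨N, hN, hinv⟩ := hb
      exact ⟨N, hN, fun q g n hn => congrArg Additive.toMul (hinv q g n hn)⟩
    refine ⟨Additive.ofMul (jsOfFun L S (fun q g => Additive.toMul (F q g)) ha' hb'),
      fun q g => ?_⟩
    exact congrArg Additive.ofMul
      (evQFun_smul_jsOfFun L S (fun q g => Additive.toMul (F q g)) ha' hb' q g)

end LocCoindJS

section Ihom

attribute [local instance 2000] Rep.hV2

/-- An additive map between abelian groups with arbitrary `ℤ`-module structures is `ℤ`-linear. -/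
def linOfAdd {M N : Type*} [AddCommGroup M] [AddCommGroup N] [Module ℤ M] [Module ℤ N]
    (f : M →+ N) : M →ₗ[ℤ] N where
  toFun := f
  map_add' := f.map_add
  map_smul' n x := by
    have h := map_intCast_smul f ℤ ℤ n x
    simpa using h

@[simp] lemma linOfAdd_apply {M N : Type*} [AddCommGroup M] [AddCommGroup N] [Module ℤ M]
    [Module ℤ N] (f : M →+ N) (x : M) : linOfAdd f x = f x := rfl

variable (L : LevelStructure GQ) (S : Finset Nat.Primes) (P : Rep.{0} ℤ GQ)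

/-- Postcomposition with `evQ`: `Res_{G_q} Hom(P, J_S) ⟶ Hom(Res P, ℚ̄_qˣ)`. -/
def lamP (q : ↥S) :
    Rep.res (ExtCitation.primeLocalToGlobal q.1)
        ((Rep.ihom P).obj (jsRep L Qb (↑S : Set Nat.Primes))) ⟶
      (Rep.ihom (Rep.res (ExtCitation.primeLocalToGlobal q.1) P)).obj (primeUnitsRep q.1) :=
  (Fermat.Agent.S55.resIhomIso (ExtCitation.primeLocalToGlobal q.1) P
      (jsRep L Qb (↑S : Set Nat.Primes))).hom ≫
    (Rep.ihom (Rep.res (ExtCitation.primeLocalToGlobal q.1) P)).map (evQ L S q)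

lemma lamP_apply (q : ↥S) (φ : P →ₗ[ℤ] jsRep L Qb (↑S : Set Nat.Primes)) (π : P) :
    (show P →ₗ[ℤ] primeUnitsRep q.1 from (lamP L S P q).hom
      (show ↑(Rep.res (ExtCitation.primeLocalToGlobal q.1)
        ((Rep.ihom P).obj (jsRep L Qb (↑S : Set Nat.Primes)))) from φ)) π =
      (evQ L S q).hom (φ π) := rfl

lemma ihom_ρ_apply (X : Rep.{0} ℤ GQ) (g : GQ) (φ : P →ₗ[ℤ] X) (π : P) :
    (show P →ₗ[ℤ] X from ((Rep.ihom P).obj X).ρ g (show ↑((Rep.ihom P).obj X) from φ)) π =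
      X.ρ g (φ (P.ρ g⁻¹ π)) := rfl

/-- The values `c^π q g = F q g (g π)` attached to a family `F`. -/
def cOf (F : ∀ q : ↥S, GQ → (P →ₗ[ℤ] primeUnitsRep q.1)) (π : P) (q : ↥S) (g : GQ) :
    (PadicAlgCl (q.1 : ℕ))ˣ := Additive.toMul (F q g (P.ρ g π))

variable {L S P}

lemma cOf_add (F : ∀ q : ↥S, GQ → (P →ₗ[ℤ] primeUnitsRep q.1)) (π π' : P) (q : ↥S) (g : GQ) :
    cOf S P F (π + π') q g = cOf S P F π q g * cOf S P F π' q g := by
  unfold cOf
  rw [map_add, map_add]
  rfl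

lemma cOf_equivariant (F : ∀ q : ↥S, GQ → (P →ₗ[ℤ] primeUnitsRep q.1))
    (ha : ∀ (q : ↥S) (γ : Gq (q.1 : ℕ)) (g : GQ) (π : P),
      F q (localGaloisToGlobal (q.1 : ℕ) γ * g) π =
        (primeUnitsRep q.1).ρ γ (F q g (P.ρ (localGaloisToGlobal (q.1 : ℕ) γ)⁻¹ π)))
    (π : P) (q : ↥S) (γ : Gq (q.1 : ℕ)) (g : GQ) :
    cOf S P F π q (localGaloisToGlobal (q.1 : ℕ) γ * g) = gqUnitsHom γ (cOf S P F π q g) := by
  unfold cOf
  rw [ha q γ g, map_mul, Module.End.mul_apply, ← Module.End.mul_apply (P.ρ _⁻¹), ← map_mul,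
    inv_mul_cancel, map_one, Module.End.one_apply]
  rfl

lemma cOf_level (hP : IsSmooth L P) (F : ∀ q : ↥S, GQ → (P →ₗ[ℤ] primeUnitsRep q.1))
    (hb : ∃ N, L.IsLevel N ∧ ∀ (q : ↥S) (g : GQ), ∀ n ∈ N, F q (g * n) = F q g) (π : P) :
    ∃ N, L.IsLevel N ∧ ∀ (q : ↥S) (g : GQ), ∀ n ∈ N, cOf S P F π q (g * n) = cOf S P F π q g := by
  obtain ⟨N, hN, hinv⟩ := hb
  obtain ⟨N', hN', hπ⟩ := hP π
  obtain ⟨N'', hN'', hle⟩ := L.directed hN hN'
  refine ⟨N'', hN'', fun q g n hn => ?_⟩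
  unfold cOf
  rw [hinv q g n (hle hn).1, map_mul, Module.End.mul_apply, hπ n (hle hn).2]

variable (L S P)

/-- **`Hom(P, J_S)` is locally coinduced** from the local modules `Hom(P, ℚ̄_qˣ)`, `q ∈ S`, for
every smooth `P`. -/
theorem isLocCoind_ihom_js (hP : IsSmooth L P) :
    LC.IsLocCoind L (fun q : ↥S => ExtCitation.primeLocalToGlobal q.1)
      ((Rep.ihom P).obj (jsRep L Qb (↑S : Set Nat.Primes)))
      (fun q : ↥S => (Rep.ihom (Rep.res (ExtCitation.primeLocalToGlobal q.1) P)).obj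
        (primeUnitsRep q.1))
      (lamP L S P) where
  inj a h := by
    have key : ∀ π : P, (show P →ₗ[ℤ] jsRep L Qb (↑S : Set Nat.Primes) from a) π = 0 := by
      intro π
      apply (isLocCoind_js L S).inj
      intro q g
      have h1 := LinearMap.congr_fun
        (show (show P →ₗ[ℤ] primeUnitsRep q.1 from (lamP L S P q).hom
          (((Rep.ihom P).obj (jsRep L Qb (↑S : Set Nat.Primes))).ρ g a)) = 0 from h q g)
        (P.ρ g π)
      have h2 : (evQ L S q).hom ((jsRep L Qb (↑S : Set Nat.Primes)).ρ g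
          ((show P →ₗ[ℤ] jsRep L Qb (↑S : Set Nat.Primes) from a) (P.ρ g⁻¹ (P.ρ g π)))) = 0 := h1
      rw [← Module.End.mul_apply, ← map_mul, inv_mul_cancel, map_one, Module.End.one_apply] at h2
      exact h2
    exact LinearMap.ext key
  surj F ha hb := by
    -- view `F` as a family of linear maps
    let F' : ∀ q : ↥S, GQ → (P →ₗ[ℤ] primeUnitsRep q.1) := fun q g => F q g
    have ha' : ∀ (q : ↥S) (γ : Gq (q.1 : ℕ)) (g : GQ) (π : P),
        F' q (localGaloisToGlobal (q.1 : ℕ) γ * g) π =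
          (primeUnitsRep q.1).ρ γ (F' q g (P.ρ (localGaloisToGlobal (q.1 : ℕ) γ)⁻¹ π)) := by
      intro q γ g π
      have h0 : F' q (localGaloisToGlobal (q.1 : ℕ) γ * g) π =
          (primeUnitsRep q.1).ρ γ (F' q g (P.ρ (localGaloisToGlobal (q.1 : ℕ) γ⁻¹) π)) :=
        LinearMap.congr_fun (ha q γ g) π
      rw [map_inv] at h0
      exact h0
    have hb' : ∃ N, L.IsLevel N ∧ ∀ (q : ↥S) (g : GQ), ∀ n ∈ N, F' q (g * n) = F' q g := hb
    -- the family of ideles `π ↦ x^π`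
    let x : P → JS L Qb (↑S : Set Nat.Primes) := fun π =>
      jsOfFun L S (cOf S P F' π) (cOf_equivariant F' ha' π) (cOf_level hP F' hb' π)
    have hx : ∀ (π : P) (q : ↥S) (g : GQ), evQFun L S q (g • x π) = cOf S P F' π q g :=
      fun π q g => evQFun_smul_jsOfFun L S _ _ _ q g
    have hx0 : x 0 = 1 := by
      refine js_ext L S fun q g => ?_
      rw [hx, smul_one, map_one]
      unfold cOf
      rw [map_zero, map_zero]
      rfl
    have hxadd : ∀ π π' : P, x (π + π') = x π * x π' := by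
      intro π π'
      refine js_ext L S fun q g => ?_
      rw [hx, smul_mul', map_mul, hx, hx, cOf_add]
    let φ₀ : P →+ jsRep L Qb (↑S : Set Nat.Primes) :=
      { toFun := fun π => Additive.ofMul (x π)
        map_zero' := congrArg Additive.ofMul hx0
        map_add' := fun π π' => congrArg Additive.ofMul (hxadd π π') }
    refine ⟨linOfAdd φ₀, fun q g => ?_⟩
    refine LinearMap.ext fun π => ?_
    show Additive.ofMul (evQFun L S q (g • x (P.ρ g⁻¹ π))) = F' q g π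
    rw [hx]
    unfold cOf
    rw [← Module.End.mul_apply, ← map_mul, mul_inv_cancel, map_one, Module.End.one_apply]
    rfl

end Ihom

end Fermat.Agent.CFT.PT
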