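import Fermat.Agent.CFT.HyperExt.LCExtLoc
import Fermat.Agent.CFT.PT.JSLocCoind
import Fermat.Agent.CFT.Local.LCDict
import Fermat.Agent.S55.LCBridgeCompat
import Fermat.Agent.S55.KrasnerCofinal

/-!
# Layer D (D2.4): the closed-subgroup Shapiro lemma for `J_S`, instantiated

The hypotheses of `LC/ClosedShapiro.lean` and `HyperExt/LCExtLoc.lean` for the concrete objects of
S55: `G = G_ℚ` with the level structure `globalLevel S`, the local groups
`primeLocalGaloisGroup q` (`q ∈ S`) with the level structure `levelOf (primeLocalToGlobal q)`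
(preimages of all finite Galois levels of `G_ℚ`), the structure maps `primeLocalToGlobal q`, the
local modules `primeUnitsRep q = ℚ̄_qˣ`:

* `levelComap_global`: preimages of global levels are local levels;
* `isSmooth_primeUnitsRep`: `ℚ̄_qˣ` is smooth (Krasner cofinality);
* `locH90_primeUnits`: Hilbert 90 in level cohomology for the open subgroups
  `r_q⁻¹(Gal(ℚ̄/F))` of `G_{ℚ_q}`;
* `js_locH_zero_bijective`, `js_locH_one_bijective`, `js_locH_two_injective`: the localisation maps
  `Hⁿ(G_ℚ, Hom(P, J_S)) → ∏_{q ∈ S} Hⁿ(G_{ℚ_q}, Hom(P, ℚ̄_qˣ))` for a smooth finite free `P`;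
* `js_extLoc_zero_bijective`, `js_extLoc_one_bijective`, `js_extLoc_two_injective`: the same for
  the hyper-Ext groups of a lattice pair.
-/

set_option autoImplicit false
set_option linter.style.haveILetI false
set_option linter.unusedSectionVars false

open CategoryTheory groupCohomology

namespace Fermat.Agent.CFT.PT

open Fermat.Agent.CFT Fermat.Agent.S55 ExtCitation GaloisTower

local notation "Qb" => AlgebraicClosure ℚ
local notation "GQ" => (AlgebraicClosure ℚ ≃ₐ[ℚ] AlgebraicClosure ℚ)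

section Local

variable (q : ℕ) [Fact q.Prime]

/-- Every level of `G_{ℚ_q}` is `Gal(ℚ̄_q/K)` for a finite normal `K/ℚ_q`. -/
theorem levelOf_local_galoisType (N : Subgroup (Gq q))
    (hN : (levelOf (localGaloisToGlobal q)).IsLevel N) :
    ∃ F : IntermediateField ℚ_[q] (PadicAlgCl q),
      FiniteDimensional ℚ_[q] F ∧ Normal ℚ_[q] F ∧ N = F.fixingSubgroup := by
  obtain ⟨N₀, ⟨F, hgal, hfd, rfl⟩, rfl⟩ := hN
  haveI := hfd
  exact ⟨localField q F, finiteDimensional_localField q F,
    (isGalois_localField q F hgal).to_normal, (fixingSubgroup_localField q F).symm⟩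

/-- The levels of `G_{ℚ_q}` are cofinal among the open subgroups (Krasner). -/
theorem levelOf_local_cofinal (E' : IntermediateField ℚ_[q] (PadicAlgCl q))
    (hfd : FiniteDimensional ℚ_[q] E') :
    ∃ N, (levelOf (localGaloisToGlobal q)).IsLevel N ∧ N ≤ E'.fixingSubgroup := by
  haveI := hfd
  obtain ⟨F, hfdF, hgal, hle⟩ := exists_isGalois_comap_fixingSubgroup_le q E'
  exact ⟨_, ⟨F.fixingSubgroup, ⟨F, hgal, hfdF, rfl⟩, rfl⟩, hle⟩

/-- `ℚ̄_qˣ` is a smooth `G_{ℚ_q}`-module. -/
theorem isSmooth_localUnits :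
    IsSmooth (levelOf (localGaloisToGlobal q))
      (Rep.ofAlgebraAutOnUnits ℚ_[q] (PadicAlgCl q)) := by
  intro a
  obtain ⟨E', hfd, hE'⟩ := exists_finiteDimensional_forall_apply_eq (k := ℚ_[q])
    (((Additive.toMul a : (PadicAlgCl q)ˣ) : PadicAlgCl q))
  obtain ⟨N, hN, hle⟩ := levelOf_local_cofinal q E' hfd
  refine ⟨N, hN, fun g hg => ?_⟩
  apply Additive.toMul.injective
  apply Units.ext
  exact hE' g (hle hg)

/-- **Hilbert 90** in level cohomology for the open subgroup `Gal(ℚ̄_q/E)`, `E/ℚ_q` finite. -/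
theorem subsingleton_H1_local_fixingSubgroup (E : IntermediateField ℚ_[q] (PadicAlgCl q))
    [FiniteDimensional ℚ_[q] E] :
    Subsingleton (LC.H1 ((levelOf (localGaloisToGlobal q)).comap E.fixingSubgroup.subtype)
      (Rep.res E.fixingSubgroup.subtype (Rep.ofAlgebraAutOnUnits ℚ_[q] (PadicAlgCl q)))) :=
  (galLayerDict (levelOf (localGaloisToGlobal q)) (levelOf_local_galoisType q)
    (levelOf_local_cofinal q) E).subsingleton_H1
    (isSmooth_unitsRep (levelOf (localGaloisToGlobal q)) (levelOf_local_cofinal q) E)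

/-- Hilbert 90 for a subgroup equal to some `Gal(ℚ̄_q/E)`. -/
theorem subsingleton_H1_local_of_eq (M : Subgroup (Gq q))
    (E : IntermediateField ℚ_[q] (PadicAlgCl q)) [FiniteDimensional ℚ_[q] E]
    (hM : M = E.fixingSubgroup) :
    Subsingleton (LC.H1 ((levelOf (localGaloisToGlobal q)).comap M.subtype)
      (Rep.res M.subtype (Rep.ofAlgebraAutOnUnits ℚ_[q] (PadicAlgCl q)))) := by
  subst hM
  exact subsingleton_H1_local_fixingSubgroup q E

end Local

section Global

variable (S : Finset Nat.Primes)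

/-- **(a)** Preimages of the levels of `G_ℚ` (for `globalLevel S`) are levels of the local
groups. -/
theorem levelComap_global :
    LC.LevelComap (globalLevel S) (fun q : ↥S => levelOf (primeLocalToGlobal q.1))
      (fun q : ↥S => primeLocalToGlobal q.1) :=
  fun _ N hN => ⟨N, isLevel_fullLevel_of_globalLevel hN, rfl⟩

/-- **(b)** `ℚ̄_qˣ` is a smooth module of the local Galois group. -/
theorem isSmooth_primeUnitsRep (q : Nat.Primes) :
    IsSmooth (levelOf (primeLocalToGlobal q)) (primeUnitsRep q) :=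
  isSmooth_localUnits (q : ℕ)

/-- **(c)** Hilbert 90 in level cohomology for the preimages of the global levels. -/
theorem locH90_primeUnits :
    LC.LocH90 (globalLevel S) (fun q : ↥S => levelOf (primeLocalToGlobal q.1))
      (fun q : ↥S => primeLocalToGlobal q.1) (fun q : ↥S => primeUnitsRep q.1) := by
  intro N hN
  refine ⟨N, hN, le_rfl, fun q => ?_⟩
  obtain ⟨F, hgal, hF, rfl⟩ := hN
  haveI : FiniteDimensional ℚ F := hF.1
  haveI := finiteDimensional_localField (q.1 : ℕ) F
  exact subsingleton_H1_local_of_eq (q.1 : ℕ) _ (localField (q.1 : ℕ) F)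
    (fixingSubgroup_localField (q.1 : ℕ) F).symm

end Global

section Shapiro

attribute [local instance 2000] Rep.hV2

variable (S : Finset Nat.Primes) (P : Rep.{0} ℤ GQ) [Module.Finite ℤ P]

/-- Smoothness of `Hom(P, J_S)`. -/
theorem isSmooth_ihom_js (hP : IsSmooth (globalLevel S) P) : IsSmooth (globalLevel S)
    ((Rep.ihom P).obj (jsRep (globalLevel S) Qb (↑S : Set Nat.Primes))) :=
  hP.ihom (isSmooth_jsRep (globalLevel S) Qb (↑S : Set Nat.Primes))

/-- Smoothness of the local modules `Hom(Res P, ℚ̄_qˣ)`. -/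
theorem isSmooth_ihom_primeUnits (hP : IsSmooth (globalLevel S) P) (q : ↥S) : IsSmooth (levelOf (primeLocalToGlobal q.1))
    ((Rep.ihom (Rep.res (primeLocalToGlobal q.1) P)).obj (primeUnitsRep q.1)) :=
  (hP.res ((levelComap_global S).compat q)).ihom (isSmooth_primeUnitsRep q.1)

/-- **Localisation in degree `0`**:
`H⁰(G_ℚ, Hom(P, J_S)) ≃ ∏_{q ∈ S} H⁰(G_{ℚ_q}, Hom(P, ℚ̄_qˣ))`. -/
theorem js_locH_zero_bijective (hP : IsSmooth (globalLevel S) P) :
    Function.Bijective (LC.locH (levelComap_global S) (isSmooth_ihom_js S P hP)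
      (isSmooth_ihom_primeUnits S P hP) (lamP (globalLevel S) S P) 0) :=
  LC.locH_zero_bijective _ _ _ (isLocCoind_ihom_js (globalLevel S) S P hP)

/-- **Localisation in degree `1`**:
`H¹(G_ℚ, Hom(P, J_S)) ≃ ∏_{q ∈ S} H¹(G_{ℚ_q}, Hom(P, ℚ̄_qˣ))`. -/
theorem js_locH_one_bijective [Module.Free ℤ P] (hP : IsSmooth (globalLevel S) P) :
    Function.Bijective (LC.locH (levelComap_global S) (isSmooth_ihom_js S P hP)
      (isSmooth_ihom_primeUnits S P hP) (lamP (globalLevel S) S P) 1) :=
  LC.locH_one_bijective _ _ _ (isLocCoind_ihom_js (globalLevel S) S P hP)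
    ((locH90_primeUnits S).ihom P hP)

/-- **Localisation in degree `2`**:
`H²(G_ℚ, Hom(P, J_S)) ↪ ∏_{q ∈ S} H²(G_{ℚ_q}, Hom(P, ℚ̄_qˣ))`. -/
theorem js_locH_two_injective [Module.Free ℤ P] (hP : IsSmooth (globalLevel S) P) :
    Function.Injective (LC.locH (levelComap_global S) (isSmooth_ihom_js S P hP)
      (isSmooth_ihom_primeUnits S P hP) (lamP (globalLevel S) S P) 2) :=
  LC.locH_two_injective _ _ _ (isLocCoind_ihom_js (globalLevel S) S P hP)
    ((locH90_primeUnits S).ihom P hP)

end Shapiro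

section ExtLoc

attribute [local instance 2000] Rep.hV2

variable (S : Finset Nat.Primes)

/-- helper4's `lamP` is the general `lamIhom` of `HyperExt/LCExtLoc.lean` at `lam = evQ`. -/
theorem lamP_eq_lamIhom (P : Rep.{0} ℤ GQ) :
    lamP (globalLevel S) S P =
      LatticePair.lamIhom (r := fun q : ↥S => primeLocalToGlobal q.1) P
        (evQ (globalLevel S) S) := rfl

variable (R : LatticePair ℤ (globalLevel S))

/-- The localisation map on hyper-Ext for `J_S`:
`Extⁿ_{G_ℚ}(R, J_S) → ∏_{q ∈ S} Extⁿ_{G_{ℚ_q}}(Res R, ℚ̄_qˣ)`. -/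
noncomputable abbrev jsExtLoc (n : ℕ) :=
  LatticePair.Ext.loc (levelComap_global S) R
    (isSmooth_jsRep (globalLevel S) Qb (↑S : Set Nat.Primes))
    (fun q : ↥S => isSmooth_primeUnitsRep q.1) (evQ (globalLevel S) S) n

/-- `Ext⁰(R, J_S)` localises bijectively. -/
theorem js_extLoc_zero_bijective : Function.Bijective (jsExtLoc S R 0) :=
  LatticePair.Ext.loc_zero_bijective _ R _ _ _
    (isLocCoind_ihom_js (globalLevel S) S R.P₀ R.smooth₀)
    (isLocCoind_ihom_js (globalLevel S) S R.P₁ R.smooth₁)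

/-- `Ext¹(R, J_S)` localises bijectively (`P₀` free). -/
theorem js_extLoc_one_bijective [Module.Free ℤ R.P₀] : Function.Bijective (jsExtLoc S R 1) :=
  LatticePair.Ext.loc_one_bijective_of_free _ R _ _ _
    (isLocCoind_ihom_js (globalLevel S) S R.P₀ R.smooth₀)
    (isLocCoind_ihom_js (globalLevel S) S R.P₁ R.smooth₁) (locH90_primeUnits S)

/-- `Ext²(R, J_S)` localises injectively (`P₀` free). -/
theorem js_extLoc_two_injective [Module.Free ℤ R.P₀] : Function.Injective (jsExtLoc S R 2) :=
  LatticePair.Ext.loc_two_injective_of_free _ R _ _ _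
    (isLocCoind_ihom_js (globalLevel S) S R.P₀ R.smooth₀)
    (isLocCoind_ihom_js (globalLevel S) S R.P₁ R.smooth₁) (locH90_primeUnits S)

end ExtLoc

end Fermat.Agent.CFT.PT
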