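import Fermat.Agent.CFT.PT.PTInputs
import Fermat.Agent.CFT.PT.JSInst
import Fermat.Agent.CFT.Local.PadicLocalDuality

/-!
# Layer D (D6 part 2 + D8): the local inputs of Poitou–Tate, and the term `ptInputs`

* `invLoc p q : H²(G_{ℚ_q}, ℚ̄_qˣ)[p] →+ ℤ/p`: the local invariant (helper22's `galInvHp` for the
  level structure `levelOf (primeLocalToGlobal q)`, helper11's `levelOf_local_galoisType`,
  `levelOf_local_cofinal`, helper25's `padicLayerInvSystem`);
* `invLoc_bijective` (T1), `zmodToCircle_invLoc` (normalisation against the `ℚ/ℤ`-valued invariant);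
* `local_duality`: every finite smooth `p`-torsion module of `G_{ℚ_q}` is perfect for `invLoc`;
* `ptInputs`: the term of `PTInputs p S`, with the global duality and the reciprocity sum formula
  as hypotheses (nodes D7, D3c).
-/

set_option autoImplicit false
set_option linter.style.haveILetI false
set_option linter.unusedSectionVars false

open CategoryTheory

namespace Fermat.Agent.CFT.PT

open Fermat.Agent.CFT Fermat.Agent.S55 ExtCitation GaloisTower

attribute [local instance 2000] Rep.hV2

local notation "Qb" => AlgebraicClosure ℚ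
local notation "GQ" => (AlgebraicClosure ℚ ≃ₐ[ℚ] AlgebraicClosure ℚ)

section Local

variable (p : ℕ) [Fact p.Prime] (q : Nat.Primes)

/-- **The local invariant map** `H²(G_{ℚ_q}, ℚ̄_qˣ)[p] →+ ℤ/p`. -/
noncomputable def invLoc : LC.Hp p (isSmooth_primeUnitsRep q) 2 →+ ZMod p :=
  galInvHp (levelOf (localGaloisToGlobal (q : ℕ))) (levelOf_local_galoisType (q : ℕ))
    (levelOf_local_cofinal (q : ℕ)) (padicLayerInvSystem (q : ℕ)) p

/-- **(T1)**: the local invariant map is bijective. -/
theorem invLoc_bijective : Function.Bijective (invLoc p q) :=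
  galInvHp_bijective (levelOf (localGaloisToGlobal (q : ℕ))) (levelOf_local_galoisType (q : ℕ))
    (levelOf_local_cofinal (q : ℕ)) (padicLayerInvSystem (q : ℕ)) p

/-- **Normalisation**: `invLoc` is the `ℚ/ℤ`-valued local invariant `galInv` on `p`-torsion. -/
theorem zmodToCircle_invLoc (x : LC.Hp p (isSmooth_primeUnitsRep q) 2) :
    zmodToCircle p (invLoc p q x) =
      galInv (levelOf (localGaloisToGlobal (q : ℕ))) (levelOf_local_galoisType (q : ℕ))
        (levelOf_local_cofinal (q : ℕ)) (padicLayerInvSystem (q : ℕ))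
        (LC.h2Equiv (isSmooth_galUnits (levelOf (localGaloisToGlobal (q : ℕ)))
          (levelOf_local_cofinal (q : ℕ))) x.1) :=
  zmodToCircle_galInvHp (levelOf (localGaloisToGlobal (q : ℕ))) (levelOf_local_galoisType (q : ℕ))
    (levelOf_local_cofinal (q : ℕ)) (padicLayerInvSystem (q : ℕ)) p x

/-- **Local Tate duality** for `G_{ℚ_q}` and `ℚ̄_qˣ`, in level cohomology. -/
theorem local_duality (M : PMod (levelOf (primeLocalToGlobal q)) p) :
    M.res.IsPerfect p (isSmooth_primeUnitsRep q) M.tors (invLoc p q) :=
  padic_local_duality (q : ℕ) (levelOf (localGaloisToGlobal (q : ℕ)))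
    (levelOf_local_galoisType (q : ℕ)) (levelOf_local_cofinal (q : ℕ)) p M

end Local

section Inputs

variable {p : ℕ} [Fact p.Prime] {S : Finset Nat.Primes}

/-- **The inputs of Poitou–Tate** from a global invariant map satisfying global duality and the
reciprocity sum formula against the local invariants `invLoc`. -/
noncomputable def ptInputs
    (invG : LC.Hp p (isSmooth_csRep (globalLevel S) Qb (↑S : Set Nat.Primes)) 2 →+ ZMod p)
    (hglobal : ∀ M : PMod (globalLevel S) p, Function.Bijective
      (M.res.dual1 p (isSmooth_csRep (globalLevel S) Qb (↑S : Set Nat.Primes)) M.tors invG))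
    (hrecip : ∀ (z : (LC.cx (isSmooth_jsRep (globalLevel S) Qb (↑S : Set Nat.Primes))).H 2),
      p • z = 0 →
      ∀ (h1 : (LC.cxMap (isSmooth_jsRep (globalLevel S) Qb (↑S : Set Nat.Primes))
            (isSmooth_csRep (globalLevel S) Qb (↑S : Set Nat.Primes))
            (jsToCsHom (globalLevel S) Qb (↑S : Set Nat.Primes))).mapH 2 z ∈
          LC.Hp p (isSmooth_csRep (globalLevel S) Qb (↑S : Set Nat.Primes)) 2)
        (h2 : ∀ q : ↥S, (LC.locHom (levelComap_global S)
            (isSmooth_jsRep (globalLevel S) Qb (↑S : Set Nat.Primes))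
            (fun q : ↥S => isSmooth_primeUnitsRep q.1) (evQ (globalLevel S) S) q).mapH 2 z ∈
          LC.Hp p (isSmooth_primeUnitsRep q.1) 2),
        invG ⟨_, h1⟩ = ∑ q : ↥S, invLoc p q.1 ⟨_, h2 q⟩) :
    PTInputs p S where
  invG := invG
  invL := fun q => invLoc p q.1
  global := hglobal
  loc := fun q M => (local_duality p q.1 M).1.2
  recip := hrecip

end Inputs

end Fermat.Agent.CFT.PT
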