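import Fermat.Agent.CFT.LC.PInvFamilyKummer
import Fermat.Agent.CFT.Global.SModulesFullCap
import Fermat.Agent.CFT.Global.GlobalG0
import Fermat.Agent.CFT.Global.GlobalHne
import Fermat.Agent.CFT.PT.PTInputsInst

/-!
# Layer D (D7): global duality for `C_S` from a family of invariants of `C_S'`

Let `Jfull` be a family of invariants (`LC.PInvFamily`) of the full `S`-idele class module
`C_S' = csFullRep (globalLevel S) ℚ̄ S` of `G_ℚ` (level structure `globalLevel S`).  For `p ∈ S`:

* `globalFamily S hpS Jfull`: the family of invariants of `C_S = csRep ..` transferred along the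
  injection `csToCsFullHom : C_S ⟶ C_S'` (cokernel killed by integers prime to `p`);
* `globalInvG S hpS Jfull : H²(G_S, C_S)[p] →+ ℤ/p`, `globalInvG_apply`, `zmodToCircle_globalInvG`,
  `globalInvG_bijective`;
* `global_duality`: every finite smooth `p`-torsion module of `G_ℚ` is perfect for `globalInvG`,
  given (CF1a) and the existence theorem mod `p` (E) for `C_S'` over the open subgroups of
  `G₀ = Gal(ℚ̄/ℚ(μ_p))`;
* `ptInputsOfFamily`: the term of `PTInputs p S`, with the reciprocity sum formula as the only
  further hypothesis.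
-/

set_option autoImplicit false
set_option linter.style.haveILetI false
set_option linter.unusedSectionVars false

open CategoryTheory

namespace Fermat.Agent.CFT.PT

open Fermat.Agent.CFT Fermat.Agent.S55 ExtCitation GaloisTower

attribute [local instance 2000] Rep.hV2

local notation "Qb" => AlgebraicClosure ℚ
local notation "GQ" => (AlgebraicClosure ℚ ≃ₐ[ℚ] AlgebraicClosure ℚ)

variable {p : ℕ} [Fact p.Prime] (S : Finset Nat.Primes)

/-- `hne` of `csToCsFullHom_injective` for a non-empty `S`. -/
theorem exists_localEmb_Qb_of_mem {q₀ : Nat.Primes} (hq₀ : q₀ ∈ S) :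
    ∃ q : (↑S : Set Nat.Primes), Nonempty (LocalEmb ((q : Nat.Primes) : ℕ) Qb) := by
  obtain ⟨q, hq, hτ⟩ := exists_localEmb_Qb (S := (↑S : Set Nat.Primes)) ⟨q₀, hq₀⟩
  exact ⟨⟨q, hq⟩, hτ⟩

/-- The primes outside `S` are different from `p` when `p ∈ S`. -/
theorem ne_of_notMem_of_pPrime_mem (hpS : pPrime p ∈ S) :
    ∀ q : Nat.Primes, q ∉ S → (q : ℕ) ≠ p := by
  intro q hq hqp
  apply hq
  have : q = pPrime p := Subtype.ext hqp
  rwa [this]

variable (hpS : pPrime p ∈ S)
  (Jfull : LC.PInvFamily (globalLevel S) (csFullRep (globalLevel S) Qb (↑S : Set Nat.Primes))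
    (isSmooth_csFullRep (globalLevel S) Qb (↑S : Set Nat.Primes)) p)

/-- **The global family of invariants of `C_S`**: transfer of a family of invariants of `C_S'`
along `C_S ⟶ C_S'`. -/
noncomputable def globalFamily :
    LC.PInvFamily (globalLevel S) (csRep (globalLevel S) Qb (↑S : Set Nat.Primes))
      (isSmooth_csRep (globalLevel S) Qb (↑S : Set Nat.Primes)) p :=
  Jfull.transfer (isSmooth_csRep (globalLevel S) Qb (↑S : Set Nat.Primes))
    (csToCsFullHom (globalLevel S) Qb (↑S : Set Nat.Primes) S.finite_toSet)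
    (csToCsFullHom_injective (globalLevel S) S.finite_toSet (exists_localEmb_Qb_of_mem S hpS))
    (Fact.out : p.Prime)
    (exists_nsmul_mem_range_csToCsFullHom S (Fact.out : p.Prime)
      (ne_of_notMem_of_pPrime_mem S hpS))

/-- **The global invariant map** `H²(G_S, C_S)[p] →+ ℤ/p`. -/
noncomputable def globalInvG :
    LC.Hp p (isSmooth_csRep (globalLevel S) Qb (↑S : Set Nat.Primes)) 2 →+ ZMod p :=
  (globalFamily S hpS Jfull).invHpG

/-- The global invariant of `C_S` is the invariant of `C_S'` of the image class. -/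
theorem globalInvG_apply
    (x : LC.Hp p (isSmooth_csRep (globalLevel S) Qb (↑S : Set Nat.Primes)) 2) :
    globalInvG S hpS Jfull x =
      Jfull.invHpG ⟨(LC.cxMap (isSmooth_csRep (globalLevel S) Qb (↑S : Set Nat.Primes))
          (isSmooth_csFullRep (globalLevel S) Qb (↑S : Set Nat.Primes))
          (csToCsFullHom (globalLevel S) Qb (↑S : Set Nat.Primes) S.finite_toSet)).mapH 2 x.1,
        LC.cxMap_mapH_mem_Hp _ _ _ x.2⟩ :=
  LC.PInvFamily.transfer_invHpG Jfull _ _ _ _ _ x

/-- **Normalisation**: the global invariant against the `ℚ/ℤ`-valued invariant of `C_S'`. -/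
theorem zmodToCircle_globalInvG
    (x : LC.Hp p (isSmooth_csRep (globalLevel S) Qb (↑S : Set Nat.Primes)) 2) :
    zmodToCircle p (globalInvG S hpS Jfull x) =
      Jfull.invG (LC.h2Equiv (isSmooth_csFullRep (globalLevel S) Qb (↑S : Set Nat.Primes))
        ((LC.cxMap (isSmooth_csRep (globalLevel S) Qb (↑S : Set Nat.Primes))
          (isSmooth_csFullRep (globalLevel S) Qb (↑S : Set Nat.Primes))
          (csToCsFullHom (globalLevel S) Qb (↑S : Set Nat.Primes) S.finite_toSet)).mapH 2 x.1)) := by
  rw [globalInvG_apply, LC.PInvFamily.zmodToCircle_invHpG]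

/-- **(T1)**: the global invariant map is bijective. -/
theorem globalInvG_bijective : Function.Bijective (globalInvG S hpS Jfull) :=
  (globalFamily S hpS Jfull).invHpG_bijective

/-- **Global duality (D7)**: every finite smooth `p`-torsion module of `G_ℚ` (level structure
`globalLevel S`, `p ∈ S`) is perfect for `C_S` and `globalInvG`, given (CF1a) for `C_S'` and the
existence theorem mod `p` for `(C_S'|U, Jfull.tauS U)` over the open subgroups `U ≤ G₀`. -/
theorem global_duality
    (hB1 : ∀ (U : Subgroup GQ), (globalLevel S).IsOpen U → U ≤ globalG0 p →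
      ∀ c : LC.H1 ((globalLevel S).comap U.subtype)
        (Rep.res U.subtype (csFullRep (globalLevel S) Qb (↑S : Set Nat.Primes))),
        p • c = 0 → c = 0)
    (hEB : ∀ (U : Subgroup GQ) (hU : (globalLevel S).IsOpen U), U ≤ globalG0 p →
      (Finite (LCSym.XChar ((globalLevel S).comap U.subtype) p) ∧
        Nat.card (LCSym.XChar ((globalLevel S).comap U.subtype) p) =
          Nat.card (LCSym.VQuot
            (Rep.res U.subtype (csFullRep (globalLevel S) Qb (↑S : Set Nat.Primes))) p)) ∧
      Function.Bijective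
        (LCSym.pairLin ((globalLevel S).comap U.subtype)
          (Rep.res U.subtype (csFullRep (globalLevel S) Qb (↑S : Set Nat.Primes)))
          (Jfull.tauS U hU)) ∧
      Function.Bijective
        (LCSym.pairLin ((globalLevel S).comap U.subtype)
          (Rep.res U.subtype (csFullRep (globalLevel S) Qb (↑S : Set Nat.Primes)))
          (Jfull.tauS U hU)).flip)
    (M : PMod (globalLevel S) p) :
    M.res.IsPerfect p (isSmooth_csRep (globalLevel S) Qb (↑S : Set Nat.Primes)) M.tors
      (globalInvG S hpS Jfull) :=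
  LC.PInvFamily.transfer_isPerfect_of_perfect Jfull _ _ _ _ _ (globalG0 p)
    (isOpen_globalG0 p S hpS) (coprime_index_globalG0 p) hB1 hEB M

/-- **The inputs of Poitou–Tate** from a family of invariants of `C_S'` with (CF1a), the existence
theorem mod `p`, and the reciprocity sum formula against the local invariants `invLoc`. -/
noncomputable def ptInputsOfFamily
    (hB1 : ∀ (U : Subgroup GQ), (globalLevel S).IsOpen U → U ≤ globalG0 p →
      ∀ c : LC.H1 ((globalLevel S).comap U.subtype)
        (Rep.res U.subtype (csFullRep (globalLevel S) Qb (↑S : Set Nat.Primes))),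
        p • c = 0 → c = 0)
    (hEB : ∀ (U : Subgroup GQ) (hU : (globalLevel S).IsOpen U), U ≤ globalG0 p →
      (Finite (LCSym.XChar ((globalLevel S).comap U.subtype) p) ∧
        Nat.card (LCSym.XChar ((globalLevel S).comap U.subtype) p) =
          Nat.card (LCSym.VQuot
            (Rep.res U.subtype (csFullRep (globalLevel S) Qb (↑S : Set Nat.Primes))) p)) ∧
      Function.Bijective
        (LCSym.pairLin ((globalLevel S).comap U.subtype)
          (Rep.res U.subtype (csFullRep (globalLevel S) Qb (↑S : Set Nat.Primes)))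
          (Jfull.tauS U hU)) ∧
      Function.Bijective
        (LCSym.pairLin ((globalLevel S).comap U.subtype)
          (Rep.res U.subtype (csFullRep (globalLevel S) Qb (↑S : Set Nat.Primes)))
          (Jfull.tauS U hU)).flip)
    (hrecip : ∀ (z : (LC.cx (isSmooth_jsRep (globalLevel S) Qb (↑S : Set Nat.Primes))).H 2),
      p • z = 0 →
      ∀ (h1 : (LC.cxMap (isSmooth_jsRep (globalLevel S) Qb (↑S : Set Nat.Primes))
            (isSmooth_csRep (globalLevel S) Qb (↑S : Set Nat.Primes))
            (jsToCsHom (globalLevel S) Qb (↑S : Set Nat.Primes))).mapH 2 z ∈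
          LC.Hp p (isSmooth_csRep (globalLevel S) Qb (↑S : Set Nat.Primes)) 2)
        (h2 : ∀ q : ↥S, (LC.locHom (levelComap_global S)
            (isSmooth_jsRep (globalLevel S) Qb (↑S : Set Nat.Primes))
            (fun q : ↥S => isSmooth_primeUnitsRep q.1) (evQ (globalLevel S) S) q).mapH 2 z ∈
          LC.Hp p (isSmooth_primeUnitsRep q.1) 2),
        globalInvG S hpS Jfull ⟨_, h1⟩ = ∑ q : ↥S, invLoc p q.1 ⟨_, h2 q⟩) :
    PTInputs p S :=
  ptInputs (globalInvG S hpS Jfull)
    (fun M => (global_duality S hpS Jfull hB1 hEB M).1) hrecip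

end Fermat.Agent.CFT.PT
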