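import Fermat.Agent.CFT.Global.SClassTower
import Fermat.Agent.CFT.Global.ClassSDescent
import Fermat.Agent.CFT.Global.UnramOutsideS
import Fermat.Agent.CFT.Global.IdeleDict.UnramPrelude
import Fermat.Agent.CFT.Global.IdeleDict.DictAdapters

/-!
# Finite-level descent for `S`-idele classes in the tower of `ℚ_S` (`hdescA`)

For `k = ℚ`, `Ω = ℚ̄`, `S` a nonempty finite set of primes and intermediate fields
`B ≤ B' ≤ B''` with `B''` unramified outside `S` (frozen predicate
`IntermediateField.IsUnramifiedOutside`) and `B''/B` normal: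
`C_S(B'')^{Gal(B''/B')} = C_S(B')` (`HasSClassDescent h ↑S h'`).  This is the hypothesis `hdescA`
of `PT/CSFullDict.lean` (`csFullDict`) for `Adm := (·.IsUnramifiedOutside S)`.
-/

set_option autoImplicit false
set_option linter.unusedSectionVars false
set_option linter.style.haveILetI false

open CategoryTheory groupCohomology Rep

namespace Fermat.Agent.CFT.PT

open Fermat.Agent.CFT Fermat.Agent.CFT.GaloisTower Fermat.Agent.CFT.LayerMaps IntermediateField

local notation "Qb" => AlgebraicClosure ℚ

local instance instIsGaloisQbCSFullDescent : IsGalois ℚ Qb :=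
  Fermat.Agent.S54.FrobExists.isGalois_rat_algebraicClosure

noncomputable section

variable {S₀ : Finset Nat.Primes} {B B' B'' : IntermediateField ℚ Qb}

/-- **`hdescA` for `ℚ_S`**: finite-level descent `C_S(B'')^{Gal(B''/B')} = C_S(B')` for
`B ≤ B' ≤ B''`, `B''` unramified outside the nonempty set `S₀`, `B''/B` normal. -/
theorem hasSClassDescent_of_isUnramifiedOutside (hS : S₀.Nonempty) (h : B ≤ B') (h' : B' ≤ B'')
    (hB'' : B''.IsUnramifiedOutside S₀) [Normal B (layer (h.trans h'))] :
    HasSClassDescent h (↑S₀ : Set Nat.Primes) h' := by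
  intro c hc
  letI := algTop h (h.trans h') h'
  haveI hst : IsScalarTower B (layer h) (layer (h.trans h')) :=
    IsScalarTower.of_algebraMap_eq fun _ => rfl
  haveI := hB''.1
  haveI : FiniteDimensional ℚ B := (hB''.of_le (h.trans h')).1
  haveI : FiniteDimensional ℚ B' := (hB''.of_le h').1
  haveI : NumberField B := @NumberField.mk B _ inferInstance ‹_›
  haveI : FiniteDimensional B (layer h) := finiteDimensional_layer h
  haveI : FiniteDimensional B (layer (h.trans h')) := finiteDimensional_layer (h.trans h')
  haveI : NumberField (layer h) := NumberField.of_module_finite B (layer h)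
  haveI : NumberField (layer (h.trans h')) := NumberField.of_module_finite B (layer (h.trans h'))
  haveI : FiniteDimensional (layer h) (layer (h.trans h')) :=
    FiniteDimensional.right B (layer h) (layer (h.trans h'))
  haveI : Normal (layer h) (layer (h.trans h')) :=
    Normal.tower_top_of_normal B (layer h) (layer (h.trans h'))
  haveI : IsGalois (layer h) (layer (h.trans h')) := ⟨⟩
  have hne : ∃ q ∈ (↑S₀ : Set Nat.Primes),
      Nonempty (LocalEmb ((q : Nat.Primes) : ℕ) (layer (h.trans h'))) :=
    IdeleDict.exists_localEmb_layer (h.trans h') (Finset.coe_nonempty.2 hS)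
  refine exists_ideleClassSMap_eq_of_smul_eq (layer h) (layer (h.trans h')) (↑S₀ : Set Nat.Primes)
    (Fermat.Agent.CFT.IdeleDict.principalIsIdele (layer (h.trans h'))) hne (fun q hq => ?_) c (fun τ => ?_)
  · exact h1TrivialOn_gal_of_isUnramifiedOutside hB'' (fun hqS => hq (Finset.mem_coe.2 hqS))
      (layer h) (algebraMap (layer (h.trans h')) Qb) (fun x => x.2)
  · obtain ⟨σ, hσ⟩ := layerRes_surjective (h.trans h')
      (galRes B (layer (h.trans h')) (layer h) (layer (h.trans h')) τ)
    have hmem : (σ : Qb ≃ₐ[ℚ] Qb) ∈ B'.fixingSubgroup := by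
      rw [IntermediateField.mem_fixingSubgroup_iff]
      intro x hx
      have h1 := layerRes_apply (h.trans h') σ ⟨x, h' hx⟩
      rw [hσ, galRes_rest_apply] at h1
      rw [← h1]
      have h2 : τ (algebraMap (layer h) (layer (h.trans h')) ⟨x, hx⟩) =
          algebraMap (layer h) (layer (h.trans h')) ⟨x, hx⟩ := τ.commutes _
      exact congrArg Subtype.val h2
    have h3 := hc σ hmem
    rw [hσ, galRes_rest_smul_ideleClassS] at h3
    exact h3

/-- The hypothesis `hdescA` of `csFullDict` (`PT/CSFullDict.lean`), verbatim, for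
`Adm := (·.IsUnramifiedOutside S₀)` and `S := ↑S₀`. -/
theorem hdescA_isUnramifiedOutside (hS : S₀.Nonempty) :
    ∀ {B B' B'' : IntermediateField ℚ Qb} (h : B ≤ B') (h' : B' ≤ B''),
      B''.IsUnramifiedOutside S₀ → ∀ [Normal B (layer (h.trans h'))],
        HasSClassDescent h (↑S₀ : Set Nat.Primes) h' :=
  fun h h' hadm => hasSClassDescent_of_isUnramifiedOutside hS h h' hadm

end

end Fermat.Agent.CFT.PT
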