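import Fermat.Agent.CFT.PT.CSFullDict
import Fermat.Agent.CFT.LC.KummerPairing
import Fermat.Agent.CFT.Global.ExistenceLayer

/-!
# Layer C, node [G4-FIN]: `(C_S')^{Gal(Ω/E)} / p` is finite

For `A = csFullTowerRep L S E` (the smooth `S`-idele class module restricted to `Gal(Ω/E)`):
`LCSym.VQuot A p = A^G / p A^G` is finite, because `A^G ≃ C_S(E)` (`csFullInvariantsEquiv` at the
trivial layer `E ≤ E`) and `[C_S(E) : C_S(E)^p]` divides a power of `p`
(`ExistenceCore.index_range_pow_ideleClassS_dvd`).

* `LCSym.finite_vQuot_of_addEquiv`: abstract transport.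
* `index_range_pow_ideleClassS_ne_zero`: `[C_S(K) : C_S(K)^p] ≠ 0` for a number field `K ∋ ζ_p`,
  `p` odd, `S` finite.
* `invSubEquivSClass`: `A^G ≃+ C_S(E)`.
* `finite_vQuot_csFullTowerRep` (hypothesis form), `finite_vQuot_csFullTowerRep_of_adm`
  (hypotheses of `csFullDict`), `index_range_pow_ideleClassS_self_ne_zero` (the index hypothesis
  for `k = ℚ`), `finite_vQuot_csFullTowerRep_rat` (`k = ℚ`, everything discharged except the
  dictionary hypotheses).
-/

set_option autoImplicit false
set_option linter.unusedSectionVars false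

noncomputable section

open IntermediateField

namespace Fermat.Agent.CFT

namespace LCSym

/-- If `C^G ≃+ X` with `[X : X^p]` finite, then `C^G / p` is finite. -/
theorem finite_vQuot_of_addEquiv {G : Type} [Group G] (C : Rep.{0} ℤ G) (p : ℕ)
    {X : Type*} [CommGroup X] (e : ↥(invSub C) ≃+ Additive X)
    (hidx : (powMonoidHom (α := X) p).range.index ≠ 0) : Finite (VQuot C p) := by
  have hfi : (powMonoidHom (α := X) p).range.FiniteIndex := ⟨hidx⟩
  have hfin : Finite (X ⧸ (powMonoidHom (α := X) p).range) := inferInstance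
  let φ : ↥(invSub C) →+ Additive (X ⧸ (powMonoidHom (α := X) p).range) :=
    (MonoidHom.toAdditive (QuotientGroup.mk' (powMonoidHom (α := X) p).range)).comp
      e.toAddMonoidHom
  have hφ : ∀ a, φ a = Additive.ofMul (QuotientGroup.mk (Additive.toMul (e a))) := fun _ => rfl
  have hker : (nsmulAddMonoidHom p : ↥(invSub C) →+ ↥(invSub C)).range ≤ φ.ker := by
    rintro _ ⟨b, rfl⟩
    rw [AddMonoidHom.mem_ker, hφ, nsmulAddMonoidHom_apply, map_nsmul, toMul_nsmul]
    apply congrArg Additive.ofMul
    rw [QuotientGroup.eq_one_iff]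
    exact ⟨Additive.toMul (e b), rfl⟩
  let g : VQuot C p → Additive (X ⧸ (powMonoidHom (α := X) p).range) :=
    QuotientAddGroup.lift _ φ hker
  have hg : Function.Injective g := by
    show Function.Injective (QuotientAddGroup.lift _ φ hker)
    rw [injective_iff_map_eq_zero]
    intro x hx
    induction x using QuotientAddGroup.induction_on with
    | H a =>
      rw [QuotientAddGroup.lift_mk, hφ] at hx
      have h1 : (QuotientGroup.mk (Additive.toMul (e a)) :
          X ⧸ (powMonoidHom (α := X) p).range) = 1 := congrArg Additive.toMul hx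
      rw [QuotientGroup.eq_one_iff] at h1
      obtain ⟨y, hy⟩ := h1
      rw [QuotientAddGroup.eq_zero_iff]
      refine ⟨e.symm (Additive.ofMul y), ?_⟩
      apply e.injective
      rw [nsmulAddMonoidHom_apply, map_nsmul, e.apply_symm_apply]
      exact congrArg Additive.ofMul hy
  exact Finite.of_injective g hg

end LCSym

namespace ExistenceCore

open NumberField IsDedekindDomain IdeleDict

/-- **Finiteness of `C_S(K)/p`**: for a number field `K ∋ ζ_p`, `p` odd, and a finite set `S` of
rational primes, the subgroup of `p`-th powers has finite index in `C_S(K)`. -/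
theorem index_range_pow_ideleClassS_ne_zero (K : Type) [Field K] [NumberField K]
    (pp : Nat.Primes) (hp2 : 2 < (pp : ℕ)) {ζ : K} (hζ : IsPrimitiveRoot ζ (pp : ℕ))
    {S : Set Nat.Primes} (hS : S.Finite) :
    (powMonoidHom (α := ideleClassS K S) (pp : ℕ)).range.index ≠ 0 := by
  obtain ⟨T, hST, hTfin, hgen, -⟩ :=
    ExistenceModP.exists_finite_superset_generates K (S := S ∪ {pp})
      (hS.union (Set.finite_singleton pp))
  have hdvd := index_range_pow_ideleClassS_dvd (K := K) pp hp2 hζ S
    (KummerLayer.placesOverFinset K hTfin.toFinset)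
    (fun v hv => KummerLayer.mem_placesOverFinset.2
      ((Set.Finite.mem_toFinset hTfin).2 (hST (Or.inl hv))))
    (fun v hv => KummerLayer.mem_placesOverFinset.2
      ((Set.Finite.mem_toFinset hTfin).2 (hST (Or.inr hv))))
    (by
      rw [KummerLayer.image_prime_placesOverFinset, Set.Finite.coe_toFinset]
      exact hgen)
    (FirstIneq.firstIneq_hFI K pp hp2)
  exact ne_zero_of_dvd_ne_zero (pow_ne_zero _ pp.2.ne_zero) hdvd

end ExistenceCore

namespace PT

open Fermat.Agent.CFT.GaloisTower

variable {k Ω : Type} [Field k] [Field Ω] [Algebra k Ω] [IsGalois k Ω]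
variable (L : LevelStructure (Ω ≃ₐ[k] Ω)) (S : Set Nat.Primes)
variable (E : IntermediateField k Ω)

omit [IsGalois k Ω] in
/-- The trivial layer `E / E` is normal. -/
theorem normal_layer_self : Normal E (layer (le_refl E)) := by
  have hsurj : Function.Surjective (algebraMap E (layer (le_refl E))) :=
    fun x => ⟨⟨x.1, x.2⟩, rfl⟩
  exact Normal.of_algEquiv (AlgEquiv.ofBijective (Algebra.ofId E (layer (le_refl E)))
    ⟨(algebraMap E (layer (le_refl E))).injective, hsurj⟩)

/-- `A^G` is the module of invariants under the kernel of the restriction to the trivial layer. -/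
def invSubEquivInvariantsSelf :
    haveI := normal_layer_self E
    ↥(LCSym.invSub (csFullTowerRep L S E)) ≃+
      Representation.invariants
        ((csFullTowerRep L S E).ρ.comp (layerRes (le_refl E)).ker.subtype) :=
  haveI := normal_layer_self E
  { toFun := fun a => ⟨a.1, fun σ => a.2 σ.1⟩
    invFun := fun a => ⟨a.1, fun σ =>
      a.2 ⟨σ, (mem_ker_layerRes_iff (le_refl E) σ).2 σ.2⟩⟩
    left_inv := fun _ => rfl
    right_inv := fun _ => rfl
    map_add' := fun _ _ => rfl }

variable (hopen : L.IsOpen E.fixingSubgroup)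
  (hne : ∃ q ∈ S, Nonempty (LocalEmb ((q : Nat.Primes) : ℕ) Ω))
  (hdesc : HasCofinalSClassDescent L S (le_refl E))

/-- `A^G ≃+ C_S(E)` for `A = C_S'` restricted to `Gal(Ω/E)`. -/
def invSubEquivSClass :
    ↥(LCSym.invSub (csFullTowerRep L S E)) ≃+ Additive (ideleClassS (layer (le_refl E)) S) :=
  haveI := normal_layer_self E
  (invSubEquivInvariantsSelf L S E).trans (csFullInvariantsEquiv L S (le_refl E) hopen hne hdesc)

include hopen hne hdesc in
/-- **[G4-FIN], hypothesis form**: `A^G / p` is finite as soon as `[C_S(E) : C_S(E)^p]` is. -/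
theorem finite_vQuot_csFullTowerRep (p : ℕ)
    (hidx : (powMonoidHom (α := ideleClassS (layer (le_refl E)) S) p).range.index ≠ 0) :
    Finite (LCSym.VQuot (csFullTowerRep L S E) p) :=
  LCSym.finite_vQuot_of_addEquiv _ p (invSubEquivSClass L S E hopen hne hdesc) hidx

section Adm

variable (Adm : IntermediateField k Ω → Prop)
  (hGalA : ∀ N, L.IsLevel N → ∃ F : IntermediateField k Ω,
    Adm F ∧ Normal k F ∧ N = F.fixingSubgroup)
  (hcofA : ∀ E' : IntermediateField k Ω, Adm E' → ∃ N, L.IsLevel N ∧ N ≤ E'.fixingSubgroup)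
  (hsup : ∀ {B B' : IntermediateField k Ω}, Adm B → Adm B' → Adm (B ⊔ B'))
  (hdescA : ∀ {B B' B'' : IntermediateField k Ω} (h : B ≤ B') (h' : B' ≤ B''), Adm B'' →
    ∀ [Normal B (layer (h.trans h'))], HasSClassDescent h S h')
  (hE : Adm E)

include hGalA hsup hdescA hE in
/-- The cofinal descent hypothesis at the trivial layer, from the hypotheses of `csFullDict`. -/
theorem hasCofinalSClassDescent_refl_of_adm : HasCofinalSClassDescent L S (le_refl E) := by
  intro N hN
  obtain ⟨F, hF, hFn, rfl⟩ := hGalA N hN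
  have h' : E ≤ E ⊔ F := le_sup_left
  have hnorm : Normal E (layer ((le_refl E).trans h')) := normal_layer_sup_left E F
  refine ⟨E ⊔ F, h', ?_, hnorm, hdescA (le_refl E) h' (hsup hE hF)⟩
  rw [IntermediateField.fixingSubgroup_sup]
  exact inf_le_right

include hGalA hcofA hsup hne hdescA hE in
/-- **[G4-FIN], in the hypotheses of `csFullDict`.** -/
theorem finite_vQuot_csFullTowerRep_of_adm (p : ℕ)
    (hidx : (powMonoidHom (α := ideleClassS (layer (le_refl E)) S) p).range.index ≠ 0) :
    Finite (LCSym.VQuot (csFullTowerRep L S E) p) :=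
  finite_vQuot_csFullTowerRep L S E (hcofA E hE) hne
    (hasCofinalSClassDescent_refl_of_adm L S E Adm hGalA hsup hdescA hE) p hidx

end Adm

section Rat

variable {Ω : Type} [Field Ω] [Algebra ℚ Ω] [IsGalois ℚ Ω]
variable (L : LevelStructure (Ω ≃ₐ[ℚ] Ω)) (S : Set Nat.Primes) (E : IntermediateField ℚ Ω)

omit [IsGalois ℚ Ω] in
/-- The identity `E ≃+* E`, the target regarded as the trivial layer `E / E`. -/
def selfLayerRingEquiv : ↥E ≃+* ↥(layer (le_refl E)) where
  toFun x := ⟨x.1, x.2⟩
  invFun x := ⟨x.1, x.2⟩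
  left_inv _ := rfl
  right_inv _ := rfl
  map_mul' _ _ := rfl
  map_add' _ _ := rfl

omit [IsGalois ℚ Ω] in
/-- `[C_S(E) : C_S(E)^p] ≠ 0` for the trivial layer of a number field `E ∋ ζ_p` inside `Ω`. -/
theorem index_range_pow_ideleClassS_self_ne_zero [NumberField ↥E] (pp : Nat.Primes)
    (hp2 : 2 < (pp : ℕ)) {ζ : ↥E} (hζ : IsPrimitiveRoot ζ (pp : ℕ)) (hS : S.Finite) :
    (powMonoidHom (α := ideleClassS (layer (le_refl E)) S) (pp : ℕ)).range.index ≠ 0 := by
  have hnf : NumberField ↥(layer (le_refl E)) := NumberField.of_ringEquiv _ _ (selfLayerRingEquiv E)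
  exact ExistenceCore.index_range_pow_ideleClassS_ne_zero ↥(layer (le_refl E)) pp hp2
    (hζ.map_of_injective (selfLayerRingEquiv E).injective) hS

/-- **[G4-FIN] over `ℚ`, hypothesis form**: for a number field `E ∋ ζ_p` inside `Ω`, `p` odd, `S`
finite, `(C_S')^{Gal(Ω/E)} / p` is finite. -/
theorem finite_vQuot_csFullTowerRep_rat [NumberField ↥E] (pp : Nat.Primes)
    (hp2 : 2 < (pp : ℕ)) {ζ : ↥E} (hζ : IsPrimitiveRoot ζ (pp : ℕ)) (hS : S.Finite)
    (hopen : L.IsOpen E.fixingSubgroup)
    (hne : ∃ q ∈ S, Nonempty (LocalEmb ((q : Nat.Primes) : ℕ) Ω))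
    (hdesc : HasCofinalSClassDescent L S (le_refl E)) :
    Finite (LCSym.VQuot (csFullTowerRep L S E) (pp : ℕ)) :=
  finite_vQuot_csFullTowerRep L S E hopen hne hdesc (pp : ℕ)
    (index_range_pow_ideleClassS_self_ne_zero S E pp hp2 hζ hS)

end Rat

end PT

end Fermat.Agent.CFT
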