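import Fermat.Agent.CFT.PT.CSFullDict
import Fermat.Agent.CFT.Global.LCExistence
import Fermat.Agent.CFT.Global.ExistenceModPSym

/-!
# Layer C, node C9 [G4-DICT]: invariant elements of `C_S'` are ideles of the base field

For the dictionary `d := csFullDict … F hF` of `C_S' = csFullTowerRep L S F` (restricted to
`Gal(Ω/F)`), every `Gal(Ω/F)`-invariant element `a` of `C_S'` is represented by an idele `x` of the
base field `F`:

* `exists_idele_of_isInv`: `a` is the class of `ideleMap (algebraMap F Ω) x` in `C_S(Ω)`;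
* `csFullDict_levelInv_eq`: at every level `l`, `d.levelInv l a ha` is the class of `x` in
  `C_S(top l)` (in the form used by the existence theorem: the image under `classToClassSRepHom`
  of `ExistenceModP.ideleClassOfBase`);
* `exists_isInv_eq_nsmul_of_pow_eq`: if the class of `x` in `C_S(F)` is a `p`-th power, then `a` is
  `p` times an invariant element;
* `csFullDict_hard_dict`: the packaged statement [G4-DICT].
-/

set_option autoImplicit false
set_option linter.unusedSectionVars false
set_option linter.style.haveILetI false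

noncomputable section

open CategoryTheory groupCohomology IntermediateField

namespace Fermat.Agent.CFT.PT

open Fermat.Agent.CFT Fermat.Agent.CFT.GaloisTower Fermat.Agent.CFT.LayerMaps
  Fermat.Agent.CFT.LCSym

/-- Functoriality of `ideleMap` in the ring homomorphism. -/
theorem ideleMap_ringHom_comp {K₁ K₂ K₃ : Type} [Field K₁] [Field K₂] [Field K₃]
    (φ : K₁ →+* K₂) (ψ : K₂ →+* K₃) (x : ideleGroup K₁) :
    ideleMap ψ (ideleMap φ x) = ideleMap (ψ.comp φ) x := by
  apply Subtype.ext
  funext q
  apply Subtype.ext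
  funext τ
  rfl

variable {k Ω : Type} [Field k] [Field Ω] [Algebra k Ω] [IsGalois k Ω]
variable (L : LevelStructure (Ω ≃ₐ[k] Ω)) (S : Set Nat.Primes)

section Base

variable (F : IntermediateField k Ω)

/-- The inverse of the identification `F → layer (le_rfl : F ≤ F)`. -/
def layerSelfInv : ↥(layer (le_rfl : F ≤ F)) →+* ↥F where
  toFun y := ⟨(y : Ω), y.2⟩
  map_one' := rfl
  map_mul' _ _ := rfl
  map_zero' := rfl
  map_add' _ _ := rfl

theorem algebraMap_comp_layerSelfInv :
    (algebraMap ↥F Ω).comp (layerSelfInv F) = algebraMap ↥(layer (le_rfl : F ≤ F)) Ω :=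
  RingHom.ext fun _ => rfl

theorem ideleMap_algebraMap_layerSelfInv (y : ideleGroup ↥(layer (le_rfl : F ≤ F))) :
    ideleMap (algebraMap ↥F Ω) (ideleMap (layerSelfInv F) y) =
      ideleIncl (Ω := Ω) (le_rfl : F ≤ F) y := by
  rw [ideleMap_ringHom_comp, algebraMap_comp_layerSelfInv]

end Base

section Dict

variable (Adm : IntermediateField k Ω → Prop)
  (hfd : ∀ {F : IntermediateField k Ω}, Adm F → FiniteDimensional k F)
  (hGalA : ∀ N, L.IsLevel N → ∃ F : IntermediateField k Ω,
    Adm F ∧ Normal k F ∧ N = F.fixingSubgroup)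
  (hcofA : ∀ E' : IntermediateField k Ω, Adm E' → ∃ N, L.IsLevel N ∧ N ≤ E'.fixingSubgroup)
  (hsup : ∀ {B B' : IntermediateField k Ω}, Adm B → Adm B' → Adm (B ⊔ B'))
  (hne : ∃ q ∈ S, Nonempty (LocalEmb ((q : Nat.Primes) : ℕ) Ω))
  (hdescA : ∀ {B B' B'' : IntermediateField k Ω} (h : B ≤ B') (h' : B' ≤ B''), Adm B'' →
    ∀ [Normal B (layer (h.trans h'))], HasSClassDescent h S h')
  (F : IntermediateField k Ω) (hF : Adm F)

include hGalA hsup hdescA hF in
/-- Cofinal descent for the trivial layer `F/F`. -/
theorem hasCofinalSClassDescent_self :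
    HasCofinalSClassDescent L S (le_rfl : F ≤ F) := by
  intro N hN
  obtain ⟨F', hF', hF'n, rfl⟩ := hGalA N hN
  have h' : F ≤ F ⊔ F' := le_sup_left
  haveI : Normal F (layer (le_sup_left : F ≤ F ⊔ F')) := normal_layer_sup_left F F'
  have hnorm : Normal F (layer ((le_rfl : F ≤ F).trans h')) :=
    normal_layer_of_eq (le_sup_left : F ≤ F ⊔ F') _ rfl
  refine ⟨F ⊔ F', h', ?_, hnorm, hdescA _ h' (hsup hF hF')⟩
  rw [IntermediateField.fixingSubgroup_sup]
  exact inf_le_right

include hGalA hsup hne hdescA hF in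
/-- **Invariant elements of `C_S'` are classes of ideles of the base field.** -/
theorem exists_idele_of_isInv (a : csFullTowerRep L S F) (ha : IsInv (csFullTowerRep L S F) a) :
    ∃ x : ideleGroup ↥F,
      (QuotientGroup.mk (ideleMap (algebraMap ↥F Ω) x) : ideleClassS Ω S) =
        ((Additive.toMul (a : Additive (CSFull L Ω S)) : CSFull L Ω S) : ideleClassS Ω S) := by
  have hfix : ∀ σ ∈ F.fixingSubgroup, (σ : Ω ≃ₐ[k] Ω) •
      ((Additive.toMul (a : Additive (CSFull L Ω S)) : CSFull L Ω S) : ideleClassS Ω S) =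
        ((Additive.toMul (a : Additive (CSFull L Ω S)) : CSFull L Ω S) : ideleClassS Ω S) := by
    intro σ hσ
    have h1 := congrArg (fun z : Additive (CSFull L Ω S) =>
      ((Additive.toMul z : CSFull L Ω S) : ideleClassS Ω S)) (ha ⟨σ, hσ⟩)
    exact h1
  obtain ⟨c', hc'⟩ := exists_sClassIncl_eq_of_mem_CSFull hne
    (hasCofinalSClassDescent_self L S Adm hGalA hsup hdescA F hF)
    (Additive.toMul (a : Additive (CSFull L Ω S)) : CSFull L Ω S).2 hfix
  obtain ⟨y, rfl⟩ := QuotientGroup.mk_surjective c'
  refine ⟨ideleMap (layerSelfInv F) y, ?_⟩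
  rw [ideleMap_algebraMap_layerSelfInv, ← hc', sClassIncl_mk]

/-- The image in `C_S(Ω)` of the class in `C_S(top)` of an idele of the base field. -/
theorem sClassIncl_classToClassS_ideleClassOfBase {F E' : IntermediateField k Ω} (h : F ≤ E')
    (x : ideleGroup ↥F) :
    sClassIncl h S (Additive.toMul
        ((classToClassSRepHom ↥(layer h) (↥(layer h) ≃ₐ[↥F] ↥(layer h)) S).hom
          (ExistenceModP.ideleClassOfBase ↥F ↥(layer h) x) :
          Additive (ideleClassS ↥(layer h) S))) =
      (QuotientGroup.mk (ideleMap (algebraMap ↥F Ω) x) : ideleClassS Ω S) := by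
  show sClassIncl h S (QuotientGroup.mk (ideleMap (algebraMap ↥F ↥(layer h)) x)) = _
  rw [sClassIncl_mk]
  show (QuotientGroup.mk (ideleMap (algebraMap ↥(layer h) Ω)
    (ideleMap (algebraMap ↥F ↥(layer h)) x)) : ideleClassS Ω S) = _
  rw [ideleMap_algebraMap_comp]

include hfd hGalA hcofA hsup hne hdescA hF in
/-- At every level, `levelInv` of the class of an idele of the base field is the class of that
idele in the `S`-idele classes of the top of the level. -/
theorem csFullDict_levelInv_eq (a : csFullTowerRep L S F) (ha : IsInv (csFullTowerRep L S F) a)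
    (x : ideleGroup ↥F)
    (hx : (QuotientGroup.mk (ideleMap (algebraMap ↥F Ω) x) : ideleClassS Ω S) =
        ((Additive.toMul (a : Additive (CSFull L Ω S)) : CSFull L Ω S) : ideleClassS Ω S))
    (l : (L.comap F.fixingSubgroup.subtype).Level) :
    (csFullDict L S Adm hfd hGalA hcofA hsup hne hdescA F hF).levelInv l a ha =
      (classToClassSRepHom _ _ S).hom (ExistenceModP.ideleClassOfBase ↥F
        ↥(layer ((csFullDict L S Adm hfd hGalA hcofA hsup hne hdescA F hF).le_top l)) x) := by
  haveI := normal_levelTop L (galType_of_adm L Adm hfd hGalA) F l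
  apply Additive.toMul.injective
  apply sClassIncl_injective (le_levelTop L (galType_of_adm L Adm hfd hGalA) F l) S hne
  refine Eq.trans ?_ ((sClassIncl_classToClassS_ideleClassOfBase S
    (le_levelTop L (galType_of_adm L Adm hfd hGalA) F l) x).trans hx).symm
  exact csDictRepIso_hom_coe L S (le_levelTop L (galType_of_adm L Adm hfd hGalA) F l) l.N
    (level_eq_ker L (galType_of_adm L Adm hfd hGalA) F l)
    (isOpen_fixingSubgroup_levelTop L Adm hfd hGalA hcofA hsup F hF l) hne
    (hasCofinalSClassDescent_levelTop L S Adm hfd hGalA hsup hdescA F hF l)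
    (toInv (csFullTowerRep L S F) l.N a ha)

include hcofA hF in
/-- If the class in `C_S(F)` of the idele `x` of the base field is a `p`-th power, then the
invariant element of `C_S'` it represents is `p` times an invariant element. -/
theorem exists_isInv_eq_nsmul_of_pow_eq (p : ℕ) (a : csFullTowerRep L S F) (x : ideleGroup ↥F)
    (hx : (QuotientGroup.mk (ideleMap (algebraMap ↥F Ω) x) : ideleClassS Ω S) =
        ((Additive.toMul (a : Additive (CSFull L Ω S)) : CSFull L Ω S) : ideleClassS Ω S))
    (hy : ∃ y : ideleClassS ↥F S, y ^ p = QuotientGroup.mk x) :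
    ∃ b : csFullTowerRep L S F, IsInv (csFullTowerRep L S F) b ∧ a = p • b := by
  obtain ⟨y, hy⟩ := hy
  have hopen : L.IsOpen F.fixingSubgroup := hcofA F hF
  set c : ideleClassS ↥(layer (le_rfl : F ≤ F)) S :=
    ideleClassSMap ↥F ↥(layer (le_rfl : F ≤ F)) S y with hc
  refine ⟨Additive.ofMul (csIncl L S (le_rfl : F ≤ F) hopen c), ?_, ?_⟩
  · intro σ
    apply Additive.toMul.injective
    apply Subtype.ext
    show ((σ : F.fixingSubgroup) : Ω ≃ₐ[k] Ω) • sClassIncl (le_rfl : F ≤ F) S c =
      sClassIncl (le_rfl : F ≤ F) S c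
    exact smul_sClassIncl_of_mem (le_rfl : F ≤ F) S c σ.2
  · apply Additive.toMul.injective
    apply Subtype.ext
    show ((Additive.toMul (a : Additive (CSFull L Ω S)) : CSFull L Ω S) : ideleClassS Ω S) =
      ((csIncl L S (le_rfl : F ≤ F) hopen c ^ p : CSFull L Ω S) : ideleClassS Ω S)
    rw [← map_pow, csIncl_coe, hc, ← map_pow, hy, ideleClassSMap_mk, sClassIncl_mk, ← hx]
    show _ = (QuotientGroup.mk (ideleMap (algebraMap ↥(layer (le_rfl : F ≤ F)) Ω)
      (ideleMap (algebraMap ↥F ↥(layer (le_rfl : F ≤ F))) x)) : ideleClassS Ω S)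
    rw [ideleMap_algebraMap_comp]

include hfd hGalA hcofA hsup hne hdescA hF in
/-- **[G4-DICT]** Every invariant element `a` of `C_S'` (restricted to `Gal(Ω/F)`) is represented
by an idele `x` of `F`: at every level `l` of the dictionary, `levelInv l a` is the class of `x`, and
if the class of `x` in `C_S(F)` is a `p`-th power then `a` is `p` times an invariant element. -/
theorem csFullDict_hard_dict (p : ℕ) (a : csFullTowerRep L S F)
    (ha : IsInv (csFullTowerRep L S F) a) :
    ∃ x : ideleGroup ↥F,
      (∀ l : (L.comap F.fixingSubgroup.subtype).Level,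
        (csFullDict L S Adm hfd hGalA hcofA hsup hne hdescA F hF).levelInv l a ha =
          (classToClassSRepHom _ _ S).hom (ExistenceModP.ideleClassOfBase ↥F
            ↥(layer ((csFullDict L S Adm hfd hGalA hcofA hsup hne hdescA F hF).le_top l)) x)) ∧
      ((∃ y : ideleClassS ↥F S, y ^ p = QuotientGroup.mk x) →
        ∃ b : csFullTowerRep L S F, IsInv (csFullTowerRep L S F) b ∧ a = p • b) := by
  obtain ⟨x, hx⟩ := exists_idele_of_isInv L S Adm hGalA hsup hne hdescA F hF a ha
  exact ⟨x, csFullDict_levelInv_eq L S Adm hfd hGalA hcofA hsup hne hdescA F hF a ha x hx,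
    exists_isInv_eq_nsmul_of_pow_eq L S Adm hcofA F hF p a x hx⟩

end Dict

end Fermat.Agent.CFT.PT

end
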