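import Fermat.Agent.CFT.PT.SemiLocalTower
import Fermat.Agent.CFT.Global.SModules

/-!
# Node D2a (part A2): the `S`-idele module `J_S` in a Galois tower

`Ω/k` Galois, `G = Gal(Ω/k)` with a level structure `L`, `S` a set of primes and
`J_S = jsRep L Ω S` (the smooth part of `∏_{q ∈ S} A_q(Ω)`).  For intermediate fields `E ≤ E'`
with `E'/E` normal and `Gal(Ω/E')` open, the `Gal(Ω/E)/Gal(Ω/E')`-module `J_S^{Gal(Ω/E')}` is the
`Gal(E'/E)`-module `∏_{q ∈ S} A_q(E')` (`sProdRep`), along `GaloisTower.layerEquiv`.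
-/

set_option autoImplicit false
set_option linter.unusedSectionVars false
set_option linter.style.haveILetI false

noncomputable section

namespace Fermat.Agent.CFT.PT

open Fermat.Agent.CFT Fermat.Agent.CFT.GaloisTower IntermediateField

/-- `∏_{q ∈ S} A_q(K)` as a representation of a group acting on the field `K`. -/
def sProdRep (H K : Type) [Group H] [Field K] [MulSemiringAction H K] (S : Set Nat.Primes) :
    Rep ℤ H :=
  Rep.ofMulDistribMulAction H (SIdeleProd K S)

/-- The projection `∏_{q ∈ S} A_q(K) ⟶ A_q(K)`. -/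
def sProdProj (H K : Type) [Group H] [Field K] [MulSemiringAction H K] (S : Set Nat.Primes)
    (q : S) : sProdRep H K S ⟶ semiLocalRep K H ((q : Nat.Primes) : ℕ) :=
  mulRepHom (Pi.evalMonoidHom (fun q : S => semiLocalUnits ((q : Nat.Primes) : ℕ) K) q)
    fun _ _ => rfl

@[simp]
theorem sProdProj_apply (H K : Type) [Group H] [Field K] [MulSemiringAction H K]
    (S : Set Nat.Primes) (q : S) (x : Additive (SIdeleProd K S)) :
    ((sProdProj H K S q).hom x : Additive (semiLocalUnits ((q : Nat.Primes) : ℕ) K)) =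
      Additive.ofMul ((Additive.toMul x : SIdeleProd K S) q) := rfl

/-- Shortcut instance (the generic search through `Pi` instances is very slow). -/
instance (priority := high) sProdSMulShortcut (H K : Type) [Group H] [Field K]
    [MulSemiringAction H K] (S : Set Nat.Primes) : SMul H (SIdeleProd K S) :=
  (sIdeleProdAction (G := H) K S).toSMul

variable {k Ω : Type} [Field k] [Field Ω] [Algebra k Ω] [IsGalois k Ω]
variable (L : LevelStructure (Ω ≃ₐ[k] Ω)) (S : Set Nat.Primes)
variable {E E' : IntermediateField k Ω} (h : E ≤ E')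

/-- The `Gal(Ω/E)`-module `J_S`. -/
abbrev jsTowerRep (E : IntermediateField k Ω) : Rep ℤ E.fixingSubgroup :=
  Rep.res E.fixingSubgroup.subtype (jsRep L Ω S)

theorem jsTowerRep_ρ_apply (σ : E.fixingSubgroup) (x : Additive (JS L Ω S)) :
    Additive.toMul ((jsTowerRep L S E).ρ σ x : Additive (JS L Ω S)) =
      (σ : Ω ≃ₐ[k] Ω) • (Additive.toMul x : JS L Ω S) := rfl

/-- The componentwise inclusion `∏_{q ∈ S} A_q(E') → ∏_{q ∈ S} A_q(Ω)`. -/
def sProdIncl : SIdeleProd (layer h) S →* SIdeleProd Ω S where
  toFun y q := slIncl h (y q)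
  map_one' := funext fun _ => map_one _
  map_mul' y y' := funext fun _ => map_mul _ (y _) (y' _)

@[simp]
theorem sProdIncl_apply (y : SIdeleProd (layer h) S) (q : S) :
    sProdIncl S h y q = slIncl h (y q) := rfl

theorem sProdIncl_injective : Function.Injective (sProdIncl (Ω := Ω) S h) := by
  intro y y' hyy
  funext q
  exact slIncl_injective h (congrFun hyy q)

theorem smul_sProdIncl [Normal E (layer h)] (σ : E.fixingSubgroup) (y : SIdeleProd (layer h) S) :
    (σ : Ω ≃ₐ[k] Ω) • sProdIncl S h y = sProdIncl S h (layerRes h σ • y) :=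
  funext fun q => smul_slIncl h σ (y q)

theorem mem_range_sProdIncl_iff (x : SIdeleProd Ω S) :
    x ∈ (sProdIncl (Ω := Ω) S h).range ↔ ∀ σ ∈ E'.fixingSubgroup, (σ : Ω ≃ₐ[k] Ω) • x = x := by
  constructor
  · rintro ⟨y, rfl⟩ σ hσ
    funext q
    exact (mem_range_slIncl_iff h _).1 ⟨y q, rfl⟩ σ hσ
  · intro hx
    have hq : ∀ q : S, x q ∈ (slIncl (q := ((q : Nat.Primes) : ℕ)) h).range := fun q =>
      (mem_range_slIncl_iff h _).2 fun σ hσ => congrFun (hx σ hσ) q
    exact ⟨fun q => Classical.choose (hq q), funext fun q => Classical.choose_spec (hq q)⟩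

variable {L S} in
/-- An element of the product fixed by the open subgroup `Gal(Ω/E')` is smooth. -/
theorem sProdIncl_mem_JS (hopen : L.IsOpen E'.fixingSubgroup) (y : SIdeleProd (layer h) S) :
    sProdIncl S h y ∈ JS L Ω S := by
  obtain ⟨N, hN, hle⟩ := hopen
  exact ⟨N, hN, fun g hg => (mem_range_sProdIncl_iff S h _).1 ⟨y, rfl⟩ g (hle hg)⟩

variable [Normal E (layer h)]

theorem mem_invariants_jsTowerRep_iff (x : Additive (JS L Ω S)) :
    x ∈ Representation.invariants ((jsTowerRep L S E).ρ.comp (layerRes h).ker.subtype) ↔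
      ((Additive.toMul x : JS L Ω S) : SIdeleProd Ω S) ∈ (sProdIncl (Ω := Ω) S h).range := by
  rw [mem_range_sProdIncl_iff]
  constructor
  · intro hx σ hσ
    have hσE : σ ∈ E.fixingSubgroup := IntermediateField.fixingSubgroup_antitone h hσ
    have hker : (⟨σ, hσE⟩ : E.fixingSubgroup) ∈ (layerRes h).ker :=
      (mem_ker_layerRes_iff h _).2 hσ
    exact congrArg (fun z : Additive (JS L Ω S) => ((Additive.toMul z : JS L Ω S) :
      SIdeleProd Ω S)) (hx ⟨⟨σ, hσE⟩, hker⟩)
  · intro hx σ
    have hσ : ((σ : E.fixingSubgroup) : Ω ≃ₐ[k] Ω) ∈ E'.fixingSubgroup :=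
      (mem_ker_layerRes_iff h _).1 σ.2
    exact congrArg Additive.ofMul (Subtype.ext (hx _ hσ))

variable (hopen : L.IsOpen E'.fixingSubgroup)

/-- The additive map `∏_{q ∈ S} A_q(E') → J_S^{Gal(Ω/E')}`. -/
def jsInvariantsHom :
    Additive (SIdeleProd (layer h) S) →+
      Representation.invariants ((jsTowerRep L S E).ρ.comp (layerRes h).ker.subtype) where
  toFun y := ⟨Additive.ofMul ⟨sProdIncl S h (Additive.toMul y), sProdIncl_mem_JS h hopen _⟩,
    (mem_invariants_jsTowerRep_iff L S h _).2 ⟨Additive.toMul y, rfl⟩⟩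
  map_zero' := Subtype.ext (congrArg Additive.ofMul (Subtype.ext (map_one (sProdIncl S h))))
  map_add' y y' := Subtype.ext (congrArg Additive.ofMul (Subtype.ext
    (map_mul (sProdIncl S h) (Additive.toMul y) (Additive.toMul y'))))

theorem jsInvariantsHom_coe (y : Additive (SIdeleProd (layer h) S)) :
    ((Additive.toMul ((jsInvariantsHom L S h hopen y).1 : Additive (JS L Ω S)) : JS L Ω S) :
      SIdeleProd Ω S) = sProdIncl S h (Additive.toMul y) := rfl

theorem jsInvariantsHom_bijective : Function.Bijective (jsInvariantsHom L S h hopen) := by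
  constructor
  · intro y y' hyy
    have := congrArg (fun z => ((Additive.toMul (z.1 : Additive (JS L Ω S)) : JS L Ω S) :
      SIdeleProd Ω S)) hyy
    exact congrArg Additive.ofMul (sProdIncl_injective S h this)
  · intro x
    obtain ⟨g, hg⟩ := (mem_invariants_jsTowerRep_iff L S h _).1 x.2
    exact ⟨Additive.ofMul g, Subtype.ext (congrArg Additive.ofMul (Subtype.ext hg))⟩

/-- `J_S^{Gal(Ω/E')} ≃ ∏_{q ∈ S} A_q(E')`. -/
def jsInvariantsEquiv :
    Representation.invariants ((jsTowerRep L S E).ρ.comp (layerRes h).ker.subtype) ≃+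
      Additive (SIdeleProd (layer h) S) :=
  (AddEquiv.ofBijective (jsInvariantsHom L S h hopen) (jsInvariantsHom_bijective L S h hopen)).symm

theorem jsInvariantsEquiv_symm_apply (y : Additive (SIdeleProd (layer h) S)) :
    (jsInvariantsEquiv L S h hopen).symm y = jsInvariantsHom L S h hopen y := rfl

theorem sProdIncl_jsInvariantsEquiv
    (x : Representation.invariants ((jsTowerRep L S E).ρ.comp (layerRes h).ker.subtype)) :
    sProdIncl S h (Additive.toMul (jsInvariantsEquiv L S h hopen x)) =
      ((Additive.toMul (x.1 : Additive (JS L Ω S)) : JS L Ω S) : SIdeleProd Ω S) := by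
  have := (jsInvariantsEquiv L S h hopen).symm_apply_apply x
  rw [jsInvariantsEquiv_symm_apply] at this
  exact congrArg (fun z => ((Additive.toMul (z.1 : Additive (JS L Ω S)) : JS L Ω S) :
    SIdeleProd Ω S)) this

/-- **Dictionary (A2)**: `J_S^{Gal(Ω/E')}` as a module over `Gal(Ω/E)/Gal(Ω/E')` is
`∏_{q ∈ S} A_q(E')` as a module over `Gal(E'/E)`. -/
def jsInvariantsIso :
    (jsTowerRep L S E).quotientToInvariants (layerRes h).ker ≅
      Rep.res (layerEquiv h).toMonoidHom
        (sProdRep ((layer h) ≃ₐ[E] (layer h)) (layer h) S) :=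
  Rep.mkIso (Representation.Equiv.mk (jsInvariantsEquiv L S h hopen).toIntLinearEquiv (by
    intro g
    induction g using QuotientGroup.induction_on with
    | H σ =>
      ext x
      apply (jsInvariantsEquiv L S h hopen).symm.injective
      apply Subtype.ext
      apply Additive.toMul.injective
      apply Subtype.ext
      show ((Additive.toMul ((((jsInvariantsEquiv L S h hopen).symm
        ((jsInvariantsEquiv L S h hopen) _)).1 : Additive (JS L Ω S))) : JS L Ω S) :
          SIdeleProd Ω S) = _
      rw [AddEquiv.symm_apply_apply]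
      show (σ : Ω ≃ₐ[k] Ω) • ((Additive.toMul (x.1 : Additive (JS L Ω S)) : JS L Ω S) :
          SIdeleProd Ω S) =
        sProdIncl S h (layerRes h σ • (Additive.toMul (jsInvariantsEquiv L S h hopen x) :
          SIdeleProd (layer h) S))
      rw [← smul_sProdIncl, sProdIncl_jsInvariantsEquiv]))

theorem jsInvariantsIso_hom_apply
    (x : Representation.invariants ((jsTowerRep L S E).ρ.comp (layerRes h).ker.subtype)) :
    (jsInvariantsIso L S h hopen).hom.hom x = jsInvariantsEquiv L S h hopen x := rfl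

theorem jsInvariantsIso_inv_apply (y : Additive (SIdeleProd (layer h) S)) :
    (jsInvariantsIso L S h hopen).inv.hom y = jsInvariantsHom L S h hopen y := rfl

end Fermat.Agent.CFT.PT

end
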