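import Fermat.Agent.CFT.Global.SClassTower
import Fermat.Agent.CFT.Global.SModulesFull
import Fermat.Agent.CFT.PT.JSTower

/-!
# Layer C, node C1d (part S, 2): the dictionary for the full smooth `S`-idele class module

`Ω/k` Galois, `L` a level structure on `Gal(Ω/k)`, `S` a set of primes, `E ≤ E'` intermediate
fields with `E'/E` normal and `Gal(Ω/E')` open.  For the module `C_S' = csFullRep L Ω S`
(`Global/SModulesFull.lean`: the image of the smooth ideles of `Ω` in `C_S(Ω)`):

* `ideleIncl_mem_JFull`: ideles of `E'` are smooth ideles of `Ω`; `exists_ideleIncl_eq_of_mem_JFull`: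
  every smooth idele comes from a layer cut out by a level;
* `jFullInvariantsIso`: `(J')^{Gal(Ω/E')} ≅ J_{E'}` as modules over `Gal(Ω/E)/Gal(Ω/E') ≃ Gal(E'/E)`;
* `csIncl h : C_S(E') →* C_S'`, injective (`csIncl_injective`);
* `HasCofinalSClassDescent`: the finite-level descent hypothesis (cofinally many layers `E''/E'` with
  `C_S(E'')^{Gal(E''/E')} = C_S(E')`);
* `csFullInvariantsIso`: `(C_S')^{Gal(Ω/E')} ≅ C_S(E')` as modules over
  `Gal(Ω/E)/Gal(Ω/E') ≃ Gal(E'/E)`.
-/

set_option autoImplicit false
set_option linter.unusedSectionVars false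
set_option linter.style.haveILetI false

noncomputable section

namespace Fermat.Agent.CFT.PT

open Fermat.Agent.CFT Fermat.Agent.CFT.GaloisTower IntermediateField

variable {k Ω : Type} [Field k] [Field Ω] [Algebra k Ω] [IsGalois k Ω]
variable (L : LevelStructure (Ω ≃ₐ[k] Ω)) (S : Set Nat.Primes)
variable {E E' : IntermediateField k Ω} (h : E ≤ E')

/-! ### Smooth ideles -/

variable {L} in
/-- An idele of `Ω` fixed by the open subgroup `Gal(Ω/E')` is smooth. -/
theorem ideleIncl_mem_JFull (hopen : L.IsOpen E'.fixingSubgroup) (y : ideleGroup (layer h)) :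
    ideleIncl h y ∈ JFull L Ω := by
  obtain ⟨N, hN, hle⟩ := hopen
  exact ⟨N, hN, fun g hg => (mem_range_ideleIncl_iff h _).1 ⟨y, rfl⟩ g (hle hg)⟩

variable {L} in
/-- A smooth idele comes from every layer whose fixing subgroup is small enough. -/
theorem exists_ideleIncl_eq_of_mem_JFull {x : ideleGroup Ω} (hx : x ∈ JFull L Ω) :
    ∃ N, L.IsLevel N ∧ ∀ (E'' : IntermediateField k Ω) (h'' : E ≤ E''), E''.fixingSubgroup ≤ N →
      ∃ y : ideleGroup (layer h''), ideleIncl h'' y = x := by
  obtain ⟨N, hN, hfix⟩ := hx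
  exact ⟨N, hN, fun E'' h'' hle =>
    (mem_range_ideleIncl_iff h'' x).2 fun σ hσ => hfix σ (hle hσ)⟩

/-- The `Gal(Ω/E)`-module of smooth ideles. -/
abbrev jFullTowerRep (E : IntermediateField k Ω) : Rep ℤ E.fixingSubgroup :=
  Rep.res E.fixingSubgroup.subtype (jFullRep L Ω)

/-- The `Gal(Ω/E)`-module `C_S'`. -/
abbrev csFullTowerRep (E : IntermediateField k Ω) : Rep ℤ E.fixingSubgroup :=
  Rep.res E.fixingSubgroup.subtype (csFullRep L Ω S)

theorem jFullTowerRep_ρ_apply (σ : E.fixingSubgroup) (x : Additive (JFull L Ω)) :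
    Additive.toMul ((jFullTowerRep L E).ρ σ x : Additive (JFull L Ω)) =
      (σ : Ω ≃ₐ[k] Ω) • (Additive.toMul x : JFull L Ω) := rfl

theorem csFullTowerRep_ρ_apply (σ : E.fixingSubgroup) (x : Additive (CSFull L Ω S)) :
    Additive.toMul ((csFullTowerRep L S E).ρ σ x : Additive (CSFull L Ω S)) =
      (σ : Ω ≃ₐ[k] Ω) • (Additive.toMul x : CSFull L Ω S) := rfl

/-! ### The dictionary for the smooth ideles -/

section JFull

variable [Normal E (layer h)]

theorem mem_invariants_jFullTowerRep_iff (x : Additive (JFull L Ω)) :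
    x ∈ Representation.invariants ((jFullTowerRep L E).ρ.comp (layerRes h).ker.subtype) ↔
      ((Additive.toMul x : JFull L Ω) : ideleGroup Ω) ∈ (ideleIncl (Ω := Ω) h).range := by
  rw [mem_range_ideleIncl_iff]
  constructor
  · intro hx σ hσ
    have hσE : σ ∈ E.fixingSubgroup := IntermediateField.fixingSubgroup_antitone h hσ
    have hker : (⟨σ, hσE⟩ : E.fixingSubgroup) ∈ (layerRes h).ker :=
      (mem_ker_layerRes_iff h _).2 hσ
    exact congrArg (fun z : Additive (JFull L Ω) => ((Additive.toMul z : JFull L Ω) :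
      ideleGroup Ω)) (hx ⟨⟨σ, hσE⟩, hker⟩)
  · intro hx σ
    have hσ : ((σ : E.fixingSubgroup) : Ω ≃ₐ[k] Ω) ∈ E'.fixingSubgroup :=
      (mem_ker_layerRes_iff h _).1 σ.2
    exact congrArg Additive.ofMul (Subtype.ext (hx _ hσ))

variable (hopen : L.IsOpen E'.fixingSubgroup)

/-- The additive map `J_{E'} → (J')^{Gal(Ω/E')}`. -/
def jFullInvariantsHom :
    Additive (ideleGroup (layer h)) →+
      Representation.invariants ((jFullTowerRep L E).ρ.comp (layerRes h).ker.subtype) where
  toFun y := ⟨Additive.ofMul ⟨ideleIncl h (Additive.toMul y), ideleIncl_mem_JFull h hopen _⟩,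
    (mem_invariants_jFullTowerRep_iff L h _).2 ⟨Additive.toMul y, rfl⟩⟩
  map_zero' := Subtype.ext (congrArg Additive.ofMul (Subtype.ext (map_one (ideleIncl h))))
  map_add' y y' := Subtype.ext (congrArg Additive.ofMul (Subtype.ext
    (map_mul (ideleIncl h) (Additive.toMul y) (Additive.toMul y'))))

theorem jFullInvariantsHom_coe (y : Additive (ideleGroup (layer h))) :
    ((Additive.toMul ((jFullInvariantsHom L h hopen y).1 : Additive (JFull L Ω)) : JFull L Ω) :
      ideleGroup Ω) = ideleIncl h (Additive.toMul y) := rfl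

theorem jFullInvariantsHom_bijective : Function.Bijective (jFullInvariantsHom L h hopen) := by
  constructor
  · intro y y' hyy
    have := congrArg (fun z => ((Additive.toMul (z.1 : Additive (JFull L Ω)) : JFull L Ω) :
      ideleGroup Ω)) hyy
    exact congrArg Additive.ofMul (ideleIncl_injective h this)
  · intro x
    obtain ⟨g, hg⟩ := (mem_invariants_jFullTowerRep_iff L h _).1 x.2
    exact ⟨Additive.ofMul g, Subtype.ext (congrArg Additive.ofMul (Subtype.ext hg))⟩

/-- `(J')^{Gal(Ω/E')} ≃ J_{E'}`. -/
def jFullInvariantsEquiv :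
    Representation.invariants ((jFullTowerRep L E).ρ.comp (layerRes h).ker.subtype) ≃+
      Additive (ideleGroup (layer h)) :=
  (AddEquiv.ofBijective (jFullInvariantsHom L h hopen) (jFullInvariantsHom_bijective L h hopen)).symm

theorem jFullInvariantsEquiv_symm_apply (y : Additive (ideleGroup (layer h))) :
    (jFullInvariantsEquiv L h hopen).symm y = jFullInvariantsHom L h hopen y := rfl

theorem ideleIncl_jFullInvariantsEquiv
    (x : Representation.invariants ((jFullTowerRep L E).ρ.comp (layerRes h).ker.subtype)) :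
    ideleIncl h (Additive.toMul (jFullInvariantsEquiv L h hopen x)) =
      ((Additive.toMul (x.1 : Additive (JFull L Ω)) : JFull L Ω) : ideleGroup Ω) := by
  have := (jFullInvariantsEquiv L h hopen).symm_apply_apply x
  rw [jFullInvariantsEquiv_symm_apply] at this
  exact congrArg (fun z => ((Additive.toMul (z.1 : Additive (JFull L Ω)) : JFull L Ω) :
    ideleGroup Ω)) this

/-- **Dictionary for the smooth ideles**: `(J')^{Gal(Ω/E')}` as a module over
`Gal(Ω/E)/Gal(Ω/E')` is `J_{E'}` as a module over `Gal(E'/E)`. -/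
def jFullInvariantsIso :
    (jFullTowerRep L E).quotientToInvariants (layerRes h).ker ≅
      Rep.res (layerEquiv h).toMonoidHom (ideleRep (layer h) ((layer h) ≃ₐ[E] (layer h))) :=
  Rep.mkIso (Representation.Equiv.mk (jFullInvariantsEquiv L h hopen).toIntLinearEquiv (by
    intro g
    induction g using QuotientGroup.induction_on with
    | H σ =>
      ext x
      apply (jFullInvariantsEquiv L h hopen).symm.injective
      apply Subtype.ext
      apply Additive.toMul.injective
      apply Subtype.ext
      show ((Additive.toMul ((((jFullInvariantsEquiv L h hopen).symm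
        ((jFullInvariantsEquiv L h hopen) _)).1 : Additive (JFull L Ω))) : JFull L Ω) :
          ideleGroup Ω) = _
      rw [AddEquiv.symm_apply_apply]
      show (σ : Ω ≃ₐ[k] Ω) • ((Additive.toMul (x.1 : Additive (JFull L Ω)) : JFull L Ω) :
          ideleGroup Ω) =
        ideleIncl h (layerRes h σ • (Additive.toMul (jFullInvariantsEquiv L h hopen x) :
          ideleGroup (layer h)))
      rw [← smul_ideleIncl, ideleIncl_jFullInvariantsEquiv]))

theorem jFullInvariantsIso_hom_apply
    (x : Representation.invariants ((jFullTowerRep L E).ρ.comp (layerRes h).ker.subtype)) :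
    (jFullInvariantsIso L h hopen).hom.hom x = jFullInvariantsEquiv L h hopen x := rfl

theorem jFullInvariantsIso_inv_apply (y : Additive (ideleGroup (layer h))) :
    (jFullInvariantsIso L h hopen).inv.hom y = jFullInvariantsHom L h hopen y := rfl

end JFull

/-! ### The dictionary for `C_S'` -/

section CSFull

variable {L} in
theorem sClassIncl_mem_CSFull (hopen : L.IsOpen E'.fixingSubgroup) (c : ideleClassS (layer h) S) :
    sClassIncl h S c ∈ CSFull L Ω S := by
  induction c using QuotientGroup.induction_on with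
  | H y => exact ⟨ideleIncl h y, ideleIncl_mem_JFull h hopen y, rfl⟩

/-- `C_S(E') →* C_S'`. -/
def csIncl (hopen : L.IsOpen E'.fixingSubgroup) : ideleClassS (layer h) S →* CSFull L Ω S :=
  (sClassIncl h S).codRestrict (CSFull L Ω S) (sClassIncl_mem_CSFull S h hopen)

@[simp]
theorem csIncl_coe (hopen : L.IsOpen E'.fixingSubgroup) (c : ideleClassS (layer h) S) :
    ((csIncl L S h hopen c : CSFull L Ω S) : ideleClassS Ω S) = sClassIncl h S c := rfl

theorem csIncl_injective (hopen : L.IsOpen E'.fixingSubgroup)
    (hne : ∃ q ∈ S, Nonempty (LocalEmb ((q : Nat.Primes) : ℕ) Ω)) :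
    Function.Injective (csIncl L S h hopen) := fun _ _ hcc =>
  sClassIncl_injective h S hne (congrArg Subtype.val hcc)

theorem smul_csIncl [Normal E (layer h)] (hopen : L.IsOpen E'.fixingSubgroup)
    (σ : E.fixingSubgroup) (c : ideleClassS (layer h) S) :
    (σ : Ω ≃ₐ[k] Ω) • csIncl L S h hopen c = csIncl L S h hopen (layerRes h σ • c) :=
  Subtype.ext (smul_sClassIncl h S σ c)

/-- **Cofinal finite-level descent**: below every level there is a layer `E''/E'`, normal over `E`,
with `C_S(E'')^{Gal(E''/E')} = C_S(E')`. -/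
def HasCofinalSClassDescent : Prop :=
  ∀ N, L.IsLevel N → ∃ (E'' : IntermediateField k Ω) (h' : E' ≤ E''), E''.fixingSubgroup ≤ N ∧
    ∃ _ : Normal E (layer (h.trans h')), HasSClassDescent h S h'

variable {L S h} in
/-- Every element of `C_S'` fixed by `Gal(Ω/E')` comes from `C_S(E')`. -/
theorem exists_sClassIncl_eq_of_mem_CSFull
    (hne : ∃ q ∈ S, Nonempty (LocalEmb ((q : Nat.Primes) : ℕ) Ω))
    (hdesc : HasCofinalSClassDescent L S h) {c : ideleClassS Ω S} (hc : c ∈ CSFull L Ω S)
    (hfix : ∀ σ ∈ E'.fixingSubgroup, (σ : Ω ≃ₐ[k] Ω) • c = c) :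
    ∃ c' : ideleClassS (layer h) S, sClassIncl h S c' = c := by
  obtain ⟨x, hx, rfl⟩ := hc
  obtain ⟨N, hN, hfixN⟩ := hx
  obtain ⟨E'', h', hle, hnorm, hd⟩ := hdesc N hN
  obtain ⟨y, hy⟩ := (mem_range_ideleIncl_iff (h.trans h') x).2 fun σ hσ => hfixN σ (hle hσ)
  have hcy : sClassIncl (h.trans h') S (QuotientGroup.mk y) =
      (QuotientGroup.mk x : ideleClassS Ω S) := by
    rw [sClassIncl_mk, hy]
  obtain ⟨c', hc'⟩ := exists_sClassIncl_eq_of_smul_eq h S hne h' hd (QuotientGroup.mk y)
    (fun σ hσ => by rw [hcy]; exact hfix σ hσ)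
  exact ⟨c', hc'.trans hcy⟩

variable [Normal E (layer h)]

theorem mem_invariants_csFullTowerRep_iff (x : Additive (CSFull L Ω S)) :
    x ∈ Representation.invariants ((csFullTowerRep L S E).ρ.comp (layerRes h).ker.subtype) ↔
      ∀ σ ∈ E'.fixingSubgroup, (σ : Ω ≃ₐ[k] Ω) •
        ((Additive.toMul x : CSFull L Ω S) : ideleClassS Ω S) =
          ((Additive.toMul x : CSFull L Ω S) : ideleClassS Ω S) := by
  constructor
  · intro hx σ hσ
    have hσE : σ ∈ E.fixingSubgroup := IntermediateField.fixingSubgroup_antitone h hσ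
    have hker : (⟨σ, hσE⟩ : E.fixingSubgroup) ∈ (layerRes h).ker :=
      (mem_ker_layerRes_iff h _).2 hσ
    exact congrArg (fun z : Additive (CSFull L Ω S) => ((Additive.toMul z : CSFull L Ω S) :
      ideleClassS Ω S)) (hx ⟨⟨σ, hσE⟩, hker⟩)
  · intro hx σ
    have hσ : ((σ : E.fixingSubgroup) : Ω ≃ₐ[k] Ω) ∈ E'.fixingSubgroup :=
      (mem_ker_layerRes_iff h _).1 σ.2
    exact congrArg Additive.ofMul (Subtype.ext (hx _ hσ))

variable (hopen : L.IsOpen E'.fixingSubgroup)

/-- The additive map `C_S(E') → (C_S')^{Gal(Ω/E')}`. -/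
def csFullInvariantsHom :
    Additive (ideleClassS (layer h) S) →+
      Representation.invariants ((csFullTowerRep L S E).ρ.comp (layerRes h).ker.subtype) where
  toFun c := ⟨Additive.ofMul (csIncl L S h hopen (Additive.toMul c)),
    (mem_invariants_csFullTowerRep_iff L S h _).2 fun _ hσ =>
      smul_sClassIncl_of_mem h S (Additive.toMul c) hσ⟩
  map_zero' := Subtype.ext (congrArg Additive.ofMul (map_one (csIncl L S h hopen)))
  map_add' c c' := Subtype.ext (congrArg Additive.ofMul
    (map_mul (csIncl L S h hopen) (Additive.toMul c) (Additive.toMul c')))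

theorem csFullInvariantsHom_coe (c : Additive (ideleClassS (layer h) S)) :
    ((Additive.toMul ((csFullInvariantsHom L S h hopen c).1 : Additive (CSFull L Ω S)) :
      CSFull L Ω S) : ideleClassS Ω S) = sClassIncl h S (Additive.toMul c) := rfl

variable (hne : ∃ q ∈ S, Nonempty (LocalEmb ((q : Nat.Primes) : ℕ) Ω))
  (hdesc : HasCofinalSClassDescent L S h)

include hne hdesc in
theorem csFullInvariantsHom_bijective : Function.Bijective (csFullInvariantsHom L S h hopen) := by
  constructor
  · intro c c' hcc
    have := congrArg (fun z => ((Additive.toMul (z.1 : Additive (CSFull L Ω S)) : CSFull L Ω S) :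
      ideleClassS Ω S)) hcc
    exact congrArg Additive.ofMul (sClassIncl_injective h S hne this)
  · intro x
    obtain ⟨c', hc'⟩ := exists_sClassIncl_eq_of_mem_CSFull hne hdesc
      (Additive.toMul (x.1 : Additive (CSFull L Ω S)) : CSFull L Ω S).2
      ((mem_invariants_csFullTowerRep_iff L S h _).1 x.2)
    exact ⟨Additive.ofMul c', Subtype.ext (congrArg Additive.ofMul (Subtype.ext hc'))⟩

/-- `(C_S')^{Gal(Ω/E')} ≃ C_S(E')`. -/
def csFullInvariantsEquiv :
    Representation.invariants ((csFullTowerRep L S E).ρ.comp (layerRes h).ker.subtype) ≃+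
      Additive (ideleClassS (layer h) S) :=
  (AddEquiv.ofBijective (csFullInvariantsHom L S h hopen)
    (csFullInvariantsHom_bijective L S h hopen hne hdesc)).symm

theorem csFullInvariantsEquiv_symm_apply (c : Additive (ideleClassS (layer h) S)) :
    (csFullInvariantsEquiv L S h hopen hne hdesc).symm c = csFullInvariantsHom L S h hopen c := rfl

theorem sClassIncl_csFullInvariantsEquiv
    (x : Representation.invariants ((csFullTowerRep L S E).ρ.comp (layerRes h).ker.subtype)) :
    sClassIncl h S (Additive.toMul (csFullInvariantsEquiv L S h hopen hne hdesc x)) =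
      ((Additive.toMul (x.1 : Additive (CSFull L Ω S)) : CSFull L Ω S) : ideleClassS Ω S) := by
  have := (csFullInvariantsEquiv L S h hopen hne hdesc).symm_apply_apply x
  rw [csFullInvariantsEquiv_symm_apply] at this
  exact congrArg (fun z => ((Additive.toMul (z.1 : Additive (CSFull L Ω S)) : CSFull L Ω S) :
    ideleClassS Ω S)) this

/-- **Dictionary for `C_S'`**: `(C_S')^{Gal(Ω/E')}` as a module over `Gal(Ω/E)/Gal(Ω/E')` is
`C_S(E')` as a module over `Gal(E'/E)`. -/
def csFullInvariantsIso :
    (csFullTowerRep L S E).quotientToInvariants (layerRes h).ker ≅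
      Rep.res (layerEquiv h).toMonoidHom
        (ideleClassSRep (layer h) ((layer h) ≃ₐ[E] (layer h)) S) :=
  Rep.mkIso (Representation.Equiv.mk
    (csFullInvariantsEquiv L S h hopen hne hdesc).toIntLinearEquiv (by
    intro g
    induction g using QuotientGroup.induction_on with
    | H σ =>
      ext x
      apply (csFullInvariantsEquiv L S h hopen hne hdesc).symm.injective
      apply Subtype.ext
      apply Additive.toMul.injective
      apply Subtype.ext
      show ((Additive.toMul ((((csFullInvariantsEquiv L S h hopen hne hdesc).symm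
        ((csFullInvariantsEquiv L S h hopen hne hdesc) _)).1 : Additive (CSFull L Ω S))) :
          CSFull L Ω S) : ideleClassS Ω S) = _
      rw [AddEquiv.symm_apply_apply]
      show (σ : Ω ≃ₐ[k] Ω) • ((Additive.toMul (x.1 : Additive (CSFull L Ω S)) : CSFull L Ω S) :
          ideleClassS Ω S) =
        sClassIncl h S (layerRes h σ •
          (Additive.toMul (csFullInvariantsEquiv L S h hopen hne hdesc x) :
            ideleClassS (layer h) S))
      rw [← smul_sClassIncl, sClassIncl_csFullInvariantsEquiv]))

theorem csFullInvariantsIso_hom_apply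
    (x : Representation.invariants ((csFullTowerRep L S E).ρ.comp (layerRes h).ker.subtype)) :
    (csFullInvariantsIso L S h hopen hne hdesc).hom.hom x =
      csFullInvariantsEquiv L S h hopen hne hdesc x := rfl

theorem csFullInvariantsIso_inv_apply (c : Additive (ideleClassS (layer h) S)) :
    (csFullInvariantsIso L S h hopen hne hdesc).inv.hom c = csFullInvariantsHom L S h hopen c := rfl

/-- The characterisation of the dictionary: the class in `C_S(Ω)` of the image. -/
theorem sClassIncl_csFullInvariantsIso_hom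
    (x : ((csFullTowerRep L S E).quotientToInvariants (layerRes h).ker).V) :
    sClassIncl h S (Additive.toMul
        ((csFullInvariantsIso L S h hopen hne hdesc).hom.hom x : Additive (ideleClassS (layer h) S))) =
      ((Additive.toMul (x.1 : Additive (CSFull L Ω S)) : CSFull L Ω S) : ideleClassS Ω S) :=
  sClassIncl_csFullInvariantsEquiv L S h hopen hne hdesc x

end CSFull

end Fermat.Agent.CFT.PT

end
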