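import Fermat.Agent.CFT.LC.ClosedShapiro
import Fermat.Agent.CFT.LC.Lift
import Fermat.Agent.CFT.HyperExt.LCDualityDefs

/-!
# Node D3c (InvCompat), generic part: the local–global formula on level cohomology

Setting: `(G, L)` a level group, `f : A ⟶ C` a morphism of smooth `G`-modules (for D3c:
`jsToCsHom : J_S ⟶ C_S`), and a finite family of level groups `(H i, LH i)` with `r i : H i →* G`
(`LC.LevelComap L LH r`), smooth `H i`-modules `Y i` and `lam i : Rep.res (r i) A ⟶ Y i`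
(for D3c: `G_{ℚ_q} → G_S`, `Y q = ℚ̄_qˣ`, `lam q = evQ`).

* `LC.coeffFinMap f N n`, `LC.coeffLC2 hA hC f`, `LC.coeffLC2_inflH2`: the coefficient map at the
  finite levels and on `LC.H2` (Prelude shape), compatible with inflation (`LC.coeffLC2` is, by
  `rfl`, the map `LC.mapLC2` of `LC/PrimeToPCompare.lean`; it is repeated here under a fresh name
  to keep the import closure small);
* `LC.locFin lam i N n`, `LC.locLC2 hlev hA hY lam i`, `LC.locLC2_inflH2`: the localisation at the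
  finite levels `H²(G ⧸ N, A^N) → H²(H i ⧸ r⁻¹N, (Y i)^{r⁻¹N})` and on `LC.H2`
  (`LC.locHom` transported by `LC.h2Equiv`), compatible with inflation;
* `LC.sum_loc_of_levels`, `LC.descH2Add_sum_loc`, `LC.sum_loc_cx`: the formula
  `tG ∘ f_* = Σ_i tq i ∘ loc_i` on the `m`-torsion of `H²(G, A)` follows from the formula at the
  finite levels;
* `PT.invCompat_zmod`, `PT.invCompat_zmod_of_levels`: the `ZMod p`-valued form consumed by
  `PT/Main` (`eG ⟨f_* z, _⟩ = Σ_i e i ⟨loc_i z, _⟩` for `p • z = 0`);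
* `PT.hpEquivTorsionBy`, `PT.exists_Hp_addEquiv_zmod`: the bridge from the (T1) statements of
  `CoeffDict` / `LayerDict` (on `AddSubgroup.torsionBy (LC.H2 L C) p`) to `LC.Hp p hC 2`.
-/

set_option autoImplicit false

universe u

open CategoryTheory groupCohomology

namespace Fermat.Agent.CFT

namespace LC

open HExt LevelStructure

section Coeff

variable {k G : Type u} [CommRing k] [Group G] {L : LevelStructure G} {A B : Rep.{u} k G}

/-- The linear map `A^N → B^N` induced by `f : A ⟶ B`. -/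
noncomputable def coeffFinLin (f : A ⟶ B) (N : Subgroup G) [N.Normal] :
    (A.quotientToInvariants N) →ₗ[k] (B.quotientToInvariants N) where
  toFun a := ⟨f.hom (a : A), fun s => by
    have h1 : A.ρ (s : G) (a : A) = (a : A) := a.2 s
    have h2 := Rep.hom_comm_apply f (s : G) (a : A)
    rw [h1] at h2
    exact h2.symm⟩
  map_add' _ _ := Subtype.ext (map_add _ _ _)
  map_smul' _ _ := Subtype.ext (map_smul _ _ _)

/-- The map `A^N → B^N` induced by `f : A ⟶ B`, as a morphism of `G ⧸ N`-representations. -/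
noncomputable def coeffFin (f : A ⟶ B) (N : Subgroup G) [N.Normal] :
    Rep.res (MonoidHom.id (G ⧸ N)) (A.quotientToInvariants N) ⟶ B.quotientToInvariants N :=
  Rep.ofHom ⟨coeffFinLin f N, fun g => by
    induction g using QuotientGroup.induction_on with
    | H g =>
      refine LinearMap.ext fun a => Subtype.ext ?_
      exact Rep.hom_comm_apply f g (a : A)⟩

@[simp] lemma coe_coeffFin_apply (f : A ⟶ B) (N : Subgroup G) [N.Normal]
    (a : A.quotientToInvariants N) :
    (((coeffFin f N).hom a : B.quotientToInvariants N) : B) = f.hom (a : A) := rfl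

/-- The map `Hⁿ(G ⧸ N, A^N) → Hⁿ(G ⧸ N, B^N)` induced by `f : A ⟶ B`. -/
noncomputable def coeffFinMap (f : A ⟶ B) (N : Subgroup G) [N.Normal] (n : ℕ) :
    groupCohomology (A.quotientToInvariants N) n ⟶ groupCohomology (B.quotientToInvariants N) n :=
  groupCohomology.map (MonoidHom.id (G ⧸ N)) (coeffFin f N) n

/-- The map induced by `f : A ⟶ B` on `LC.H2` (Prelude shape). -/
noncomputable def coeffLC2 (hA : IsSmooth L A) (hB : IsSmooth L B) (f : A ⟶ B) :
    H2 L A →ₗ[k] H2 L B :=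
  (h2Equiv hB).toLinearMap ∘ₗ (cxMap hA hB f).mapH 2 ∘ₗ (h2Equiv hA).symm.toLinearMap

lemma coeffLC2_apply (hA : IsSmooth L A) (hB : IsSmooth L B) (f : A ⟶ B) (c : H2 L A) :
    coeffLC2 hA hB f c = h2Equiv hB ((cxMap hA hB f).mapH 2 ((h2Equiv hA).symm c)) := rfl

lemma coeffLC2_h2Equiv (hA : IsSmooth L A) (hB : IsSmooth L B) (f : A ⟶ B) (z : (cx hA).H 2) :
    coeffLC2 hA hB f (h2Equiv hA z) = h2Equiv hB ((cxMap hA hB f).mapH 2 z) := by
  rw [coeffLC2_apply, LinearEquiv.symm_apply_apply]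

/-- Push-forward of an LC `2`-cocycle. -/
def coeffZ₂ (f : A ⟶ B) (x : ↥(Z₂ L A)) : ↥(Z₂ L B) :=
  ⟨fun p => f.hom (x.1 p), by
    have h0 : ∀ g h j : G, A.ρ g (x.1 (h, j)) - x.1 (g * h, j) + x.1 (g, h * j) - x.1 (g, h) = 0 :=
      (mem_cocycles₂_def x.1).1 x.2.1
    refine (mem_cocycles₂_def _).2 fun g h j => ?_
    have := congrArg f.hom (h0 g h j)
    simpa only [map_sub, map_add, map_zero, Rep.hom_comm_apply] using this,
    (x.2.2 : L.IsLC₂ x.1).comp f.hom⟩

@[simp] lemma coeffZ₂_coe (f : A ⟶ B) (x : ↥(Z₂ L A)) (p : G × G) :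
    (coeffZ₂ f x).1 p = f.hom (x.1 p) := rfl

lemma coeffLC2_H2π (hA : IsSmooth L A) (hB : IsSmooth L B) (f : A ⟶ B) (x : ↥(Z₂ L A)) :
    coeffLC2 hA hB f (H2π L A x) = H2π L B (coeffZ₂ f x) := by
  have h1 : (h2Equiv hA).symm (H2π L A x) = mkH2 hA x := by
    rw [LinearEquiv.symm_apply_eq, h2Equiv_mkH2]
  have h2 : (cxMap hA hB f).mapH 2 (mkH2 hA x) = mkH2 hB (coeffZ₂ f x) := rfl
  rw [coeffLC2_apply, h1, h2, h2Equiv_mkH2]

/-- The coefficient map on level cohomology is compatible with the coefficient maps at the finite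
levels. -/
theorem coeffLC2_inflH2 (hA : IsSmooth L A) (hB : IsSmooth L B) (f : A ⟶ B) (N : Subgroup G)
    [N.Normal] (hN : L.IsOpen N) (y : groupCohomology.H2 (A.quotientToInvariants N)) :
    coeffLC2 hA hB f (inflH2 A N hN y) = inflH2 B N hN ((coeffFinMap f N 2).hom y) := by
  obtain ⟨x, rfl⟩ := liftH2π_surj _ y
  have h1 : (coeffFinMap f N 2).hom ((groupCohomology.H2π _).hom x) =
      (groupCohomology.H2π _).hom
        ((mapCocycles₂ (MonoidHom.id (G ⧸ N)) (coeffFin f N)).hom x) :=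
    H2π_comp_map_apply (MonoidHom.id (G ⧸ N)) (coeffFin f N) x
  rw [h1, inflH2_H2π, inflH2_H2π, coeffLC2_H2π]
  congr 1

end Coeff

/-! ### Localisation on `LC.H2` and at the finite levels -/

section Loc

variable {k G : Type u} [CommRing k] [Group G] {L : LevelStructure G}
  {ι : Type*} {H : ι → Type u} [∀ i, Group (H i)] {LH : ∀ i, LevelStructure (H i)}
  {r : ∀ i, H i →* G}
  {A : Rep.{u} k G} {Y : ∀ i, Rep.{u} k (H i)}
  (hlev : LevelComap L LH r) (hA : IsSmooth L A) (hY : ∀ i, IsSmooth (LH i) (Y i))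
  (lam : ∀ i, Rep.res (r i) A ⟶ Y i)

/-- The localisation map on `LC.H2` (Prelude shape): restriction along `r i`, then `lam i`. -/
noncomputable def locLC2 (i : ι) : H2 L A →ₗ[k] H2 (LH i) (Y i) :=
  (h2Equiv (hY i)).toLinearMap ∘ₗ (locHom hlev hA hY lam i).mapH 2 ∘ₗ
    (h2Equiv hA).symm.toLinearMap

lemma locLC2_apply (i : ι) (c : H2 L A) :
    locLC2 hlev hA hY lam i c =
      h2Equiv (hY i) ((locHom hlev hA hY lam i).mapH 2 ((h2Equiv hA).symm c)) := rfl

lemma locLC2_h2Equiv (i : ι) (z : (cx hA).H 2) :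
    locLC2 hlev hA hY lam i (h2Equiv hA z) =
      h2Equiv (hY i) ((locHom hlev hA hY lam i).mapH 2 z) := by
  rw [locLC2_apply, LinearEquiv.symm_apply_apply]

lemma locLC2_eq (i : ι) (c : H2 L A) :
    locLC2 hlev hA hY lam i c =
      coeffLC2 (hA.res (hlev.compat i)) (hY i) (lam i) (resLC2 (hlev.compat i) hA c) := by
  rw [locLC2_apply, coeffLC2_apply, resLC2]
  simp only [LinearMap.comp_apply, LinearEquiv.coe_coe, LinearEquiv.symm_apply_apply]
  rw [locHom, Cx.Hom.mapH_comp]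
  rfl

/-- The level of `H i` cut out by a level of `G`. -/
def LevelComap.level (i : ι) (l : L.Level) : (LH i).Level :=
  ⟨l.N.comap (r i), hlev i l.N l.isLevel⟩

@[simp] lemma LevelComap.level_N (i : ι) (l : L.Level) :
    (hlev.level i l).N = l.N.comap (r i) := rfl

/-- The localisation at the finite level `N`:
`H²(G ⧸ N, A^N) → H²(H i ⧸ r⁻¹ N, (Y i)^{r⁻¹ N})`. -/
noncomputable def locFin (i : ι) (N : Subgroup G) [N.Normal] (n : ℕ) :
    groupCohomology (A.quotientToInvariants N) n ⟶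
      groupCohomology ((Y i).quotientToInvariants (N.comap (r i))) n :=
  resFin A (le_refl (N.comap (r i))) n ≫ coeffFinMap (lam i) (N.comap (r i)) n

/-- Localisation on level cohomology is compatible with the localisation at the finite levels. -/
theorem locLC2_inflH2 (i : ι) (l : L.Level)
    (y : groupCohomology.H2 (A.quotientToInvariants l.N)) :
    locLC2 hlev hA hY lam i (inflH2 A l.N l.isOpen y) =
      inflH2 (Y i) (hlev.level i l).N (hlev.level i l).isOpen ((locFin lam i l.N 2).hom y) := by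
  rw [locLC2_eq, resLC2_inflH2 (le_refl (l.N.comap (r i))) (hlev.compat i) hA l.isOpen
    (hlev.level i l).isOpen y, coeffLC2_inflH2]
  rfl

end Loc


/-! ### The local–global formula: reduction to the finite levels -/

section Main

variable {k G : Type u} [CommRing k] [Group G] {L : LevelStructure G}
  {ι : Type*} [Fintype ι] {H : ι → Type u} [∀ i, Group (H i)]
  {LH : ∀ i, LevelStructure (H i)} {r : ∀ i, H i →* G}
  {A C : Rep.{u} k G} {Y : ∀ i, Rep.{u} k (H i)}
  (hlev : LevelComap L LH r) (hA : IsSmooth L A) (hC : IsSmooth L C)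
  (hY : ∀ i, IsSmooth (LH i) (Y i))
  (f : A ⟶ C) (lam : ∀ i, Rep.res (r i) A ⟶ Y i)
  {T : Type*} [AddCommGroup T]

include hA in
/-- An `m`-torsion class of `LC.H2` is inflated from an `m`-torsion class of a finite level. -/
lemma exists_inflH2_eq_of_nsmul_eq_zero (m : ℕ) (c : H2 L A) (hc : m • c = 0) :
    ∃ (l : L.Level) (y : groupCohomology.H2 (A.quotientToInvariants l.N)),
      m • y = 0 ∧ inflH2 A l.N l.isOpen y = c := by
  obtain ⟨l, y, rfl⟩ := exists_inflH2_eq hA c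
  rw [← map_nsmul] at hc
  obtain ⟨l', h, hl'⟩ := exists_inflFin_eq_zero hA l (m • y) hc
  refine ⟨l', (inflFin A h 2).hom y, ?_, inflH2_inflFin h l'.isOpen y⟩
  rw [← map_nsmul]
  exact hl'

/-- **Local–global compatibility, reduction to the finite levels.**  If the formula
`tG ∘ f_* = Σ_i tq_i ∘ loc_i` holds on the `m`-torsion classes inflated from each finite level, then
it holds on the `m`-torsion of `LC.H2 L A`.  (`m = 0`: no torsion condition.) -/
theorem sum_loc_of_levels (tG : H2 L C →+ T) (tq : ∀ i, H2 (LH i) (Y i) →+ T) (m : ℕ)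
    (hLG : ∀ (l : L.Level) (y : groupCohomology.H2 (A.quotientToInvariants l.N)), m • y = 0 →
      tG (inflH2 C l.N l.isOpen ((coeffFinMap f l.N 2).hom y)) =
        ∑ i, tq i (inflH2 (Y i) (hlev.level i l).N (hlev.level i l).isOpen
          ((locFin lam i l.N 2).hom y)))
    (c : H2 L A) (hc : m • c = 0) :
    tG (coeffLC2 hA hC f c) = ∑ i, tq i (locLC2 hlev hA hY lam i c) := by
  obtain ⟨l, y, hy, rfl⟩ := exists_inflH2_eq_of_nsmul_eq_zero hA m c hc
  rw [coeffLC2_inflH2, hLG l y hy]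
  refine Finset.sum_congr rfl fun i _ => ?_
  rw [locLC2_inflH2]

/-- **Local–global compatibility for descended invariant maps** (`LC.descH2Add`, the shape of
`CoeffDict.invLC` and `LayerDict.invLC`): it is enough to check the formula between the invariant
maps of the finite levels. -/
theorem descH2Add_sum_loc
    (tG : ∀ l : L.Level, groupCohomology.H2 (C.quotientToInvariants l.N) →+ T)
    (htG : ∀ (l l' : L.Level) (h : l'.N ≤ l.N)
      (y : groupCohomology.H2 (C.quotientToInvariants l.N)),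
      tG l' ((inflFin C h 2).hom y) = tG l y)
    (tq : ∀ i, ∀ l : (LH i).Level, groupCohomology.H2 ((Y i).quotientToInvariants l.N) →+ T)
    (htq : ∀ i, ∀ (l l' : (LH i).Level) (h : l'.N ≤ l.N)
      (y : groupCohomology.H2 ((Y i).quotientToInvariants l.N)),
      tq i l' ((inflFin (Y i) h 2).hom y) = tq i l y)
    (m : ℕ)
    (hLG : ∀ (l : L.Level) (y : groupCohomology.H2 (A.quotientToInvariants l.N)), m • y = 0 →
      tG l ((coeffFinMap f l.N 2).hom y) =
        ∑ i, tq i (hlev.level i l) ((locFin lam i l.N 2).hom y))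
    (c : H2 L A) (hc : m • c = 0) :
    descH2Add tG htG hC (coeffLC2 hA hC f c) =
      ∑ i, descH2Add (tq i) (htq i) (hY i) (locLC2 hlev hA hY lam i c) := by
  refine sum_loc_of_levels hlev hA hC hY f lam _ _ m (fun l y hy => ?_) c hc
  rw [descH2Add_inflH2, hLG l y hy]
  refine Finset.sum_congr rfl fun i _ => ?_
  rw [descH2Add_inflH2]

/-- The formula of `sum_loc_of_levels` on the cohomology of the LC complexes. -/
theorem sum_loc_cx (tG : H2 L C →+ T) (tq : ∀ i, H2 (LH i) (Y i) →+ T) (m : ℕ)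
    (hsum : ∀ c : H2 L A, m • c = 0 →
      tG (coeffLC2 hA hC f c) = ∑ i, tq i (locLC2 hlev hA hY lam i c))
    (z : (cx hA).H 2) (hz : m • z = 0) :
    tG (h2Equiv hC ((cxMap hA hC f).mapH 2 z)) =
      ∑ i, tq i (h2Equiv (hY i) ((locHom hlev hA hY lam i).mapH 2 z)) := by
  have h := hsum (h2Equiv hA z) (by rw [← map_nsmul, hz, map_zero])
  rw [coeffLC2_h2Equiv] at h
  rw [h]
  refine Finset.sum_congr rfl fun i _ => ?_
  rw [locLC2_h2Equiv]

end Main

end LC


namespace PT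

open HExt

/-! ### `ZMod p`-valued form -/

section Circle

variable (n : ℕ) [NeZero n]

/-- `j mod n ↦ j / n mod 1`, as an additive map `ZMod n →+ ℚ/ℤ`. -/
noncomputable def zmodToQZ : ZMod n →+ AddCircle (1 : ℚ) :=
  ZMod.lift n ⟨AddMonoidHom.mk' (fun j : ℤ => (((j : ℚ) / n : ℚ) : AddCircle (1 : ℚ)))
    (fun a b => by push_cast; rw [add_div, AddCircle.coe_add]), by
      have hn : ((n : ℕ) : ℚ) ≠ 0 := Nat.cast_ne_zero.mpr (NeZero.ne n)
      simp only [AddMonoidHom.mk'_apply, Int.cast_natCast, div_self hn]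
      exact AddCircle.coe_period 1⟩

variable {n}

theorem zmodToQZ_intCast (j : ℤ) :
    zmodToQZ n (j : ZMod n) = (((j : ℚ) / n : ℚ) : AddCircle (1 : ℚ)) := by
  simp [zmodToQZ]

theorem zmodToQZ_apply (x : ZMod n) :
    zmodToQZ n x = ((((x.val : ℕ) : ℚ) / n : ℚ) : AddCircle (1 : ℚ)) := by
  have := zmodToQZ_intCast (n := n) (x.val : ℤ)
  rw [Int.cast_natCast, ZMod.natCast_zmod_val] at this
  rw [this]; push_cast; rfl

theorem zmodToQZ_injective : Function.Injective (zmodToQZ n) := by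
  rw [injective_iff_map_eq_zero]
  intro x hx
  rw [zmodToQZ_apply, AddCircle.coe_eq_zero_iff] at hx
  obtain ⟨m, hm⟩ := hx
  have hn : (0 : ℚ) < n := Nat.cast_pos.mpr (NeZero.pos n)
  rw [zsmul_eq_mul, mul_one, eq_div_iff hn.ne'] at hm
  have h1 : (m : ℚ) * n < 1 * n := by
    rw [hm, one_mul]; exact_mod_cast ZMod.val_lt x
  have h2 : (0 : ℚ) ≤ m * n := by rw [hm]; positivity
  have h3 : m < 1 := by exact_mod_cast lt_of_mul_lt_mul_right h1 hn.le
  have h4 : 0 ≤ m := by
    by_contra hneg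
    have hneg' : m < 0 := not_le.1 hneg
    have : (m : ℚ) * n < 0 := mul_neg_of_neg_of_pos (by exact_mod_cast hneg') hn
    linarith
  have hm0 : m = 0 := by omega
  rw [hm0, Int.cast_zero, zero_mul] at hm
  have : x.val = 0 := by exact_mod_cast hm.symm
  exact (ZMod.val_eq_zero x).mp this

end Circle

section ZModForm

variable {k G : Type u} [CommRing k] [Group G] {L : LevelStructure G}
  {ι : Type*} [Fintype ι] {H : ι → Type u} [∀ i, Group (H i)]
  {LH : ∀ i, LevelStructure (H i)} {r : ∀ i, H i →* G}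
  {A C : Rep.{u} k G} {Y : ∀ i, Rep.{u} k (H i)}
  (hlev : LC.LevelComap L LH r) (hA : IsSmooth L A) (hC : IsSmooth L C)
  (hY : ∀ i, IsSmooth (LH i) (Y i))
  (f : A ⟶ C) (lam : ∀ i, Rep.res (r i) A ⟶ Y i)
  (p : ℕ)

/-- A chain map sends `p`-torsion classes to `p`-torsion classes. -/
lemma mapH_mem_Hp {G' : Type u} [Group G'] {L' : LevelStructure G'} {C' : Rep.{u} k G'}
    (hC' : IsSmooth L' C') (φ : Cx.Hom (LC.cx hA) (LC.cx hC')) (n : ℕ) {z : (LC.cx hA).H n}
    (hz : p • z = 0) : φ.mapH n z ∈ LC.Hp p hC' n := by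
  rw [LC.mem_Hp, ← map_nsmul, hz, map_zero]

/-- **D3c, `ZMod p` form**: if the `ℚ/ℤ`-valued invariant maps `invG`, `invLoc i` satisfy the
local–global sum formula on the `p`-torsion of `H²(G, A)`, and are computed on `p`-torsion classes
by `ZMod p`-valued additive maps `eG`, `e i` (`inv c = (e c).val / p`), then
`eG (f_* z) = Σ_i e i (loc_i z)` for every `p`-torsion class `z`. -/
theorem invCompat_zmod [NeZero p]
    (invG : LC.H2 L C →+ AddCircle (1 : ℚ))
    (invLoc : ∀ i, LC.H2 (LH i) (Y i) →+ AddCircle (1 : ℚ))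
    (hsum : ∀ z : (LC.cx hA).H 2, p • z = 0 →
      invG (LC.h2Equiv hC ((LC.cxMap hA hC f).mapH 2 z)) =
        ∑ i, invLoc i (LC.h2Equiv (hY i) ((LC.locHom hlev hA hY lam i).mapH 2 z)))
    (eG : LC.Hp p hC 2 →+ ZMod p) (e : ∀ i, LC.Hp p (hY i) 2 →+ ZMod p)
    (heG : ∀ c : LC.Hp p hC 2, invG (LC.h2Equiv hC (c : (LC.cx hC).H 2)) =
      ((((eG c).val : ℚ) / (p : ℚ) : ℚ) : AddCircle (1 : ℚ)))
    (he : ∀ i (c : LC.Hp p (hY i) 2), invLoc i (LC.h2Equiv (hY i) (c : (LC.cx (hY i)).H 2)) =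
      ((((e i c).val : ℚ) / (p : ℚ) : ℚ) : AddCircle (1 : ℚ)))
    (z : (LC.cx hA).H 2) (hz : p • z = 0) :
    eG ⟨(LC.cxMap hA hC f).mapH 2 z, mapH_mem_Hp hA p hC _ 2 hz⟩ =
      ∑ i, e i ⟨(LC.locHom hlev hA hY lam i).mapH 2 z, mapH_mem_Hp hA p (hY i) _ 2 hz⟩ := by
  apply zmodToQZ_injective (n := p)
  rw [map_sum, zmodToQZ_apply, ← heG]
  simp only [zmodToQZ_apply, ← he]
  exact hsum z hz

/-- The `p`-torsion of `H²` of the LC complex versus the `p`-torsion of `LC.H2` (Prelude shape). -/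
noncomputable def hpEquivTorsionBy :
    LC.Hp p hC 2 ≃+ AddSubgroup.torsionBy (LC.H2 L C) (p : ℤ) where
  toFun c := ⟨LC.h2Equiv hC (c : (LC.cx hC).H 2), AddSubgroup.torsionBy.nsmul_iff.2 (by
    rw [← map_nsmul, LC.mem_Hp.1 c.2, map_zero])⟩
  invFun c := ⟨(LC.h2Equiv hC).symm (c : LC.H2 L C), by
    rw [LC.mem_Hp, ← map_nsmul, AddSubgroup.torsionBy.nsmul_iff.1 c.2, map_zero]⟩
  left_inv c := Subtype.ext ((LC.h2Equiv hC).symm_apply_apply _)
  right_inv c := Subtype.ext ((LC.h2Equiv hC).apply_symm_apply _)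
  map_add' c c' := Subtype.ext (map_add _ _ _)

@[simp] lemma coe_hpEquivTorsionBy (c : LC.Hp p hC 2) :
    ((hpEquivTorsionBy hC p c : AddSubgroup.torsionBy (LC.H2 L C) (p : ℤ)) : LC.H2 L C) =
      LC.h2Equiv hC (c : (LC.cx hC).H 2) := rfl

/-- **(T1) on `LC.Hp`**: an identification of the `p`-torsion of `LC.H2 L C` with `ZMod p` which
computes an invariant map (the shape of `CoeffDict.exists_torsionBy_addEquiv_zmod` and of
`LayerDict.exists_torsionBy_addEquiv_zmod`) gives the `ZMod p`-valued invariant on `LC.Hp p hC 2`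
in the shape consumed by `LatticeRes.IsPerfect` and by `invCompat_zmod`. -/
theorem exists_Hp_addEquiv_zmod (inv : LC.H2 L C →+ AddCircle (1 : ℚ))
    (hT1 : ∃ e : ↥(AddSubgroup.torsionBy (LC.H2 L C) (p : ℤ)) ≃+ ZMod p,
      ∀ c : ↥(AddSubgroup.torsionBy (LC.H2 L C) (p : ℤ)),
        inv (c : LC.H2 L C) = ((((e c).val : ℚ) / (p : ℚ) : ℚ) : AddCircle (1 : ℚ))) :
    ∃ eG : LC.Hp p hC 2 ≃+ ZMod p, ∀ c : LC.Hp p hC 2,
      inv (LC.h2Equiv hC (c : (LC.cx hC).H 2)) =
        ((((eG c).val : ℚ) / (p : ℚ) : ℚ) : AddCircle (1 : ℚ)) := by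
  obtain ⟨e, he⟩ := hT1
  exact ⟨(hpEquivTorsionBy hC p).trans e, fun c => he (hpEquivTorsionBy hC p c)⟩

/-- **D3c, `ZMod p` form, from the finite levels.**  For invariant maps descended from the finite
levels (`LC.descH2Add`, the shape of `CoeffDict.invLC` and `LayerDict.invLC`), the formula
`eG (f_* z) = Σ_i e i (loc_i z)` on `p`-torsion classes follows from the formula
`tG l ∘ f_* = Σ_i tq i (r i ⁻¹ l) ∘ loc_i` between the invariant maps of the finite levels, on
`p`-torsion classes. -/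
theorem invCompat_zmod_of_levels [NeZero p]
    (tG : ∀ l : L.Level, groupCohomology.H2 (C.quotientToInvariants l.N) →+ AddCircle (1 : ℚ))
    (htG : ∀ (l l' : L.Level) (h : l'.N ≤ l.N)
      (y : groupCohomology.H2 (C.quotientToInvariants l.N)),
      tG l' ((LC.inflFin C h 2).hom y) = tG l y)
    (tq : ∀ i, ∀ l : (LH i).Level,
      groupCohomology.H2 ((Y i).quotientToInvariants l.N) →+ AddCircle (1 : ℚ))
    (htq : ∀ i, ∀ (l l' : (LH i).Level) (h : l'.N ≤ l.N)
      (y : groupCohomology.H2 ((Y i).quotientToInvariants l.N)),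
      tq i l' ((LC.inflFin (Y i) h 2).hom y) = tq i l y)
    (hLG : ∀ (l : L.Level) (y : groupCohomology.H2 (A.quotientToInvariants l.N)), p • y = 0 →
      tG l ((LC.coeffFinMap f l.N 2).hom y) =
        ∑ i, tq i (hlev.level i l) ((LC.locFin lam i l.N 2).hom y))
    (eG : LC.Hp p hC 2 →+ ZMod p) (e : ∀ i, LC.Hp p (hY i) 2 →+ ZMod p)
    (heG : ∀ c : LC.Hp p hC 2,
      LC.descH2Add tG htG hC (LC.h2Equiv hC (c : (LC.cx hC).H 2)) =
        ((((eG c).val : ℚ) / (p : ℚ) : ℚ) : AddCircle (1 : ℚ)))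
    (he : ∀ i (c : LC.Hp p (hY i) 2),
      LC.descH2Add (tq i) (htq i) (hY i) (LC.h2Equiv (hY i) (c : (LC.cx (hY i)).H 2)) =
        ((((e i c).val : ℚ) / (p : ℚ) : ℚ) : AddCircle (1 : ℚ)))
    (z : (LC.cx hA).H 2) (hz : p • z = 0) :
    eG ⟨(LC.cxMap hA hC f).mapH 2 z, mapH_mem_Hp hA p hC _ 2 hz⟩ =
      ∑ i, e i ⟨(LC.locHom hlev hA hY lam i).mapH 2 z, mapH_mem_Hp hA p (hY i) _ 2 hz⟩ :=
  invCompat_zmod hlev hA hC hY f lam p _ _
    (fun z hz => LC.sum_loc_cx hlev hA hC hY f lam _ _ p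
      (fun c hc => LC.descH2Add_sum_loc hlev hA hC hY f lam tG htG tq htq p hLG c hc) z hz)
    eG e heG he z hz

end ZModForm

end PT

end Fermat.Agent.CFT
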