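import Fermat.Agent.CFT.PT.GlobalDuality
import Fermat.Agent.CFT.PT.InvCompat
import Fermat.Agent.CFT.Global.LCFamilyLevels

/-!
# Node D3c, last step: the reciprocity hypothesis of `PTInputs` from the finite-level formula

`PT.ptInputsOfFamily` (`PT/GlobalDuality.lean`) needs the reciprocity sum formula
`globalInvG (π_* z) = Σ_{q ∈ S} invLoc q (loc_q z)` for the `p`-torsion classes `z ∈ H²(G_ℚ, J_S)`.
Here it is reduced to the formula between the invariant maps of the *finite levels*:

* the global invariant `Jfull.invG` of `C_S'` is assumed to be the descent (`LC.descH2Add`) of a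
  family `tG` of level invariants (for helper22's `csFullPInvFamily`: `coeffInv_eq_descH2Add`,
  `tG = coeffInvLevel`);
* the local invariants are the descents of the level families `locInvLevel q = galInvLevel ..`
  (`galInv_eq_descH2Add`);
* `hLG`: for every level `l` of `G_ℚ` and every `p`-torsion class `y ∈ H²(G_ℚ ⧸ l.N, J_S^{l.N})`,
  `tG l ((J_S → C_S')_* y) = Σ_q locInvLevel q (r_q⁻¹ l) (loc_q y)`.

Main statement: `recip_of_levels`, in the exact shape of the hypothesis `hrecip` of
`ptInputsOfFamily`; `ptInputsOfLevels` is the resulting term of `PTInputs p S`.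
-/

set_option autoImplicit false
set_option linter.style.haveILetI false
set_option linter.unusedSectionVars false

open CategoryTheory

namespace Fermat.Agent.CFT.PT

open Fermat.Agent.CFT Fermat.Agent.S55 ExtCitation GaloisTower HExt

attribute [local instance 2000] Rep.hV2

local notation "Qb" => AlgebraicClosure ℚ
local notation "GQ" => (AlgebraicClosure ℚ ≃ₐ[ℚ] AlgebraicClosure ℚ)

section General

universe u

variable {k G : Type u} [CommRing k] [Group G] {L : LevelStructure G}
  {A B C : Rep.{u} k G} (hA : IsSmooth L A) (hB : IsSmooth L B) (hC : IsSmooth L C)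

/-- Functoriality of the maps induced on the cohomology of the LC complexes. -/
theorem cxMap_comp_mapH (f : A ⟶ B) (g : B ⟶ C) (n : ℕ) (c : (LC.cx hA).H n) :
    (LC.cxMap hA hC (f ≫ g)).mapH n c =
      (LC.cxMap hB hC g).mapH n ((LC.cxMap hA hB f).mapH n c) := by
  induction c using Cx.H.induction_on with
  | _ z hz =>
    rw [Cx.Hom.mapH_mk, Cx.Hom.mapH_mk, Cx.Hom.mapH_mk]
    exact Cx.H.mk_congr (LC.cxMap_comp_apply _ _ _ f g n z) _

end General

variable {p : ℕ} [Fact p.Prime] (S : Finset Nat.Primes)

/-- The composite `J_S ⟶ C_S ⟶ C_S'`. -/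
noncomputable abbrev jsToCsFullComp :
    jsRep (globalLevel S) Qb (↑S : Set Nat.Primes) ⟶
      csFullRep (globalLevel S) Qb (↑S : Set Nat.Primes) :=
  jsToCsHom (globalLevel S) Qb (↑S : Set Nat.Primes) ≫
    csToCsFullHom (globalLevel S) Qb (↑S : Set Nat.Primes) S.finite_toSet

/-- The `ℚ/ℤ`-valued invariant maps of the finite levels of `G_{ℚ_q}`. -/
noncomputable abbrev locInvLevel (q : Nat.Primes) :=
  galInvLevel (levelOf (localGaloisToGlobal (q : ℕ))) (levelOf_local_galoisType (q : ℕ))
    (levelOf_local_cofinal (q : ℕ)) (padicLayerInvSystem (q : ℕ))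

variable (hpS : pPrime p ∈ S)
  (Jfull : LC.PInvFamily (globalLevel S) (csFullRep (globalLevel S) Qb (↑S : Set Nat.Primes))
    (isSmooth_csFullRep (globalLevel S) Qb (↑S : Set Nat.Primes)) p)

/-- **D3c, last step**: the reciprocity sum formula `globalInvG (π_* z) = Σ_q invLoc q (loc_q z)`
on the `p`-torsion of `H²(G_ℚ, J_S)` from the formula between the invariant maps of the finite
levels. -/
theorem recip_of_levels
    (tG : ∀ l : (globalLevel S).Level,
      groupCohomology.H2 ((csFullRep (globalLevel S) Qb
        (↑S : Set Nat.Primes)).quotientToInvariants l.N) →+ AddCircle (1 : ℚ))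
    (htG : ∀ (l l' : (globalLevel S).Level) (h : l'.N ≤ l.N)
      (y : groupCohomology.H2 ((csFullRep (globalLevel S) Qb
        (↑S : Set Nat.Primes)).quotientToInvariants l.N)),
      tG l' ((LC.inflFin (csFullRep (globalLevel S) Qb (↑S : Set Nat.Primes)) h 2).hom y) =
        tG l y)
    (hG : Jfull.invG =
      LC.descH2Add tG htG (isSmooth_csFullRep (globalLevel S) Qb (↑S : Set Nat.Primes)))
    (hLG : ∀ (l : (globalLevel S).Level)
      (y : groupCohomology.H2 ((jsRep (globalLevel S) Qb
        (↑S : Set Nat.Primes)).quotientToInvariants l.N)), p • y = 0 →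
      tG l ((LC.coeffFinMap (jsToCsFullComp S) l.N 2).hom y) =
        ∑ q : ↥S, locInvLevel q.1 ((levelComap_global S).level q l)
          ((LC.locFin (evQ (globalLevel S) S) q l.N 2).hom y))
    (z : (LC.cx (isSmooth_jsRep (globalLevel S) Qb (↑S : Set Nat.Primes))).H 2)
    (hz : p • z = 0)
    (h1 : (LC.cxMap (isSmooth_jsRep (globalLevel S) Qb (↑S : Set Nat.Primes))
          (isSmooth_csRep (globalLevel S) Qb (↑S : Set Nat.Primes))
          (jsToCsHom (globalLevel S) Qb (↑S : Set Nat.Primes))).mapH 2 z ∈
        LC.Hp p (isSmooth_csRep (globalLevel S) Qb (↑S : Set Nat.Primes)) 2)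
    (h2 : ∀ q : ↥S, (LC.locHom (levelComap_global S)
          (isSmooth_jsRep (globalLevel S) Qb (↑S : Set Nat.Primes))
          (fun q : ↥S => isSmooth_primeUnitsRep q.1) (evQ (globalLevel S) S) q).mapH 2 z ∈
        LC.Hp p (isSmooth_primeUnitsRep q.1) 2) :
    globalInvG S hpS Jfull ⟨_, h1⟩ = ∑ q : ↥S, invLoc p q.1 ⟨_, h2 q⟩ := by
  haveI : NeZero p := ⟨(Fact.out : p.Prime).ne_zero⟩
  apply zmodToCircle_injective p
  rw [map_sum, zmodToCircle_globalInvG]
  have hloc : ∀ q : ↥S, zmodToCircle p (invLoc p q.1 ⟨_, h2 q⟩) =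
      LC.descH2Add (locInvLevel q.1)
        (galInvLevel_inflFin (levelOf (localGaloisToGlobal (q.1 : ℕ)))
          (levelOf_local_galoisType (q.1 : ℕ)) (levelOf_local_cofinal (q.1 : ℕ))
          (padicLayerInvSystem (q.1 : ℕ)))
        (isSmooth_primeUnitsRep q.1)
        (LC.h2Equiv (isSmooth_primeUnitsRep q.1)
          ((LC.locHom (levelComap_global S)
            (isSmooth_jsRep (globalLevel S) Qb (↑S : Set Nat.Primes))
            (fun q : ↥S => isSmooth_primeUnitsRep q.1) (evQ (globalLevel S) S) q).mapH 2 z)) := by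
    intro q
    rw [zmodToCircle_invLoc, galInv_eq_descH2Add]
    rfl
  rw [Finset.sum_congr rfl fun q _ => hloc q, hG,
    ← cxMap_comp_mapH (isSmooth_jsRep (globalLevel S) Qb (↑S : Set Nat.Primes))
      (isSmooth_csRep (globalLevel S) Qb (↑S : Set Nat.Primes))
      (isSmooth_csFullRep (globalLevel S) Qb (↑S : Set Nat.Primes))]
  exact LC.sum_loc_cx (levelComap_global S)
    (isSmooth_jsRep (globalLevel S) Qb (↑S : Set Nat.Primes))
    (isSmooth_csFullRep (globalLevel S) Qb (↑S : Set Nat.Primes))
    (fun q : ↥S => isSmooth_primeUnitsRep q.1) (jsToCsFullComp S) (evQ (globalLevel S) S) _ _ p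
    (fun c hc => LC.descH2Add_sum_loc (levelComap_global S)
      (isSmooth_jsRep (globalLevel S) Qb (↑S : Set Nat.Primes))
      (isSmooth_csFullRep (globalLevel S) Qb (↑S : Set Nat.Primes))
      (fun q : ↥S => isSmooth_primeUnitsRep q.1) (jsToCsFullComp S) (evQ (globalLevel S) S)
      tG htG (fun q : ↥S => locInvLevel q.1)
      (fun q : ↥S => galInvLevel_inflFin (levelOf (localGaloisToGlobal (q.1 : ℕ)))
        (levelOf_local_galoisType (q.1 : ℕ)) (levelOf_local_cofinal (q.1 : ℕ))
        (padicLayerInvSystem (q.1 : ℕ))) p hLG c hc) z hz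

/-- **The inputs of Poitou–Tate** from a family of invariants of `C_S'` with (CF1a), the existence
theorem mod `p`, a presentation of the global invariant as a descended level family, and the
finite-level reciprocity formula `hLG`. -/
noncomputable def ptInputsOfLevels
    (hB1 : ∀ (U : Subgroup GQ), (globalLevel S).IsOpen U → U ≤ globalG0 p →
      ∀ c : LC.H1 ((globalLevel S).comap U.subtype)
        (Rep.res U.subtype (csFullRep (globalLevel S) Qb (↑S : Set Nat.Primes))),
        p • c = 0 → c = 0)
    (hEB : ∀ (U : Subgroup GQ) (hU : (globalLevel S).IsOpen U), U ≤ globalG0 p →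
      (Finite (LCSym.XChar ((globalLevel S).comap U.subtype) p) ∧
        Nat.card (LCSym.XChar ((globalLevel S).comap U.subtype) p) =
          Nat.card (LCSym.VQuot
            (Rep.res U.subtype (csFullRep (globalLevel S) Qb (↑S : Set Nat.Primes))) p)) ∧
      Function.Bijective
        (LCSym.pairLin ((globalLevel S).comap U.subtype)
          (Rep.res U.subtype (csFullRep (globalLevel S) Qb (↑S : Set Nat.Primes)))
          (Jfull.tauS U hU)) ∧
      Function.Bijective
        (LCSym.pairLin ((globalLevel S).comap U.subtype)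
          (Rep.res U.subtype (csFullRep (globalLevel S) Qb (↑S : Set Nat.Primes)))
          (Jfull.tauS U hU)).flip)
    (tG : ∀ l : (globalLevel S).Level,
      groupCohomology.H2 ((csFullRep (globalLevel S) Qb
        (↑S : Set Nat.Primes)).quotientToInvariants l.N) →+ AddCircle (1 : ℚ))
    (htG : ∀ (l l' : (globalLevel S).Level) (h : l'.N ≤ l.N)
      (y : groupCohomology.H2 ((csFullRep (globalLevel S) Qb
        (↑S : Set Nat.Primes)).quotientToInvariants l.N)),
      tG l' ((LC.inflFin (csFullRep (globalLevel S) Qb (↑S : Set Nat.Primes)) h 2).hom y) =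
        tG l y)
    (hG : Jfull.invG =
      LC.descH2Add tG htG (isSmooth_csFullRep (globalLevel S) Qb (↑S : Set Nat.Primes)))
    (hLG : ∀ (l : (globalLevel S).Level)
      (y : groupCohomology.H2 ((jsRep (globalLevel S) Qb
        (↑S : Set Nat.Primes)).quotientToInvariants l.N)), p • y = 0 →
      tG l ((LC.coeffFinMap (jsToCsFullComp S) l.N 2).hom y) =
        ∑ q : ↥S, locInvLevel q.1 ((levelComap_global S).level q l)
          ((LC.locFin (evQ (globalLevel S) S) q l.N 2).hom y)) :
    PTInputs p S :=
  ptInputsOfFamily S hpS Jfull hB1 hEB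
    (fun z hz h1 h2 => recip_of_levels S hpS Jfull tG htG hG hLG z hz h1 h2)

end Fermat.Agent.CFT.PT
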