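import Fermat.Agent.CFT.Global.InvCompatGlue
import Fermat.Agent.CFT.Global.LCFullDict
import Fermat.Agent.CFT.Global.LCGlobalFamilyCS
import Fermat.Agent.CFT.PT.RecipPlug

/-!
# Layer D, node D3c (final assembly, generic part): the level formula for the full Galois group

`Global/InvCompatGlue.lean` gives the global half of the finite-level formula `(hLG)` for the
dictionary `csFullDict … E hE` of the group `Gal(Ω/E)`.  Here we transport it to the *full* group
`Gal(Ω/k)` (through `Gal(Ω/k) ≃ Gal(Ω/⊥)`), in terms of the level family `coeffInvLevel` of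
`Global/LCFamilyLevels.lean`, i.e. in the shape of the hypothesis `hLG` of
`PT.recip_of_levels` (`PT/RecipPlug.lean`):

* `LC.resFin_coeffFinMap` : restriction between finite levels commutes with coefficient maps;
* `PT.coeffInvLevel_jsToCsFull` : **the global half of `(hLG)` for the full group**:
  `coeffInvLevel … l ((jsToCs ≫ csToCsFull)_* y) = Σ_{q ∈ S} semiLocalInv I ⊥ q (pr_q Y)` with
  `Y` the class corresponding to `res y` in `H²(Gal(E'/⊥), ∏_{q ∈ S} A_q(E'))`;
* `PT.hLG_of_local` : `(hLG)` from the local terms (hypothesis `hloc`: the `q`-th local level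
  invariant of the localisation of `y` is the same semi-local invariant).
-/

set_option autoImplicit false
set_option linter.unusedSectionVars false
set_option linter.style.haveILetI false

open CategoryTheory groupCohomology IntermediateField

noncomputable section

namespace Fermat.Agent.CFT

namespace LC

section ResCoeff

variable {R G H : Type} [CommRing R] [Group G] [Group H] (φ : H →* G) {A B : Rep.{0} R G}
  (f : A ⟶ B) {N : Subgroup G} [N.Normal] {N' : Subgroup H} [N'.Normal]
  (hle : N' ≤ N.comap φ)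

/-- Restriction between finite levels commutes with the coefficient maps. -/
theorem resFin_coeffFinMap (n : ℕ) (y : groupCohomology (A.quotientToInvariants N) n) :
    (resFin B hle n).hom ((coeffFinMap f N n).hom y) =
      (coeffFinMap ((Rep.resFunctor φ).map f) N' n).hom ((resFin A hle n).hom y) := by
  have key : coeffFinMap f N n ≫ resFin B hle n =
      resFin A hle n ≫ coeffFinMap ((Rep.resFunctor φ).map f) N' n := by
    unfold coeffFinMap resFin
    rw [← groupCohomology.map_comp, ← groupCohomology.map_comp]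
    refine groupCohomology.map_congr ?_ ?_ n
    · refine MonoidHom.ext fun x => ?_
      induction x using QuotientGroup.induction_on with
      | H x => rfl
    · refine LinearMap.ext fun a => ?_
      rfl
  exact congrArg (fun F => F.hom y) key

end ResCoeff

end LC

namespace PT

open Fermat.Agent.CFT.GaloisTower Fermat.Agent.CFT.LayerMaps

section Generic

variable {k Ω : Type} [Field k] [Field Ω] [Algebra k Ω] [IsGalois k Ω]
variable (L : LevelStructure (Ω ≃ₐ[k] Ω)) (S : Finset Nat.Primes) {p : ℕ}
  (Adm : IntermediateField k Ω → Prop)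
  (hfd : ∀ {F : IntermediateField k Ω}, Adm F → FiniteDimensional k F)
  (hGalA : ∀ N, L.IsLevel N → ∃ F : IntermediateField k Ω,
    Adm F ∧ Normal k F ∧ N = F.fixingSubgroup)
  (hcofA : ∀ E' : IntermediateField k Ω, Adm E' → ∃ N, L.IsLevel N ∧ N ≤ E'.fixingSubgroup)
  (hsup : ∀ {B B' : IntermediateField k Ω}, Adm B → Adm B' → Adm (B ⊔ B'))
  (hne : ∃ q ∈ (↑S : Set Nat.Primes), Nonempty (LocalEmb ((q : Nat.Primes) : ℕ) Ω))
  (hdescA : ∀ {B B' B'' : IntermediateField k Ω} (h : B ≤ B') (h' : B' ≤ B''), Adm B'' →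
    ∀ [Normal B (layer (h.trans h'))], HasSClassDescent h (↑S : Set Nat.Primes) h')
  (hbot : Adm (⊥ : IntermediateField k Ω)) [NumberField ↥(⊥ : IntermediateField k Ω)]
  (I : LocalInvFamily)
  (Is : PLayerInvSystem (sClassCoeff k Ω (↑S : Set Nat.Primes)) Adm p)

set_option quotPrecheck false in
local notation "dd₀" =>
  csFullDict L (↑S : Set Nat.Primes) Adm hfd hGalA hcofA hsup hne hdescA ⊥ hbot

/-- **The global half of `(hLG)` for the full Galois group.** -/
theorem coeffInvLevel_jsToCsFull
    (hspec : ∀ {E' : IntermediateField k Ω} (h : (⊥ : IntermediateField k Ω) ≤ E')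
      [Normal (⊥ : IntermediateField k Ω) (layer h)], Adm E' →
      ∀ z : groupCohomology ((ideleCoeff k Ω).M h) 2, (∃ n : ℕ, p ^ n • z = 0) →
      Is.inv h ((classToClassSLayer (↑S : Set Nat.Primes) h 2).hom
        ((ideleToClassLayer h 2).hom z)) = invJFun I (⊥ : IntermediateField k Ω) z)
    (l : L.Level)
    (y : groupCohomology.H2 ((jsRep L Ω (↑S : Set Nat.Primes)).quotientToInvariants l.N))
    (hy : ∃ n : ℕ, p ^ n • y = 0) :
    haveI := (dd₀).normal (botLevel L l)
    coeffInvLevel L Is
        (csFullDictFamily L (↑S : Set Nat.Primes) Adm hfd hGalA hcofA hsup hne hdescA) hbot l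
        ((LC.coeffFinMap (jsToCsHom L Ω (↑S : Set Nat.Primes) ≫
          csToCsFullHom L Ω (↑S : Set Nat.Primes) S.finite_toSet) l.N 2).hom y) =
      ∑ q ∈ S.attach, semiLocalInv I (⊥ : IntermediateField k Ω) (q : Nat.Primes)
        ((groupCohomology.map
          (MonoidHom.id (layer ((dd₀).le_top (botLevel L l)) ≃ₐ[(⊥ : IntermediateField k Ω)]
            layer ((dd₀).le_top (botLevel L l))))
          (sProdProj (layer ((dd₀).le_top (botLevel L l)) ≃ₐ[(⊥ : IntermediateField k Ω)]
              layer ((dd₀).le_top (botLevel L l)))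
            (layer ((dd₀).le_top (botLevel L l))) (↑S : Set Nat.Primes)
            ⟨q.1, Finset.mem_coe.2 q.2⟩) 2).hom
          (cohLinearEquivOfRepIso _ _ ((dd₀).quotEquiv (botLevel L l))
            (jsDictRepIso L (↑S : Set Nat.Primes) ((dd₀).le_top (botLevel L l)) (botLevel L l).N
              (level_eq_ker L (galType_of_adm L Adm hfd hGalA) ⊥ (botLevel L l))
              (isOpen_fixingSubgroup_levelTop L Adm hfd hGalA hcofA hsup ⊥ hbot (botLevel L l)))
            2 ((LC.resFin (jsRep L Ω (↑S : Set Nat.Primes))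
              (le_refl (botLevel L l).N) 2).hom y))) := by
  haveI := (dd₀).normal (botLevel L l)
  have hy' : ∃ n : ℕ, p ^ n • (LC.resFin (jsRep L Ω (↑S : Set Nat.Primes))
      (le_refl (botLevel L l).N) 2).hom y = 0 := by
    obtain ⟨n, hn⟩ := hy
    exact ⟨n, by rw [← map_nsmul, hn, map_zero]⟩
  have h1 := csFullDict_invLevel_jsToCsFull L S Adm hfd hGalA hcofA hsup hne hdescA ⊥ hbot I Is
    hspec (botLevel L l) _ hy'
  rw [← h1]
  change (dd₀).invLevel Is (botLevel L l)
    ((LC.resFin (csFullRep L Ω (↑S : Set Nat.Primes)) (le_refl (botLevel L l).N) 2).hom _) = _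
  rw [LC.resFin_coeffFinMap, jsToCs_comp_csToCsFull]

end Generic

section Rat

local notation "Qb" => AlgebraicClosure ℚ

attribute [local instance 2000] Rep.hV2

open Fermat.Agent.S55 ExtCitation

variable [IsGalois ℚ Qb]
variable (S : Finset Nat.Primes) {p : ℕ}
  (Adm : IntermediateField ℚ Qb → Prop)
  (hfd : ∀ {F : IntermediateField ℚ Qb}, Adm F → FiniteDimensional ℚ F)
  (hGalA : ∀ N, (globalLevel S).IsLevel N → ∃ F : IntermediateField ℚ Qb,
    Adm F ∧ Normal ℚ F ∧ N = F.fixingSubgroup)
  (hcofA : ∀ E' : IntermediateField ℚ Qb, Adm E' →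
    ∃ N, (globalLevel S).IsLevel N ∧ N ≤ E'.fixingSubgroup)
  (hsup : ∀ {B B' : IntermediateField ℚ Qb}, Adm B → Adm B' → Adm (B ⊔ B'))
  (hne : ∃ q ∈ (↑S : Set Nat.Primes), Nonempty (LocalEmb ((q : Nat.Primes) : ℕ) Qb))
  (hdescA : ∀ {B B' B'' : IntermediateField ℚ Qb} (h : B ≤ B') (h' : B' ≤ B''), Adm B'' →
    ∀ [Normal B (layer (h.trans h'))], HasSClassDescent h (↑S : Set Nat.Primes) h')
  (hbot : Adm (⊥ : IntermediateField ℚ Qb)) [NumberField ↥(⊥ : IntermediateField ℚ Qb)]
  (Is : PLayerInvSystem (sClassCoeff ℚ Qb (↑S : Set Nat.Primes)) Adm p)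

/-- **The finite-level formula `(hLG)`** of `PT.recip_of_levels` for the level family
`coeffInvLevel` of the dictionaries `csFullDict` over `ℚ`, from the local–global spec `hspec` of
the invariant system and the local terms `hloc`. -/
theorem hLG_of_local
    (hspec : ∀ {E' : IntermediateField ℚ Qb} (h : (⊥ : IntermediateField ℚ Qb) ≤ E')
      [Normal (⊥ : IntermediateField ℚ Qb) (layer h)], Adm E' →
      ∀ z : groupCohomology ((ideleCoeff ℚ Qb).M h) 2, (∃ n : ℕ, p ^ n • z = 0) →
      Is.inv h ((classToClassSLayer (↑S : Set Nat.Primes) h 2).hom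
        ((ideleToClassLayer h 2).hom z)) =
          invJFun padicLocalInvFamily (⊥ : IntermediateField ℚ Qb) z)
    (hloc : ∀ (q : ↥S) (l : (globalLevel S).Level) {F : IntermediateField ℚ Qb}
      (h : (⊥ : IntermediateField ℚ Qb) ≤ F) [FiniteDimensional ℚ F]
      [Normal ↥(⊥ : IntermediateField ℚ Qb) (layer h)]
      (N : Subgroup (⊥ : IntermediateField ℚ Qb).fixingSubgroup) [N.Normal]
      (hN : N = (layerRes h).ker)
      (hNl : N = l.N.comap (⊥ : IntermediateField ℚ Qb).fixingSubgroup.subtype)
      (hopen : (globalLevel S).IsOpen F.fixingSubgroup)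
      (y : groupCohomology.H2
        ((jsRep (globalLevel S) Qb (↑S : Set Nat.Primes)).quotientToInvariants l.N)),
      locInvLevel q.1 ((levelComap_global S).level q l)
          ((LC.locFin (evQ (globalLevel S) S) q l.N 2).hom y) =
        semiLocalInv padicLocalInvFamily ↥(⊥ : IntermediateField ℚ Qb) q.1
          ((groupCohomology.map (MonoidHom.id _)
            (sProdProj ((layer h) ≃ₐ[↥(⊥ : IntermediateField ℚ Qb)] (layer h)) (layer h)
              (↑S : Set Nat.Primes) ⟨q.1, Finset.mem_coe.2 q.2⟩) 2).hom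
            (cohLinearEquivOfRepIso _ _ (dictEquiv h N hN)
              (jsDictRepIso (globalLevel S) (↑S : Set Nat.Primes) h N hN hopen) 2
              ((LC.resFin (jsRep (globalLevel S) Qb (↑S : Set Nat.Primes)) hNl.le 2).hom y))))
    (l : (globalLevel S).Level)
    (y : groupCohomology.H2
      ((jsRep (globalLevel S) Qb (↑S : Set Nat.Primes)).quotientToInvariants l.N))
    (hy : p • y = 0) :
    coeffInvLevel (globalLevel S) Is
        (csFullDictFamily (globalLevel S) (↑S : Set Nat.Primes) Adm hfd hGalA hcofA hsup hne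
          hdescA) hbot l
        ((LC.coeffFinMap (jsToCsFullComp S) l.N 2).hom y) =
      ∑ q : ↥S, locInvLevel q.1 ((levelComap_global S).level q l)
        ((LC.locFin (evQ (globalLevel S) S) q l.N 2).hom y) := by
  haveI := (csFullDict (globalLevel S) (↑S : Set Nat.Primes) Adm hfd hGalA hcofA hsup hne hdescA
    ⊥ hbot).normal (botLevel (globalLevel S) l)
  haveI : FiniteDimensional ℚ ↥((csFullDict (globalLevel S) (↑S : Set Nat.Primes) Adm hfd hGalA
      hcofA hsup hne hdescA ⊥ hbot).top (botLevel (globalLevel S) l)) :=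
    hfd ((csFullDict (globalLevel S) (↑S : Set Nat.Primes) Adm hfd hGalA hcofA hsup hne hdescA
      ⊥ hbot).adm (botLevel (globalLevel S) l))
  rw [coeffInvLevel_jsToCsFull (globalLevel S) S Adm hfd hGalA hcofA hsup hne hdescA hbot
    padicLocalInvFamily Is hspec l y ⟨1, by rw [pow_one]; exact hy⟩, ← Finset.univ_eq_attach]
  refine Finset.sum_congr rfl fun q _ => ?_
  exact (hloc q l _ _ _ rfl _ y).symm

end Rat

end PT

end Fermat.Agent.CFT
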