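import Fermat.Agent.CFT.PT.PTInputsQLevels
import Fermat.Agent.CFT.PT.InvCompatFinal

/-!
# Layer D, node D3c over `ℚ`: the finite-level formula of `PTQ.ptInputsQ_of_levels`

Final plug of D3c: the hypothesis `hLG` of `PTQ.ptInputsQ_of_levels` (`PT/PTInputsQLevels.lean`)
from the local terms (`PTQ.LocalTerms S`, the statement of
`galInvLevel_locFin_eq_semiLocalInv`, `PT/InvCompatLocal.lean`), through `PT.hLG_of_local`
(`PT/InvCompatFinal.lean`).

* `PTQ.LocalTerms S` : the statement of the local terms of the finite-level formula (D3c-L);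
* `PTQ.hLG_Q` : the finite-level formula `(hLG)` over `ℚ` from `LocalTerms S`;
* `PTQ.ptInputsQ_of_local` : `PTInputs p S` from `LocalTerms S` alone.
-/

set_option autoImplicit false
set_option linter.style.haveILetI false
set_option linter.unusedSectionVars false
set_option maxSynthPendingDepth 2

open CategoryTheory groupCohomology IntermediateField

namespace Fermat.Agent.CFT.PTQ

open Fermat.Agent.CFT Fermat.Agent.S55 ExtCitation GaloisTower LayerMaps Fermat.Agent.CFT.PT

attribute [local instance 2000] Rep.hV2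

local notation "Qb" => AlgebraicClosure ℚ
local notation "GQ" => (AlgebraicClosure ℚ ≃ₐ[ℚ] AlgebraicClosure ℚ)

local instance instIsGaloisQbD3cQ : IsGalois ℚ Qb :=
  Fermat.Agent.S54.FrobExists.isGalois_rat_algebraicClosure

/-- `⊥ = ℚ` is a number field. -/
local instance instNumberFieldBotQbD3cQ : NumberField ↥(⊥ : IntermediateField ℚ Qb) := ⟨⟩

variable (S : Finset Nat.Primes) {p : ℕ} [hp : Fact p.Prime] (hp2 : p ≠ 2)
  (hpS : pPrime p ∈ S)

/-- The statement of the local terms of the finite-level formula (D3c-L): the `q`-th local level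
invariant of the localisation of a finite-level class `y ∈ H²(G_ℚ ⧸ l.N, J_S^{l.N})` is the
semi-local invariant at `q` of the class corresponding to `y` in
`H²(Gal(F/ℚ), ∏_{q ∈ S} A_q(F))`. -/
def LocalTerms : Prop :=
  ∀ (q : ↥S) (l : (globalLevel S).Level) {F : IntermediateField ℚ Qb}
    (h : (⊥ : IntermediateField ℚ Qb) ≤ F) [FiniteDimensional ℚ F]
    [Normal ↥(⊥ : IntermediateField ℚ Qb) (layer h)]
    (N : Subgroup (⊥ : IntermediateField ℚ Qb).fixingSubgroup) [N.Normal]
    (hN : N = (layerRes h).ker)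
    (hNl : N = l.N.comap (⊥ : IntermediateField ℚ Qb).fixingSubgroup.subtype)
    (hopen : (globalLevel S).IsOpen F.fixingSubgroup)
    (y : groupCohomology.H2
      ((jsRep (globalLevel S) Qb (↑S : Set Nat.Primes)).quotientToInvariants l.N)),
    locInvLevel q.1 ((levelComap_global S).level q l)
        ((LC.locFin (evQ (globalLevel S) S) q l.N 2).hom y) =
      semiLocalInv padicLocalInvFamily ↥(⊥ : IntermediateField ℚ Qb) q.1
        ((groupCohomology.map (MonoidHom.id _)
          (sProdProj ((layer h) ≃ₐ[↥(⊥ : IntermediateField ℚ Qb)] (layer h)) (layer h)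
            (↑S : Set Nat.Primes) ⟨q.1, Finset.mem_coe.2 q.2⟩) 2).hom
          (cohLinearEquivOfRepIso _ _ (dictEquiv h N hN)
            (Fermat.Agent.CFT.jsDictRepIso (globalLevel S) (↑S : Set Nat.Primes) h N hN hopen) 2
            ((LC.resFin (jsRep (globalLevel S) Qb (↑S : Set Nat.Primes)) hNl.le 2).hom y)))

/-- **The finite-level formula `(hLG)` over `ℚ`** from the local terms. -/
theorem hLG_Q (hloc : LocalTerms S) (l : (globalLevel S).Level)
    (y : groupCohomology.H2
      ((jsRep (globalLevel S) Qb (↑S : Set Nat.Primes)).quotientToInvariants l.N))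
    (hy : p • y = 0) :
    tGQ S hp2 hpS l ((LC.coeffFinMap (jsToCsFullComp S) l.N 2).hom y) =
      ∑ q : ↥S, locInvLevel q.1 ((levelComap_global S).level q l)
        ((LC.locFin (evQ (globalLevel S) S) q l.N 2).hom y) :=
  PT.hLG_of_local S (AdmS S) (fun hF => admS_fd hF)
    (globalLevel_galType S) (globalLevel_cofinal S) (fun hB hB' => admS_sup hB hB')
    (exists_mem_localEmb_Qb S ⟨_, hpS⟩)
    (fun h h' hB'' _ => hasSClassDescent_of_admS S ⟨_, hpS⟩ h h' hB'')
    (IntermediateField.isUnramifiedOutside_bot S) (sSysQ S hp2 hpS)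
    (fun h _ hE' z hz => sSysQ_inv_idele S hp2 hpS h hE' z hz)
    (fun q l _ h _ _ N _ hN hNl hopen y => hloc q l h N hN hNl hopen y) l y hy

/-- **The inputs of Poitou–Tate over `ℚ`** (`p` odd, `p ∈ S`) from the local terms of the
finite-level reciprocity formula (D3c-L) alone. -/
noncomputable def ptInputsQ_of_local (hloc : LocalTerms S) : PTInputs p S :=
  ptInputsQ_of_levels S hp2 hpS (fun l y hy => hLG_Q S hp2 hpS hloc l y hy)

end Fermat.Agent.CFT.PTQ
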