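import Mathlib

/-!
# The abstract dévissage chase (node D2b)

Two contravariant "cohomological" families `Φ⁰, Φ¹, Φ²` and `Ψ⁰, Ψ¹, Ψ²` on a type of objects,
with comparison maps `λʳ M : Φʳ M → Ψʳ M`.  A *dévissage step* for `M` is a presentation
`0 → R → I → M → 0` giving rise to exact rows

`0 → Φ⁰ M → Φ⁰ I → Φ⁰ R → Φ¹ M → Φ¹ I → Φ¹ R → Φ² M → Φ² I`

(and the same for `Ψ`), all squares with `λ` commuting, such that `λ⁰ I`, `λ¹ I` are bijective and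
`λ² I` is injective.  If every object admits a step, then for every object `λ⁰ M`, `λ¹ M` are
bijective and `λ² M` is injective (`devissage_chase`).
-/

set_option autoImplicit false

universe u v₀ v₁ v₂ w₀ w₁ w₂ w

namespace Fermat.Agent.CFT.PT

open Function

section Chase

variable {k : Type u} [CommRing k] {Obj : Type w}
  (Φ0 : Obj → Type v₀) (Φ1 : Obj → Type v₁) (Φ2 : Obj → Type v₂)
  (Ψ0 : Obj → Type w₀) (Ψ1 : Obj → Type w₁) (Ψ2 : Obj → Type w₂)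
  [∀ M, AddCommGroup (Φ0 M)] [∀ M, Module k (Φ0 M)]
  [∀ M, AddCommGroup (Φ1 M)] [∀ M, Module k (Φ1 M)]
  [∀ M, AddCommGroup (Φ2 M)] [∀ M, Module k (Φ2 M)]
  [∀ M, AddCommGroup (Ψ0 M)] [∀ M, Module k (Ψ0 M)]
  [∀ M, AddCommGroup (Ψ1 M)] [∀ M, Module k (Ψ1 M)]
  [∀ M, AddCommGroup (Ψ2 M)] [∀ M, Module k (Ψ2 M)]
  (lam0 : ∀ M, Φ0 M →ₗ[k] Ψ0 M) (lam1 : ∀ M, Φ1 M →ₗ[k] Ψ1 M) (lam2 : ∀ M, Φ2 M →ₗ[k] Ψ2 M)

/-- A dévissage step for `M`: objects `I`, `R` (think `0 → R → I → M → 0`) with the two exact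
rows `0 → Φ⁰ M → Φ⁰ I → Φ⁰ R → Φ¹ M → Φ¹ I → Φ¹ R → Φ² M → Φ² I` (same for `Ψ`), commuting with
the comparison maps, such that the comparison maps of `I` are bijective in degrees `0, 1` and
injective in degree `2`. -/
structure DevissageStep (M : Obj) where
  /-- the induced object -/
  I : Obj
  /-- the kernel -/
  R : Obj
  /-- `Φ⁰ M → Φ⁰ I` -/
  a0 : Φ0 M →ₗ[k] Φ0 I
  /-- `Φ⁰ I → Φ⁰ R` -/
  b0 : Φ0 I →ₗ[k] Φ0 R
  /-- the connecting map `Φ⁰ R → Φ¹ M` -/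
  d0 : Φ0 R →ₗ[k] Φ1 M
  /-- `Φ¹ M → Φ¹ I` -/
  a1 : Φ1 M →ₗ[k] Φ1 I
  /-- `Φ¹ I → Φ¹ R` -/
  b1 : Φ1 I →ₗ[k] Φ1 R
  /-- the connecting map `Φ¹ R → Φ² M` -/
  d1 : Φ1 R →ₗ[k] Φ2 M
  /-- `Φ² M → Φ² I` -/
  a2 : Φ2 M →ₗ[k] Φ2 I
  /-- `Ψ⁰ M → Ψ⁰ I` -/
  a0' : Ψ0 M →ₗ[k] Ψ0 I
  /-- `Ψ⁰ I → Ψ⁰ R` -/
  b0' : Ψ0 I →ₗ[k] Ψ0 R
  /-- the connecting map `Ψ⁰ R → Ψ¹ M` -/
  d0' : Ψ0 R →ₗ[k] Ψ1 M
  /-- `Ψ¹ M → Ψ¹ I` -/
  a1' : Ψ1 M →ₗ[k] Ψ1 I
  /-- `Ψ¹ I → Ψ¹ R` -/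
  b1' : Ψ1 I →ₗ[k] Ψ1 R
  /-- the connecting map `Ψ¹ R → Ψ² M` -/
  d1' : Ψ1 R →ₗ[k] Ψ2 M
  /-- `Ψ² M → Ψ² I` -/
  a2' : Ψ2 M →ₗ[k] Ψ2 I
  inj_a0 : Injective a0
  exact_a0_b0 : Exact a0 b0
  exact_b0_d0 : Exact b0 d0
  exact_d0_a1 : Exact d0 a1
  exact_a1_b1 : Exact a1 b1
  exact_b1_d1 : Exact b1 d1
  exact_d1_a2 : Exact d1 a2
  inj_a0' : Injective a0'
  exact_a0'_b0' : Exact a0' b0'
  exact_b0'_d0' : Exact b0' d0'
  exact_d0'_a1' : Exact d0' a1'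
  exact_a1'_b1' : Exact a1' b1'
  exact_b1'_d1' : Exact b1' d1'
  exact_d1'_a2' : Exact d1' a2'
  comm_a0 : ∀ x, lam0 I (a0 x) = a0' (lam0 M x)
  comm_b0 : ∀ x, lam0 R (b0 x) = b0' (lam0 I x)
  comm_d0 : ∀ x, lam1 M (d0 x) = d0' (lam0 R x)
  comm_a1 : ∀ x, lam1 I (a1 x) = a1' (lam1 M x)
  comm_b1 : ∀ x, lam1 R (b1 x) = b1' (lam1 I x)
  comm_d1 : ∀ x, lam2 M (d1 x) = d1' (lam1 R x)
  comm_a2 : ∀ x, lam2 I (a2 x) = a2' (lam2 M x)
  bij0 : Bijective (lam0 I)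
  bij1 : Bijective (lam1 I)
  inj2 : Injective (lam2 I)

variable {Φ0 Φ1 Φ2 Ψ0 Ψ1 Ψ2 lam0 lam1 lam2}

namespace DevissageStep

variable {M : Obj} (s : DevissageStep Φ0 Φ1 Φ2 Ψ0 Ψ1 Ψ2 lam0 lam1 lam2 M)

include s in
/-- `λ⁰ M` is injective. -/
lemma injective_lam0 : Injective (lam0 M) := by
  intro x y hxy
  apply s.inj_a0
  apply s.bij0.1
  rw [s.comm_a0, s.comm_a0, hxy]

include s in
/-- `λ⁰ M` is surjective, provided `λ⁰ R` is injective. -/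
lemma surjective_lam0 (hR : Injective (lam0 s.R)) : Surjective (lam0 M) := by
  intro y
  obtain ⟨x, hx⟩ := s.bij0.2 (s.a0' y)
  have h1 : s.b0 x = 0 := by
    apply hR
    rw [s.comm_b0, hx, map_zero]
    exact (s.exact_a0'_b0' _).2 ⟨y, rfl⟩
  obtain ⟨m, rfl⟩ := (s.exact_a0_b0 x).1 h1
  refine ⟨m, s.inj_a0' ?_⟩
  rw [← s.comm_a0, hx]

include s in
/-- `λ¹ M` is injective, provided `λ⁰ R` is injective. -/
lemma injective_lam1 (hR : Injective (lam0 s.R)) : Injective (lam1 M) := by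
  rw [injective_iff_map_eq_zero]
  intro x hx
  have h1 : s.a1 x = 0 := by
    apply s.bij1.1
    rw [s.comm_a1, hx, map_zero, map_zero]
  obtain ⟨r, rfl⟩ := (s.exact_d0_a1 x).1 h1
  have h2 : s.d0' (lam0 s.R r) = 0 := by rw [← s.comm_d0, hx]
  obtain ⟨i', hi'⟩ := (s.exact_b0'_d0' _).1 h2
  obtain ⟨i, rfl⟩ := s.bij0.2 i'
  rw [← s.comm_b0] at hi'
  rw [← hR hi']
  exact (s.exact_b0_d0 _).2 ⟨i, rfl⟩

include s in
/-- `λ¹ M` is surjective, provided `λ⁰ R` is surjective and `λ¹ R` is injective. -/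
lemma surjective_lam1 (hR0 : Surjective (lam0 s.R)) (hR1 : Injective (lam1 s.R)) :
    Surjective (lam1 M) := by
  intro y
  obtain ⟨x, hx⟩ := s.bij1.2 (s.a1' y)
  have h1 : s.b1 x = 0 := by
    apply hR1
    rw [s.comm_b1, hx, map_zero]
    exact (s.exact_a1'_b1' _).2 ⟨y, rfl⟩
  obtain ⟨m, rfl⟩ := (s.exact_a1_b1 x).1 h1
  have h2 : s.a1' (y - lam1 M m) = 0 := by
    rw [map_sub, ← s.comm_a1, hx, sub_self]
  obtain ⟨r', hr'⟩ := (s.exact_d0'_a1' _).1 h2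
  obtain ⟨r, rfl⟩ := hR0 r'
  refine ⟨m + s.d0 r, ?_⟩
  rw [map_add, s.comm_d0, hr']
  abel

include s in
/-- `λ² M` is injective, provided `λ¹ R` is injective. -/
lemma injective_lam2 (hR1 : Injective (lam1 s.R)) : Injective (lam2 M) := by
  rw [injective_iff_map_eq_zero]
  intro x hx
  have h1 : s.a2 x = 0 := by
    apply s.inj2
    rw [s.comm_a2, hx, map_zero, map_zero]
  obtain ⟨r, rfl⟩ := (s.exact_d1_a2 x).1 h1
  have h2 : s.d1' (lam1 s.R r) = 0 := by rw [← s.comm_d1, hx]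
  obtain ⟨i', hi'⟩ := (s.exact_b1'_d1' _).1 h2
  obtain ⟨i, rfl⟩ := s.bij1.2 i'
  rw [← s.comm_b1] at hi'
  rw [← hR1 hi']
  exact (s.exact_b1_d1 _).2 ⟨i, rfl⟩

end DevissageStep

/-- **The abstract dévissage chase.** If every object admits a `DevissageStep`, then for every
object the comparison maps are bijective in degrees `0` and `1` and injective in degree `2`. -/
theorem devissage_chase
    (step : ∀ M : Obj, Nonempty (DevissageStep Φ0 Φ1 Φ2 Ψ0 Ψ1 Ψ2 lam0 lam1 lam2 M)) (M : Obj) :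
    Bijective (lam0 M) ∧ Bijective (lam1 M) ∧ Injective (lam2 M) := by
  have h0i : ∀ M : Obj, Injective (lam0 M) := fun M => (step M).some.injective_lam0
  have h0s : ∀ M : Obj, Surjective (lam0 M) := fun M => (step M).some.surjective_lam0 (h0i _)
  have h1i : ∀ M : Obj, Injective (lam1 M) := fun M => (step M).some.injective_lam1 (h0i _)
  have h1s : ∀ M : Obj, Surjective (lam1 M) :=
    fun M => (step M).some.surjective_lam1 (h0s _) (h1i _)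
  have h2i : ∀ M : Obj, Injective (lam2 M) := fun M => (step M).some.injective_lam2 (h1i _)
  exact ⟨⟨h0i M, h0s M⟩, ⟨h1i M, h1s M⟩, h2i M⟩

/-- Variant of the chase relative to a class `P` of objects stable under the steps. -/
theorem devissage_chase_of (P : Obj → Prop)
    (step : ∀ M : Obj, P M →
      ∃ s : DevissageStep Φ0 Φ1 Φ2 Ψ0 Ψ1 Ψ2 lam0 lam1 lam2 M, P s.R) (M : Obj) (hM : P M) :
    Bijective (lam0 M) ∧ Bijective (lam1 M) ∧ Injective (lam2 M) := by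
  have h0i : ∀ M : Obj, P M → Injective (lam0 M) := fun M hM => by
    obtain ⟨s, -⟩ := step M hM
    exact s.injective_lam0
  have h0s : ∀ M : Obj, P M → Surjective (lam0 M) := fun M hM => by
    obtain ⟨s, hR⟩ := step M hM
    exact s.surjective_lam0 (h0i _ hR)
  have h1i : ∀ M : Obj, P M → Injective (lam1 M) := fun M hM => by
    obtain ⟨s, hR⟩ := step M hM
    exact s.injective_lam1 (h0i _ hR)
  have h1s : ∀ M : Obj, P M → Surjective (lam1 M) := fun M hM => by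
    obtain ⟨s, hR⟩ := step M hM
    exact s.surjective_lam1 (h0s _ hR) (h1i _ hR)
  have h2i : ∀ M : Obj, P M → Injective (lam2 M) := fun M hM => by
    obtain ⟨s, hR⟩ := step M hM
    exact s.injective_lam2 (h1i _ hR)
  exact ⟨⟨h0i M hM, h0s M hM⟩, ⟨h1i M hM, h1s M hM⟩, h2i M hM⟩

end Chase

end Fermat.Agent.CFT.PT
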