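import Fermat.Agent.S55.CycloUnram
import Fermat.Agent.S55.LCBridgeGlobal
import Fermat.Agent.CFT.Global.SModules

/-!
# D4 (b): the Galois module `μ_p`

`muRep p : Rep ℤ G_ℚ` is the group `rootsOfUnity p ℚ̄` of `p`-th roots of unity of `ℚ̄` (written
additively) with the Galois action.  The cyclotomic character describes the action
(`muRep_ρ_apply_eq_pow`), `muRep p` is killed by `p`, has `p` elements, and is smooth for
`S55.globalLevel S` as soon as `p ∈ S` (`isSmooth_muRep`).
-/

set_option autoImplicit false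

open CategoryTheory ExtCitation

noncomputable section

namespace Fermat.Agent.CFT.PT

open Fermat.Agent.CFT Fermat.Agent.S55

local notation "Qb" => AlgebraicClosure ℚ
local notation "GQ" => (AlgebraicClosure ℚ ≃ₐ[ℚ] AlgebraicClosure ℚ)

section Action

variable (p : ℕ)

/-- The Galois action on the `p`-th roots of unity. -/
instance muAction : MulDistribMulAction GQ (rootsOfUnity p Qb) where
  smul g ζ := restrictRootsOfUnity g p ζ
  one_smul ζ := by
    apply Subtype.ext
    apply Units.ext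
    rfl
  mul_smul g h ζ := by
    apply Subtype.ext
    apply Units.ext
    rfl
  smul_mul g ζ ξ := map_mul (restrictRootsOfUnity g p) ζ ξ
  smul_one g := map_one (restrictRootsOfUnity g p)

@[simp]
theorem mu_smul_coe (g : GQ) (ζ : rootsOfUnity p Qb) :
    (((g • ζ : rootsOfUnity p Qb) : Qbˣ) : Qb) = g ((ζ : Qbˣ) : Qb) := rfl

/-- `μ_p` as a representation of `G_ℚ` over `ℤ`. -/
def muRep : Rep ℤ GQ := Rep.ofMulDistribMulAction GQ (rootsOfUnity p Qb)

theorem muRep_ρ_apply (g : GQ) (ζ : Additive (rootsOfUnity p Qb)) :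
    (muRep p).ρ g ζ = Additive.ofMul (g • Additive.toMul ζ) := rfl

/-- `μ_p` is killed by `p`. -/
theorem nsmul_muRep_eq_zero (ζ : Additive (rootsOfUnity p Qb)) : p • ζ = 0 := by
  apply Additive.toMul.injective
  show (Additive.toMul ζ) ^ p = 1
  apply Subtype.ext
  exact (mem_rootsOfUnity _ _).1 (Additive.toMul ζ).2

end Action

section Prime

variable (p : ℕ) [hp : Fact p.Prime]

/-- The Galois action on `μ_p` is through the cyclotomic character. -/
theorem mu_smul_eq_pow (g : GQ) (ζ : rootsOfUnity p Qb) :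
    g • ζ = ζ ^ ((cycloChar p g : (ZMod p)ˣ) : ZMod p).val := by
  apply Subtype.ext
  apply Units.ext
  rw [mu_smul_coe, cycloChar_eq_chi]
  have hζ : (((ζ : rootsOfUnity p Qb) : Qbˣ) : Qb) ^ p = 1 := by
    have := (mem_rootsOfUnity _ _).1 ζ.2
    rw [← Units.val_pow_eq_pow_val, this, Units.val_one]
  rw [Fermat.Agent.S14.AlgGQ.chi_spec p g hζ]
  rfl

theorem card_muRep : Nat.card (Additive (rootsOfUnity p Qb)) = p :=
  card_rootsOfUnity_eq_self p

instance finite_mu : Finite (rootsOfUnity p Qb) :=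
  Nat.finite_of_card_ne_zero (by rw [card_rootsOfUnity_eq_self p]; exact hp.out.ne_zero)

/-- There is a level of `globalLevel S` (`p ∈ S`) fixing all `p`-th roots of unity. -/
theorem exists_level_forall_mu_smul_eq (S : Finset Nat.Primes) (hpS : pPrime p ∈ S) :
    ∃ N : Subgroup GQ, (globalLevel S).IsLevel N ∧
      ∀ g ∈ N, ∀ ζ : rootsOfUnity p Qb, g • ζ = ζ := by
  obtain ⟨F₁, hF₁, h1⟩ := exists_isUnramifiedOutside_cycloChar_eq_one p
  have hF₁S : F₁.IsUnramifiedOutside S := hF₁.mono (Finset.singleton_subset_iff.2 hpS)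
  obtain ⟨E, hFE, -, hES, hgal⟩ := exists_isGalois_isUnramifiedOutside_ge hF₁S hF₁S
  refine ⟨_, ⟨E, hgal, hES, rfl⟩, fun g hg ζ => ?_⟩
  have hg1 : cycloChar p g = 1 := h1 g (IntermediateField.fixingSubgroup_antitone hFE hg)
  apply Subtype.ext
  apply Units.ext
  rw [mu_smul_coe]
  refine (cycloChar_eq_one_iff p g).1 hg1 _ ?_
  have := (mem_rootsOfUnity _ _).1 ζ.2
  rw [← Units.val_pow_eq_pow_val, this, Units.val_one]

/-- `μ_p` is smooth for `globalLevel S` when `p ∈ S`. -/
theorem isSmooth_muRep (S : Finset Nat.Primes) (hpS : pPrime p ∈ S) :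
    IsSmooth (globalLevel S) (muRep p) := by
  obtain ⟨N, hN, hfix⟩ := exists_level_forall_mu_smul_eq p S hpS
  exact isSmooth_ofMul_of_forall (globalLevel S) fun ζ => ⟨N, hN, fun g hg => hfix g hg ζ⟩

end Prime

end Fermat.Agent.CFT.PT

end
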