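import Fermat.Agent.CFT.PT.RepZ
import Fermat.Agent.CFT.PT.MuRep

/-!
# D4 (c): `M ≅ Hom(M', μ_p)` for `M' = M.dualTwist χ_cyc`

For a finite-dimensional `M : Rep (ZMod p) G_ℚ` and its Tate-twisted dual
`M' = M.dualTwist (cycloChar p)` (the Prelude's `Module.Dual` with `g • f = χ(g) • (f ∘ ρ g⁻¹)`):

* `muEquiv p : ZMod p ≃+ μ_p`, `a ↦ ζ^a` for a fixed primitive `p`-th root of unity `ζ`, with
  `muRep_ρ_muEquiv : g • ζ^a = ζ^(χ(g) a)`;
* `dualTwistIso p M : repZ M ≅ (Rep.ihom (repZ M')).obj (muRep p)`, `m ↦ (f ↦ ζ^(f m))`;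
* `repZ M'` is finite and killed by `p`.
-/

set_option autoImplicit false

open CategoryTheory ExtCitation

noncomputable section

namespace Fermat.Agent.CFT.PT

open Fermat.Agent.CFT Fermat.Agent.S55

local notation "Qb" => AlgebraicClosure ℚ
local notation "GQ" => (AlgebraicClosure ℚ ≃ₐ[ℚ] AlgebraicClosure ℚ)

variable (p : ℕ) [hp : Fact p.Prime]

local instance neZero_of_fact_prime_aux : NeZero p := ⟨hp.out.ne_zero⟩

/-! ### `ZMod p ≃+ μ_p` -/

/-- A primitive `p`-th root of unity of `ℚ̄` exists. -/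
theorem exists_isPrimitiveRoot_Qb : ∃ ζ : Qb, IsPrimitiveRoot ζ p :=
  HasEnoughRootsOfUnity.exists_primitiveRoot Qb p

/-- A fixed primitive `p`-th root of unity. -/
def zetaQb : Qb := (exists_isPrimitiveRoot_Qb p).choose

theorem isPrimitiveRoot_zetaQb : IsPrimitiveRoot (zetaQb p) p :=
  (exists_isPrimitiveRoot_Qb p).choose_spec

/-- The fixed primitive `p`-th root of unity as an element of `μ_p`. -/
def muGen : rootsOfUnity p Qb := (isPrimitiveRoot_zetaQb p).toRootsOfUnity

theorem muGen_coe : (((muGen p : rootsOfUnity p Qb) : Qbˣ) : Qb) = zetaQb p := rfl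

theorem muGen_pow_eq_one_iff (l : ℕ) : muGen p ^ l = 1 ↔ p ∣ l := by
  rw [← (isPrimitiveRoot_zetaQb p).pow_eq_one_iff_dvd l]
  constructor
  · intro h
    have := congrArg (fun x : rootsOfUnity p Qb => ((x : Qbˣ) : Qb)) h
    simpa [muGen_coe] using this
  · intro h
    apply Subtype.ext
    apply Units.ext
    simpa [muGen_coe] using h

/-- `ℤ → μ_p`, `n ↦ ζ^n`, kills `p`. -/
theorem zmultiplesHom_muGen_p :
    zmultiplesHom (Additive (rootsOfUnity p Qb)) (Additive.ofMul (muGen p)) (p : ℤ) = 0 := by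
  rw [zmultiplesHom_apply, natCast_zsmul]
  exact nsmul_muRep_eq_zero p _

/-- `ZMod p →+ μ_p`, `a ↦ ζ^a`. -/
def muHom : ZMod p →+ Additive (rootsOfUnity p Qb) :=
  ZMod.lift p ⟨zmultiplesHom _ (Additive.ofMul (muGen p)), zmultiplesHom_muGen_p p⟩

theorem muHom_natCast (n : ℕ) : muHom p (n : ZMod p) = Additive.ofMul (muGen p ^ n) := by
  have := ZMod.lift_coe p ⟨zmultiplesHom _ (Additive.ofMul (muGen p)), zmultiplesHom_muGen_p p⟩
    (n : ℤ)
  rw [Int.cast_natCast] at this
  rw [muHom, this]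
  show zmultiplesHom _ (Additive.ofMul (muGen p)) (n : ℤ) = _
  rw [zmultiplesHom_apply, natCast_zsmul]
  rfl

theorem muHom_apply (a : ZMod p) : muHom p a = Additive.ofMul (muGen p ^ a.val) := by
  conv_lhs => rw [← ZMod.natCast_zmod_val a]
  exact muHom_natCast p a.val

theorem muHom_injective : Function.Injective (muHom p) := by
  rw [injective_iff_map_eq_zero]
  intro a ha
  rw [muHom_apply] at ha
  have h1 : muGen p ^ a.val = 1 := ha
  have h2 := (muGen_pow_eq_one_iff p a.val).1 h1
  have h3 : a.val = 0 := Nat.eq_zero_of_dvd_of_lt h2 (ZMod.val_lt a)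
  exact (ZMod.val_eq_zero a).1 h3

theorem muHom_bijective : Function.Bijective (muHom p) := by
  have : Finite (Additive (rootsOfUnity p Qb)) := finite_mu p
  rw [Nat.bijective_iff_injective_and_card]
  exact ⟨muHom_injective p, by rw [Nat.card_zmod, card_muRep p]⟩

/-- `ZMod p ≃+ μ_p`, `a ↦ ζ^a`. -/
def muEquiv : ZMod p ≃+ Additive (rootsOfUnity p Qb) :=
  AddEquiv.ofBijective (muHom p) (muHom_bijective p)

@[simp] theorem muEquiv_apply (a : ZMod p) : muEquiv p a = muHom p a := rfl

/-- The Galois action on `μ_p` in terms of `muEquiv`: `g • ζ^a = ζ^(χ(g) a)`. -/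
theorem muRep_ρ_muEquiv (g : GQ) (a : ZMod p) :
    (muRep p).ρ g (muEquiv p a) = muEquiv p (((cycloChar p g : (ZMod p)ˣ) : ZMod p) * a) := by
  rw [muRep_ρ_apply, mu_smul_eq_pow, muEquiv_apply, muEquiv_apply, muHom_apply]
  set c : ZMod p := ((cycloChar p g : (ZMod p)ˣ) : ZMod p) with hc
  have h1 : c * a = ((c.val * a.val : ℕ) : ZMod p) := by
    rw [Nat.cast_mul, ZMod.natCast_zmod_val, ZMod.natCast_zmod_val]
  rw [h1, muHom_natCast]
  show Additive.ofMul ((muGen p ^ a.val) ^ c.val) = _
  rw [← pow_mul, mul_comm]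

/-! ### The dictionary -/

variable (M : Rep (ZMod p) GQ)

/-- The Tate-twisted dual `M' = Hom(M, F_p)(1)` of the Prelude. -/
abbrev dualTw : Rep (ZMod p) GQ := M.dualTwist (cycloChar p)

/-- `f ↦ ζ^(f m)` as an additive map `M' → μ_p`. -/
def dictAdd (m : M) : (repZ (dualTw p M)) →+ (muRep p) where
  toFun f := muEquiv p ((show Module.Dual (ZMod p) M from f) m)
  map_zero' := by
    show muEquiv p ((0 : Module.Dual (ZMod p) M) m) = 0
    rw [LinearMap.zero_apply, map_zero]
  map_add' f f' := by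
    show muEquiv p (((show Module.Dual (ZMod p) M from f) + (show Module.Dual (ZMod p) M from f')) m)
      = _
    rw [LinearMap.add_apply, map_add]
    rfl

theorem dictAdd_apply (m : M) (f : Module.Dual (ZMod p) M) :
    dictAdd p M m (show repZ (dualTw p M) from f) = muEquiv p (f m) := rfl

/-- `m ↦ (f ↦ ζ^(f m))` as a `ℤ`-linear map `M → Hom_ℤ(M', μ_p)`. -/
def dictLin : (repZ M) →ₗ[ℤ] ((repZ (dualTw p M)) →ₗ[ℤ] (muRep p)) :=
  AddMonoidHom.toIntLinearMap
    { toFun := fun m => (dictAdd p M m).toIntLinearMap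
      map_zero' := by
        refine LinearMap.ext fun f => ?_
        show muEquiv p ((show Module.Dual (ZMod p) M from f) 0) = 0
        rw [map_zero, map_zero]
      map_add' := fun m m' => by
        refine LinearMap.ext fun f => ?_
        show muEquiv p ((show Module.Dual (ZMod p) M from f) (m + m')) =
          muEquiv p ((show Module.Dual (ZMod p) M from f) m) +
            muEquiv p ((show Module.Dual (ZMod p) M from f) m')
        rw [map_add, map_add] }

theorem dictLin_apply (m : M) (f : Module.Dual (ZMod p) M) :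
    dictLin p M (show repZ M from m) (show repZ (dualTw p M) from f) = muEquiv p (f m) := rfl

theorem dictLin_injective : Function.Injective (dictLin p M) := by
  rw [injective_iff_map_eq_zero]
  intro m hm
  have h : ∀ f : Module.Dual (ZMod p) M, f m = 0 := by
    intro f
    have h1 := LinearMap.congr_fun hm (show repZ (dualTw p M) from f)
    have h2 : muEquiv p (f m) = 0 := h1
    exact (muEquiv p).map_eq_zero_iff.1 h2
  exact (Module.forall_dual_apply_eq_zero_iff (ZMod p) m).1 h

theorem dictLin_surjective [FiniteDimensional (ZMod p) M] :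
    Function.Surjective (dictLin p M) := by
  intro ψ
  -- `φ = ε⁻¹ ∘ ψ` is an additive, hence `ZMod p`-linear, functional on the dual
  let φ₀ : Module.Dual (ZMod p) M →+ ZMod p :=
    (muEquiv p).symm.toAddMonoidHom.comp
      (ψ.toAddMonoidHom : (repZ (dualTw p M)) →+ (muRep p))
  let φ : Module.Dual (ZMod p) (Module.Dual (ZMod p) M) := φ₀.toZModLinearMap p
  obtain ⟨m, hm⟩ := (Module.evalEquiv (ZMod p) M).surjective φ
  refine ⟨(show repZ M from m), ?_⟩
  refine LinearMap.ext fun f => ?_
  have h1 : φ (show Module.Dual (ZMod p) M from f) = (show Module.Dual (ZMod p) M from f) m := by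
    rw [← hm]
    rfl
  show muEquiv p ((show Module.Dual (ZMod p) M from f) m) = ψ f
  rw [← h1]
  exact (muEquiv p).apply_symm_apply (ψ f)

/-- `M ≃ Hom_ℤ(M', μ_p)`. -/
def dictEquiv [FiniteDimensional (ZMod p) M] :
    (repZ M) ≃ₗ[ℤ] ((repZ (dualTw p M)) →ₗ[ℤ] (muRep p)) :=
  LinearEquiv.ofBijective (dictLin p M) ⟨dictLin_injective p M, dictLin_surjective p M⟩

/-- Equivariance of the dictionary map. -/
theorem dictLin_ρ (g : GQ) (m : M) :
    dictLin p M ((repZ M).ρ g (show repZ M from m)) =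
      ((Rep.ihom (repZ (dualTw p M))).obj (muRep p)).ρ g (dictLin p M (show repZ M from m)) := by
  refine LinearMap.ext fun f => ?_
  show muEquiv p ((show Module.Dual (ZMod p) M from f) (M.ρ g m)) =
    (muRep p).ρ g (muEquiv p
      ((show Module.Dual (ZMod p) M from ((dualTw p M).ρ g⁻¹ (show dualTw p M from f))) m))
  rw [muRep_ρ_muEquiv, Rep.dualTwist_ρ_apply, LinearMap.smul_apply, LinearMap.comp_apply, inv_inv,
    smul_eq_mul, ← mul_assoc, ← Units.val_mul, ← map_mul, mul_inv_cancel, map_one, Units.val_one,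
    one_mul]

/-- **The dictionary**: `M ≅ Hom_ℤ(M', μ_p)` as representations of `G_ℚ` over `ℤ`, where
`M' = M.dualTwist (cycloChar p)`; `m ↦ (f ↦ ζ^(f m))`. -/
def dualTwistIso [FiniteDimensional (ZMod p) M] :
    repZ M ≅ (Rep.ihom (repZ (dualTw p M))).obj (muRep p) :=
  Rep.mkIso (Representation.Equiv.mk (dictEquiv p M)
    (fun g => LinearMap.ext fun m => dictLin_ρ p M g m))

theorem dualTwistIso_hom_apply [FiniteDimensional (ZMod p) M] (m : M)
    (f : Module.Dual (ZMod p) M) :
    (show (repZ (dualTw p M)) →ₗ[ℤ] (muRep p) from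
        (dualTwistIso p M).hom.hom (show repZ M from m)) (show repZ (dualTw p M) from f) =
      muEquiv p (f m) := rfl

/-! ### Finiteness and torsion of `M'` -/

theorem nsmul_repZ_eq_zero (N : Rep (ZMod p) GQ) (x : repZ N) : p • x = 0 := by
  have h : (p : ZMod p) • (show N from x) = 0 := by
    rw [ZMod.natCast_self, zero_smul]
  rw [Nat.cast_smul_eq_nsmul] at h
  exact h

instance finite_repZ (N : Rep (ZMod p) GQ) [FiniteDimensional (ZMod p) N] : Finite (repZ N) :=
  Module.finite_of_finite (ZMod p)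

instance finite_dualTw [FiniteDimensional (ZMod p) M] : Finite (repZ (dualTw p M)) := by
  have : FiniteDimensional (ZMod p) (dualTw p M) :=
    inferInstanceAs (FiniteDimensional (ZMod p) (Module.Dual (ZMod p) M))
  exact finite_repZ p (dualTw p M)

instance moduleFinite_repZ_dualTw [FiniteDimensional (ZMod p) M] :
    Module.Finite ℤ (repZ (dualTw p M)) :=
  Module.Finite.of_finite

end Fermat.Agent.CFT.PT

end
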