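import Fermat.Agent.CFT.PT.MuRep
import Fermat.Agent.CFT.Global.ValESBridge
import Fermat.Agent.CFT.Tate.DimShift

/-!
# D1b: the Kummer sequence `0 → μ_p → E_S → E_S → 0`

`S` a finite set of primes containing `p`, `E_S = esRep (globalLevel S) ℚ̄ S` the `S`-units of `ℚ_S`
as a representation of `G_ℚ` (helper7's `SModules.lean`), `muRep p` the `p`-th roots of unity
(helper2's `PT/MuRep.lean`).  By helper4's bridge (`Global/ValESBridge.lean`) `E_S` is `p`-divisible
and contains `μ_p`; this file packages these facts at the level of representations: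

* `muToEs p S hpS : muRep p ⟶ esRep (globalLevel S) ℚ̄ S` (the inclusion), injective;
* `esPow p S : esRep .. ⟶ esRep ..` (`x ↦ x ^ p`, i.e. multiplication by `p` on the additive
  module: `esPow_hom_apply`), surjective (`esPow_surjective`);
* `esPow_hom_eq_zero_iff`: the kernel of `esPow` is the image of `muToEs`;
* `kummerES p S hpS : ShortComplex (Rep ℤ G_ℚ)` and `kummerES_shortExact`;
* `muEquivKerEsPow`: `μ_p ≃+ ker (p : E_S → E_S)`, equivariant.
-/

set_option autoImplicit false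

open CategoryTheory ExtCitation

noncomputable section

namespace Fermat.Agent.CFT.PT

open Fermat.Agent.CFT Fermat.Agent.S55

local notation "Qb" => AlgebraicClosure ℚ
local notation "GQ" => (AlgebraicClosure ℚ ≃ₐ[ℚ] AlgebraicClosure ℚ)

variable (p : ℕ) [hp : Fact p.Prime] (S : Finset Nat.Primes)

/-- The inclusion `μ_p ⊆ E_S` (`p ∈ S`) as a monoid homomorphism. -/
def muToESHom (hpS : pPrime p ∈ S) :
    rootsOfUnity p Qb →* ES (globalLevel S) Qb (↑S : Set Nat.Primes) where
  toFun ζ := ⟨(ζ : Qbˣ), mem_ES_of_pow_eq_one hp.out (hpS_of_mem hpS)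
    ((mem_rootsOfUnity _ _).1 ζ.2)⟩
  map_one' := rfl
  map_mul' _ _ := rfl

@[simp]
theorem muToESHom_coe (hpS : pPrime p ∈ S) (ζ : rootsOfUnity p Qb) :
    ((muToESHom p S hpS ζ : ES (globalLevel S) Qb (↑S : Set Nat.Primes)) : Qbˣ) = (ζ : Qbˣ) := rfl

theorem muToESHom_injective (hpS : pPrime p ∈ S) : Function.Injective (muToESHom p S hpS) := by
  intro a b h
  apply Subtype.ext
  exact congrArg (fun x : ES (globalLevel S) Qb (↑S : Set Nat.Primes) => (x : Qbˣ)) h

theorem muToESHom_smul (hpS : pPrime p ∈ S) (g : GQ) (ζ : rootsOfUnity p Qb) :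
    muToESHom p S hpS (g • ζ) = g • muToESHom p S hpS ζ := by
  apply Subtype.ext
  apply Units.ext
  rfl

/-- The inclusion `μ_p ⟶ E_S` of representations of `G_ℚ`. -/
def muToEs (hpS : pPrime p ∈ S) :
    muRep p ⟶ esRep (globalLevel S) Qb (↑S : Set Nat.Primes) :=
  mulRepHom (muToESHom p S hpS) (muToESHom_smul p S hpS)

@[simp]
theorem muToEs_hom_apply (hpS : pPrime p ∈ S) (ζ : muRep p) :
    (muToEs p S hpS).hom ζ = Additive.ofMul (muToESHom p S hpS
      (Additive.toMul (ζ : Additive (rootsOfUnity p Qb)))) := rfl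

theorem muToEs_injective (hpS : pPrime p ∈ S) : Function.Injective (muToEs p S hpS).hom :=
  fun _ _ h => Additive.toMul.injective (muToESHom_injective p S hpS (congrArg Additive.toMul h))

/-- `x ↦ x ^ p` on `E_S`, as an endomorphism of the representation (multiplication by `p` in
additive notation). -/
def esPow : esRep (globalLevel S) Qb (↑S : Set Nat.Primes) ⟶
    esRep (globalLevel S) Qb (↑S : Set Nat.Primes) :=
  mulRepHom (powMonoidHom p) fun g m => by
    show (g • m) ^ p = g • m ^ p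
    exact (smul_pow' g m p).symm

theorem esPow_hom_apply (a : esRep (globalLevel S) Qb (↑S : Set Nat.Primes)) :
    (esPow p S).hom a = (p : ℤ) • a := by
  rw [natCast_zsmul]
  rfl

theorem esPow_hom_toMul (a : esRep (globalLevel S) Qb (↑S : Set Nat.Primes)) :
    (Additive.toMul ((esPow p S).hom a) : ES (globalLevel S) Qb (↑S : Set Nat.Primes)) =
      (Additive.toMul a : ES (globalLevel S) Qb (↑S : Set Nat.Primes)) ^ p := rfl

/-- **`E_S` is `p`-divisible** (`p ∈ S`): multiplication by `p` is surjective on `esRep`. -/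
theorem esPow_surjective (hpS : pPrime p ∈ S) : Function.Surjective (esPow p S).hom := by
  intro a
  obtain ⟨b, hb⟩ := esRep_divisible hp.out (hpS_of_mem hpS) a
  exact ⟨b, (esPow_hom_apply p S b).trans hb⟩

theorem esPow_muToEs (hpS : pPrime p ∈ S) (ζ : muRep p) :
    (esPow p S).hom ((muToEs p S hpS).hom ζ) = 0 := by
  rw [esPow_hom_apply, esRep_torsion_iff]
  exact (mem_rootsOfUnity _ _).1 (Additive.toMul (ζ : Additive (rootsOfUnity p Qb))).2

/-- **`E_S[p] = μ_p`**: the kernel of multiplication by `p` on `esRep` is the image of `μ_p`. -/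
theorem esPow_hom_eq_zero_iff (hpS : pPrime p ∈ S)
    (a : esRep (globalLevel S) Qb (↑S : Set Nat.Primes)) :
    (esPow p S).hom a = 0 ↔ ∃ ζ : muRep p, (muToEs p S hpS).hom ζ = a := by
  constructor
  · intro h
    rw [esPow_hom_apply, esRep_torsion_iff] at h
    refine ⟨(Additive.ofMul (⟨((Additive.toMul a : ES (globalLevel S) Qb (↑S : Set Nat.Primes)) :
      Qbˣ), (mem_rootsOfUnity _ _).2 h⟩ : rootsOfUnity p Qb) : Additive (rootsOfUnity p Qb)), ?_⟩
    rfl
  · rintro ⟨ζ, rfl⟩
    exact esPow_muToEs p S hpS ζ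

/-- The Kummer short complex `μ_p ⟶ E_S ⟶ E_S`. -/
def kummerES (hpS : pPrime p ∈ S) : ShortComplex (Rep ℤ GQ) where
  X₁ := muRep p
  X₂ := esRep (globalLevel S) Qb (↑S : Set Nat.Primes)
  X₃ := esRep (globalLevel S) Qb (↑S : Set Nat.Primes)
  f := muToEs p S hpS
  g := esPow p S
  zero := by
    ext ζ
    exact esPow_muToEs p S hpS ζ

/-- **The Kummer sequence `0 ⟶ μ_p ⟶ E_S ⟶ E_S ⟶ 0` is short exact** (`p ∈ S`). -/
theorem kummerES_shortExact (hpS : pPrime p ∈ S) : (kummerES p S hpS).ShortExact :=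
  rep_shortExact_of (kummerES p S hpS) (muToEs_injective p S hpS)
    (fun a ha => (esPow_hom_eq_zero_iff p S hpS a).1 ha) (esPow_surjective p S hpS)

/-- `μ_p ≃+ E_S[p]`. -/
def muEquivKerEsPow (hpS : pPrime p ∈ S) :
    muRep p ≃+ (AddMonoidHom.ker ((esPow p S).hom.toLinearMap.toAddMonoidHom)) :=
  AddEquiv.ofBijective
    (AddMonoidHom.codRestrict ((muToEs p S hpS).hom.toLinearMap.toAddMonoidHom) _
      (fun ζ => esPow_muToEs p S hpS ζ))
    ⟨fun _ _ h => muToEs_injective p S hpS (congrArg Subtype.val h), fun a => by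
      obtain ⟨ζ, hζ⟩ := (esPow_hom_eq_zero_iff p S hpS a.1).1 a.2
      exact ⟨ζ, Subtype.ext hζ⟩⟩

theorem muEquivKerEsPow_coe (hpS : pPrime p ∈ S) (ζ : muRep p) :
    ((muEquivKerEsPow p S hpS ζ : AddMonoidHom.ker ((esPow p S).hom.toLinearMap.toAddMonoidHom)) :
      esRep (globalLevel S) Qb (↑S : Set Nat.Primes)) = (muToEs p S hpS).hom ζ := rfl

/-- The identification `μ_p ≃ E_S[p]` is `G_ℚ`-equivariant. -/
theorem muEquivKerEsPow_ρ (hpS : pPrime p ∈ S) (g : GQ) (ζ : muRep p) :
    ((muEquivKerEsPow p S hpS ((muRep p).ρ g ζ) :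
      AddMonoidHom.ker ((esPow p S).hom.toLinearMap.toAddMonoidHom)) :
      esRep (globalLevel S) Qb (↑S : Set Nat.Primes)) =
    (esRep (globalLevel S) Qb (↑S : Set Nat.Primes)).ρ g
      ((muEquivKerEsPow p S hpS ζ : AddMonoidHom.ker ((esPow p S).hom.toLinearMap.toAddMonoidHom)) :
        esRep (globalLevel S) Qb (↑S : Set Nat.Primes)) := by
  rw [muEquivKerEsPow_coe, muEquivKerEsPow_coe]
  exact Rep.hom_comm_apply (muToEs p S hpS) g ζ

end Fermat.Agent.CFT.PT

end
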