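import Fermat.Agent.CFT.PT.MiddleAbstract
import Fermat.Agent.CFT.HyperExt.LCExtLocTwo

/-!
# Poitou–Tate: exactness at the last local term, abstract form (node (B2), E5)

Same setting as `PT.main_abstract` / `PT/MiddleAbstract.lean`.  The end of the Poitou–Tate sequence

`Ext²(N, E) → ∏ᵢ Ext²(Res N, X i) → Hom(H⁰(G, N), ℤ/p)`

is a complex (`mDualLoc₂_mLoc2`, helper21).  Here we prove that it is exact
(`end_exact_loc2`), given

* `hloc2`: every family of local classes is the localisation of a class of `Ext²(N, J)`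
  (degree-2 surjectivity of the semi-local Shapiro map; `end_exact_loc2_of_eff` derives it from the
  effaceability of the edge classes, `HyperExt/LCExtLocTwo.lean`);
* `hPG2inj`: the global duality map `Ext²(N, C) → Hom(H⁰(G, N), ℤ/p)` is injective;
* the reciprocity sum formula `hG3` and the compatibility `hpairloc₂` of the localisation with the
  hyper-Ext pairing in degree `(2, 0)`.
-/

set_option autoImplicit false
set_option linter.unusedSectionVars false

open CategoryTheory

namespace Fermat.Agent.CFT.PT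

open HExt LatticePair

attribute [local instance 2000] Rep.hV2

variable {G : Type} [Group G] {L : LevelStructure G}
  {ι : Type} [Fintype ι] {H : ι → Type} [∀ i, Group (H i)] {LH : ∀ i, LevelStructure (H i)}
  {r : ∀ i, H i →* G} (hlev : LC.LevelComap L LH r)
  (p : ℕ) [Fact p.Prime]
  {E J C : Rep.{0} ℤ G} (hE : IsSmooth L E) (hJ : IsSmooth L J) (hC : IsSmooth L C)
  (f : E ⟶ J) (g : J ⟶ C)
  (hf : Function.Injective f.hom) (hg : Function.Surjective g.hom)
  (hfg : Function.Exact f.hom g.hom)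
  {X : ∀ i, Rep.{0} ℤ (H i)} (hX : ∀ i, IsSmooth (LH i) (X i))
  (lam : ∀ i, Rep.res (r i) J ⟶ X i)
  {N : Rep.{0} ℤ G} (R : LatticeRes L N) [Module.Free ℤ R.P₀] [Module.Free ℤ R.P₁]
  (hpN : ∀ n : N, p • n = 0)
  (invG : LC.Hp p hC 2 →+ ZMod p) (invL : ∀ i, LC.Hp p (hX i) 2 →+ ZMod p)
  (hPG2inj : Function.Injective (R.dual2 p hC hpN invG))
  (hG3 : ∀ (z : (LC.cx hJ).H 2), p • z = 0 →
    ∀ (h1 : (LC.cxMap hJ hC g).mapH 2 z ∈ LC.Hp p hC 2)
      (h2 : ∀ i, (LC.locHom hlev hJ hX lam i).mapH 2 z ∈ LC.Hp p (hX i) 2),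
      invG ⟨_, h1⟩ = ∑ i, invL i ⟨_, h2 i⟩)
  (hpairloc₂ : ∀ (i : ι) (e : R.Ext hJ 2) (c : (LC.cx R.smooth).H 0),
    (R.res (hlev.compat i)).pair (hX i) 1 0 1 rfl
        (Ext.loc hlev R.toLatticePair hJ hX lam 2 e i)
        (LC.resH (hlev.compat i) R.smooth 0 c) =
      (LC.locHom hlev hJ hX lam i).mapH 2 (R.pair hJ 1 0 1 rfl e c))

include hf hg hfg hPG2inj hG3 hpairloc₂ in
/-- **Exactness at `Ext²(N, J)`**: a class of `Ext²(N, J)` comes from `Ext²(N, E)` iff its
localisation is orthogonal to the image of `H⁰(G, N)` under the sum of the local pairings. -/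
theorem end_exact_J (x : R.Ext hJ 2) :
    mDualLoc₂ hlev p hX R hpN invL (Ext.loc hlev R.toLatticePair hJ hX lam 2 x) = 0 ↔
      ∃ z : R.Ext hE 2, Ext.map₂ R.toLatticePair hE hJ f 2 z = x := by
  have hcompat : R.dual2 p hC hpN invG (Ext.map₂ R.toLatticePair hJ hC g 2 x) =
      mDualLoc₂ hlev p hX R hpN invL (Ext.loc hlev R.toLatticePair hJ hX lam 2 x) :=
    AddMonoidHom.ext fun y =>
      main_compat₂ hlev p hJ hC g hX lam R hpN invG invL hG3 hpairloc₂ x y
  rw [← hcompat]
  have hex := Ext.exact_map₂_map₂ R.toLatticePair hE hJ hC f g hf hg hfg 2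
  constructor
  · intro h
    have h0 : Ext.map₂ R.toLatticePair hJ hC g 2 x = 0 :=
      hPG2inj (h.trans (map_zero _).symm)
    exact (hex x).1 h0
  · intro h
    rw [(hex x).2 h, map_zero]

include hf hg hfg hPG2inj hG3 hpairloc₂ in
/-- **Exactness at `∏ᵢ Ext²(Res N, X i)`** (the end of the Poitou–Tate sequence), given the
degree-2 surjectivity of the localisation of `Ext²(N, J)`: the image of the second localisation
map is the annihilator of the diagonal image of `H⁰(G, N)` under the sum of the local pairings. -/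
theorem end_exact_loc2
    (hloc2 : ∀ x : ∀ i, (R.res (hlev.compat i)).Ext (hX i) 2,
      ∃ e : R.Ext hJ 2, Ext.loc hlev R.toLatticePair hJ hX lam 2 e = x)
    (x : ∀ i, (R.res (hlev.compat i)).Ext (hX i) 2) :
    mDualLoc₂ hlev p hX R hpN invL x = 0 ↔
      ∃ z : R.Ext hE 2, mLoc2 hlev hE hJ f hX lam R z = x := by
  obtain ⟨e, rfl⟩ := hloc2 x
  rw [end_exact_J hlev p hE hJ hC f g hf hg hfg hX lam R hpN invG invL hPG2inj hG3 hpairloc₂ e]
  constructor
  · rintro ⟨z, rfl⟩
    exact ⟨z, rfl⟩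
  · rintro ⟨z, hz⟩
    -- `mLoc2 z = loc e`; subtract: `loc (e - f_* z) = 0` is not available without injectivity, so
    -- use the complex property directly
    have h0 : mDualLoc₂ hlev p hX R hpN invL
        (Ext.loc hlev R.toLatticePair hJ hX lam 2 e) = 0 := by
      rw [← hz]
      exact mDualLoc₂_mLoc2 hlev p hE hJ hC f g hf hg hfg hX lam R hpN invG invL hG3 hpairloc₂ z
    exact (end_exact_J hlev p hE hJ hC f g hf hg hfg hX lam R hpN invG invL hPG2inj hG3
      hpairloc₂ e).1 h0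

variable (hc₀ : LC.IsLocCoind L r ((Rep.ihom R.P₀).obj J)
    (fun i => (Rep.ihom (Rep.res (r i) R.P₀)).obj (X i)) (lamIhom R.P₀ lam))
  (hc₁ : LC.IsLocCoind L r ((Rep.ihom R.P₁).obj J)
    (fun i => (Rep.ihom (Rep.res (r i) R.P₁)).obj (X i)) (lamIhom R.P₁ lam))
  (h90 : LC.LocH90 L LH r X)

include hf hg hfg hPG2inj hG3 hpairloc₂ hc₀ hc₁ h90 in
/-- **Exactness at `∏ᵢ Ext²(Res N, X i)`**, given that all classes of
`H²(H i, Hom(Res P₀, X i))` which are edge classes of local `Ext²`-classes are effaceable by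
levels of `G`. -/
theorem end_exact_loc2_of_eff
    (heff : ∀ (i : ι) (e : (R.toLatticePair.res (r i) (hlev.compat i)).Ext (hX i) 2),
      ∃ N', L.IsLevel N' ∧
        LC.resH (LevelStructure.compat_comap (LH i) (N'.comap (r i)).subtype)
          (R.toLatticePair.smooth₀_loc hlev hX i) 2
          (Cx.EtoH ((R.toLatticePair.res (r i) (hlev.compat i)).homMap (hX i)) 2 e) = 0)
    (x : ∀ i, (R.res (hlev.compat i)).Ext (hX i) 2) :
    mDualLoc₂ hlev p hX R hpN invL x = 0 ↔
      ∃ z : R.Ext hE 2, mLoc2 hlev hE hJ f hX lam R z = x :=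
  end_exact_loc2 hlev p hE hJ hC f g hf hg hfg hX lam R hpN invG invL hPG2inj hG3 hpairloc₂
    (fun x' => Ext.loc_two_mem_range_of_free hlev R.toLatticePair hJ hX lam hc₀ hc₁ h90 x'
      (fun i => heff i (x' i))) x

end Fermat.Agent.CFT.PT
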