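import Fermat.Agent.CFT.PT.InvCompatLocalDefs

/-!
# Node D3c-L: the local terms of the reciprocity sum at a finite level (main statement)

See `PT/InvCompatLocalDefs.lean` for the constructions.  Main statement:
`galInvLevel_locFin_eq_semiLocalInv`.
-/

set_option autoImplicit false
set_option linter.style.haveILetI false
set_option linter.unusedSectionVars false

open CategoryTheory groupCohomology IntermediateField

namespace Fermat.Agent.CFT.PT

open Fermat.Agent.CFT Fermat.Agent.S55 ExtCitation GaloisTower LayerMaps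

local notation "Qb" => AlgebraicClosure ℚ
local notation "GQ" => (AlgebraicClosure ℚ ≃ₐ[ℚ] AlgebraicClosure ℚ)

/-! ### The comparison of the two localisation data -/

section Key

local instance instIsGaloisQbICK : IsGalois ℚ Qb :=
  Fermat.Agent.S54.FrobExists.isGalois_rat_algebraicClosure

variable (S : Finset Nat.Primes) (q : ↥S) (N₀ : Subgroup GQ) [N₀.Normal]
  {F : IntermediateField ℚ Qb} (h : (⊥ : IntermediateField ℚ Qb) ≤ F)
  [Normal (⊥ : IntermediateField ℚ Qb) (layer h)]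
  (N : Subgroup (⊥ : IntermediateField ℚ Qb).fixingSubgroup) [N.Normal]
  (hN : N = (layerRes h).ker)
  (hle : N ≤ N₀.comap (⊥ : IntermediateField ℚ Qb).fixingSubgroup.subtype)
  {Fq : IntermediateField ℚ_[(q.1 : ℕ)] (PadicAlgCl (q.1 : ℕ))}
  (hq : (⊥ : IntermediateField ℚ_[(q.1 : ℕ)] (PadicAlgCl (q.1 : ℕ))) ≤ Fq)
  [Normal (⊥ : IntermediateField ℚ_[(q.1 : ℕ)] (PadicAlgCl (q.1 : ℕ))) (layer hq)]
  (Nq : Subgroup (⊥ : IntermediateField ℚ_[(q.1 : ℕ)] (PadicAlgCl (q.1 : ℕ))).fixingSubgroup)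
  [Nq.Normal] (hNq : Nq = (layerRes hq).ker)
  (hleq : Nq ≤ (N₀.comap (localGaloisToGlobal (q.1 : ℕ))).comap
    (⊥ : IntermediateField ℚ_[(q.1 : ℕ)] (PadicAlgCl (q.1 : ℕ))).fixingSubgroup.subtype)
  (hfix : ∀ γ : Gq (q.1 : ℕ), γ ∈ Fq.fixingSubgroup ↔
    localGaloisToGlobal (q.1 : ℕ) γ ∈ F.fixingSubgroup)
  (hopen : (globalLevel S).IsOpen F.fixingSubgroup)
  (φ₁ : Rep.res (dictEquiv h N hN).symm.toMonoidHom
      ((jsTowerRep (globalLevel S) (↑S : Set Nat.Primes) ⊥).quotientToInvariants N) ⟶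
    sProdRep ((layer h) ≃ₐ[(⊥ : IntermediateField ℚ Qb)] (layer h)) (layer h)
      (↑S : Set Nat.Primes))
  (hφ₁ : ∀ b, φ₁.hom b =
    (jsDictRepIso (globalLevel S) (↑S : Set Nat.Primes) h N hN hopen).hom.hom b)
  (φ₂ : Rep.res (dictEquiv hq Nq hNq).symm.toMonoidHom
      ((unitsRep (⊥ : IntermediateField ℚ_[(q.1 : ℕ)] (PadicAlgCl (q.1 : ℕ)))).quotientToInvariants
        Nq) ⟶
    Rep.ofAlgebraAutOnUnits (⊥ : IntermediateField ℚ_[(q.1 : ℕ)] (PadicAlgCl (q.1 : ℕ)))
      (layer hq))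
  (hφ₂ : ∀ b, φ₂.hom b = (dictRepIso hq Nq hNq).hom.hom b)

include hφ₁ hφ₂ in
theorem locFin_comp_eq :
    LC.locFin (evQ (globalLevel S) S) q N₀ 2 ≫
      LC.resFin (Rep.ofAlgebraAutOnUnits ℚ_[(q.1 : ℕ)] (PadicAlgCl (q.1 : ℕ))) hleq 2 ≫
        groupCohomology.map (dictEquiv hq Nq hNq).symm.toMonoidHom φ₂ 2 =
    LC.resFin (jsRep (globalLevel S) Qb (↑S : Set Nat.Primes)) hle 2 ≫
      groupCohomology.map (dictEquiv h N hN).symm.toMonoidHom φ₁ 2 ≫
        groupCohomology.map (MonoidHom.id _)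
          (sProdProj ((layer h) ≃ₐ[(⊥ : IntermediateField ℚ Qb)] (layer h)) (layer h)
            (↑S : Set Nat.Primes) ⟨q.1, Finset.mem_coe.2 q.2⟩) 2 ≫
          groupCohomology.map (decompLayerHom (q.1 : ℕ) h hq hfix)
            (evLayer (q.1 : ℕ) h hq hfix) 2 := by
  rw [LC.locFin_eq_map]
  refine map_comp₃_eq_map_comp₄
    (LC.quotRes (le_refl (N₀.comap (primeLocalToGlobal q.1)))) (LC.quotRes hleq)
    (dictEquiv hq Nq hNq).symm.toMonoidHom
    (LC.locFinRep (evQ (globalLevel S) S) q N₀)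
    (LC.invRes (Rep.ofAlgebraAutOnUnits ℚ_[(q.1 : ℕ)] (PadicAlgCl (q.1 : ℕ))) hleq) φ₂
    (LC.quotRes hle) (dictEquiv h N hN).symm.toMonoidHom (MonoidHom.id _)
    (decompLayerHom (q.1 : ℕ) h hq hfix)
    (LC.invRes (jsRep (globalLevel S) Qb (↑S : Set Nat.Primes)) hle) φ₁
    (sProdProj ((layer h) ≃ₐ[(⊥ : IntermediateField ℚ Qb)] (layer h)) (layer h)
      (↑S : Set Nat.Primes) ⟨q.1, Finset.mem_coe.2 q.2⟩)
    (evLayer (q.1 : ℕ) h hq hfix) ?_ ?_ 2
  · have key : ∀ σ : (⊥ : IntermediateField ℚ_[(q.1 : ℕ)] (PadicAlgCl (q.1 : ℕ))).fixingSubgroup,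
        LC.quotRes (le_refl (N₀.comap (primeLocalToGlobal q.1)))
          (LC.quotRes hleq ((dictEquiv hq Nq hNq).symm (layerRes hq σ))) =
        LC.quotRes hle ((dictEquiv h N hN).symm
          (decompLayerHom (q.1 : ℕ) h hq hfix (layerRes hq σ))) := by
      intro σ
      have a1 : (dictEquiv hq Nq hNq).symm (layerRes hq σ) = QuotientGroup.mk σ :=
        dictEquiv_symm_layerRes hq Nq hNq σ
      have a2 : decompLayerHom (q.1 : ℕ) h hq hfix (layerRes hq σ) =
          layerRes h (botLocalToGlobal (q.1 : ℕ) σ) :=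
        decompLayerHom_layerRes (q.1 : ℕ) h hq hfix σ
      have a3 : (dictEquiv h N hN).symm (layerRes h (botLocalToGlobal (q.1 : ℕ) σ)) =
          QuotientGroup.mk (botLocalToGlobal (q.1 : ℕ) σ) :=
        dictEquiv_symm_layerRes h N hN _
      calc LC.quotRes (le_refl (N₀.comap (primeLocalToGlobal q.1)))
            (LC.quotRes hleq ((dictEquiv hq Nq hNq).symm (layerRes hq σ)))
          = LC.quotRes (le_refl (N₀.comap (primeLocalToGlobal q.1)))
            (LC.quotRes hleq (QuotientGroup.mk σ)) :=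
            congrArg (fun x => LC.quotRes (le_refl (N₀.comap (primeLocalToGlobal q.1)))
              (LC.quotRes hleq x)) a1
        _ = LC.quotRes hle (QuotientGroup.mk (botLocalToGlobal (q.1 : ℕ) σ)) := rfl
        _ = LC.quotRes hle ((dictEquiv h N hN).symm
              (layerRes h (botLocalToGlobal (q.1 : ℕ) σ))) := congrArg (LC.quotRes hle) a3.symm
        _ = LC.quotRes hle ((dictEquiv h N hN).symm
              (decompLayerHom (q.1 : ℕ) h hq hfix (layerRes hq σ))) :=
            congrArg (fun x => LC.quotRes hle ((dictEquiv h N hN).symm x)) a2.symm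
    intro g
    have hs : ∃ σ, layerRes hq σ = g := layerRes_surjective hq g
    obtain ⟨σ, rfl⟩ := hs
    exact key σ
  · intro a
    apply Additive.toMul.injective
    apply Units.ext
    apply Subtype.ext
    have eL := (congrArg (fun u : Additive (layer hq)ˣ =>
        (((Additive.toMul u : (layer hq)ˣ) : layer hq) : PadicAlgCl (q.1 : ℕ)))
      (hφ₂ ((LC.invRes (Rep.ofAlgebraAutOnUnits ℚ_[(q.1 : ℕ)] (PadicAlgCl (q.1 : ℕ))) hleq).hom
        ((LC.locFinRep (evQ (globalLevel S) S) q N₀).hom a)))).trans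
      (dictRepIso_hom_coe hq Nq hNq _)
    have h1 := sProdIncl_jsDictRepIso_hom (globalLevel S) (↑S : Set Nat.Primes) h N hN hopen
      ((LC.invRes (jsRep (globalLevel S) Qb (↑S : Set Nat.Primes)) hle).hom a)
    have h2 := congrArg (fun z : SIdeleProd Qb (↑S : Set Nat.Primes) =>
      ((((z ⟨q.1, Finset.mem_coe.2 q.2⟩ : semiLocalUnits (q.1 : ℕ) Qb) :
        LocalEmb (q.1 : ℕ) Qb → (PadicAlgCl (q.1 : ℕ))ˣ) (emb₀ (q.1 : ℕ)) :
          (PadicAlgCl (q.1 : ℕ))ˣ) : PadicAlgCl (q.1 : ℕ))) h1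
    have eR := congrArg (fun z : Additive (SIdeleProd (layer h) (↑S : Set Nat.Primes)) =>
      (((((Additive.toMul z : SIdeleProd (layer h) (↑S : Set Nat.Primes))
          ⟨q.1, Finset.mem_coe.2 q.2⟩ : semiLocalUnits (q.1 : ℕ) (layer h)) :
        LocalEmb (q.1 : ℕ) (layer h) → (PadicAlgCl (q.1 : ℕ))ˣ) (layerEmb (q.1 : ℕ) h) :
          (PadicAlgCl (q.1 : ℕ))ˣ) : PadicAlgCl (q.1 : ℕ)))
      (hφ₁ ((LC.invRes (jsRep (globalLevel S) Qb (↑S : Set Nat.Primes)) hle).hom a))
    exact eL.trans (h2.symm.trans eR.symm)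

end Key

/-! ### The local term of the level formula -/

section Main

local instance instIsGaloisQbICM : IsGalois ℚ Qb :=
  Fermat.Agent.S54.FrobExists.isGalois_rat_algebraicClosure

variable (S : Finset Nat.Primes) (q : ↥S) (l : (globalLevel S).Level)
  {F : IntermediateField ℚ Qb} (h : (⊥ : IntermediateField ℚ Qb) ≤ F)
  [Normal (⊥ : IntermediateField ℚ Qb) (layer h)]
  (N : Subgroup (⊥ : IntermediateField ℚ Qb).fixingSubgroup) [N.Normal]
  (hN : N = (layerRes h).ker)
  (hNl : N = l.N.comap (⊥ : IntermediateField ℚ Qb).fixingSubgroup.subtype)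

/-- The local level cut out by `l`, as a level of `Gal(ℚ̄_q/⊥)`. -/
noncomputable abbrev localBotLevel :
    ((levelOf (localGaloisToGlobal (q.1 : ℕ))).comap
      (⊥ : IntermediateField ℚ_[(q.1 : ℕ)] (PadicAlgCl (q.1 : ℕ))).fixingSubgroup.subtype).Level :=
  botLevel (levelOf (localGaloisToGlobal (q.1 : ℕ))) ((levelComap_global S).level q l)

include hN hNl in
/-- The Galois group of the top field of the local level is the preimage of `Gal(ℚ̄/F)`. -/
theorem mem_fixingSubgroup_localLevelTop_iff (γ : Gq (q.1 : ℕ)) :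
    γ ∈ (levelTop (levelOf (localGaloisToGlobal (q.1 : ℕ))) (levelOf_local_galoisType (q.1 : ℕ))
        ⊥ (localBotLevel S q l)).fixingSubgroup ↔
      localGaloisToGlobal (q.1 : ℕ) γ ∈ F.fixingSubgroup := by
  have hγ : γ ∈ (⊥ : IntermediateField ℚ_[(q.1 : ℕ)] (PadicAlgCl (q.1 : ℕ))).fixingSubgroup := by
    rw [IntermediateField.fixingSubgroup_bot]; exact Subgroup.mem_top _
  have hrγ : localGaloisToGlobal (q.1 : ℕ) γ ∈
      (⊥ : IntermediateField ℚ Qb).fixingSubgroup := by
    rw [IntermediateField.fixingSubgroup_bot]; exact Subgroup.mem_top _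
  rw [← mem_level_iff (levelOf (localGaloisToGlobal (q.1 : ℕ)))
    (levelOf_local_galoisType (q.1 : ℕ)) ⊥ (localBotLevel S q l) ⟨γ, hγ⟩,
    ← mem_ker_layerRes_iff h ⟨_, hrγ⟩, ← hN, hNl]
  rfl

/-- The left-hand side, unfolded. -/
theorem galInvLevel_locFin_eq
    (y : groupCohomology.H2
      ((jsRep (globalLevel S) Qb (↑S : Set Nat.Primes)).quotientToInvariants l.N)) :
    galInvLevel (levelOf (localGaloisToGlobal (q.1 : ℕ))) (levelOf_local_galoisType (q.1 : ℕ))
        (levelOf_local_cofinal (q.1 : ℕ)) (padicLayerInvSystem (q.1 : ℕ))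
        ((levelComap_global S).level q l)
        ((LC.locFin (evQ (globalLevel S) S) q l.N 2).hom y) =
      haveI := normal_levelTop (levelOf (localGaloisToGlobal (q.1 : ℕ)))
        (levelOf_local_galoisType (q.1 : ℕ)) ⊥ (localBotLevel S q l)
      (padicLocalInvFamily q.1).inv
        (le_levelTop (levelOf (localGaloisToGlobal (q.1 : ℕ)))
          (levelOf_local_galoisType (q.1 : ℕ)) ⊥ (localBotLevel S q l))
        (cohLinearEquivOfRepIso _ _
          (dictEquiv (le_levelTop (levelOf (localGaloisToGlobal (q.1 : ℕ)))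
            (levelOf_local_galoisType (q.1 : ℕ)) ⊥ (localBotLevel S q l)) (localBotLevel S q l).N
            (level_eq_ker (levelOf (localGaloisToGlobal (q.1 : ℕ)))
              (levelOf_local_galoisType (q.1 : ℕ)) ⊥ (localBotLevel S q l)))
          (dictRepIso (le_levelTop (levelOf (localGaloisToGlobal (q.1 : ℕ)))
            (levelOf_local_galoisType (q.1 : ℕ)) ⊥ (localBotLevel S q l)) (localBotLevel S q l).N
            (level_eq_ker (levelOf (localGaloisToGlobal (q.1 : ℕ)))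
              (levelOf_local_galoisType (q.1 : ℕ)) ⊥ (localBotLevel S q l))) 2
          ((LC.resFin (Rep.ofAlgebraAutOnUnits ℚ_[(q.1 : ℕ)] (PadicAlgCl (q.1 : ℕ)))
            (le_refl (localBotLevel S q l).N) 2).hom
            ((LC.locFin (evQ (globalLevel S) S) q l.N 2).hom y))) :=
  rfl

variable [FiniteDimensional ℚ F] [NumberField (⊥ : IntermediateField ℚ Qb)]
  (hopen : (globalLevel S).IsOpen F.fixingSubgroup)

/-- **D3c-L: the `q`-th local term of the level formula.**  The local invariant of the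
localisation at `q` of a class `y` of the finite level `l` of `G_ℚ` is the semi-local invariant at
`q` of the `q`-component of the class of `H²(Gal(F/ℚ), ∏_{q ∈ S} A_q(F))` attached to `y`. -/
theorem galInvLevel_locFin_eq_semiLocalInv
    (y : groupCohomology.H2
      ((jsRep (globalLevel S) Qb (↑S : Set Nat.Primes)).quotientToInvariants l.N)) :
    galInvLevel (levelOf (localGaloisToGlobal (q.1 : ℕ))) (levelOf_local_galoisType (q.1 : ℕ))
        (levelOf_local_cofinal (q.1 : ℕ)) (padicLayerInvSystem (q.1 : ℕ))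
        ((levelComap_global S).level q l)
        ((LC.locFin (evQ (globalLevel S) S) q l.N 2).hom y) =
      semiLocalInv padicLocalInvFamily (⊥ : IntermediateField ℚ Qb) q.1
        ((groupCohomology.map (MonoidHom.id _)
          (sProdProj ((layer h) ≃ₐ[(⊥ : IntermediateField ℚ Qb)] (layer h)) (layer h)
            (↑S : Set Nat.Primes) ⟨q.1, Finset.mem_coe.2 q.2⟩) 2).hom
          (cohLinearEquivOfRepIso _ _ (dictEquiv h N hN)
            (jsDictRepIso (globalLevel S) (↑S : Set Nat.Primes) h N hN hopen) 2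
            ((LC.resFin (jsRep (globalLevel S) Qb (↑S : Set Nat.Primes)) hNl.le 2).hom y))) := by
  haveI : NumberField (layer h) := numberField_layer h
  haveI := normal_levelTop (levelOf (localGaloisToGlobal (q.1 : ℕ)))
    (levelOf_local_galoisType (q.1 : ℕ)) ⊥ (localBotLevel S q l)
  have hfix := mem_fixingSubgroup_localLevelTop_iff S q l h N hN hNl
  obtain ⟨φ₂, hφ₂, hc₂⟩ := exists_cohLinearEquivOfRepIso_eq_map
    (Rep.ofAlgebraAutOnUnits (⊥ : IntermediateField ℚ_[(q.1 : ℕ)] (PadicAlgCl (q.1 : ℕ)))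
      (layer (le_levelTop (levelOf (localGaloisToGlobal (q.1 : ℕ)))
        (levelOf_local_galoisType (q.1 : ℕ)) ⊥ (localBotLevel S q l)))) _
    (dictEquiv (le_levelTop (levelOf (localGaloisToGlobal (q.1 : ℕ)))
        (levelOf_local_galoisType (q.1 : ℕ)) ⊥ (localBotLevel S q l)) (localBotLevel S q l).N
      (level_eq_ker (levelOf (localGaloisToGlobal (q.1 : ℕ)))
        (levelOf_local_galoisType (q.1 : ℕ)) ⊥ (localBotLevel S q l)))
    (dictRepIso (le_levelTop (levelOf (localGaloisToGlobal (q.1 : ℕ)))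
        (levelOf_local_galoisType (q.1 : ℕ)) ⊥ (localBotLevel S q l)) (localBotLevel S q l).N
      (level_eq_ker (levelOf (localGaloisToGlobal (q.1 : ℕ)))
        (levelOf_local_galoisType (q.1 : ℕ)) ⊥ (localBotLevel S q l))) 2
  obtain ⟨φ₁, hφ₁, hc₁⟩ := exists_cohLinearEquivOfRepIso_eq_map
    (sProdRep ((layer h) ≃ₐ[(⊥ : IntermediateField ℚ Qb)] (layer h)) (layer h)
      (↑S : Set Nat.Primes)) _ (dictEquiv h N hN)
    (jsDictRepIso (globalLevel S) (↑S : Set Nat.Primes) h N hN hopen) 2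
  have key := locFin_comp_eq S q l.N h N hN hNl.le
    (le_levelTop (levelOf (localGaloisToGlobal (q.1 : ℕ)))
      (levelOf_local_galoisType (q.1 : ℕ)) ⊥ (localBotLevel S q l)) (localBotLevel S q l).N
    (level_eq_ker (levelOf (localGaloisToGlobal (q.1 : ℕ)))
      (levelOf_local_galoisType (q.1 : ℕ)) ⊥ (localBotLevel S q l))
    (le_refl (localBotLevel S q l).N) hfix hopen φ₁ hφ₁ φ₂ hφ₂
  have key' := congrArg (fun f => f.hom y) key
  refine (galInvLevel_locFin_eq S q l y).trans ?_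
  refine Eq.trans (congrArg _ ((hc₂ _).trans key')) ?_
  refine (inv_map_eq_semiLocalInvAt_layerEmb padicLocalInvFamily q.1 h _ hfix
    (decompLayerHom (q.1 : ℕ) h _ hfix) (decompLayerHom_layerRes (q.1 : ℕ) h _ hfix)
    (evLayer (q.1 : ℕ) h _ hfix) (evLayer_coe (q.1 : ℕ) h _ hfix) _).trans ?_
  refine (semiLocalInv_bot_eq_semiLocalInvAt padicLocalInvFamily
    padicLocalInvFamily_isConjInvariant q.1 (layerEmb (q.1 : ℕ) h) _).symm.trans ?_
  refine congrArg _ (congrArg _ ?_)
  exact (hc₁ _).symm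

end Main

end Fermat.Agent.CFT.PT
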