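import Fermat.Agent.CFT.PT.EndJSQ
import Fermat.Agent.CFT.PT.InvCompatLocal
import Fermat.Agent.TW.GWB.LocalDegree

/-!
# Poitou–Tate over `ℚ_S`: exactness at the last local term, UNCONDITIONAL (node (B2), final plug)

`PT/EndJSQ.lean` with the last two hypotheses discharged:
* `LocalDegreeArith S p` from helper4's `TW.GWB.exists_level_mul_index_dvd`;
* `PTQ.LocalTerms S` from `galInvLevel_locFin_eq_semiLocalInv` (as in `Fermat/Agent/S55.lean`).

`end_js_loc2_final`: for `p` odd, `p ∈ S`, `N` a finite smooth `p`-torsion `G_ℚ`-module with its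
canonical resolution: a family of classes of `Ext²(N_q, ℚ̄_qˣ)` (`q ∈ S`) is the localisation of a
class of `Ext²(N, E_S)` iff it is orthogonal to `H⁰(G_ℚ, N)` under the sum of the local pairings.
-/

set_option autoImplicit false
set_option linter.unusedSectionVars false
set_option linter.style.haveILetI false

open CategoryTheory

namespace Fermat.Agent.CFT.PT

open Fermat.Agent.CFT Fermat.Agent.S55 ExtCitation HExt LatticePair

attribute [local instance 2000] Rep.hV2

local notation "Qb" => AlgebraicClosure ℚ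
local notation "GQ" => (AlgebraicClosure ℚ ≃ₐ[ℚ] AlgebraicClosure ℚ)

/-- The arithmetic input of the degree-2 Shapiro surjectivity (helper4). -/
theorem localDegreeArith (S : Finset Nat.Primes) {p : ℕ} [Fact p.Prime] (hp2 : p ≠ 2)
    (hpS : pPrime p ∈ S) : LocalDegreeArith S p :=
  fun q N₀ hN₀ => Fermat.Agent.TW.GWB.exists_level_mul_index_dvd S p hp2 hpS q.1 N₀ hN₀

/-- The local terms of the finite-level reciprocity formula (as in `Fermat/Agent/S55.lean`). -/
theorem localTerms (S : Finset Nat.Primes) : PTQ.LocalTerms S := by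
  have : NumberField ↥(⊥ : IntermediateField ℚ (AlgebraicClosure ℚ)) := ⟨⟩
  exact fun q l _ h _ _ N _ hN hNl hopen y =>
    galInvLevel_locFin_eq_semiLocalInv S q l h N hN hNl hopen y

variable (S : Finset Nat.Primes) {p : ℕ} [Fact p.Prime] (hp2 : p ≠ 2) (hpS : pPrime p ∈ S)
  (N : Rep.{0} ℤ GQ) [Finite N] (hN : IsSmooth (globalLevel S) N) (hpN : ∀ n : N, p • n = 0)

include hp2 hpS in
/-- **End exactness of the Poitou–Tate sequence over `ℚ_S`, unconditional** (`p` odd, `p ∈ S`). -/
theorem end_js_loc2_final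
    (x : ∀ q : ↥S, ((zResR N hN).res ((levelComap_global S).compat q)).Ext
      (isSmooth_primeUnitsRep q.1) 2) :
    jsDualLoc₂ S p (zResR N hN) hpN (fun q : ↥S => invLoc p q.1) x = 0 ↔
      ∃ z : (zResR N hN).Ext (isSmooth_esRep (globalLevel S) Qb (↑S : Set Nat.Primes)) 2,
        jsLoc2 S (zResR N hN) z = x :=
  end_js_loc2 S hp2 hpS (localTerms S) N hN hpN (localDegreeArith S hp2 hpS) x

include hp2 hpS hpN in
/-- **Degree-2 surjectivity of the semi-local Shapiro map over `ℚ_S`**: every family of classes of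
`Ext²(N_q, ℚ̄_qˣ)` (`q ∈ S`) is the localisation of a class of `Ext²(N, J_S)`. -/
theorem js_extLoc_two_surjective
    (x : ∀ q : ↥S, ((zResR N hN).res ((levelComap_global S).compat q)).Ext
      (isSmooth_primeUnitsRep q.1) 2) :
    ∃ e : (zResR N hN).Ext (isSmooth_jsRep (globalLevel S) Qb (↑S : Set Nat.Primes)) 2,
      Ext.loc (levelComap_global S) (zResR N hN).toLatticePair
        (isSmooth_jsRep (globalLevel S) Qb (↑S : Set Nat.Primes))
        (fun q : ↥S => isSmooth_primeUnitsRep q.1) (evQ (globalLevel S) S) 2 e = x :=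
  Ext.loc_two_mem_range_of_free (levelComap_global S) (zResR N hN).toLatticePair
    (isSmooth_jsRep (globalLevel S) Qb (↑S : Set Nat.Primes))
    (fun q : ↥S => isSmooth_primeUnitsRep q.1) (evQ (globalLevel S) S)
    (isLocCoind_ihom_js (globalLevel S) S (zResR N hN).P₀ (zResR N hN).smooth₀)
    (isLocCoind_ihom_js (globalLevel S) S (zResR N hN).P₁ (zResR N hN).smooth₁)
    (locH90_primeUnits S) x
    (fun q => js_edge_effaceable S p (zResR N hN) hpN (localDegreeArith S hp2 hpS) q (x q))

end Fermat.Agent.CFT.PT
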