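import Fermat.Agent.CFT.PT.RepZ
import Fermat.Agent.CFT.LC.Lift
import Fermat.Agent.S55.LCBridgeCompat

/-!
# D4 (a), continued: `repZ` and the restriction maps of `LC/Lift.lean`; Tate–Shafarevich groups

* `resLC1_repZ`, `resLC2_repZ`: `repZH1Equiv`, `repZH2Equiv` commute with the restriction maps
  `LC.resLC1`, `LC.resLC2` (= `LC.resH` transported to `LC.H1`, `LC.H2`);
* `shaZ₁ S M`, `shaZ₂ S M`: the kernels of the total localisation to the finite places of `S` for
  the `ℤ`-representation `repZ M`, and `shaLC₁EquivZ`, `shaLC₂EquivZ : shaLC_i S M ≃+ shaZ_i S M`,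
  hence `Nat.card (shaLC_i S M) = Nat.card (shaZ_i S M)`.
-/

set_option autoImplicit false

open CategoryTheory groupCohomology ExtCitation

noncomputable section

namespace Fermat.Agent.CFT.PT

open Fermat.Agent.CFT Fermat.Agent.S55

local notation "Qb" => AlgebraicClosure ℚ
local notation "GQ" => (AlgebraicClosure ℚ ≃ₐ[ℚ] AlgebraicClosure ℚ)

section Lift

variable {k G H : Type} [CommRing k] [Group G] [Group H] {f : H →* G}
  {L : LevelStructure G} {LH : LevelStructure H} (M : Rep k G)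

/-- `repZH1Equiv` commutes with the restriction maps `LC.resLC1` of `LC/Lift.lean`. -/
theorem resLC1_repZ (hf : LH.Compat L f) (hM : IsSmooth L M) (x : LC.H1 L M) :
    LC.resLC1 hf ((isSmooth_repZ_iff L M).2 hM) (repZH1Equiv L M x) =
      (repZH1Equiv LH (Rep.res f M) (LC.resLC1 hf hM x) : LC.H1 LH (repZ (Rep.res f M))) := by
  obtain ⟨c, rfl⟩ := Submodule.mkQ_surjective _ x
  rw [repZH1Equiv_mk, LC.resLC1_H1π, LC.resLC1_H1π, repZH1Equiv_mk]
  rfl

/-- `repZH2Equiv` commutes with the restriction maps `LC.resLC2` of `LC/Lift.lean`. -/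
theorem resLC2_repZ (hf : LH.Compat L f) (hM : IsSmooth L M) (x : LC.H2 L M) :
    LC.resLC2 hf ((isSmooth_repZ_iff L M).2 hM) (repZH2Equiv L M x) =
      (repZH2Equiv LH (Rep.res f M) (LC.resLC2 hf hM x) : LC.H2 LH (repZ (Rep.res f M))) := by
  obtain ⟨c, rfl⟩ := Submodule.mkQ_surjective _ x
  rw [repZH2Equiv_mk, LC.resLC2_H2π, LC.resLC2_H2π, repZH2Equiv_mk]
  rfl

end Lift

section Sha

variable {k : Type} [Field k] (S : Finset Nat.Primes) (M : Rep k GQ)

/-- The kernel of the total localisation to the finite places of `S` in `LC.H1` of the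
`ℤ`-representation `repZ M`. -/
def shaZ₁ : AddSubgroup (LC.H1 (globalLevel S) (repZ M)) where
  carrier := {x | ∀ q : ↥S,
    lcResH1 (repZ M) (levelCompat_globalLevel (primeLocalToGlobal q.1) S) x = 0}
  add_mem' {x y} hx hy q := by rw [map_add, hx q, hy q, add_zero]
  zero_mem' q := map_zero _
  neg_mem' {x} hx q := by rw [map_neg, hx q, neg_zero]

/-- The kernel of the total localisation to the finite places of `S` in `LC.H2` of the
`ℤ`-representation `repZ M`. -/
def shaZ₂ : AddSubgroup (LC.H2 (globalLevel S) (repZ M)) where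
  carrier := {x | ∀ q : ↥S,
    lcResH2 (repZ M) (levelCompat_globalLevel (primeLocalToGlobal q.1) S) x = 0}
  add_mem' {x y} hx hy q := by rw [map_add, hx q, hy q, add_zero]
  zero_mem' q := map_zero _
  neg_mem' {x} hx q := by rw [map_neg, hx q, neg_zero]

theorem mem_shaZ₁_iff (x : LC.H1 (globalLevel S) (repZ M)) :
    x ∈ shaZ₁ S M ↔ ∀ q : ↥S,
      lcResH1 (repZ M) (levelCompat_globalLevel (primeLocalToGlobal q.1) S) x = 0 := Iff.rfl

theorem mem_shaZ₂_iff (x : LC.H2 (globalLevel S) (repZ M)) :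
    x ∈ shaZ₂ S M ↔ ∀ q : ↥S,
      lcResH2 (repZ M) (levelCompat_globalLevel (primeLocalToGlobal q.1) S) x = 0 := Iff.rfl

theorem repZH1Equiv_mem_shaZ₁_iff (x : LC.H1 (globalLevel S) M) :
    repZH1Equiv (globalLevel S) M x ∈ shaZ₁ S M ↔ x ∈ shaLC₁ S M := by
  rw [mem_shaZ₁_iff, mem_shaLC₁_iff]
  exact forall_congr' fun q => lcResH1_repZ_eq_zero_iff M _ x

theorem repZH2Equiv_mem_shaZ₂_iff (x : LC.H2 (globalLevel S) M) :
    repZH2Equiv (globalLevel S) M x ∈ shaZ₂ S M ↔ x ∈ shaLC₂ S M := by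
  rw [mem_shaZ₂_iff, mem_shaLC₂_iff]
  exact forall_congr' fun q => lcResH2_repZ_eq_zero_iff M _ x

/-- `shaLC₁ S M ≃+ shaZ₁ S M`. -/
def shaLC₁EquivZ : ↥(shaLC₁ S M) ≃+ ↥(shaZ₁ S M) where
  toFun x := ⟨repZH1Equiv (globalLevel S) M x.1, (repZH1Equiv_mem_shaZ₁_iff S M x.1).2 x.2⟩
  invFun y := ⟨(repZH1Equiv (globalLevel S) M).symm y.1, by
    rw [← repZH1Equiv_mem_shaZ₁_iff, AddEquiv.apply_symm_apply]
    exact y.2⟩
  left_inv x := Subtype.ext ((repZH1Equiv (globalLevel S) M).symm_apply_apply x.1)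
  right_inv y := Subtype.ext ((repZH1Equiv (globalLevel S) M).apply_symm_apply y.1)
  map_add' x y := Subtype.ext (map_add _ x.1 y.1)

/-- `shaLC₂ S M ≃+ shaZ₂ S M`. -/
def shaLC₂EquivZ : ↥(shaLC₂ S M) ≃+ ↥(shaZ₂ S M) where
  toFun x := ⟨repZH2Equiv (globalLevel S) M x.1, (repZH2Equiv_mem_shaZ₂_iff S M x.1).2 x.2⟩
  invFun y := ⟨(repZH2Equiv (globalLevel S) M).symm y.1, by
    rw [← repZH2Equiv_mem_shaZ₂_iff, AddEquiv.apply_symm_apply]
    exact y.2⟩
  left_inv x := Subtype.ext ((repZH2Equiv (globalLevel S) M).symm_apply_apply x.1)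
  right_inv y := Subtype.ext ((repZH2Equiv (globalLevel S) M).apply_symm_apply y.1)
  map_add' x y := Subtype.ext (map_add _ x.1 y.1)

theorem card_shaLC₁_eq : Nat.card ↥(shaLC₁ S M) = Nat.card ↥(shaZ₁ S M) :=
  Nat.card_congr (shaLC₁EquivZ S M).toEquiv

theorem card_shaLC₂_eq : Nat.card ↥(shaLC₂ S M) = Nat.card ↥(shaZ₂ S M) :=
  Nat.card_congr (shaLC₂EquivZ S M).toEquiv

end Sha

end Fermat.Agent.CFT.PT

end
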