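import Fermat.Agent.CFT.PT.MainAbstract
import Fermat.Agent.CFT.PT.RepZSha
import Fermat.Agent.CFT.PT.JSInst

/-!
# D3i: identification of the `H¹`-side of the abstract Poitou–Tate theorem with `Ш¹`

`PT.main_abstract` produces the dual of `ker (mLoc1 hlev R)`, the kernel of the total restriction
`H¹(G, N) → ∏ᵢ H¹(H i, Res N)` on the cohomology `(LC.cx R.smooth).H 1` of the LC complex.  For
`G = G_ℚ`, `L = globalLevel S`, the local groups `G_{ℚ_q}`, `q ∈ S` and `N = repZ M'`, this kernel
is the `ℤ`-form `shaZ₁ S M'` of the Tate–Shafarevich group (`PT/RepZSha.lean`):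

* `lcResH1_eq_resLC1`: the restriction `S55.lcResH1` is `LC.resLC1`;
* `resH_one_eq_zero_iff`: `LC.resH hf hA 1 y = 0 ↔ lcResH1 A hf (h1Equiv hA y) = 0`;
* `loc1Ident : ker (mLoc1 (levelComap_global S) R) ≃+ shaZ₁ S M'` for every lattice resolution `R`
  of `repZ M'`.
-/

set_option autoImplicit false

open CategoryTheory groupCohomology

noncomputable section

namespace Fermat.Agent.CFT.PT

open Fermat.Agent.CFT Fermat.Agent.S55 ExtCitation

local notation "Qb" => AlgebraicClosure ℚ
local notation "GQ" => (AlgebraicClosure ℚ ≃ₐ[ℚ] AlgebraicClosure ℚ)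

section Generic

variable {k G H : Type} [CommRing k] [Group G] [Group H] {f : H →* G}
  {L : LevelStructure G} {LH : LevelStructure H} (A : Rep k G)

/-- The restriction map `S55.lcResH1` on `LC.H1` is the map `LC.resLC1` of `LC/Lift.lean`. -/
theorem lcResH1_eq_resLC1 (hf : LH.Compat L f) (hA : IsSmooth L A) (x : LC.H1 L A) :
    lcResH1 A hf x = LC.resLC1 hf hA x := by
  obtain ⟨c, rfl⟩ := Submodule.mkQ_surjective _ x
  exact (LC.resLC1_H1π hf hA c).symm

/-- Vanishing of the restriction on the cohomology of the LC complex, in terms of `lcResH1`. -/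
theorem resH_one_eq_zero_iff (hf : LH.Compat L f) (hA : IsSmooth L A) (y : (LC.cx hA).H 1) :
    LC.resH hf hA 1 y = 0 ↔ lcResH1 A hf (LC.h1Equiv hA y) = 0 := by
  rw [lcResH1_eq_resLC1 A hf hA]
  simp only [LC.resLC1, LinearMap.comp_apply, LinearEquiv.coe_coe, LinearEquiv.symm_apply_apply]
  exact (LinearEquiv.map_eq_zero_iff _).symm

end Generic

section Global

variable {k : Type} [Field k] (S : Finset Nat.Primes) (M' : Rep k GQ)
  (R : LatticeRes (globalLevel S) (repZ M'))

/-- Membership in the kernel of `mLoc1`. -/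
theorem mem_ker_mLoc1_iff (y : (LC.cx R.smooth).H 1) :
    y ∈ (mLoc1 (levelComap_global S) R).ker ↔
      ∀ q : ↥S, LC.resH ((levelComap_global S).compat q) R.smooth 1 y = 0 := by
  rw [AddMonoidHom.mem_ker]
  constructor
  · intro h q
    exact congrFun h q
  · intro h
    funext q
    exact h q

/-- `h1Equiv` identifies the kernel of `mLoc1` with `shaZ₁`. -/
theorem h1Equiv_mem_shaZ₁_iff (y : (LC.cx R.smooth).H 1) :
    LC.h1Equiv R.smooth y ∈ shaZ₁ S M' ↔ y ∈ (mLoc1 (levelComap_global S) R).ker := by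
  rw [mem_ker_mLoc1_iff, mem_shaZ₁_iff]
  exact forall_congr' fun q =>
    (resH_one_eq_zero_iff (repZ M') ((levelComap_global S).compat q) R.smooth y).symm

/-- **D3i.** The kernel of the total restriction on `H¹` of the LC complex is `Ш¹` (in its
`ℤ`-form). -/
def loc1Ident : ↥(mLoc1 (levelComap_global S) R).ker ≃+ ↥(shaZ₁ S M') where
  toFun y := ⟨LC.h1Equiv R.smooth y.1, (h1Equiv_mem_shaZ₁_iff S M' R y.1).2 y.2⟩
  invFun x := ⟨(LC.h1Equiv R.smooth).symm x.1, by
    rw [← h1Equiv_mem_shaZ₁_iff, LinearEquiv.apply_symm_apply]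
    exact x.2⟩
  left_inv y := Subtype.ext ((LC.h1Equiv R.smooth).symm_apply_apply y.1)
  right_inv x := Subtype.ext ((LC.h1Equiv R.smooth).apply_symm_apply x.1)
  map_add' y y' := Subtype.ext (map_add _ y.1 y'.1)

@[simp] theorem coe_loc1Ident (y : ↥(mLoc1 (levelComap_global S) R).ker) :
    ((loc1Ident S M' R y : ↥(shaZ₁ S M')) : LC.H1 (globalLevel S) (repZ M')) =
      LC.h1Equiv R.smooth y.1 := rfl

/-- Transport of a duality isomorphism along `loc1Ident`. -/
def dualLoc1Ident (p : ℕ) :
    (↥(mLoc1 (levelComap_global S) R).ker →+ ZMod p) ≃+ (↥(shaZ₁ S M') →+ ZMod p) where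
  toFun φ := φ.comp (loc1Ident S M' R).symm.toAddMonoidHom
  invFun ψ := ψ.comp (loc1Ident S M' R).toAddMonoidHom
  left_inv φ := by
    ext y
    simp
  right_inv ψ := by
    ext x
    simp
  map_add' φ φ' := by
    ext x
    simp

end Global

end Fermat.Agent.CFT.PT

end
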