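import Fermat.Agent.CFT.PT.Main
import Fermat.Agent.CFT.PT.Loc1Ident
import Fermat.Agent.CFT.HyperExt.ZResRes
import Fermat.Agent.CFT.HyperExt.LCDualityZMod

/-!
# Poitou–Tate for `Ш¹`, `Ш²` over `ℚ_S`: the final assembly in terms of `PTInputs` (file PT/PTInputs.lean)

`PTInputs p S` packages the three deep inputs of the Poitou–Tate theorem:
* global duality for `C_S` (nodes A8 + C9, D7): `dual1` bijective for all `PMod`s over `G_ℚ`;
* local duality for `ℚ̄_qˣ` (nodes A8 + B7, D6): `dual1` surjective for all `PMod`s over `G_{ℚ_q}`;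
* the reciprocity sum formula (node D3c).

`ptEquiv`: from `PTInputs` we get `ker (jsLoc2 S R) ≃+ Hom(Ш¹_S(M'), ℤ/p)` for the canonical
resolution `R` of `repZ M'`;  `ptMain_of` composes with an identification
`ker (jsLoc2 S R) ≃+ Ш²_S(M)` (node D3e).
-/

set_option autoImplicit false

open CategoryTheory

namespace Fermat.Agent.CFT.PT

open Fermat.Agent.CFT Fermat.Agent.S55 ExtCitation HExt LatticePair

attribute [local instance 2000] Rep.hV2

local notation "Qb" => AlgebraicClosure ℚ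
local notation "GQ" => (AlgebraicClosure ℚ ≃ₐ[ℚ] AlgebraicClosure ℚ)

/-- **The three deep inputs of Poitou–Tate duality** for the prime `p` and the set `S`. -/
structure PTInputs (p : ℕ) (S : Finset Nat.Primes) where
  /-- the global invariant map on `H²(G_S, C_S)[p]` -/
  invG : LC.Hp p (isSmooth_csRep (globalLevel S) Qb (↑S : Set Nat.Primes)) 2 →+ ZMod p
  /-- the local invariant maps on `H²(G_{ℚ_q}, ℚ̄_qˣ)[p]` -/
  invL : ∀ q : ↥S, LC.Hp p (isSmooth_primeUnitsRep q.1) 2 →+ ZMod p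
  /-- global duality -/
  global : ∀ M : PMod (globalLevel S) p, Function.Bijective
    (M.res.dual1 p (isSmooth_csRep (globalLevel S) Qb (↑S : Set Nat.Primes)) M.tors invG)
  /-- local duality -/
  loc : ∀ (q : ↥S) (M : PMod (levelOf (primeLocalToGlobal q.1)) p), Function.Surjective
    (M.res.dual1 p (isSmooth_primeUnitsRep q.1) M.tors (invL q))
  /-- the reciprocity sum formula -/
  recip : ∀ (z : (LC.cx (isSmooth_jsRep (globalLevel S) Qb (↑S : Set Nat.Primes))).H 2),
      p • z = 0 →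
      ∀ (h1 : (LC.cxMap (isSmooth_jsRep (globalLevel S) Qb (↑S : Set Nat.Primes))
            (isSmooth_csRep (globalLevel S) Qb (↑S : Set Nat.Primes))
            (jsToCsHom (globalLevel S) Qb (↑S : Set Nat.Primes))).mapH 2 z ∈
          LC.Hp p (isSmooth_csRep (globalLevel S) Qb (↑S : Set Nat.Primes)) 2)
        (h2 : ∀ q : ↥S, (LC.locHom (levelComap_global S)
            (isSmooth_jsRep (globalLevel S) Qb (↑S : Set Nat.Primes))
            (fun q : ↥S => isSmooth_primeUnitsRep q.1) (evQ (globalLevel S) S) q).mapH 2 z ∈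
          LC.Hp p (isSmooth_primeUnitsRep q.1) 2),
        invG ⟨_, h1⟩ = ∑ q, invL q ⟨_, h2 q⟩

variable {p : ℕ} [Fact p.Prime] {S : Finset Nat.Primes}

/-- Poitou–Tate for a finite smooth `p`-torsion `ℤ`-module `N`, canonical resolution. -/
theorem ptEquiv_zResR (I : PTInputs p S) (hS : S.Nonempty) (N : Rep.{0} ℤ GQ) [Finite N]
    (hN : IsSmooth (globalLevel S) N) (hpN : ∀ n : N, p • n = 0) :
    Nonempty ((jsLoc2 S (zResR N hN)).ker ≃+ ((jsLoc1 S (zResR N hN)).ker →+ ZMod p)) := by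
  refine main_js S p (zResR N hN) hpN hS I.invG I.invL ?_ ?_ I.recip
  · exact I.global ⟨N, hN, hpN⟩
  · intro q
    refine (zResR_res_dual_surjective_iff N hN ((levelComap_global S).compat q)
      (isSmooth_primeUnitsRep q.1) p hpN (I.invL q) 0 1 rfl).2 ?_
    exact I.loc q ⟨Rep.res (primeLocalToGlobal q.1) N, hN.res ((levelComap_global S).compat q),
      hpN⟩

/-- Poitou–Tate: `ker (jsLoc2) ≃+ Hom(Ш¹_S(M'), ℤ/p)`. -/
theorem ptEquiv (I : PTInputs p S) (hS : S.Nonempty) {k : Type} [Field k] (M' : Rep k GQ)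
    [Finite (repZ M')] (hN : IsSmooth (globalLevel S) (repZ M'))
    (hpN : ∀ n : repZ M', p • n = 0) :
    Nonempty ((jsLoc2 S (zResR (repZ M') hN)).ker ≃+ (↥(shaZ₁ S M') →+ ZMod p)) := by
  obtain ⟨e⟩ := ptEquiv_zResR I hS (repZ M') hN hpN
  exact ⟨e.trans (dualLoc1Ident S M' (zResR (repZ M') hN) p)⟩

/-- Poitou–Tate in the `ℤ`-form: `Ш²_S(M) ≃+ Hom(Ш¹_S(M'), ℤ/p)`, given an identification of
`Ш²_S(M)` with the kernel of `jsLoc2` (node D3e). -/
theorem ptMain_of (I : PTInputs p S) (hS : S.Nonempty) {k : Type} [Field k] (M M' : Rep k GQ)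
    [Finite (repZ M')] (hN : IsSmooth (globalLevel S) (repZ M'))
    (hpN : ∀ n : repZ M', p • n = 0)
    (e₂ : (jsLoc2 S (zResR (repZ M') hN)).ker ≃+ ↥(shaZ₂ S M)) :
    Nonempty (↥(shaZ₂ S M) ≃+ (↥(shaZ₁ S M') →+ ZMod p)) := by
  obtain ⟨e⟩ := ptEquiv I hS M' hN hpN
  exact ⟨e₂.symm.trans e⟩

end Fermat.Agent.CFT.PT
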