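import Fermat.Agent.CFT.PT.MiddleAbstract
import Fermat.Agent.CFT.PT.PTInputs

/-!
# Poitou–Tate over `ℚ_S`: exactness at the middle terms, concrete form (GW-bridge, node M-js)

`PT/MiddleAbstract.lean` instantiated exactly as `PT.main_js` (`PT/Main.lean`):
`G = G_ℚ` with `globalLevel S`, the local groups `G_{ℚ_q}` (`q ∈ S`), `0 → E_S → J_S → C_S → 0`,
`X q = ℚ̄_qˣ`, `lam = evQ`, and the deep inputs taken from `I : PTInputs p S`, for the canonical
resolution `zResR N hN` of a finite smooth `p`-torsion module `N`.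

* `jsLocE1 S R : Ext¹(N, E_S) →+ ∏_{q ∈ S} Ext¹(N_q, ℚ̄_qˣ)`;
* `jsDualLoc S p R hpN invL : ∏_{q ∈ S} Ext¹(N_q, ℚ̄_qˣ) →+ Hom(H¹(G_ℚ, N), ℤ/p)`;
* `middle_js_loc1`, `middle_js_dual`, `middle_js_loc2`: the three exactness statements;
* `sum_local_pairings_eq_zero`: the reciprocity law for the pairings: the localisation of a class
  of `Ext¹(N, E_S)` is orthogonal to the localisation of every class of `H¹(G_ℚ, N)`.
-/

set_option autoImplicit false
set_option linter.unusedSectionVars false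

open CategoryTheory

namespace Fermat.Agent.CFT.PT

open Fermat.Agent.CFT Fermat.Agent.S55 ExtCitation HExt LatticePair

attribute [local instance 2000] Rep.hV2

local notation "Qb" => AlgebraicClosure ℚ
local notation "GQ" => (AlgebraicClosure ℚ ≃ₐ[ℚ] AlgebraicClosure ℚ)

/-- Instance shortcut: `P₀` of a lattice resolution with free `P₀` is projective. -/
theorem projective_P₀_of_free {G : Type} [Group G] {L : LevelStructure G} {N : Rep.{0} ℤ G}
    (R : LatticeRes L N) [Module.Free ℤ R.P₀] : Module.Projective ℤ R.P₀ :=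
  Module.Projective.of_free

/-- Instance shortcut: `P₁` of a lattice resolution with free `P₁` is projective. -/
theorem projective_P₁_of_free {G : Type} [Group G] {L : LevelStructure G} {N : Rep.{0} ℤ G}
    (R : LatticeRes L N) [Module.Free ℤ R.P₁] : Module.Projective ℤ R.P₁ :=
  Module.Projective.of_free

attribute [local instance 3000] projective_P₀_of_free projective_P₁_of_free

variable (S : Finset Nat.Primes) (p : ℕ) [Fact p.Prime]
  {N : Rep.{0} ℤ GQ} (R : LatticeRes (globalLevel S) N)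
  [Module.Free ℤ R.P₀] [Module.Free ℤ R.P₁] (hpN : ∀ n : N, p • n = 0)

/-- The localisation `Ext¹(N, E_S) → Ext¹(N, J_S) → ∏_{q ∈ S} Ext¹(N_q, ℚ̄_qˣ)`. -/
noncomputable abbrev jsLocE1 :=
  mLocE1 (levelComap_global S) (isSmooth_esRep (globalLevel S) Qb (↑S : Set Nat.Primes))
    (isSmooth_jsRep (globalLevel S) Qb (↑S : Set Nat.Primes))
    (esToJsHom (globalLevel S) Qb (↑S : Set Nat.Primes))
    (fun q : ↥S => isSmooth_primeUnitsRep q.1) (evQ (globalLevel S) S) R

/-- The sum of the local pairings against the localisations of the classes of `H¹(G_ℚ, N)`: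
`∏_{q ∈ S} Ext¹(N_q, ℚ̄_qˣ) → Hom(H¹(G_ℚ, N), ℤ/p)`. -/
noncomputable abbrev jsDualLoc
    (invL : ∀ q : ↥S, LC.Hp p (isSmooth_primeUnitsRep q.1) 2 →+ ZMod p) :=
  mDualLoc (levelComap_global S) p (fun q : ↥S => isSmooth_primeUnitsRep q.1) R hpN invL

/-- The connecting map `Ext¹(N, C_S) → Ext²(N, E_S)`. -/
noncomputable abbrev jsDelta (hS : S.Nonempty) :=
  Ext.δ₂ R.toLatticePair (isSmooth_esRep (globalLevel S) Qb (↑S : Set Nat.Primes))
    (isSmooth_jsRep (globalLevel S) Qb (↑S : Set Nat.Primes))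
    (isSmooth_csRep (globalLevel S) Qb (↑S : Set Nat.Primes))
    (esToJsHom (globalLevel S) Qb (↑S : Set Nat.Primes))
    (jsToCsHom (globalLevel S) Qb (↑S : Set Nat.Primes))
    (esToJsHom_injective S hS) (jsToCsHom_surjective S) (exact_esToJsHom_jsToCsHom S) 1

section hyp

variable (hS : S.Nonempty)
  (invG : LC.Hp p (isSmooth_csRep (globalLevel S) Qb (↑S : Set Nat.Primes)) 2 →+ ZMod p)
  (invL : ∀ q : ↥S, LC.Hp p (isSmooth_primeUnitsRep q.1) 2 →+ ZMod p)
  (hPGinj : Function.Injective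
    (R.dual1 p (isSmooth_csRep (globalLevel S) Qb (↑S : Set Nat.Primes)) hpN invG))
  (hG3 : ∀ (z : (LC.cx (isSmooth_jsRep (globalLevel S) Qb (↑S : Set Nat.Primes))).H 2),
    p • z = 0 →
    ∀ (h1 : (LC.cxMap (isSmooth_jsRep (globalLevel S) Qb (↑S : Set Nat.Primes))
          (isSmooth_csRep (globalLevel S) Qb (↑S : Set Nat.Primes))
          (jsToCsHom (globalLevel S) Qb (↑S : Set Nat.Primes))).mapH 2 z ∈
        LC.Hp p (isSmooth_csRep (globalLevel S) Qb (↑S : Set Nat.Primes)) 2)
      (h2 : ∀ q : ↥S, (LC.locHom (levelComap_global S)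
          (isSmooth_jsRep (globalLevel S) Qb (↑S : Set Nat.Primes))
          (fun q : ↥S => isSmooth_primeUnitsRep q.1) (evQ (globalLevel S) S) q).mapH 2 z ∈
        LC.Hp p (isSmooth_primeUnitsRep q.1) 2),
      invG ⟨_, h1⟩ = ∑ q, invL q ⟨_, h2 q⟩)

include hS hPGinj hG3 in
/-- **Middle exactness over `ℚ_S`, hypothesis form**: the image of
`Ext¹(N, E_S) → ∏_{q ∈ S} Ext¹(N_q, ℚ̄_qˣ)` is the annihilator of the image of
`H¹(G_ℚ, N) → ∏_{q ∈ S} H¹(G_{ℚ_q}, N)`. -/
theorem middle_js_loc1_of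
    (e : ∀ q : ↥S, (R.res ((levelComap_global S).compat q)).Ext (isSmooth_primeUnitsRep q.1) 1) :
    jsDualLoc S p R hpN invL e = 0 ↔ ∃ e' : R.Ext (isSmooth_esRep (globalLevel S) Qb
      (↑S : Set Nat.Primes)) 1, jsLocE1 S R e' = e :=
  middle_exact_loc1 (levelComap_global S) p
    (isSmooth_esRep (globalLevel S) Qb (↑S : Set Nat.Primes))
    (isSmooth_jsRep (globalLevel S) Qb (↑S : Set Nat.Primes))
    (isSmooth_csRep (globalLevel S) Qb (↑S : Set Nat.Primes))
    (esToJsHom (globalLevel S) Qb (↑S : Set Nat.Primes))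
    (jsToCsHom (globalLevel S) Qb (↑S : Set Nat.Primes))
    (esToJsHom_injective S hS) (jsToCsHom_surjective S) (exact_esToJsHom_jsToCsHom S)
    (fun q : ↥S => isSmooth_primeUnitsRep q.1) (evQ (globalLevel S) S) R hpN invG invL
    (isLocCoind_ihom_js (globalLevel S) S R.P₀ R.smooth₀)
    (isLocCoind_ihom_js (globalLevel S) S R.P₁ R.smooth₁)
    (locH90_primeUnits S) hPGinj hG3
    (fun q e c => LatticeRes.pair_loc (levelComap_global S) R
      (isSmooth_jsRep (globalLevel S) Qb (↑S : Set Nat.Primes))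
      (fun q : ↥S => isSmooth_primeUnitsRep q.1) (evQ (globalLevel S) S) 0 1 1 rfl e c q) e

include hPGinj hG3 in
/-- **Exactness at `Hom(H¹(G_ℚ, N), ℤ/p)` over `ℚ_S`, hypothesis form.** -/
theorem middle_js_dual_of
    (c : R.Ext (isSmooth_csRep (globalLevel S) Qb (↑S : Set Nat.Primes)) 1) :
    jsDelta S R hS c = 0 ↔
      ∃ e : ∀ q : ↥S, (R.res ((levelComap_global S).compat q)).Ext
          (isSmooth_primeUnitsRep q.1) 1,
        jsDualLoc S p R hpN invL e =
          R.dual1 p (isSmooth_csRep (globalLevel S) Qb (↑S : Set Nat.Primes)) hpN invG c :=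
  middle_exact_dual (levelComap_global S) p
    (isSmooth_esRep (globalLevel S) Qb (↑S : Set Nat.Primes))
    (isSmooth_jsRep (globalLevel S) Qb (↑S : Set Nat.Primes))
    (isSmooth_csRep (globalLevel S) Qb (↑S : Set Nat.Primes))
    (esToJsHom (globalLevel S) Qb (↑S : Set Nat.Primes))
    (jsToCsHom (globalLevel S) Qb (↑S : Set Nat.Primes))
    (esToJsHom_injective S hS) (jsToCsHom_surjective S) (exact_esToJsHom_jsToCsHom S)
    (fun q : ↥S => isSmooth_primeUnitsRep q.1) (evQ (globalLevel S) S) R hpN invG invL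
    (isLocCoind_ihom_js (globalLevel S) S R.P₀ R.smooth₀)
    (isLocCoind_ihom_js (globalLevel S) S R.P₁ R.smooth₁)
    (locH90_primeUnits S) hPGinj hG3
    (fun q e c => LatticeRes.pair_loc (levelComap_global S) R
      (isSmooth_jsRep (globalLevel S) Qb (↑S : Set Nat.Primes))
      (fun q : ↥S => isSmooth_primeUnitsRep q.1) (evQ (globalLevel S) S) 0 1 1 rfl e c q) c

/-- **Exactness at `Ext²(N, E_S)` over `ℚ_S`**: the kernel of the second localisation map is the
image of the connecting map (no deep input). -/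
theorem middle_js_loc2
    (z : R.Ext (isSmooth_esRep (globalLevel S) Qb (↑S : Set Nat.Primes)) 2) :
    jsLoc2 S R z = 0 ↔
      ∃ c : R.Ext (isSmooth_csRep (globalLevel S) Qb (↑S : Set Nat.Primes)) 1,
        jsDelta S R hS c = z :=
  middle_exact_loc2 (levelComap_global S)
    (isSmooth_esRep (globalLevel S) Qb (↑S : Set Nat.Primes))
    (isSmooth_jsRep (globalLevel S) Qb (↑S : Set Nat.Primes))
    (isSmooth_csRep (globalLevel S) Qb (↑S : Set Nat.Primes))
    (esToJsHom (globalLevel S) Qb (↑S : Set Nat.Primes))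
    (jsToCsHom (globalLevel S) Qb (↑S : Set Nat.Primes))
    (esToJsHom_injective S hS) (jsToCsHom_surjective S) (exact_esToJsHom_jsToCsHom S)
    (fun q : ↥S => isSmooth_primeUnitsRep q.1) (evQ (globalLevel S) S) R
    (isLocCoind_ihom_js (globalLevel S) S R.P₀ R.smooth₀)
    (isLocCoind_ihom_js (globalLevel S) S R.P₁ R.smooth₁)
    (locH90_primeUnits S) z

include hS hG3 in
/-- **Reciprocity for the pairings, hypothesis form**: the localisations of a class of
`Ext¹(N, E_S)` and of a class of `H¹(G_ℚ, N)` are orthogonal for the sum of the local pairings. -/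
theorem jsDualLoc_jsLocE1_of
    (e' : R.Ext (isSmooth_esRep (globalLevel S) Qb (↑S : Set Nat.Primes)) 1) :
    jsDualLoc S p R hpN invL (jsLocE1 S R e') = 0 := by
  have h := dual1_map₂_eq_mDualLoc (levelComap_global S) p
    (isSmooth_jsRep (globalLevel S) Qb (↑S : Set Nat.Primes))
    (isSmooth_csRep (globalLevel S) Qb (↑S : Set Nat.Primes))
    (jsToCsHom (globalLevel S) Qb (↑S : Set Nat.Primes))
    (fun q : ↥S => isSmooth_primeUnitsRep q.1) (evQ (globalLevel S) S) R hpN invG invL hG3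
    (fun q e c => LatticeRes.pair_loc (levelComap_global S) R
      (isSmooth_jsRep (globalLevel S) Qb (↑S : Set Nat.Primes))
      (fun q : ↥S => isSmooth_primeUnitsRep q.1) (evQ (globalLevel S) S) 0 1 1 rfl e c q)
    (Ext.map₂ R.toLatticePair (isSmooth_esRep (globalLevel S) Qb (↑S : Set Nat.Primes))
      (isSmooth_jsRep (globalLevel S) Qb (↑S : Set Nat.Primes))
      (esToJsHom (globalLevel S) Qb (↑S : Set Nat.Primes)) 1 e')
  have h0 : Ext.map₂ R.toLatticePair (isSmooth_jsRep (globalLevel S) Qb (↑S : Set Nat.Primes))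
      (isSmooth_csRep (globalLevel S) Qb (↑S : Set Nat.Primes))
      (jsToCsHom (globalLevel S) Qb (↑S : Set Nat.Primes)) 1
      (Ext.map₂ R.toLatticePair (isSmooth_esRep (globalLevel S) Qb (↑S : Set Nat.Primes))
        (isSmooth_jsRep (globalLevel S) Qb (↑S : Set Nat.Primes))
        (esToJsHom (globalLevel S) Qb (↑S : Set Nat.Primes)) 1 e') = 0 :=
    (Ext.exact_map₂_map₂ R.toLatticePair (isSmooth_esRep (globalLevel S) Qb (↑S : Set Nat.Primes))
      (isSmooth_jsRep (globalLevel S) Qb (↑S : Set Nat.Primes))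
      (isSmooth_csRep (globalLevel S) Qb (↑S : Set Nat.Primes))
      (esToJsHom (globalLevel S) Qb (↑S : Set Nat.Primes))
      (jsToCsHom (globalLevel S) Qb (↑S : Set Nat.Primes))
      (esToJsHom_injective S hS) (jsToCsHom_surjective S) (exact_esToJsHom_jsToCsHom S) 1 _).2
      ⟨e', rfl⟩
  rw [h0, map_zero] at h
  exact h.symm

end hyp

/-! ### The statements over `PTInputs`, canonical resolution -/

section inputs

variable {S} {p}
variable (I : PTInputs p S) (hS : S.Nonempty) (N : Rep.{0} ℤ GQ) [Finite N]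
  (hN : IsSmooth (globalLevel S) N) (hpN : ∀ n : N, p • n = 0)

include hS in
/-- **Middle exactness over `ℚ_S`** at `∏_{q ∈ S} Ext¹(N_q, ℚ̄_qˣ)`. -/
theorem middle_js_loc1
    (e : ∀ q : ↥S, ((zResR N hN).res ((levelComap_global S).compat q)).Ext
      (isSmooth_primeUnitsRep q.1) 1) :
    jsDualLoc S p (zResR N hN) hpN I.invL e = 0 ↔
      ∃ e' : (zResR N hN).Ext (isSmooth_esRep (globalLevel S) Qb (↑S : Set Nat.Primes)) 1,
        jsLocE1 S (zResR N hN) e' = e :=
  middle_js_loc1_of S p (zResR N hN) hpN hS I.invG I.invL (I.global ⟨N, hN, hpN⟩).1 I.recip e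

/-- **Exactness over `ℚ_S`** at `Hom(H¹(G_ℚ, N), ℤ/p) ≅ Ext¹(N, C_S)`. -/
theorem middle_js_dual
    (c : (zResR N hN).Ext (isSmooth_csRep (globalLevel S) Qb (↑S : Set Nat.Primes)) 1) :
    jsDelta S (zResR N hN) hS c = 0 ↔
      ∃ e : ∀ q : ↥S, ((zResR N hN).res ((levelComap_global S).compat q)).Ext
          (isSmooth_primeUnitsRep q.1) 1,
        jsDualLoc S p (zResR N hN) hpN I.invL e =
          (zResR N hN).dual1 p (isSmooth_csRep (globalLevel S) Qb (↑S : Set Nat.Primes)) hpN
            I.invG c :=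
  middle_js_dual_of S p (zResR N hN) hpN hS I.invG I.invL (I.global ⟨N, hN, hpN⟩).1 I.recip c

include hS in
/-- **Reciprocity for the local pairings**: the localisations of a class of `Ext¹(N, E_S)` and of
a class of `H¹(G_ℚ, N)` are orthogonal for the sum of the local pairings. -/
theorem jsDualLoc_jsLocE1
    (e' : (zResR N hN).Ext (isSmooth_esRep (globalLevel S) Qb (↑S : Set Nat.Primes)) 1) :
    jsDualLoc S p (zResR N hN) hpN I.invL (jsLocE1 S (zResR N hN) e') = 0 :=
  jsDualLoc_jsLocE1_of S p (zResR N hN) hpN hS I.invG I.invL I.recip e'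

/-- Every functional on `H¹(G_ℚ, N)` is `dual1 c` for a unique `c ∈ Ext¹(N, C_S)`. -/
theorem dual1_bijective_of_inputs :
    Function.Bijective ((zResR N hN).dual1 p
      (isSmooth_csRep (globalLevel S) Qb (↑S : Set Nat.Primes)) hpN I.invG) :=
  I.global ⟨N, hN, hpN⟩

end inputs

end Fermat.Agent.CFT.PT
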