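import Fermat.Agent.CFT.PT.EndAbstract
import Fermat.Agent.CFT.PT.MiddleJS
import Fermat.Agent.CFT.Local.LCGalEffaceHom
import Fermat.Agent.CFT.Local.PadicLayerInv

/-!
# Poitou–Tate over `ℚ_S`: exactness at the last local term, concrete form (node (B2), E6)

`PT/EndAbstract.lean` instantiated exactly as `PT/MiddleJS.lean`: `G = G_ℚ` with `globalLevel S`,
the local groups `G_{ℚ_q}` (`q ∈ S`), `0 → E_S → J_S → C_S → 0`, `X q = ℚ̄_qˣ`, `lam = evQ`.

* `jsDualLoc₂ S p R hpN invL : ∏_{q ∈ S} Ext²(N_q, ℚ̄_qˣ) →+ Hom(H⁰(G_ℚ, N), ℤ/p)`;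
* `LocalDegreeArith S p`: the one arithmetic input — the local degrees at `q ∈ S` of the fields
  unramified outside `S` are divisible by arbitrarily high powers of `p`, in the form: below every
  level `N₀` there is a level `N'` with `p * [G_q : r_q⁻¹ N₀] ∣ [G_q : r_q⁻¹ N']`;
* `js_edge_effaceable`: the edge classes of the local `Ext²`-classes are effaceable by levels of
  `G_ℚ` (from `resH_ihom_units_eq_zero`, `Local/LCGalEffaceHom.lean`);
* `end_js_loc2_of`, `end_js_loc2`: exactness at `∏_{q ∈ S} Ext²(N_q, ℚ̄_qˣ)`.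
-/

set_option autoImplicit false
set_option linter.unusedSectionVars false
set_option linter.style.haveILetI false

open CategoryTheory

namespace Fermat.Agent.CFT.PT

open Fermat.Agent.CFT Fermat.Agent.S55 ExtCitation HExt LatticePair

attribute [local instance 2000] Rep.hV2

local notation "Qb" => AlgebraicClosure ℚ
local notation "GQ" => (AlgebraicClosure ℚ ≃ₐ[ℚ] AlgebraicClosure ℚ)

attribute [local instance 3000] projective_P₀_of_free projective_P₁_of_free

/-- **The arithmetic input of the degree-2 Shapiro surjectivity**: below every level `N₀` of `G_ℚ`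
(for `globalLevel S`) there is a level `N'` whose preimage in `G_{ℚ_q}` has index divisible by
`p` times the index of the preimage of `N₀` (`q ∈ S`).  (The local degrees of `ℚ_S/ℚ` at `q` are
divisible by `p^∞`: adjoin `μ_{p^m}`, `p ∈ S`.) -/
def LocalDegreeArith (S : Finset Nat.Primes) (p : ℕ) : Prop :=
  ∀ (q : ↥S) (N₀ : Subgroup GQ), (globalLevel S).IsLevel N₀ →
    ∃ N' : Subgroup GQ, (globalLevel S).IsLevel N' ∧ N' ≤ N₀ ∧
      p * (N₀.comap (primeLocalToGlobal q.1)).index ∣ (N'.comap (primeLocalToGlobal q.1)).index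

variable (S : Finset Nat.Primes) (p : ℕ) [Fact p.Prime]
  {N : Rep.{0} ℤ GQ} (R : LatticeRes (globalLevel S) N)
  [Module.Free ℤ R.P₀] [Module.Free ℤ R.P₁] (hpN : ∀ n : N, p • n = 0)

/-- The sum of the local pairings of degree `(2, 0)` against the restrictions of the classes of
`H⁰(G_ℚ, N)`: `∏_{q ∈ S} Ext²(N_q, ℚ̄_qˣ) → Hom(H⁰(G_ℚ, N), ℤ/p)`. -/
noncomputable abbrev jsDualLoc₂
    (invL : ∀ q : ↥S, LC.Hp p (isSmooth_primeUnitsRep q.1) 2 →+ ZMod p) :=
  mDualLoc₂ (levelComap_global S) p (fun q : ↥S => isSmooth_primeUnitsRep q.1) R hpN invL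

include hpN in
/-- **Effaceability of the edge classes**: the edge class in `H²(G_{ℚ_q}, Hom(Res P₀, ℚ̄_qˣ))` of a
class of `Ext²(N_q, ℚ̄_qˣ)` dies on the preimage of a level of `G_ℚ`. -/
theorem js_edge_effaceable (harith : LocalDegreeArith S p) (q : ↥S)
    (e : (R.toLatticePair.res (primeLocalToGlobal q.1) ((levelComap_global S).compat q)).Ext
      (isSmooth_primeUnitsRep q.1) 2) :
    ∃ N', (globalLevel S).IsLevel N' ∧
      LC.resH (LevelStructure.compat_comap (levelOf (primeLocalToGlobal q.1))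
          (N'.comap (primeLocalToGlobal q.1)).subtype)
        (R.toLatticePair.smooth₀_loc (levelComap_global S)
          (fun q : ↥S => isSmooth_primeUnitsRep q.1) q) 2
        (Cx.EtoH ((R.toLatticePair.res (primeLocalToGlobal q.1)
          ((levelComap_global S).compat q)).homMap (isSmooth_primeUnitsRep q.1)) 2 e) = 0 := by
  obtain ⟨N₀, hN₀, hP₀⟩ := S55.exists_level_rho_eq_one_of_isSmooth R.smooth₀
  obtain ⟨N', hN', hle, hdvd⟩ := harith q N₀ hN₀
  refine ⟨N', hN', ?_⟩
  have hlevq := levelComap_global S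
  have hV₀ : (levelOf (primeLocalToGlobal q.1)).IsOpen (N₀.comap (primeLocalToGlobal q.1)) :=
    LevelStructure.isOpen_of_isLevel _ (hlevq q N₀ hN₀)
  have hV' : (levelOf (primeLocalToGlobal q.1)).IsOpen (N'.comap (primeLocalToGlobal q.1)) :=
    LevelStructure.isOpen_of_isLevel _ (hlevq q N' hN')
  have hpe : p • e = 0 :=
    (R.res ((levelComap_global S).compat q)).nsmul_Ext_eq_zero p
      (hpN_res (r := fun q : ↥S => primeLocalToGlobal q.1) p hpN q)
      (isSmooth_primeUnitsRep q.1) 1 e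
  have hz : p • Cx.EtoH ((R.toLatticePair.res (primeLocalToGlobal q.1)
      ((levelComap_global S).compat q)).homMap (isSmooth_primeUnitsRep q.1)) 2 e = 0 :=
    (map_nsmul (Cx.EtoH ((R.toLatticePair.res (primeLocalToGlobal q.1)
      ((levelComap_global S).compat q)).homMap (isSmooth_primeUnitsRep q.1)) 2) p e).symm.trans
      ((congrArg (Cx.EtoH ((R.toLatticePair.res (primeLocalToGlobal q.1)
        ((levelComap_global S).compat q)).homMap (isSmooth_primeUnitsRep q.1)) 2) hpe).trans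
        (map_zero _))
  haveI : Fact (q.1 : ℕ).Prime := ⟨q.1.2⟩
  exact resH_ihom_units_eq_zero (levelOf (localGaloisToGlobal (q.1 : ℕ)))
    (levelOf_local_galoisType (q.1 : ℕ)) (levelOf_local_cofinal (q.1 : ℕ))
    (padicLayerInvSystem (q.1 : ℕ)) (Rep.res (primeLocalToGlobal q.1) R.P₀)
    (R.toLatticePair.smooth₀_loc (levelComap_global S)
      (fun q : ↥S => isSmooth_primeUnitsRep q.1) q)
    (N₀.comap (primeLocalToGlobal q.1)) (N'.comap (primeLocalToGlobal q.1)) hV₀ hV'
    (Subgroup.comap_mono hle) (fun g hg => hP₀ _ hg) _ p hz hdvd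

section hyp

variable (hS : S.Nonempty)
  (invG : LC.Hp p (isSmooth_csRep (globalLevel S) Qb (↑S : Set Nat.Primes)) 2 →+ ZMod p)
  (invL : ∀ q : ↥S, LC.Hp p (isSmooth_primeUnitsRep q.1) 2 →+ ZMod p)
  (hPG2inj : Function.Injective
    (R.dual2 p (isSmooth_csRep (globalLevel S) Qb (↑S : Set Nat.Primes)) hpN invG))
  (hG3 : ∀ (z : (LC.cx (isSmooth_jsRep (globalLevel S) Qb (↑S : Set Nat.Primes))).H 2),
    p • z = 0 →
    ∀ (h1 : (LC.cxMap (isSmooth_jsRep (globalLevel S) Qb (↑S : Set Nat.Primes))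
          (isSmooth_csRep (globalLevel S) Qb (↑S : Set Nat.Primes))
          (jsToCsHom (globalLevel S) Qb (↑S : Set Nat.Primes))).mapH 2 z ∈
        LC.Hp p (isSmooth_csRep (globalLevel S) Qb (↑S : Set Nat.Primes)) 2)
      (h2 : ∀ q : ↥S, (LC.locHom (levelComap_global S)
          (isSmooth_jsRep (globalLevel S) Qb (↑S : Set Nat.Primes))
          (fun q : ↥S => isSmooth_primeUnitsRep q.1) (evQ (globalLevel S) S) q).mapH 2 z ∈
        LC.Hp p (isSmooth_primeUnitsRep q.1) 2),
      invG ⟨_, h1⟩ = ∑ q, invL q ⟨_, h2 q⟩)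

include hS hPG2inj hG3 in
/-- **End exactness over `ℚ_S`, hypothesis form**: the image of
`Ext²(N, E_S) → ∏_{q ∈ S} Ext²(N_q, ℚ̄_qˣ)` is the annihilator of the diagonal image of
`H⁰(G_ℚ, N)` under the sum of the local pairings. -/
theorem end_js_loc2_of (harith : LocalDegreeArith S p)
    (x : ∀ q : ↥S, (R.res ((levelComap_global S).compat q)).Ext (isSmooth_primeUnitsRep q.1) 2) :
    jsDualLoc₂ S p R hpN invL x = 0 ↔ ∃ z : R.Ext (isSmooth_esRep (globalLevel S) Qb
      (↑S : Set Nat.Primes)) 2, jsLoc2 S R z = x :=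
  end_exact_loc2_of_eff (levelComap_global S) p
    (isSmooth_esRep (globalLevel S) Qb (↑S : Set Nat.Primes))
    (isSmooth_jsRep (globalLevel S) Qb (↑S : Set Nat.Primes))
    (isSmooth_csRep (globalLevel S) Qb (↑S : Set Nat.Primes))
    (esToJsHom (globalLevel S) Qb (↑S : Set Nat.Primes))
    (jsToCsHom (globalLevel S) Qb (↑S : Set Nat.Primes))
    (esToJsHom_injective S hS) (jsToCsHom_surjective S) (exact_esToJsHom_jsToCsHom S)
    (fun q : ↥S => isSmooth_primeUnitsRep q.1) (evQ (globalLevel S) S) R hpN invG invL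
    hPG2inj hG3
    (fun q e c => LatticeRes.pair_loc (levelComap_global S) R
      (isSmooth_jsRep (globalLevel S) Qb (↑S : Set Nat.Primes))
      (fun q : ↥S => isSmooth_primeUnitsRep q.1) (evQ (globalLevel S) S) 1 0 1 rfl e c q)
    (isLocCoind_ihom_js (globalLevel S) S R.P₀ R.smooth₀)
    (isLocCoind_ihom_js (globalLevel S) S R.P₁ R.smooth₁)
    (locH90_primeUnits S)
    (fun q e => js_edge_effaceable S p R hpN harith q e) x

include hS hG3 in
/-- **The end of the sequence over `ℚ_S` is a complex**, hypothesis form. -/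
theorem jsDualLoc₂_jsLoc2_of
    (z : R.Ext (isSmooth_esRep (globalLevel S) Qb (↑S : Set Nat.Primes)) 2) :
    jsDualLoc₂ S p R hpN invL (jsLoc2 S R z) = 0 :=
  mDualLoc₂_mLoc2 (levelComap_global S) p
    (isSmooth_esRep (globalLevel S) Qb (↑S : Set Nat.Primes))
    (isSmooth_jsRep (globalLevel S) Qb (↑S : Set Nat.Primes))
    (isSmooth_csRep (globalLevel S) Qb (↑S : Set Nat.Primes))
    (esToJsHom (globalLevel S) Qb (↑S : Set Nat.Primes))
    (jsToCsHom (globalLevel S) Qb (↑S : Set Nat.Primes))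
    (esToJsHom_injective S hS) (jsToCsHom_surjective S) (exact_esToJsHom_jsToCsHom S)
    (fun q : ↥S => isSmooth_primeUnitsRep q.1) (evQ (globalLevel S) S) R hpN invG invL hG3
    (fun q e c => LatticeRes.pair_loc (levelComap_global S) R
      (isSmooth_jsRep (globalLevel S) Qb (↑S : Set Nat.Primes))
      (fun q : ↥S => isSmooth_primeUnitsRep q.1) (evQ (globalLevel S) S) 1 0 1 rfl e c q) z

end hyp

end Fermat.Agent.CFT.PT
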