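import Fermat.Agent.CFT.PT.EndJS
import Fermat.Agent.CFT.PT.D3cQ

/-!
# Poitou–Tate over `ℚ_S`: exactness at the last local term, unconditional inputs (node (B2), E6)

`PT/EndJS.lean` with the deep inputs discharged (`p` odd, `p ∈ S`): the global duality
`PTQ.global_duality_Q` (both duality maps bijective, in particular `dual2` injective) and the
reciprocity sum formula of `PTQ.ptInputsQ_of_local`.  The only remaining hypothesis is the
arithmetic input `LocalDegreeArith S p`.
-/

set_option autoImplicit false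
set_option linter.unusedSectionVars false
set_option linter.style.haveILetI false

open CategoryTheory

namespace Fermat.Agent.CFT.PT

open Fermat.Agent.CFT Fermat.Agent.S55 ExtCitation HExt LatticePair

attribute [local instance 2000] Rep.hV2

local notation "Qb" => AlgebraicClosure ℚ
local notation "GQ" => (AlgebraicClosure ℚ ≃ₐ[ℚ] AlgebraicClosure ℚ)

variable (S : Finset Nat.Primes) {p : ℕ} [Fact p.Prime] (hp2 : p ≠ 2) (hpS : pPrime p ∈ S)
  (hloc : PTQ.LocalTerms S)
  (N : Rep.{0} ℤ GQ) [Finite N] (hN : IsSmooth (globalLevel S) N) (hpN : ∀ n : N, p • n = 0)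

/-- The invariant maps of `PTQ.ptInputsQ_of_local` are `PTQ.invGQ` and `invLoc`. -/
theorem ptInputsQ_of_local_invG :
    (PTQ.ptInputsQ_of_local S hp2 hpS hloc).invG = PTQ.invGQ S hp2 hpS := rfl

theorem ptInputsQ_of_local_invL (q : ↥S) :
    (PTQ.ptInputsQ_of_local S hp2 hpS hloc).invL q = invLoc p q.1 := rfl

include hp2 hpS hloc in
/-- **End exactness over `ℚ_S`** (`p` odd, `p ∈ S`), canonical resolution of a finite smooth
`p`-torsion module `N`: a family of classes of `Ext²(N_q, ℚ̄_qˣ)` (`q ∈ S`) is the localisation of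
a class of `Ext²(N, E_S)` iff it is orthogonal to `H⁰(G_ℚ, N)` under the sum of the local
pairings. -/
theorem end_js_loc2 (harith : LocalDegreeArith S p)
    (x : ∀ q : ↥S, ((zResR N hN).res ((levelComap_global S).compat q)).Ext
      (isSmooth_primeUnitsRep q.1) 2) :
    jsDualLoc₂ S p (zResR N hN) hpN (fun q : ↥S => invLoc p q.1) x = 0 ↔
      ∃ z : (zResR N hN).Ext (isSmooth_esRep (globalLevel S) Qb (↑S : Set Nat.Primes)) 2,
        jsLoc2 S (zResR N hN) z = x :=
  end_js_loc2_of S p (zResR N hN) hpN ⟨_, hpS⟩ (PTQ.invGQ S hp2 hpS)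
    (fun q : ↥S => invLoc p q.1)
    (PTQ.global_duality_Q S hp2 hpS ⟨N, hN, hpN⟩).2.1
    (PTQ.ptInputsQ_of_local S hp2 hpS hloc).recip harith x

include hp2 hpS hloc in
/-- **The end of the sequence over `ℚ_S` is a complex** (`p` odd, `p ∈ S`). -/
theorem jsDualLoc₂_jsLoc2
    (z : (zResR N hN).Ext (isSmooth_esRep (globalLevel S) Qb (↑S : Set Nat.Primes)) 2) :
    jsDualLoc₂ S p (zResR N hN) hpN (fun q : ↥S => invLoc p q.1) (jsLoc2 S (zResR N hN) z) = 0 :=
  jsDualLoc₂_jsLoc2_of S p (zResR N hN) hpN ⟨_, hpS⟩ (PTQ.invGQ S hp2 hpS)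
    (fun q : ↥S => invLoc p q.1) (PTQ.ptInputsQ_of_local S hp2 hpS hloc).recip z

end Fermat.Agent.CFT.PT
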