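import Fermat.Agent.CFT.HyperExt.LCExtRes
import Fermat.Agent.CFT.HyperExt.LCExtLoc

/-!
# Restriction on hyper-Ext: connecting maps and the bridge to localisation (S55, node D3h)

* `HExt.Cx.ShortExact.δ_natural`: naturality of the connecting homomorphism of a short exact
  sequence of complexes;
* `HExt.Cx.FibMap_f_comm`, `HExt.Cx.EMap_δ`: the same for the connecting maps of short exact
  sequences of fibres;
* `LatticeRes.Ext.res_δ₂`: restriction commutes with the second-variable connecting map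
  `LatticePair.Ext.δ₂`;
* `LatticeRes.Ext.loc_eq_map₂_res`: **bridge** — the localisation map `LatticePair.Ext.loc` of
  `HyperExt/LCExtLoc.lean` is restriction followed by the change of coefficients `lam i`;
* `LatticeRes.pair_loc`: the hyper-Ext pairing is compatible with localisation.
-/

set_option autoImplicit false
set_option linter.unusedSectionVars false

universe u v

open CategoryTheory

namespace Fermat.Agent.CFT

open HExt

namespace HExt.Cx

variable {k : Type u} [CommRing k]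

section delta

variable {A B C A' B' C' : Cx.{u, v} k} {i : Hom A B} {p : Hom B C} {i' : Hom A' B'}
  {p' : Hom B' C'}

/-- **Naturality of the connecting homomorphism** for a morphism of short exact sequences of
complexes. -/
theorem ShortExact.δ_natural (h : ShortExact i p) (h' : ShortExact i' p') (α : Hom A A')
    (β : Hom B B') (γ : Hom C C')
    (hi : ∀ n (x : A.X n), i'.f n (α.f n x) = β.f n (i.f n x))
    (hp : ∀ n (x : B.X n), p'.f n (β.f n x) = γ.f n (p.f n x)) (n : ℕ) (x : C.Hs n) :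
    α.mapHs (n + 1) (h.δ n x) = h'.δ n (γ.mapHs n x) := by
  induction x using Hs.induction_on with
  | _ z hz =>
    obtain ⟨w, hw⟩ := h.exists_deltaW n z hz
    have hwm := (mem_deltaW_iff i n w.1).1 w.2
    rw [h.δ_mk n z hz w.1.1 w.1.2 hw hwm, Hom.mapHs_mk, Hom.mapHs_mk,
      h'.δ_mk n (γ.f (n + 1) z) _ (β.f (n + 1) w.1.1) (α.f (n + 2) w.1.2)
        (by rw [hp, hw]) (by rw [hi, hwm, β.comm])]

end delta

section fib

variable {F₁ G₁ F₂ G₂ F₂' G₂' F₃ G₃ : Cx.{u, v} k}

/-- Two composites of maps of fibres agree as soon as the underlying composites agree. -/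
theorem FibMap_f_comm (φ₁ : Hom F₁ G₁) (φ₂ : Hom F₂ G₂) (φ₂' : Hom F₂' G₂') (φ₃ : Hom F₃ G₃)
    (α : Hom F₁ F₂) (β : Hom G₁ G₂) (α' : Hom F₂ F₃) (β' : Hom G₂ G₃)
    (γ : Hom F₁ F₂') (δ : Hom G₁ G₂') (γ' : Hom F₂' F₃) (δ' : Hom G₂' G₃)
    (h₁ : ∀ n (x : F₁.X n), β.f n (φ₁.f n x) = φ₂.f n (α.f n x))
    (h₂ : ∀ n (x : F₂.X n), β'.f n (φ₂.f n x) = φ₃.f n (α'.f n x))
    (h₃ : ∀ n (x : F₁.X n), δ.f n (φ₁.f n x) = φ₂'.f n (γ.f n x))
    (h₄ : ∀ n (x : F₂'.X n), δ'.f n (φ₂'.f n x) = φ₃.f n (γ'.f n x))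
    (hF : ∀ n (x : F₁.X n), α'.f n (α.f n x) = γ'.f n (γ.f n x))
    (hG : ∀ n (x : G₁.X n), β'.f n (β.f n x) = δ'.f n (δ.f n x)) (n : ℕ) (w : (Fib φ₁).X n) :
    (FibMap φ₂ φ₃ α' β' h₂).f n ((FibMap φ₁ φ₂ α β h₁).f n w) =
      (FibMap φ₂' φ₃ γ' δ' h₄).f n ((FibMap φ₁ φ₂' γ δ h₃).f n w) := by
  match n, w with
  | 0, w => rfl
  | 1, w => exact Prod.ext (hF 0 w.1) rfl
  | n + 2, w => exact Prod.ext (hF (n + 1) w.1) (hG n w.2)

end fib

end HExt.Cx

/-! ### Restriction and the connecting map of the second variable -/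

variable {k G H : Type u} [CommRing k] [Group G] [Group H]
  {LH : LevelStructure H} {LG : LevelStructure G} {f : H →* G}

instance instModuleProjectiveRes (f : H →* G) (P : Rep.{u} k G) [Module.Projective k P] :
    Module.Projective k (Rep.res f P) :=
  inferInstanceAs (Module.Projective k P)

namespace LatticeRes

open LevelStructure

variable {N : Rep.{u} k G} (R : LatticeRes LG N) (hf : LH.Compat LG f)

instance instProjectiveResP₀ [Module.Projective k R.P₀] :
    Module.Projective k (R.res hf).toLatticePair.P₀ :=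
  inferInstanceAs (Module.Projective k R.P₀)

instance instProjectiveResP₁ [Module.Projective k R.P₁] :
    Module.Projective k (R.res hf).toLatticePair.P₁ :=
  inferInstanceAs (Module.Projective k R.P₁)

section delta

variable [Module.Projective k R.P₀] [Module.Projective k R.P₁]
  {X' X X'' : Rep.{u} k G} (hX' : IsSmooth LG X') (hX : IsSmooth LG X) (hX'' : IsSmooth LG X'')
  (a : X' ⟶ X) (b : X ⟶ X'') (ha : Function.Injective a.hom) (hb : Function.Surjective b.hom)
  (hab : Function.Exact a.hom b.hom)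

/-- The chain-level square: restriction commutes with change of coefficients. -/
lemma cxResIhom_postcomp {P : Rep.{u} k G} [Module.Finite k P] (hP : IsSmooth LG P)
    {X Y : Rep.{u} k G} (hX : IsSmooth LG X) (hY : IsSmooth LG Y) (g : X ⟶ Y) (m : ℕ)
    (y : (LC.cx (hP.ihom hX)).X m) :
    (LC.cxMap ((hP.res hf).ihom (hX.res hf)) ((hP.res hf).ihom (hY.res hf))
        (Cup.postcomp (Rep.res f P) (Rep.resMap f g))).f m ((LC.cxResIhom hf hP hX).f m y) =
      (LC.cxResIhom hf hP hY).f m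
        ((LC.cxMap (hP.ihom hX) (hP.ihom hY) (Cup.postcomp P g)).f m y) := by
  change (LC.cxMap _ _ (Cup.postcomp (Rep.res f P) (Rep.resMap f g))).f m
      ((LC.cxMap _ _ (Fermat.Agent.S55.resIhomIso f P X).hom).f m
        ((LC.cxRes hf (hP.ihom hX)).f m y)) =
    (LC.cxMap _ _ (Fermat.Agent.S55.resIhomIso f P Y).hom).f m
      ((LC.cxRes hf (hP.ihom hY)).f m
        ((LC.cxMap (hP.ihom hX) (hP.ihom hY) (Cup.postcomp P g)).f m y))
  rw [LC.cxRes_cxMap]
  refine LC.cxMap_comm_of_comm _ _ _ _ _ _ _ _ (fun a => ?_) m _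
  rfl

/-- **Restriction commutes with the connecting map of the second variable.** -/
theorem Ext.res_δ₂ (n : ℕ) (e : R.Ext hX'' n) :
    Ext.res R hf hX' (n + 1)
        (LatticePair.Ext.δ₂ R.toLatticePair hX' hX hX'' a b ha hb hab n e) =
      LatticePair.Ext.δ₂ (R.res hf).toLatticePair (hX'.res hf) (hX.res hf) (hX''.res hf)
        (Rep.resMap f a) (Rep.resMap f b) ha hb hab n (Ext.res R hf hX'' n e) := by
  refine Cx.ShortExact.δ_natural
    (R.toLatticePair.fib_shortExact₂ hX' hX hX'' a b ha hb hab)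
    ((R.res hf).toLatticePair.fib_shortExact₂ (hX'.res hf) (hX.res hf) (hX''.res hf)
      (Rep.resMap f a) (Rep.resMap f b) ha hb hab)
    (Cx.FibMap (R.homMap hX') ((R.res hf).homMap (hX'.res hf)) (LC.cxResIhom hf R.smooth₀ hX')
      (LC.cxResIhom hf R.smooth₁ hX') (R.res_sq hf hX'))
    (Cx.FibMap (R.homMap hX) ((R.res hf).homMap (hX.res hf)) (LC.cxResIhom hf R.smooth₀ hX)
      (LC.cxResIhom hf R.smooth₁ hX) (R.res_sq hf hX))
    (Cx.FibMap (R.homMap hX'') ((R.res hf).homMap (hX''.res hf))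
      (LC.cxResIhom hf R.smooth₀ hX'') (LC.cxResIhom hf R.smooth₁ hX'') (R.res_sq hf hX''))
    (fun m w => ?_) (fun m w => ?_) n e
  · exact Cx.FibMap_f_comm _ _ _ _ _ _ _ _ _ _ _ _ _ _ _ _
      (fun m y => cxResIhom_postcomp hf R.smooth₀ hX' hX a m y)
      (fun m y => cxResIhom_postcomp hf R.smooth₁ hX' hX a m y) m w
  · exact Cx.FibMap_f_comm _ _ _ _ _ _ _ _ _ _ _ _ _ _ _ _
      (fun m y => cxResIhom_postcomp hf R.smooth₀ hX hX'' b m y)
      (fun m y => cxResIhom_postcomp hf R.smooth₁ hX hX'' b m y) m w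

end delta

end LatticeRes

/-! ### The bridge to localisation -/

namespace LatticeRes

variable {k G : Type u} [CommRing k] [Group G] {L : LevelStructure G}
  {ι : Type*} {H : ι → Type u} [∀ i, Group (H i)] {LH : ∀ i, LevelStructure (H i)}
  {r : ∀ i, H i →* G}
  (hlev : LC.LevelComap L LH r) {N : Rep.{u} k G} (R : LatticeRes L N) {A : Rep.{u} k G}
  (hA : IsSmooth L A) {Y : ∀ i, Rep.{u} k (H i)} (hY : ∀ i, IsSmooth (LH i) (Y i))
  (lam : ∀ i, Rep.res (r i) A ⟶ Y i)

/-- **Bridge**: the localisation map on hyper-Ext is restriction followed by the change of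
coefficients `lam i`. -/
theorem Ext.loc_eq_map₂_res (n : ℕ) (e : R.Ext hA n) (i : ι) :
    LatticePair.Ext.loc hlev R.toLatticePair hA hY lam n e i =
      LatticePair.Ext.map₂ (R.res (hlev.compat i)).toLatticePair (hA.res (hlev.compat i)) (hY i)
        (lam i) n (Ext.res R (hlev.compat i) hA n e) := by
  have sq : ∀ m (y : (LC.cx (R.smooth₀.ihom hA)).X m),
      ((LC.cxMap ((R.res (hlev.compat i)).smooth₁.ihom (hA.res (hlev.compat i)))
          ((R.res (hlev.compat i)).smooth₁.ihom (hY i))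
          (Cup.postcomp (R.res (hlev.compat i)).P₁ (lam i))).comp
          (LC.cxResIhom (hlev.compat i) R.smooth₁ hA)).f m ((R.homMap hA).f m y) =
        ((R.res (hlev.compat i)).homMap (hY i)).f m
          (((LC.cxMap ((R.res (hlev.compat i)).smooth₀.ihom (hA.res (hlev.compat i)))
            ((R.res (hlev.compat i)).smooth₀.ihom (hY i))
            (Cup.postcomp (R.res (hlev.compat i)).P₀ (lam i))).comp
            (LC.cxResIhom (hlev.compat i) R.smooth₀ hA)).f m y) := by
    intro m y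
    change (LC.cxMap _ _ (Cup.postcomp (R.res (hlev.compat i)).P₁ (lam i))).f m
        ((LC.cxResIhom (hlev.compat i) R.smooth₁ hA).f m ((R.homMap hA).f m y)) =
      ((R.res (hlev.compat i)).homMap (hY i)).f m
        ((LC.cxMap _ _ (Cup.postcomp (R.res (hlev.compat i)).P₀ (lam i))).f m
          ((LC.cxResIhom (hlev.compat i) R.smooth₀ hA).f m y))
    rw [R.res_sq (hlev.compat i) hA,
      (R.res (hlev.compat i)).sq₂ (hA.res (hlev.compat i)) (hY i)]
  have h1 := Cx.EMap_comp (R.homMap hA)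
    ((R.res (hlev.compat i)).homMap (hA.res (hlev.compat i)))
    ((R.res (hlev.compat i)).homMap (hY i)) _ _ _ _ (R.res_sq (hlev.compat i) hA)
    ((R.res (hlev.compat i)).sq₂ (hA.res (hlev.compat i)) (hY i) (lam i)) sq n e
  refine Eq.trans ?_ h1.symm
  rw [LatticePair.Ext.loc_apply]
  refine LinearMap.congr_fun (Cx.EMap_congr _ _ _ _ _ _ _ _ (fun m y => ?_) (fun m y => ?_) n) e
  · change (LC.cxMap _ _ (LatticePair.lamIhom R.P₀ lam i)).f m
        ((LC.cxRes (hlev.compat i) (R.smooth₀.ihom hA)).f m y) =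
      (LC.cxMap _ _ (Cup.postcomp (Rep.res (r i) R.P₀) (lam i))).f m
        ((LC.cxMap _ _ (Fermat.Agent.S55.resIhomIso (r i) R.P₀ A).hom).f m
          ((LC.cxRes (hlev.compat i) (R.smooth₀.ihom hA)).f m y))
    rw [← LC.cxMap_comp_apply]
    exact LC.cxMap_congr_apply _ _ _ _ (fun _ => rfl) m _
  · change (LC.cxMap _ _ (LatticePair.lamIhom R.P₁ lam i)).f m
        ((LC.cxRes (hlev.compat i) (R.smooth₁.ihom hA)).f m y) =
      (LC.cxMap _ _ (Cup.postcomp (Rep.res (r i) R.P₁) (lam i))).f m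
        ((LC.cxMap _ _ (Fermat.Agent.S55.resIhomIso (r i) R.P₁ A).hom).f m
          ((LC.cxRes (hlev.compat i) (R.smooth₁.ihom hA)).f m y))
    rw [← LC.cxMap_comp_apply]
    exact LC.cxMap_congr_apply _ _ _ _ (fun _ => rfl) m _

/-- **The hyper-Ext pairing is compatible with localisation**:
`⟨loc_i e, res_i c⟩ = loc_i ⟨e, c⟩`. -/
theorem pair_loc (n s m : ℕ) (hm : n + s = m) (e : R.Ext hA (n + 1))
    (c : (LC.cx R.smooth).H s) (i : ι) :
    (R.res (hlev.compat i)).pair (hY i) n s m hm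
        (LatticePair.Ext.loc hlev R.toLatticePair hA hY lam (n + 1) e i)
        (LC.resH (hlev.compat i) R.smooth s c) =
      (LC.locHom hlev hA hY lam i).mapH (m + 1) (R.pair hA n s m hm e c) := by
  rw [Ext.loc_eq_map₂_res, pair_res_map₂]
  change _ = ((LC.cxMap (hA.res (hlev.compat i)) (hY i) (lam i)).comp
    (LC.cxRes (hlev.compat i) hA)).mapH (m + 1) _
  rw [Cx.Hom.mapH_comp]
  rfl

/-- `pair_loc` in terms of the total localisation map `LC.locH`. -/
theorem pair_loc' (n s m : ℕ) (hm : n + s = m) (e : R.Ext hA (n + 1))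
    (c : (LC.cx R.smooth).H s) (i : ι) :
    (R.res (hlev.compat i)).pair (hY i) n s m hm
        (LatticePair.Ext.loc hlev R.toLatticePair hA hY lam (n + 1) e i)
        (LC.resH (hlev.compat i) R.smooth s c) =
      LC.locH hlev hA hY lam (m + 1) (R.pair hA n s m hm e c) i :=
  pair_loc hlev R hA hY lam n s m hm e c i

end LatticeRes

end Fermat.Agent.CFT
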