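import Fermat.Agent.CFT.PT.Main
import Fermat.Agent.CFT.PT.Loc1Ident
import Fermat.Agent.S55.PTGlueEquiv

/-!
# Poitou–Tate duality for `Ш¹`, `Ш²`: the final composition (node D3 Final)

`PT.main_js` gives `ker jsLoc2 ≃+ Hom(ker jsLoc1, ℤ/p)` for a lattice resolution `R` of
`N = repZ M'`.  Composing with `loc1Ident : ker jsLoc1 ≃+ shaZ₁ S M'` (`PT/Loc1Ident.lean`) and an
identification `e₂ : ker jsLoc2 ≃+ shaZ₂ S M` (node D3e, `Loc2Ident`/`ShaIdent`) yields
`shaZ₂ S M ≃+ Hom(shaZ₁ S M', ℤ/p)`, which is the input of `S55.s55_of_shaZ_addEquiv`.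

Everything here is in hypothesis form over `e₂` and the three deep inputs `hPG`, `hPL`, `hG3`.
-/

set_option autoImplicit false

open CategoryTheory

namespace Fermat.Agent.CFT.PT

open Fermat.Agent.CFT Fermat.Agent.S55 ExtCitation HExt LatticePair groupCohomology

attribute [local instance 2000] Rep.hV2

local notation "Qb" => AlgebraicClosure ℚ
local notation "GQ" => (AlgebraicClosure ℚ ≃ₐ[ℚ] AlgebraicClosure ℚ)

variable (S : Finset Nat.Primes) (p : ℕ) [Fact p.Prime]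

section Abstract

variable {k : Type} [Field k] (M M' : Rep k GQ)
  (R : LatticeRes (globalLevel S) (repZ M')) [Module.Free ℤ R.P₀] [Module.Free ℤ R.P₁]
  (hpN : ∀ n : repZ M', p • n = 0)

/-- **Composition**: `shaZ₂ S M ≃+ Hom(shaZ₁ S M', ℤ/p)` from `main_js`, `loc1Ident` and an
identification `e₂` of the `Ext²`-side kernel with `shaZ₂ S M`. -/
theorem nonempty_shaZ_addEquiv_of_inputs (hS : S.Nonempty)
    (e₂ : ↥(jsLoc2 S R).ker ≃+ ↥(shaZ₂ S M))
    (invG : LC.Hp p (isSmooth_csRep (globalLevel S) Qb (↑S : Set Nat.Primes)) 2 →+ ZMod p)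
    (invL : ∀ q : ↥S, LC.Hp p (isSmooth_primeUnitsRep q.1) 2 →+ ZMod p)
    (hPG : Function.Bijective
      (R.dual1 p (isSmooth_csRep (globalLevel S) Qb (↑S : Set Nat.Primes)) hpN invG))
    (hPL : ∀ q : ↥S, Function.Surjective
      ((R.res ((levelComap_global S).compat q)).dual1 p (isSmooth_primeUnitsRep q.1)
        (hpN_res (r := fun q : ↥S => primeLocalToGlobal q.1) p hpN q) (invL q)))
    (hG3 : ∀ (z : (LC.cx (isSmooth_jsRep (globalLevel S) Qb (↑S : Set Nat.Primes))).H 2),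
      p • z = 0 →
      ∀ (h1 : (LC.cxMap (isSmooth_jsRep (globalLevel S) Qb (↑S : Set Nat.Primes))
            (isSmooth_csRep (globalLevel S) Qb (↑S : Set Nat.Primes))
            (jsToCsHom (globalLevel S) Qb (↑S : Set Nat.Primes))).mapH 2 z ∈
          LC.Hp p (isSmooth_csRep (globalLevel S) Qb (↑S : Set Nat.Primes)) 2)
        (h2 : ∀ q : ↥S, (LC.locHom (levelComap_global S)
            (isSmooth_jsRep (globalLevel S) Qb (↑S : Set Nat.Primes))
            (fun q : ↥S => isSmooth_primeUnitsRep q.1) (evQ (globalLevel S) S) q).mapH 2 z ∈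
          LC.Hp p (isSmooth_primeUnitsRep q.1) 2),
        invG ⟨_, h1⟩ = ∑ q, invL q ⟨_, h2 q⟩) :
    Nonempty (↥(shaZ₂ S M) ≃+ (↥(shaZ₁ S M') →+ ZMod p)) := by
  obtain ⟨e⟩ := main_js S p R hpN hS invG invL hPG hPL hG3
  exact ⟨e₂.symm.trans (e.trans (dualLoc1Ident S M' R p))⟩

end Abstract

section S55

variable {p} (M : Rep (ZMod p) GQ)
  (R : LatticeRes (globalLevel S) (repZ (M.dualTwist (cycloChar p))))
  [Module.Free ℤ R.P₀] [Module.Free ℤ R.P₁]
  (hpN : ∀ n : repZ (M.dualTwist (cycloChar p)), p • n = 0)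

/-- **S55 from the three deep inputs and the `Ext²`-side identification** (the exact frozen
conclusion). -/
theorem s55_of_inputs (hp2 : p ≠ 2) (hS : S.Nonempty)
    (e₂ : ↥(jsLoc2 S R).ker ≃+ ↥(shaZ₂ S M))
    (invG : LC.Hp p (isSmooth_csRep (globalLevel S) Qb (↑S : Set Nat.Primes)) 2 →+ ZMod p)
    (invL : ∀ q : ↥S, LC.Hp p (isSmooth_primeUnitsRep q.1) 2 →+ ZMod p)
    (hPG : Function.Bijective
      (R.dual1 p (isSmooth_csRep (globalLevel S) Qb (↑S : Set Nat.Primes)) hpN invG))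
    (hPL : ∀ q : ↥S, Function.Surjective
      ((R.res ((levelComap_global S).compat q)).dual1 p (isSmooth_primeUnitsRep q.1)
        (hpN_res (r := fun q : ↥S => primeLocalToGlobal q.1) p hpN q) (invL q)))
    (hG3 : ∀ (z : (LC.cx (isSmooth_jsRep (globalLevel S) Qb (↑S : Set Nat.Primes))).H 2),
      p • z = 0 →
      ∀ (h1 : (LC.cxMap (isSmooth_jsRep (globalLevel S) Qb (↑S : Set Nat.Primes))
            (isSmooth_csRep (globalLevel S) Qb (↑S : Set Nat.Primes))
            (jsToCsHom (globalLevel S) Qb (↑S : Set Nat.Primes))).mapH 2 z ∈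
          LC.Hp p (isSmooth_csRep (globalLevel S) Qb (↑S : Set Nat.Primes)) 2)
        (h2 : ∀ q : ↥S, (LC.locHom (levelComap_global S)
            (isSmooth_jsRep (globalLevel S) Qb (↑S : Set Nat.Primes))
            (fun q : ↥S => isSmooth_primeUnitsRep q.1) (evQ (globalLevel S) S) q).mapH 2 z ∈
          LC.Hp p (isSmooth_primeUnitsRep q.1) 2),
        invG ⟨_, h1⟩ = ∑ q, invL q ⟨_, h2 q⟩) :
    ∃ B : sha₁ S (M.dualTwist (cycloChar p)) →ₗ[ZMod p] sha₂ S M →ₗ[ZMod p] ZMod p,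
      (∀ y, (∀ x, B y x = 0) → y = 0) ∧ (∀ x, (∀ y, B y x = 0) → x = 0) := by
  obtain ⟨e⟩ := nonempty_shaZ_addEquiv_of_inputs S p M (M.dualTwist (cycloChar p)) R hpN hS e₂
    invG invL hPG hPL hG3
  exact s55_of_shaZ_addEquiv S M hp2 e

end S55

end Fermat.Agent.CFT.PT
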