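import Mathlib
import Fermat.Agent.CFT.HyperExt.LCExtLoc
import Fermat.Agent.CFT.HyperExt.LCExtRes

/-!
# Identification of the second localisation map of Poitou–Tate (S55, node D3e, abstract part)

Setting: a level group `(G, L)`, a family `r i : H i →* G` compatible with level structures
(`LC.LevelComap`), a resolution `R : LatticeRes L N`, smooth `G`-modules `E`, `J` with a morphism
`j : E ⟶ J`, smooth `H i`-modules `Y i` with `lam i : Res J ⟶ Y i`, and the surjectivity
hypotheses of the divisible case for `E` and for the `Y i`.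

* `LatticeRes.loc_map₂_divEquiv`: on `Hⁿ(G, Hom(N, E)) ≃ Extⁿ(N, E)` the composite
  `Extⁿ(N, E) → Extⁿ(N, J) → ∏ i, Extⁿ_{H i}(Res N, Y i)` (helper9's `LatticePair.Ext.loc`) is the
  localisation map `LC.locHom` of the modules `Hom(N, E) → Hom(Res N, Y i)` followed by the local
  isomorphisms `divEquiv`;
* `LatticeRes.loc_map₂_divEquiv_eq_zero_iff`: hence its kernel is the kernel of the localisation
  maps of `Hom(N, E)`;
* `LatticeRes.loc2_eq_zero_iff_of_bijective`: if `θ : M₀ ⟶ Hom(N, E)` is such that all composites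
  `Res M₀ ⟶ Res Hom(N, E) ⟶ Hom(Res N, Y i)` are bijective, then for `y ∈ Hⁿ(G, M₀)` the class
  `θ_* y` is in the kernel iff all restrictions `res_i y ∈ Hⁿ(H i, Res M₀)` vanish.
-/

set_option autoImplicit false
set_option linter.unusedSectionVars false

universe u

open CategoryTheory

namespace Fermat.Agent.CFT

open HExt LevelStructure

variable {k G : Type u} [CommRing k] [Group G] {L : LevelStructure G}
  {ι : Type*} {H : ι → Type u} [∀ i, Group (H i)] {LH : ∀ i, LevelStructure (H i)}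
  {r : ∀ i, H i →* G}

namespace LatticeRes

variable (hlev : LC.LevelComap L LH r) {N : Rep.{u} k G} [Module.Finite k N]
  (R : LatticeRes L N) {E J : Rep.{u} k G} (hE : IsSmooth L E) (hJ : IsSmooth L J) (j : E ⟶ J)
  {Y : ∀ i, Rep.{u} k (H i)} (hY : ∀ i, IsSmooth (LH i) (Y i))
  (lam : ∀ i, Rep.res (r i) J ⟶ Y i)
  (hsurjE : Function.Surjective (Cup.precomp R.i E).hom)
  (hsurjY : ∀ i, Function.Surjective (Cup.precomp (R.res (hlev.compat i)).i (Y i)).hom)

/-- The local coefficient maps `Res E ⟶ Res J ⟶ Y i`. -/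
noncomputable def lamE (i : ι) : Rep.res (r i) E ⟶ Y i := Rep.resMap (r i) j ≫ lam i

include hlev hY R in
/-- Smoothness of the local modules `Hom(Res N, Y i)`. -/
lemma smoothN_loc (i : ι) : IsSmooth (LH i) ((Rep.ihom (Rep.res (r i) N)).obj (Y i)) :=
  (R.smooth.res (hlev.compat i)).ihom (hY i)

/-- The localisation chain map `C(G, Hom(N, E)) → C(H i, Hom(Res N, Y i))`. -/
noncomputable def locHomN (i : ι) :
    Cx.Hom (LC.cx (R.smooth.ihom hE)) (LC.cx (R.smoothN_loc hlev hY i)) :=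
  LC.locHom hlev (R.smooth.ihom hE) (R.smoothN_loc hlev hY)
    (LatticePair.lamIhom N (lamE j lam)) i

/-- **The second localisation map in the divisible case**: on `Hⁿ(G, Hom(N, E)) ≃ Extⁿ(N, E)` the
map `Extⁿ(N, E) → Extⁿ(N, J) → ∏ i, Extⁿ(Res N, Y i)` is the localisation of `Hom(N, E)`. -/
theorem loc_map₂_divEquiv (n : ℕ) (x : (LC.cx (R.smooth.ihom hE)).H n) (i : ι) :
    LatticePair.Ext.loc hlev R.toLatticePair hJ hY lam n
        (LatticePair.Ext.map₂ R.toLatticePair hE hJ j n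
          (R.divEquiv hE (R.smooth.ihom hE) hsurjE n x)) i =
      (R.res (hlev.compat i)).divEquiv (hY i) (R.smoothN_loc hlev hY i) (hsurjY i) n
        ((R.locHomN hlev hE j hY lam i).mapH n x) := by
  rw [LatticePair.Ext.loc_apply]
  have sq : ∀ m (y : (LC.cx (R.smooth₀.ihom hE)).X m),
      ((R.toLatticePair.locHom₁ hlev hJ hY lam i).comp
          (LC.cxMap (R.smooth₁.ihom hE) (R.smooth₁.ihom hJ) (Cup.postcomp R.P₁ j))).f m
          ((R.homMap hE).f m y) =
        ((R.toLatticePair.res (r i) (hlev.compat i)).homMap (hY i)).f m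
          (((R.toLatticePair.locHom₀ hlev hJ hY lam i).comp
            (LC.cxMap (R.smooth₀.ihom hE) (R.smooth₀.ihom hJ) (Cup.postcomp R.P₀ j))).f m y) := by
    intro m y
    change (R.toLatticePair.locHom₁ hlev hJ hY lam i).f m
        ((LC.cxMap _ _ (Cup.postcomp R.P₁ j)).f m ((R.homMap hE).f m y)) =
      ((R.toLatticePair.res (r i) (hlev.compat i)).homMap (hY i)).f m
        ((R.toLatticePair.locHom₀ hlev hJ hY lam i).f m
          ((LC.cxMap _ _ (Cup.postcomp R.P₀ j)).f m y))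
    rw [R.toLatticePair.sq₂ hE hJ j, R.toLatticePair.loc_sq hlev hJ hY lam i]
  have h1 := Cx.EMap_comp (R.homMap hE) (R.homMap hJ)
    ((R.toLatticePair.res (r i) (hlev.compat i)).homMap (hY i)) _ _ _ _
    (R.toLatticePair.sq₂ hE hJ j) (R.toLatticePair.loc_sq hlev hJ hY lam i) sq n
    (R.divEquiv hE (R.smooth.ihom hE) hsurjE n x)
  refine h1.trans ?_
  refine Cx.EMap_kerToE (R.shortExact_div hE (R.smooth.ihom hE) hsurjE)
    ((R.res (hlev.compat i)).shortExact_div (hY i) (R.smoothN_loc hlev hY i) (hsurjY i))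
    (R.locHomN hlev hE j hY lam i) _ _ sq (fun m y => ?_) n x
  match m, y with
  | 0, y => rfl
  | 1, y => rfl
  | 2, y => rfl
  | 3, y => rfl
  | _ + 4, _ => rfl

include hsurjY in
/-- The kernel of the second localisation map in the divisible case. -/
theorem loc_map₂_divEquiv_eq_zero_iff (n : ℕ) (x : (LC.cx (R.smooth.ihom hE)).H n) :
    LatticePair.Ext.loc hlev R.toLatticePair hJ hY lam n
        (LatticePair.Ext.map₂ R.toLatticePair hE hJ j n
          (R.divEquiv hE (R.smooth.ihom hE) hsurjE n x)) = 0 ↔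
      ∀ i, (R.locHomN hlev hE j hY lam i).mapH n x = 0 := by
  constructor
  · intro h i
    have hi := congrFun h i
    rw [R.loc_map₂_divEquiv hlev hE hJ j hY lam hsurjE hsurjY n x i] at hi
    exact (LinearEquiv.map_eq_zero_iff _).1 hi
  · intro h
    funext i
    rw [R.loc_map₂_divEquiv hlev hE hJ j hY lam hsurjE hsurjY n x i, h i, map_zero]
    rfl

/-! ### Transport along a morphism `θ : M₀ ⟶ Hom(N, E)` which is locally bijective -/

section theta

variable {M₀ : Rep.{u} k G} (hM₀ : IsSmooth L M₀) (θ : M₀ ⟶ (Rep.ihom N).obj E)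

/-- The local composites `Res M₀ ⟶ Res Hom(N, E) ⟶ Hom(Res N, Y i)`. -/
noncomputable def thetaLoc (i : ι) :
    Rep.res (r i) M₀ ⟶ (Rep.ihom (Rep.res (r i) N)).obj (Y i) :=
  Rep.resMap (r i) θ ≫ LatticePair.lamIhom N (lamE j lam) i

lemma thetaLoc_hom_apply (i : ι) (m : M₀) (x : N) :
    (show N →ₗ[k] Y i from (thetaLoc j lam θ i).hom (show ↑(Rep.res (r i) M₀) from m)) x =
      (lam i).hom (show ↑(Rep.res (r i) J) from
        j.hom ((show N →ₗ[k] E from θ.hom m) x)) := rfl

/-- Localisation of `Hom(N, E)` after `θ` is restriction of `M₀` followed by `thetaLoc`. -/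
lemma locHomN_cxMap (i : ι) (m : ℕ) (y : (LC.cx hM₀).X m) :
    (R.locHomN hlev hE j hY lam i).f m ((LC.cxMap hM₀ (R.smooth.ihom hE) θ).f m y) =
      (LC.cxMap (hM₀.res (hlev.compat i)) (R.smoothN_loc hlev hY i) (thetaLoc j lam θ i)).f m
        ((LC.cxRes (hlev.compat i) hM₀).f m y) := by
  match m, y with
  | 0, y => rfl
  | 1, y => rfl
  | 2, y => rfl
  | 3, y => rfl
  | _ + 4, _ => rfl

lemma locHomN_mapH_cxMap (i : ι) (n : ℕ) (y : (LC.cx hM₀).H n) :
    (R.locHomN hlev hE j hY lam i).mapH n ((LC.cxMap hM₀ (R.smooth.ihom hE) θ).mapH n y) =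
      (LC.cxMap (hM₀.res (hlev.compat i)) (R.smoothN_loc hlev hY i) (thetaLoc j lam θ i)).mapH n
        (LC.resH (hlev.compat i) hM₀ n y) := by
  induction y using Cx.H.induction_on with
  | _ z hz =>
    rw [Cx.Hom.mapH_mk, Cx.Hom.mapH_mk]
    change _ = (LC.cxMap _ _ (thetaLoc j lam θ i)).mapH n
      ((LC.cxRes (hlev.compat i) hM₀).mapH n (Cx.H.mk z hz))
    rw [Cx.Hom.mapH_mk, Cx.Hom.mapH_mk]
    exact Cx.H.mk_congr (R.locHomN_cxMap hlev hE j hY lam hM₀ θ i n z) _

include hsurjY in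
/-- **Identification of the kernel of the second localisation map**: if all local composites
`Res M₀ ⟶ Hom(Res N, Y i)` are bijective, then the class `θ_* y ∈ Hⁿ(G, Hom(N, E)) ≃ Extⁿ(N, E)`
is killed by `Extⁿ(N, E) → Extⁿ(N, J) → ∏ i, Extⁿ(Res N, Y i)` iff all restrictions of
`y ∈ Hⁿ(G, M₀)` to the `H i` vanish. -/
theorem loc2_eq_zero_iff_of_bijective
    (hθ : ∀ i, Function.Bijective (thetaLoc j lam θ i).hom) (n : ℕ) (y : (LC.cx hM₀).H n) :
    LatticePair.Ext.loc hlev R.toLatticePair hJ hY lam n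
        (LatticePair.Ext.map₂ R.toLatticePair hE hJ j n
          (R.divEquiv hE (R.smooth.ihom hE) hsurjE n
            ((LC.cxMap hM₀ (R.smooth.ihom hE) θ).mapH n y))) = 0 ↔
      ∀ i, LC.resH (hlev.compat i) hM₀ n y = 0 := by
  rw [R.loc_map₂_divEquiv_eq_zero_iff hlev hE hJ j hY lam hsurjE hsurjY]
  refine forall_congr' fun i => ?_
  rw [R.locHomN_mapH_cxMap hlev hE j hY lam hM₀ θ i n y]
  have hb := Cx.Hom.mapH_bijective_of_bijective
    (LC.cxMap (hM₀.res (hlev.compat i)) (R.smoothN_loc hlev hY i) (thetaLoc j lam θ i))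
    (fun m => LC.cxMap_f_bijective _ _ _ (hθ i) m) n
  constructor
  · intro h
    exact hb.1 (h.trans (map_zero _).symm)
  · intro h
    rw [h, map_zero]

end theta

end LatticeRes

end Fermat.Agent.CFT
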