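import Mathlib

/-!
# Abstract Poitou–Tate linear algebra, additive / cardinality form (node D3-abstract, ℤ-form)

The same statement as `ShaAbstract.lean`, but for plain abelian groups and additive maps, with
pairings into `ZMod p`.  Only `Hg` and `Hloc` are assumed to be killed by `p`.

Given an exact sequence `X¹ --a--> Y¹ --b--> H² --c--> X²` of abelian groups, comparison maps
`λ¹ : X¹ → L¹` (surjective), `λ² : X² → L²` (injective) with `λ² ∘ c = loc₂`, a localisation map
`loc₁ : Hg → Hloc` between groups killed by `p`, a pairing `pg : Y¹ → Hom(Hg, 𝔽_p)` (bijective) and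
`pl : L¹ → Hom(Hloc, 𝔽_p)` (surjective), with `pg (a x) y = pl (λ¹ x) (loc₁ y)`:
`ker loc₂ ≃+ Hom(ker loc₁, 𝔽_p)`, hence `#ker loc₂ = #ker loc₁` when `Hg` is finite.
-/

set_option autoImplicit false
set_option linter.style.haveILetI false

namespace Fermat.Agent.CFT.PT

variable {p : ℕ} [Fact p.Prime]
  {X1 Y1 H2 X2 Hg Hloc L1 L2 : Type*}
  [AddCommGroup X1] [AddCommGroup Y1] [AddCommGroup H2] [AddCommGroup X2]
  [AddCommGroup Hg] [AddCommGroup Hloc] [AddCommGroup L1] [AddCommGroup L2]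

section extension

variable (loc1 : Hg →+ Hloc) (hpHg : ∀ x : Hg, p • x = 0) (hpHloc : ∀ x : Hloc, p • x = 0)

include hpHg hpHloc in
/-- (E1) A character of `Hg` killing `ker loc₁` factors through `loc₁`. -/
theorem exists_factor_of_ker_le (f : Hg →+ ZMod p) (hf : ∀ x, loc1 x = 0 → f x = 0) :
    ∃ ψ : Hloc →+ ZMod p, ∀ x, ψ (loc1 x) = f x := by
  letI : Module (ZMod p) Hg := AddCommGroup.zmodModule hpHg
  letI : Module (ZMod p) Hloc := AddCommGroup.zmodModule hpHloc
  let loc1' : Hg →ₗ[ZMod p] Hloc := loc1.toZModLinearMap p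
  let f' : Hg →ₗ[ZMod p] ZMod p := f.toZModLinearMap p
  have hann : f' ∈ (LinearMap.ker loc1').dualAnnihilator := by
    rw [Submodule.mem_dualAnnihilator]
    intro x hx
    exact hf x (LinearMap.mem_ker.1 hx)
  rw [← LinearMap.range_dualMap_eq_dualAnnihilator_ker] at hann
  obtain ⟨ψ', hψ'⟩ := hann
  exact ⟨ψ'.toAddMonoidHom, fun x => LinearMap.congr_fun hψ' x⟩

theorem exists_extend_aux [Module (ZMod p) Hg] (K : AddSubgroup Hg)
    (f : K →+ ZMod p) : ∃ g : Hg →+ ZMod p, ∀ x : K, g x = f x := by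
  let P : Submodule (ZMod p) Hg := AddSubgroup.toZModSubmodule p K
  let ι : ↥P →+ ↥K :=
    AddMonoidHom.mk' (fun x : ↥P => (⟨x.1, x.2⟩ : ↥K)) (fun _ _ => rfl)
  let f₀ : ↥P →ₗ[ZMod p] ZMod p := (f.comp ι).toZModLinearMap p
  obtain ⟨g', hg'⟩ := LinearMap.exists_extend f₀
  refine ⟨g'.toAddMonoidHom, fun x => ?_⟩
  exact LinearMap.congr_fun hg' (⟨x.1, x.2⟩ : ↥P)

include hpHg in
/-- (E2) A character of `ker loc₁` extends to `Hg`. -/
theorem exists_extend_of_ker (f : loc1.ker →+ ZMod p) :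
    ∃ g : Hg →+ ZMod p, ∀ x : loc1.ker, g x = f x := by
  letI : Module (ZMod p) Hg := AddCommGroup.zmodModule hpHg
  exact exists_extend_aux loc1.ker f

end extension

section theta

variable (loc1 : Hg →+ Hloc) (pg : Y1 →+ Hg →+ ZMod p)

/-- `y ↦ pg y |_{ker loc₁}`. -/
def shaThetaAdd : Y1 →+ (loc1.ker →+ ZMod p) where
  toFun y := (pg y).comp loc1.ker.subtype
  map_zero' := by
    ext z
    simp
  map_add' y y' := by
    ext z
    simp

@[simp] theorem shaThetaAdd_apply (y : Y1) (z : loc1.ker) :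
    shaThetaAdd loc1 pg y z = pg y z := rfl

theorem shaThetaAdd_surjective (hpHg : ∀ x : Hg, p • x = 0) (hpg : Function.Surjective pg) :
    Function.Surjective (shaThetaAdd loc1 pg) := by
  intro f
  obtain ⟨g, hg⟩ := exists_extend_of_ker loc1 hpHg f
  obtain ⟨y, rfl⟩ := hpg g
  exact ⟨y, AddMonoidHom.ext fun z => hg z⟩

variable (a : X1 →+ Y1) (lam1 : X1 →+ L1) (pl : L1 →+ Hloc →+ ZMod p)

theorem ker_shaThetaAdd (hpHg : ∀ x : Hg, p • x = 0) (hpHloc : ∀ x : Hloc, p • x = 0)
    (hlam1 : Function.Surjective lam1) (hpg : Function.Injective pg)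
    (hpl : Function.Surjective pl)
    (hcompat : ∀ x y, pg (a x) y = pl (lam1 x) (loc1 y)) :
    (shaThetaAdd loc1 pg).ker = a.range := by
  ext y
  rw [AddMonoidHom.mem_ker, AddMonoidHom.mem_range]
  constructor
  · intro hy
    obtain ⟨ψ, hψ⟩ := exists_factor_of_ker_le loc1 hpHg hpHloc (pg y) (fun x hx => by
      have := DFunLike.congr_fun hy (⟨x, (AddMonoidHom.mem_ker).2 hx⟩ : loc1.ker)
      simpa using this)
    obtain ⟨l, rfl⟩ := hpl ψ
    obtain ⟨x, rfl⟩ := hlam1 l
    refine ⟨x, hpg (AddMonoidHom.ext fun z => ?_)⟩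
    rw [hcompat, hψ]
  · rintro ⟨x, rfl⟩
    refine AddMonoidHom.ext fun z => ?_
    rw [shaThetaAdd_apply, hcompat, (AddMonoidHom.mem_ker).1 z.2, map_zero,
      AddMonoidHom.zero_apply]

end theta

variable (a : X1 →+ Y1) (b : Y1 →+ H2) (c : H2 →+ X2)
  (lam1 : X1 →+ L1) (lam2 : X2 →+ L2) (loc2 : H2 →+ L2) (loc1 : Hg →+ Hloc)
  (pg : Y1 →+ Hg →+ ZMod p) (pl : L1 →+ Hloc →+ ZMod p)

theorem ker_loc2_eq_range_add (hbc : Function.Exact b c) (hlam2 : Function.Injective lam2)
    (hloc2 : ∀ x, lam2 (c x) = loc2 x) : loc2.ker = b.range := by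
  ext x
  rw [AddMonoidHom.mem_ker, ← hloc2, AddMonoidHom.mem_range]
  constructor
  · intro h
    have : c x = 0 := hlam2 (by rw [h, map_zero])
    exact (hbc x).1 this
  · intro h
    rw [(hbc x).2 h, map_zero]

theorem ker_eq_range_of_exact (hab : Function.Exact a b) : b.ker = a.range := by
  ext y
  rw [AddMonoidHom.mem_ker, AddMonoidHom.mem_range]
  exact hab y

/-- **The abstract Poitou–Tate duality, additive form**: `ker loc₂ ≃+ Hom(ker loc₁, 𝔽_p)`. -/
noncomputable def shaAddEquivDual (hab : Function.Exact a b) (hbc : Function.Exact b c)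
    (hlam1 : Function.Surjective lam1) (hlam2 : Function.Injective lam2)
    (hloc2 : ∀ x, lam2 (c x) = loc2 x)
    (hpHg : ∀ x : Hg, p • x = 0) (hpHloc : ∀ x : Hloc, p • x = 0)
    (hpg : Function.Bijective pg)
    (hpl : Function.Surjective pl) (hcompat : ∀ x y, pg (a x) y = pl (lam1 x) (loc1 y)) :
    loc2.ker ≃+ (loc1.ker →+ ZMod p) :=
  (AddEquiv.addSubgroupCongr (ker_loc2_eq_range_add b c lam2 loc2 hbc hlam2 hloc2)).trans <|
    (QuotientAddGroup.quotientKerEquivRange b).symm.trans <|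
      (QuotientAddGroup.quotientAddEquivOfEq
        ((ker_eq_range_of_exact a b hab).trans
          (ker_shaThetaAdd loc1 pg a lam1 pl hpHg hpHloc hlam1 hpg.1 hpl hcompat).symm)).trans <|
        QuotientAddGroup.quotientKerEquivOfSurjective (shaThetaAdd loc1 pg)
          (shaThetaAdd_surjective loc1 pg hpHg hpg.2)

theorem card_dual_zmod {K : Type*} [AddCommGroup K] [Module (ZMod p) K] [Finite K] :
    Nat.card (K →ₗ[ZMod p] ZMod p) = Nat.card K := by
  haveI : Module.Finite (ZMod p) K := Module.Finite.of_finite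
  exact (Nat.card_congr (Module.finBasis (ZMod p) K).toDualEquiv.toEquiv).symm

/-- The character group of a finite abelian group killed by `p` has the same cardinality. -/
theorem card_addMonoidHom_zmod {K : Type*} [AddCommGroup K] [Finite K]
    (hK : ∀ x : K, p • x = 0) : Nat.card (K →+ ZMod p) = Nat.card K := by
  letI : Module (ZMod p) K := AddCommGroup.zmodModule hK
  exact (Nat.card_congr (AddMonoidHom.toZModLinearMapEquiv p).toEquiv).trans card_dual_zmod

/-- **Cardinality form** (helper9's request): `#ker loc₂ = #ker loc₁`. -/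
theorem sha_card_eq (hab : Function.Exact a b) (hbc : Function.Exact b c)
    (hlam1 : Function.Surjective lam1) (hlam2 : Function.Injective lam2)
    (hloc2 : ∀ x, lam2 (c x) = loc2 x)
    (hpHg : ∀ x : Hg, p • x = 0) (hpHloc : ∀ x : Hloc, p • x = 0)
    (hpg : Function.Bijective pg)
    (hpl : Function.Surjective pl) (hcompat : ∀ x y, pg (a x) y = pl (lam1 x) (loc1 y))
    [Finite Hg] :
    Finite loc2.ker ∧ Nat.card loc2.ker = Nat.card loc1.ker := by
  have e := shaAddEquivDual a b c lam1 lam2 loc2 loc1 pg pl hab hbc hlam1 hlam2 hloc2 hpHg hpHloc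
    hpg hpl hcompat
  have hK : ∀ x : loc1.ker, p • x = 0 := fun x => Subtype.ext (hpHg x.1)
  have hcard : Nat.card loc2.ker = Nat.card loc1.ker :=
    (Nat.card_congr e.toEquiv).trans (card_addMonoidHom_zmod hK)
  refine ⟨?_, hcard⟩
  have hpos : 0 < Nat.card loc1.ker := Nat.card_pos
  exact Nat.finite_of_card_ne_zero (by omega)

end Fermat.Agent.CFT.PT
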