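import Fermat.Agent.CFT.HyperExt.LCExtLoc
import Fermat.Agent.CFT.HyperExt.LCDualityDefs
import Fermat.Agent.CFT.PT.PairNat
import Fermat.Agent.CFT.PT.ShaAbstractAdd

/-!
# Poitou–Tate duality for `Ш¹`, `Ш²`: the abstract assembly (node D3 Main)

Setting: a level group `(G, L)`, a finite family of level groups `(H i, LH i)` with compatible
homomorphisms `r i : H i →* G`, a short exact sequence `0 → E → J → C → 0` of smooth `G`-modules,
smooth `H i`-modules `X i` with morphisms `lam i : Res J ⟶ X i` such that `Hom(P, J)` is locally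
coinduced from the `Hom(Res P, X i)`, and a finite `p`-torsion module `N` with a two-term free
resolution `R`.

Hypotheses: global duality (`dual1` for `(R, C)` bijective), local duality (`dual1` for
`(Res R, X i)` surjective), the reciprocity sum formula for the invariant maps (`hG3`),
Hilbert 90 for the `X i`, and compatibility of the localisation with the hyper-Ext pairing
(`hpairloc`, the statement of `pair_loc`).

Conclusion: `ker (Ext²(N, E) → ∏ᵢ Ext²(Res N, X i)) ≃+ Hom(ker (H¹(G, N) → ∏ᵢ H¹(H i, N)), ℤ/p)`.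
-/

set_option autoImplicit false

open CategoryTheory

namespace Fermat.Agent.CFT.PT

open HExt LatticePair

attribute [local instance 2000] Rep.hV2

variable {G : Type} [Group G] {L : LevelStructure G}
  {ι : Type} [Fintype ι] {H : ι → Type} [∀ i, Group (H i)] {LH : ∀ i, LevelStructure (H i)}
  {r : ∀ i, H i →* G} (hlev : LC.LevelComap L LH r)
  (p : ℕ) [Fact p.Prime]
  {E J C : Rep.{0} ℤ G} (hE : IsSmooth L E) (hJ : IsSmooth L J) (hC : IsSmooth L C)
  (f : E ⟶ J) (g : J ⟶ C)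
  (hf : Function.Injective f.hom) (hg : Function.Surjective g.hom)
  (hfg : Function.Exact f.hom g.hom)
  {X : ∀ i, Rep.{0} ℤ (H i)} (hX : ∀ i, IsSmooth (LH i) (X i))
  (lam : ∀ i, Rep.res (r i) J ⟶ X i)
  {N : Rep.{0} ℤ G} (R : LatticeRes L N) [Module.Free ℤ R.P₀] [Module.Free ℤ R.P₁]
  (hpN : ∀ n : N, p • n = 0)

omit [Fintype ι] [Fact p.Prime] in
include hpN in
/-- The `p`-torsion hypothesis for the restricted module. -/
lemma hpN_res (i : ι) : ∀ n : Rep.res (r i) N, p • n = 0 := hpN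

/-- `H¹(G, N) → ∏ᵢ H¹(H i, Res N)`. -/
noncomputable def mLoc1 :
    (LC.cx R.smooth).H 1 →+ ∀ i, (LC.cx (R.res (hlev.compat i)).smooth).H 1 :=
  (LinearMap.pi fun i => (LC.resH (hlev.compat i) R.smooth 1 :
    (LC.cx R.smooth).H 1 →ₗ[ℤ] (LC.cx (R.res (hlev.compat i)).smooth).H 1)).toAddMonoidHom

/-- `Ext²(N, E) → Ext²(N, J) → ∏ᵢ Ext²(Res N, X i)`. -/
noncomputable def mLoc2 :
    R.Ext hE 2 →+ ∀ i, (R.toLatticePair.res (r i) (hlev.compat i)).Ext (hX i) 2 :=
  (Ext.loc hlev R.toLatticePair hJ hX lam 2).toAddMonoidHom.comp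
    (Ext.map₂ R.toLatticePair hE hJ f 2).toAddMonoidHom

variable (invG : LC.Hp p hC 2 →+ ZMod p) (invL : ∀ i, LC.Hp p (hX i) 2 →+ ZMod p)

/-- The sum of the local duality maps:
`∏ᵢ Ext¹(Res N, X i) → Hom(∏ᵢ H¹(H i, Res N), ℤ/p)`. -/
noncomputable def mPl :
    (∀ i, (R.res (hlev.compat i)).Ext (hX i) 1) →+
      ((∀ i, (LC.cx (R.res (hlev.compat i)).smooth).H 1) →+ ZMod p) :=
  AddMonoidHom.mk' (fun e => AddMonoidHom.mk'
      (fun c => ∑ i, (R.res (hlev.compat i)).dual1 p (hX i) (hpN_res p hpN i) (invL i) (e i) (c i))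
      (fun c c' => by simp only [Pi.add_apply, map_add, Finset.sum_add_distrib]))
    (fun e e' => by
      ext c
      simp only [Pi.add_apply, map_add, AddMonoidHom.add_apply, Finset.sum_add_distrib,
        AddMonoidHom.mk'_apply])

omit [Module.Free ℤ R.P₀] [Module.Free ℤ R.P₁] in
lemma mPl_apply (e : ∀ i, (R.res (hlev.compat i)).Ext (hX i) 1)
    (c : ∀ i, (LC.cx (R.res (hlev.compat i)).smooth).H 1) :
    mPl hlev p hX R hpN invL e c =
      ∑ i, (R.res (hlev.compat i)).dual1 p (hX i) (hpN_res p hpN i) (invL i) (e i) (c i) := rfl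

omit [Module.Free ℤ R.P₀] [Module.Free ℤ R.P₁] in
/-- Surjectivity of the sum of local duality maps. -/
theorem mPl_surjective
    (hPL : ∀ i, Function.Surjective
      ((R.res (hlev.compat i)).dual1 p (hX i) (hpN_res p hpN i) (invL i))) :
    Function.Surjective (mPl hlev p hX R hpN invL) := by
  classical
  intro ψ
  choose e he using fun i => hPL i (ψ.comp (AddMonoidHom.single
    (fun i => (LC.cx (R.res (hlev.compat i)).smooth).H 1) i))
  refine ⟨e, AddMonoidHom.ext fun c => ?_⟩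
  refine (mPl_apply hlev p hX R hpN invL e c).trans ?_
  have : ∀ i, (R.res (hlev.compat i)).dual1 p (hX i) (hpN_res p hpN i) (invL i) (e i) (c i) =
      ψ (Pi.single i (c i)) := fun i => by rw [he i]; rfl
  rw [Finset.sum_congr rfl fun i _ => this i, ← map_sum, Finset.univ_sum_single]

variable (hc₀ : LC.IsLocCoind L r ((Rep.ihom R.P₀).obj J)
    (fun i => (Rep.ihom (Rep.res (r i) R.P₀)).obj (X i)) (lamIhom R.P₀ lam))
  (hc₁ : LC.IsLocCoind L r ((Rep.ihom R.P₁).obj J)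
    (fun i => (Rep.ihom (Rep.res (r i) R.P₁)).obj (X i)) (lamIhom R.P₁ lam))
  (h90 : LC.LocH90 L LH r X)
  (hPG : Function.Bijective (R.dual1 p hC hpN invG))
  (hPL : ∀ i, Function.Surjective
    ((R.res (hlev.compat i)).dual1 p (hX i) (hpN_res p hpN i) (invL i)))
  (hG3 : ∀ (z : (LC.cx hJ).H 2), p • z = 0 →
    ∀ (h1 : (LC.cxMap hJ hC g).mapH 2 z ∈ LC.Hp p hC 2)
      (h2 : ∀ i, (LC.locHom hlev hJ hX lam i).mapH 2 z ∈ LC.Hp p (hX i) 2),
      invG ⟨_, h1⟩ = ∑ i, invL i ⟨_, h2 i⟩)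
  (hpairloc : ∀ (i : ι) (e : R.Ext hJ 1) (c : (LC.cx R.smooth).H 1),
    (R.res (hlev.compat i)).pair (hX i) 0 1 1 rfl
        (Ext.loc hlev R.toLatticePair hJ hX lam 1 e i)
        (LC.resH (hlev.compat i) R.smooth 1 c) =
      (LC.locHom hlev hJ hX lam i).mapH 2 (R.pair hJ 0 1 1 rfl e c))

omit [Module.Free ℤ R.P₀] [Module.Free ℤ R.P₁] in
include hG3 hpairloc in
/-- Compatibility of the global and the local duality pairings. -/
theorem main_compat (x : R.Ext hJ 1) (y : (LC.cx R.smooth).H 1) :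
    R.dual1 p hC hpN invG (Ext.map₂ R.toLatticePair hJ hC g 1 x) y =
      mPl hlev p hX R hpN invL (Ext.loc hlev R.toLatticePair hJ hX lam 1 x)
        (mLoc1 hlev R y) := by
  refine Eq.trans ?_ (mPl_apply hlev p hX R hpN invL _ _).symm
  have hz : p • R.pair hJ 0 1 1 rfl x y = 0 := R.pair_mem_Hp p hJ hpN 0 1 1 rfl x y
  have key := hG3 (R.pair hJ 0 1 1 rfl x y) hz
    (by rw [← R.pair_map₂ hJ hC g 0 1 1 rfl x y]; exact R.pair_mem_Hp p hC hpN 0 1 1 rfl _ y)
    (fun i => by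
      rw [← hpairloc i x y]
      exact (R.res (hlev.compat i)).pair_mem_Hp p (hX i) (hpN_res p hpN i) 0 1 1 rfl _ _)
  rw [LatticeRes.dual_apply]
  refine Eq.trans (congrArg invG (Subtype.ext ?_)) (key.trans (Finset.sum_congr rfl fun i _ => ?_))
  · exact R.pair_map₂ hJ hC g 0 1 1 rfl x y
  · exact congrArg (invL i) (Subtype.ext (hpairloc i x y).symm)

include hf hg hfg hc₀ hc₁ h90 hPG hPL hG3 hpairloc in
/-- **Abstract Poitou–Tate duality**:
`ker (Ext²(N, E) → ∏ᵢ Ext²(Res N, X i)) ≃+ Hom(ker (H¹(G, N) → ∏ᵢ H¹(H i, Res N)), ℤ/p)`. -/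
theorem main_abstract :
    Nonempty ((mLoc2 hlev hE hJ f hX lam R).ker ≃+ ((mLoc1 hlev R).ker →+ ZMod p)) := by
  refine ⟨shaAddEquivDual (p := p)
    (Ext.map₂ R.toLatticePair hJ hC g 1).toAddMonoidHom
    (Ext.δ₂ R.toLatticePair hE hJ hC f g hf hg hfg 1).toAddMonoidHom
    (Ext.map₂ R.toLatticePair hE hJ f 2).toAddMonoidHom
    (Ext.loc hlev R.toLatticePair hJ hX lam 1).toAddMonoidHom
    (Ext.loc hlev R.toLatticePair hJ hX lam 2).toAddMonoidHom
    (mLoc2 hlev hE hJ f hX lam R) (mLoc1 hlev R)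
    (R.dual1 p hC hpN invG) (mPl hlev p hX R hpN invL)
    ?_ ?_ ?_ ?_ (fun _ => rfl) ?_ ?_ hPG (mPl_surjective hlev p hX R hpN invL hPL) ?_⟩
  · exact Ext.exact_map₂_δ₂ R.toLatticePair hE hJ hC f g hf hg hfg 1
  · exact Ext.exact_δ₂_map₂ R.toLatticePair hE hJ hC f g hf hg hfg 1
  · exact (Ext.loc_one_bijective_of_free hlev R.toLatticePair hJ hX lam hc₀ hc₁ h90).2
  · exact Ext.loc_two_injective_of_free hlev R.toLatticePair hJ hX lam hc₀ hc₁ h90
  · exact fun x => LC.nsmul_H_eq_zero R.smooth p hpN 1 x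
  · intro x
    funext i
    exact LC.nsmul_H_eq_zero (R.res (hlev.compat i)).smooth p (hpN_res p hpN i) 1 (x i)
  · exact fun x y => main_compat hlev p hJ hC g hX lam R hpN invG invL hG3 hpairloc x y

end Fermat.Agent.CFT.PT
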