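import Mathlib
import Fermat.Agent.CFT.PT.Loc2Ident
import Fermat.Agent.CFT.PT.MainAbstract
import Fermat.Agent.CFT.PT.JSInst
import Fermat.Agent.CFT.PT.ESDivisible
import Fermat.Agent.CFT.PT.DualTwistDict
import Fermat.Agent.CFT.PT.RepZSha

/-!
# Identification of the kernel of the second localisation map with `Ш²` (S55, node D3e, concrete)

Setting: `p` a prime, `S` a finite set of primes containing `p`, `M` a finite-dimensional smooth
`𝔽_p`-representation of `G_ℚ` (level structure `globalLevel S`), `M' = M.dualTwist (cycloChar p)`,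
`N = repZ M'`, `R = zResR N hN` the canonical resolution, `E_S ⟶ J_S` the `S`-units and `S`-ideles
(`esRep`, `jsRep`), `X_q = ℚ̄_qˣ` (`primeUnitsRep q`), `lam = evQ`.

* `lcResH2_eq_resLC2`, `lcResH2_eq_zero_iff_resH`: the restriction maps `S55.lcResH2` and
  `LC.resLC2`/`LC.resH` agree;
* `primeUnitsRep_divisible`, `muToLocal`, `muToLocal_injective`, `muToLocal_torsion`: `ℚ̄_qˣ` is
  `p`-divisible and its `p`-torsion is the image of `μ_p ⊂ ℚ̄ˣ`;
* `shaIdentTheta : repZ M ⟶ Hom(N, E_S)` (`dualTwistIso` followed by `μ_p ⊂ E_S`), bijective, and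
  locally bijective (`shaIdentTheta_thetaLoc_bijective`);
* `shaIdentH2Equiv : H²(G_ℚ, M) ≃+ Ext²(N, E_S)` and `shaIdentH2Equiv_mem_ker_iff`;
* **`shaZ₂EquivKerLoc2 : ↥(shaZ₂ S M) ≃+ ↥(shaLoc2 p S M hN).ker`**, where `shaLoc2` is the map
  `mLoc2` of `PT/MainAbstract.lean` in the concrete setting;
* `shaZ₂EquivDualOfMain`: the final plug towards `S55.s55_of_shaZ_addEquiv`.
-/

set_option autoImplicit false
set_option linter.unusedSectionVars false
set_option linter.style.haveILetI false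

open CategoryTheory ExtCitation

noncomputable section

namespace Fermat.Agent.CFT.PT

open Fermat.Agent.CFT Fermat.Agent.S55 HExt

local notation "Qb" => AlgebraicClosure ℚ
local notation "GQ" => (AlgebraicClosure ℚ ≃ₐ[ℚ] AlgebraicClosure ℚ)

section Compare

universe u

variable {k G H : Type u} [CommRing k] [Group G] [Group H] {f : H →* G}
  {L : LevelStructure G} {LH : LevelStructure H} (A : Rep.{u} k G)

/-- The restriction map `lcResH2` of `S55/LCRes.lean` is the map `LC.resLC2` of `LC/Lift.lean`. -/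
theorem lcResH2_eq_resLC2 (hf : LevelCompat f L LH) (hf' : LH.Compat L f) (hA : IsSmooth L A)
    (x : LC.H2 L A) : lcResH2 A hf x = LC.resLC2 hf' hA x := by
  obtain ⟨c, rfl⟩ := Submodule.mkQ_surjective _ x
  exact (lcResH2_mk A hf c).trans (LC.resLC2_H2π hf' hA c).symm

/-- Vanishing of `lcResH2` in terms of `LC.resH`. -/
theorem lcResH2_eq_zero_iff_resH (hf : LevelCompat f L LH) (hf' : LH.Compat L f)
    (hA : IsSmooth L A) (x : LC.H2 L A) :
    lcResH2 A hf x = 0 ↔ LC.resH hf' hA 2 ((LC.h2Equiv hA).symm x) = 0 := by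
  rw [lcResH2_eq_resLC2 A hf hf' hA]
  change (LC.h2Equiv (hA.res hf')) (LC.resH hf' hA 2 ((LC.h2Equiv hA).symm x)) = 0 ↔ _
  exact LinearEquiv.map_eq_zero_iff _

end Compare

/-! ### Local facts: `ℚ̄_qˣ` is `p`-divisible and its `p`-torsion is `μ_p` -/

section LocalFacts

variable (p : ℕ) [hp : Fact p.Prime] (S : Finset Nat.Primes) (hpS : pPrime p ∈ S)

/-- `ℚ̄_qˣ` is `p`-divisible. -/
theorem primeUnitsRep_divisible (q : Nat.Primes) (x : primeUnitsRep q) :
    ∃ y : primeUnitsRep q, p • y = x := by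
  obtain ⟨z, hz⟩ := IsAlgClosed.exists_pow_nat_eq
    (((Additive.toMul (x : Additive (PadicAlgCl (q : ℕ))ˣ) : (PadicAlgCl (q : ℕ))ˣ) :
      PadicAlgCl (q : ℕ))) hp.out.pos
  have hz0 : z ≠ 0 := by
    rintro rfl
    rw [zero_pow hp.out.ne_zero] at hz
    exact (Units.ne_zero _ hz.symm)
  refine ⟨(Additive.ofMul (Units.mk0 z hz0) : Additive (PadicAlgCl (q : ℕ))ˣ), ?_⟩
  apply Additive.toMul.injective
  apply Units.ext
  exact hz

/-- The local coefficient map `Res μ_p ⟶ Res E_S ⟶ Res J_S ⟶ ℚ̄_qˣ`. -/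
def muToLocal (q : ↥S) :
    Rep.res (primeLocalToGlobal q.1) (muRep p) ⟶ primeUnitsRep q.1 :=
  Rep.resMap (primeLocalToGlobal q.1) (muToEs p S hpS) ≫
    LatticeRes.lamE (r := fun q : ↥S => primeLocalToGlobal q.1)
      (esToJsHom (globalLevel S) Qb (↑S : Set Nat.Primes)) (evQ (globalLevel S) S) q

theorem muToLocal_hom_apply (q : ↥S) (ζ : muRep p) :
    (muToLocal p S hpS q).hom (show ↑(Rep.res (primeLocalToGlobal q.1) (muRep p)) from ζ) =
      (Additive.ofMul (Units.map ((padicEmbedding (q.1 : ℕ) : Qb →+* PadicAlgCl (q.1 : ℕ)) :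
          Qb →* PadicAlgCl (q.1 : ℕ))
        ((Additive.toMul (ζ : Additive (rootsOfUnity p Qb)) : rootsOfUnity p Qb) : Qbˣ)) :
        Additive (PadicAlgCl (q.1 : ℕ))ˣ) := rfl

theorem muToLocal_injective (q : ↥S) : Function.Injective (muToLocal p S hpS q).hom := by
  intro a b h
  have h1 := congrArg (fun x : Additive (PadicAlgCl (q.1 : ℕ))ˣ =>
    ((Additive.toMul x : (PadicAlgCl (q.1 : ℕ))ˣ) : PadicAlgCl (q.1 : ℕ))) h
  have h2 : padicEmbedding (q.1 : ℕ)
      ((((Additive.toMul (a : Additive (rootsOfUnity p Qb)) : rootsOfUnity p Qb) : Qbˣ) : Qb)) =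
    padicEmbedding (q.1 : ℕ)
      ((((Additive.toMul (b : Additive (rootsOfUnity p Qb)) : rootsOfUnity p Qb) : Qbˣ) : Qb)) := h1
  have h3 := (padicEmbedding (q.1 : ℕ)).injective h2
  exact Additive.toMul.injective (Subtype.ext (Units.ext h3))

/-- The `p`-torsion of `ℚ̄_qˣ` is the image of `μ_p ⊂ ℚ̄ˣ`. -/
theorem muToLocal_torsion (q : ↥S) (x : primeUnitsRep q.1) (hx : p • x = 0) :
    ∃ ζ : muRep p, (muToLocal p S hpS q).hom
      (show ↑(Rep.res (primeLocalToGlobal q.1) (muRep p)) from ζ) = x := by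
  haveI : NeZero p := ⟨hp.out.ne_zero⟩
  set u : (PadicAlgCl (q.1 : ℕ))ˣ := Additive.toMul (x : Additive (PadicAlgCl (q.1 : ℕ))ˣ) with hu
  have hup : (u : PadicAlgCl (q.1 : ℕ)) ^ p = 1 := by
    have h1 := congrArg (fun x : Additive (PadicAlgCl (q.1 : ℕ))ˣ =>
      ((Additive.toMul x : (PadicAlgCl (q.1 : ℕ))ˣ) : PadicAlgCl (q.1 : ℕ))) hx
    exact h1
  have hprim : IsPrimitiveRoot (padicEmbedding (q.1 : ℕ) (zetaQb p)) p :=
    (isPrimitiveRoot_zetaQb p).map_of_injective (padicEmbedding (q.1 : ℕ)).injective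
  obtain ⟨i, -, hi⟩ := hprim.eq_pow_of_pow_eq_one hup
  refine ⟨(Additive.ofMul (muGen p ^ i) : Additive (rootsOfUnity p Qb)), ?_⟩
  apply Additive.toMul.injective
  apply Units.ext
  change padicEmbedding (q.1 : ℕ) ((((muGen p ^ i : rootsOfUnity p Qb) : Qbˣ) : Qb)) =
    (u : PadicAlgCl (q.1 : ℕ))
  rw [← hi, ← map_pow]
  congr 1

include hpS in
/-- `E_S` is `p`-divisible (`ℕ`-multiples form). -/
theorem esRep_nsmul_surjective (x : esRep (globalLevel S) Qb (↑S : Set Nat.Primes)) :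
    ∃ y : esRep (globalLevel S) Qb (↑S : Set Nat.Primes), p • y = x := by
  obtain ⟨y, hy⟩ := esPow_surjective p S hpS x
  exact ⟨y, hy⟩

/-- The `p`-torsion of `E_S` is `μ_p` (`ℕ`-multiples form). -/
theorem esRep_nsmul_eq_zero (x : esRep (globalLevel S) Qb (↑S : Set Nat.Primes))
    (hx : p • x = 0) : ∃ ζ : muRep p, (muToEs p S hpS).hom ζ = x :=
  (esPow_hom_eq_zero_iff p S hpS x).1 hx

end LocalFacts

/-! ### The identification -/

section Main

attribute [local instance 2000] Rep.hV2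

variable (p : ℕ) [hp : Fact p.Prime] (S : Finset Nat.Primes) (hpS : pPrime p ∈ S)
  (M : Rep (ZMod p) GQ) [FiniteDimensional (ZMod p) M]
  (hM : IsSmooth (globalLevel S) M)
  (hN : IsSmooth (globalLevel S) (repZ (dualTw p M)))

include hpS in
/-- Surjectivity of `Hom(P₀, E_S) → Hom(P₁, E_S)` for the canonical resolution. -/
theorem shaIdent_hsurjE :
    Function.Surjective (Cup.precomp (zResR (repZ (dualTw p M)) hN).i
      (esRep (globalLevel S) Qb (↑S : Set Nat.Primes))).hom :=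
  (zResR (repZ (dualTw p M)) hN).precomp_surjective_of_divisible_nat _ p
    (nsmul_repZ_eq_zero p (dualTw p M)) (esRep_nsmul_surjective p S hpS)

/-- Surjectivity of `Hom(Res P₀, ℚ̄_qˣ) → Hom(Res P₁, ℚ̄_qˣ)` for the restricted resolutions. -/
theorem shaIdent_hsurjY (q : ↥S) :
    Function.Surjective (Cup.precomp
      ((zResR (repZ (dualTw p M)) hN).res ((levelComap_global S).compat q)).i
      (primeUnitsRep q.1)).hom := by
  haveI : Module.Free ℤ ((zResR (repZ (dualTw p M)) hN).res ((levelComap_global S).compat q)).P₀ :=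
    inferInstanceAs (Module.Free ℤ (zResR (repZ (dualTw p M)) hN).P₀)
  exact ((zResR (repZ (dualTw p M)) hN).res
    ((levelComap_global S).compat q)).precomp_surjective_of_divisible_nat _ p
    (nsmul_repZ_eq_zero p (dualTw p M)) (primeUnitsRep_divisible p q.1)

theorem dualTwistIso_hom_bijective : Function.Bijective (dualTwistIso p M).hom.hom :=
  (dictEquiv p M).bijective

/-- `θ : M ⟶ Hom(M', μ_p) ⟶ Hom(M', E_S)`. -/
def shaIdentTheta : repZ M ⟶ (Rep.ihom (repZ (dualTw p M))).obj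
    (esRep (globalLevel S) Qb (↑S : Set Nat.Primes)) :=
  (dualTwistIso p M).hom ≫ Cup.postcomp (repZ (dualTw p M)) (muToEs p S hpS)

theorem shaIdentTheta_hom_bijective : Function.Bijective (shaIdentTheta p S hpS M).hom := by
  have h1 : Function.Bijective (Cup.postcomp (repZ (dualTw p M)) (muToEs p S hpS)).hom :=
    Cup.postcomp_bijective_of_torsion (muToEs p S hpS) p (nsmul_repZ_eq_zero p (dualTw p M))
      (muToEs_injective p S hpS) (esRep_nsmul_eq_zero p S hpS)
  exact h1.comp (dualTwistIso_hom_bijective p M)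

/-- The local composites of `θ` are bijective. -/
theorem shaIdentTheta_thetaLoc_bijective (q : ↥S) :
    Function.Bijective (LatticeRes.thetaLoc (r := fun q : ↥S => primeLocalToGlobal q.1)
      (esToJsHom (globalLevel S) Qb (↑S : Set Nat.Primes)) (evQ (globalLevel S) S)
      (shaIdentTheta p S hpS M) q).hom := by
  have h1 : Function.Bijective (Cup.postcomp (Rep.res (primeLocalToGlobal q.1)
      (repZ (dualTw p M))) (muToLocal p S hpS q)).hom :=
    Cup.postcomp_bijective_of_torsion (muToLocal p S hpS q) p (nsmul_repZ_eq_zero p (dualTw p M))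
      (muToLocal_injective p S hpS q) (muToLocal_torsion p S hpS q)
  exact h1.comp (dualTwistIso_hom_bijective p M)

include hN in
/-- Smoothness of `Hom(M', E_S)`. -/
theorem shaIdent_smooth_ihom : IsSmooth (globalLevel S)
    ((Rep.ihom (repZ (dualTw p M))).obj (esRep (globalLevel S) Qb (↑S : Set Nat.Primes))) :=
  hN.ihom (isSmooth_esRep (globalLevel S) Qb _)

/-- `θ_* : H²(G_ℚ, M) → H²(G_ℚ, Hom(M', E_S))` is bijective. -/
theorem shaIdentTheta_mapH_bijective (n : ℕ) :
    Function.Bijective ((LC.cxMap ((isSmooth_repZ_iff (globalLevel S) M).2 hM)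
      (shaIdent_smooth_ihom p S M hN) (shaIdentTheta p S hpS M)).mapH n) :=
  Cx.Hom.mapH_bijective_of_bijective _
    (fun m => LC.cxMap_f_bijective _ _ _ (shaIdentTheta_hom_bijective p S hpS M) m) n

/-- `H²(G_ℚ, M) ≃ Ext²(M', E_S)`: `h2Equiv`, then `θ_*`, then `divEquiv`. -/
def shaIdentH2Equiv : LC.H2 (globalLevel S) (repZ M) ≃+
    (zResR (repZ (dualTw p M)) hN).Ext (isSmooth_esRep (globalLevel S) Qb (↑S : Set Nat.Primes)) 2 :=
  ((LC.h2Equiv ((isSmooth_repZ_iff (globalLevel S) M).2 hM)).symm.toAddEquiv).trans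
    ((AddEquiv.ofBijective ((LC.cxMap ((isSmooth_repZ_iff (globalLevel S) M).2 hM)
        (shaIdent_smooth_ihom p S M hN) (shaIdentTheta p S hpS M)).mapH 2).toAddMonoidHom
        (shaIdentTheta_mapH_bijective p S hpS M hM hN 2)).trans
      ((zResR (repZ (dualTw p M)) hN).divEquiv (isSmooth_esRep (globalLevel S) Qb _)
        (shaIdent_smooth_ihom p S M hN) (shaIdent_hsurjE p S hpS M hN) 2).toAddEquiv)


/-- The second localisation map of `PT/MainAbstract.lean` in the concrete setting. -/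
abbrev shaLoc2 :=
  mLoc2 (levelComap_global S) (isSmooth_esRep (globalLevel S) Qb (↑S : Set Nat.Primes))
    (isSmooth_jsRep (globalLevel S) Qb (↑S : Set Nat.Primes))
    (esToJsHom (globalLevel S) Qb (↑S : Set Nat.Primes))
    (fun q : ↥S => isSmooth_primeUnitsRep q.1) (evQ (globalLevel S) S)
    (zResR (repZ (dualTw p M)) hN)

theorem shaIdentH2Equiv_mem_ker_iff (x : LC.H2 (globalLevel S) (repZ M)) :
    shaIdentH2Equiv p S hpS M hM hN x ∈ (shaLoc2 p S M hN).ker ↔ x ∈ shaZ₂ S M := by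
  rw [AddMonoidHom.mem_ker, mem_shaZ₂_iff]
  have key := (zResR (repZ (dualTw p M)) hN).loc2_eq_zero_iff_of_bijective (levelComap_global S)
    (isSmooth_esRep (globalLevel S) Qb (↑S : Set Nat.Primes))
    (isSmooth_jsRep (globalLevel S) Qb (↑S : Set Nat.Primes))
    (esToJsHom (globalLevel S) Qb (↑S : Set Nat.Primes))
    (fun q : ↥S => isSmooth_primeUnitsRep q.1) (evQ (globalLevel S) S)
    (shaIdent_hsurjE p S hpS M hN) (shaIdent_hsurjY p S M hN)
    ((isSmooth_repZ_iff (globalLevel S) M).2 hM) (shaIdentTheta p S hpS M)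
    (shaIdentTheta_thetaLoc_bijective p S hpS M) 2
    ((LC.h2Equiv ((isSmooth_repZ_iff (globalLevel S) M).2 hM)).symm x)
  refine Iff.trans ?_ (key.trans (forall_congr' fun q =>
    (lcResH2_eq_zero_iff_resH (repZ M) (levelCompat_globalLevel (primeLocalToGlobal q.1) S)
      ((levelComap_global S).compat q) ((isSmooth_repZ_iff (globalLevel S) M).2 hM) x).symm))
  exact Iff.rfl


/-- **D3e**: `Ш²(S, M)` is the kernel of the second localisation map
`Ext²(M', E_S) → Ext²(M', J_S) → ∏_{q ∈ S} Ext²(Res M', ℚ̄_qˣ)` of `PT/MainAbstract.lean`. -/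
def shaZ₂EquivKerLoc2 : ↥(shaZ₂ S M) ≃+ ↥(shaLoc2 p S M hN).ker where
  toFun x := ⟨shaIdentH2Equiv p S hpS M hM hN x.1,
    (shaIdentH2Equiv_mem_ker_iff p S hpS M hM hN x.1).2 x.2⟩
  invFun y := ⟨(shaIdentH2Equiv p S hpS M hM hN).symm y.1, by
    rw [← shaIdentH2Equiv_mem_ker_iff p S hpS M hM hN, AddEquiv.apply_symm_apply]
    exact y.2⟩
  left_inv x := Subtype.ext ((shaIdentH2Equiv p S hpS M hM hN).symm_apply_apply x.1)
  right_inv y := Subtype.ext ((shaIdentH2Equiv p S hpS M hM hN).apply_symm_apply y.1)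
  map_add' x y := Subtype.ext (map_add _ x.1 y.1)

@[simp] theorem shaZ₂EquivKerLoc2_coe (x : ↥(shaZ₂ S M)) :
    ((shaZ₂EquivKerLoc2 p S hpS M hM hN x : ↥(shaLoc2 p S M hN).ker) :
      (zResR (repZ (dualTw p M)) hN).Ext
        (isSmooth_esRep (globalLevel S) Qb (↑S : Set Nat.Primes)) 2) =
      shaIdentH2Equiv p S hpS M hM hN x.1 := rfl

/-- The final plug: from the output of `PT.main_abstract` (in the concrete setting) and an
identification of the kernel of the first localisation map with `Ш¹(S, M')`, the additive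
equivalence consumed by `S55.s55_of_shaZ_addEquiv`. -/
def shaZ₂EquivDualOfMain
    (e : ↥(shaLoc2 p S M hN).ker ≃+
      (↥(mLoc1 (levelComap_global S) (zResR (repZ (dualTw p M)) hN)).ker →+ ZMod p))
    (e₁ : ↥(mLoc1 (levelComap_global S) (zResR (repZ (dualTw p M)) hN)).ker ≃+
      ↥(shaZ₁ S (dualTw p M))) :
    ↥(shaZ₂ S M) ≃+ (↥(shaZ₁ S (M.dualTwist (cycloChar p))) →+ ZMod p) :=
  ((shaZ₂EquivKerLoc2 p S hpS M hM hN).trans e).trans
    (AddEquiv.addMonoidHomCongrLeft e₁)

end Main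

end Fermat.Agent.CFT.PT

end
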