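import Fermat.Agent.CFT.PT.Main
import Fermat.Agent.CFT.PT.Loc1Ident
import Fermat.Agent.CFT.PT.ShaIdent
import Fermat.Agent.S55.LCBridge
import Fermat.Agent.S55.PTGlueEquiv

/-!
# Poitou–Tate duality for `Ш¹`, `Ш²` of a finite `𝔽_p[G_ℚ]`-module (S55, final plug, concrete)

`ptMain`: for `p ∈ S`, `M` a finite-dimensional smooth `𝔽_p`-representation of `G_ℚ` (for the level
structure `globalLevel S`) and `M' = M.dualTwist (cycloChar p)`:
`Ш²(S, M) ≃+ Hom(Ш¹(S, M'), ℤ/p)` (in the `ℤ`-forms `shaZ₂`, `shaZ₁` of `PT/RepZSha.lean`), which is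
the input of `S55.s55_of_shaZ_addEquiv`.

It is the composite of `shaZ₂EquivKerLoc2` (`PT/ShaIdent.lean`), `main_js` (`PT/Main.lean`) for the
canonical resolution `zResR (repZ M')`, and `loc1Ident` (`PT/Loc1Ident.lean`).  The hypotheses are
the three deep inputs of `main_js` (global duality `hPG`, local duality `hPL`, reciprocity `hG3`).
-/

set_option autoImplicit false

open CategoryTheory ExtCitation

namespace Fermat.Agent.CFT.PT

open Fermat.Agent.CFT Fermat.Agent.S55 HExt LatticePair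

attribute [local instance 2000] Rep.hV2

local notation "Qb" => AlgebraicClosure ℚ
local notation "GQ" => (AlgebraicClosure ℚ ≃ₐ[ℚ] AlgebraicClosure ℚ)

variable (p : ℕ) [hp : Fact p.Prime] (S : Finset Nat.Primes) (hpS : pPrime p ∈ S)
  (M : Rep (ZMod p) GQ) [FiniteDimensional (ZMod p) M]
  (hM : IsSmooth (globalLevel S) M)
  (hN : IsSmooth (globalLevel S) (repZ (dualTw p M)))

include hpS hM in
/-- **Poitou–Tate for `Ш¹`, `Ш²`**, hypothesis form over the three deep inputs of `main_js`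
(for the canonical resolution of `repZ M'`). -/
theorem ptMain
    (invG : LC.Hp p (isSmooth_csRep (globalLevel S) Qb (↑S : Set Nat.Primes)) 2 →+ ZMod p)
    (invL : ∀ q : ↥S, LC.Hp p (isSmooth_primeUnitsRep q.1) 2 →+ ZMod p)
    (hPG : Function.Bijective
      ((zResR (repZ (dualTw p M)) hN).dual1 p
        (isSmooth_csRep (globalLevel S) Qb (↑S : Set Nat.Primes))
        (nsmul_repZ_eq_zero p (dualTw p M)) invG))
    (hPL : ∀ q : ↥S, Function.Surjective
      (((zResR (repZ (dualTw p M)) hN).res ((levelComap_global S).compat q)).dual1 p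
        (isSmooth_primeUnitsRep q.1)
        (hpN_res (r := fun q : ↥S => primeLocalToGlobal q.1) p
          (nsmul_repZ_eq_zero p (dualTw p M)) q) (invL q)))
    (hG3 : ∀ (z : (LC.cx (isSmooth_jsRep (globalLevel S) Qb (↑S : Set Nat.Primes))).H 2),
      p • z = 0 →
      ∀ (h1 : (LC.cxMap (isSmooth_jsRep (globalLevel S) Qb (↑S : Set Nat.Primes))
            (isSmooth_csRep (globalLevel S) Qb (↑S : Set Nat.Primes))
            (jsToCsHom (globalLevel S) Qb (↑S : Set Nat.Primes))).mapH 2 z ∈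
          LC.Hp p (isSmooth_csRep (globalLevel S) Qb (↑S : Set Nat.Primes)) 2)
        (h2 : ∀ q : ↥S, (LC.locHom (levelComap_global S)
            (isSmooth_jsRep (globalLevel S) Qb (↑S : Set Nat.Primes))
            (fun q : ↥S => isSmooth_primeUnitsRep q.1) (evQ (globalLevel S) S) q).mapH 2 z ∈
          LC.Hp p (isSmooth_primeUnitsRep q.1) 2),
        invG ⟨_, h1⟩ = ∑ q, invL q ⟨_, h2 q⟩) :
    Nonempty (↥(shaZ₂ S M) ≃+ (↥(shaZ₁ S (M.dualTwist (cycloChar p))) →+ ZMod p)) := by
  obtain ⟨e⟩ := main_js S p (zResR (repZ (dualTw p M)) hN) (nsmul_repZ_eq_zero p (dualTw p M))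
    ⟨_, hpS⟩ invG invL hPG hPL hG3
  exact ⟨shaZ₂EquivDualOfMain p S hpS M hM hN e
    (loc1Ident S (dualTw p M) (zResR (repZ (dualTw p M)) hN))⟩


/-! ### In terms of the hypotheses of the frozen statement S55 -/

section Frozen

variable (hsm : ∀ m : M, ∃ F : IntermediateField ℚ Qb, FiniteDimensional ℚ F ∧
    ∀ s ∈ F.fixingSubgroup, M.ρ s m = m)
  (hMur : ∀ q : Nat.Primes, q ∉ S → ∀ A : ValuationSubring Qb,
    A.LiesOverPrime (q : ℕ) → ∀ g ∈ A.inertiaSubgroupIn ℚ, M.ρ g = 1)

include hpS hsm hMur in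
/-- Smoothness of `repZ M'`, `M' = M.dualTwist (cycloChar p)`, for `globalLevel S`. -/
theorem isSmooth_repZ_dualTw : IsSmooth (globalLevel S) (repZ (dualTw p M)) :=
  (isSmooth_repZ_iff (globalLevel S) (dualTw p M)).2
    (isSmooth_globalLevel_dualTwist S M hpS hsm hMur)

/-- **S55 from the three deep inputs** (global duality `hPG` for `C_S`, local duality `hPL` for the
`ℚ̄_qˣ`, reciprocity `hG3`), all for the canonical resolution of `repZ M'`. -/
theorem s55_of_deep_inputs (hp2 : p ≠ 2)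
    (invG : LC.Hp p (isSmooth_csRep (globalLevel S) Qb (↑S : Set Nat.Primes)) 2 →+ ZMod p)
    (invL : ∀ q : ↥S, LC.Hp p (isSmooth_primeUnitsRep q.1) 2 →+ ZMod p)
    (hPG : Function.Bijective
      ((zResR (repZ (dualTw p M)) (isSmooth_repZ_dualTw p S hpS M hsm hMur)).dual1 p
        (isSmooth_csRep (globalLevel S) Qb (↑S : Set Nat.Primes))
        (nsmul_repZ_eq_zero p (dualTw p M)) invG))
    (hPL : ∀ q : ↥S, Function.Surjective
      (((zResR (repZ (dualTw p M)) (isSmooth_repZ_dualTw p S hpS M hsm hMur)).res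
          ((levelComap_global S).compat q)).dual1 p
        (isSmooth_primeUnitsRep q.1)
        (hpN_res (r := fun q : ↥S => primeLocalToGlobal q.1) p
          (nsmul_repZ_eq_zero p (dualTw p M)) q) (invL q)))
    (hG3 : ∀ (z : (LC.cx (isSmooth_jsRep (globalLevel S) Qb (↑S : Set Nat.Primes))).H 2),
      p • z = 0 →
      ∀ (h1 : (LC.cxMap (isSmooth_jsRep (globalLevel S) Qb (↑S : Set Nat.Primes))
            (isSmooth_csRep (globalLevel S) Qb (↑S : Set Nat.Primes))
            (jsToCsHom (globalLevel S) Qb (↑S : Set Nat.Primes))).mapH 2 z ∈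
          LC.Hp p (isSmooth_csRep (globalLevel S) Qb (↑S : Set Nat.Primes)) 2)
        (h2 : ∀ q : ↥S, (LC.locHom (levelComap_global S)
            (isSmooth_jsRep (globalLevel S) Qb (↑S : Set Nat.Primes))
            (fun q : ↥S => isSmooth_primeUnitsRep q.1) (evQ (globalLevel S) S) q).mapH 2 z ∈
          LC.Hp p (isSmooth_primeUnitsRep q.1) 2),
        invG ⟨_, h1⟩ = ∑ q, invL q ⟨_, h2 q⟩) :
    ∃ B : groupCohomology.sha₁ S (M.dualTwist (cycloChar p)) →ₗ[ZMod p]
        groupCohomology.sha₂ S M →ₗ[ZMod p] ZMod p,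
      (∀ y, (∀ x, B y x = 0) → y = 0) ∧ (∀ x, (∀ y, B y x = 0) → x = 0) :=
  s55_of_shaZ_addEquiv S M hp2
    (ptMain p S hpS M (isSmooth_globalLevel M S hsm hMur)
      (isSmooth_repZ_dualTw p S hpS M hsm hMur) invG invL hPG hPL hG3).some

end Frozen

end Fermat.Agent.CFT.PT
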