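import Fermat.Agent.CFT.LC.Finite

/-!
# Level cohomology: inflation is injective in degree `2` when `H¹` of the subgroup vanishes

For a level group `(G, L)`, a smooth module `A` and an open normal subgroup `N`, if every LC
`1`-cocycle of `N` with values in `A` is a coboundary (`LC.H1(N, A) = 0`), then

* `LC.exists_level_cochain_of_d₁₂_eq`: a `2`-cocycle of `G` which is `N`-invariant with `N`-fixed
  values and which is the differential of an LC `1`-cochain is the differential of an
  `N`-invariant `1`-cochain with `N`-fixed values;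
* `LC.inflH2_injective_of_forall_coboundary`, `LC.inflH2_injective_of_subsingleton_H1`: the
  inflation `H²(G ⧸ N, A^N) → LC.H2 L A` of `LC/Finite.lean` is injective.

The proof is the classical explicit cochain argument for the inflation-restriction sequence in
degree `2`.
-/

set_option autoImplicit false

universe u

open CategoryTheory groupCohomology

namespace Fermat.Agent.CFT

namespace LC

variable {k G : Type u} [CommRing k] [Group G] {L : LevelStructure G} {A : Rep.{u} k G}
  {N : Subgroup G} [N.Normal]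

/-- `LC.H1(N, A) = 0` in cochain form: every LC `1`-cocycle of `N` is a coboundary. -/
def H1VanishesOn (L : LevelStructure G) (A : Rep.{u} k G) (N : Subgroup G) : Prop :=
  ∀ z : N → A, (∀ n m : N, z (n * m) = A.ρ (n : G) (z m) + z n) →
    (L.comap N.subtype).IsLC₁ z → ∃ a : A, ∀ n : N, z n = A.ρ (n : G) a - a

/-- The cochain `c` is the differential of a `1`-cochain which is right `N`-invariant and has
`N`-fixed values (i.e. `c` is a coboundary "at the level `N`"). -/
def IsCobAtLevel (A : Rep.{u} k G) (N : Subgroup G) (c : G × G → A) : Prop :=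
  ∃ w : G → A, (∀ g, ∀ s ∈ N, w (g * s) = w g) ∧ (∀ g, ∀ s ∈ N, A.ρ s (w g) = w g) ∧
    (d₁₂ A).hom w = c

/-- Cochain form of inflation-restriction in degree `2`: a `2`-cocycle of level `N` which is the
differential of an LC `1`-cochain is a coboundary at the level `N`, provided the LC `1`-cocycles
of `N` are coboundaries. -/
theorem exists_level_cochain_of_d₁₂_eq (h1 : H1VanishesOn L A N)
    (X : G × G → A) (hXcoc : X ∈ cocycles₂ A)
    (hXinv : ∀ g h : G, ∀ s ∈ N, ∀ t ∈ N, X (g * s, h * t) = X (g, h))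
    (hXfix : ∀ p : G × G, ∀ s ∈ N, A.ρ s (X p) = X p)
    (z : G → A) (hzLC : L.IsLC₁ z) (hz : (d₁₂ A).hom z = X) :
    IsCobAtLevel A N X := by
  -- `d z = X` pointwise
  have hdz : ∀ g h : G, A.ρ g (z h) - z (g * h) + z g = X (g, h) := by
    intro g h
    have := congrFun hz (g, h)
    rwa [d₁₂_hom_apply] at this
  set c : A := X (1, 1) with hc
  have hcfix : ∀ s ∈ N, A.ρ s c = c := fun s hs => hXfix (1, 1) s hs
  -- `X (1, h) = c` and `X (g, 1) = g • c`
  have hX1 : ∀ h : G, X (1, h) = c := fun h => cocycles₂_map_one_fst ⟨X, hXcoc⟩ h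
  have hX2 : ∀ g : G, X (g, 1) = A.ρ g c := fun g => cocycles₂_map_one_snd ⟨X, hXcoc⟩ g
  -- the restriction of `z - c` to `N` is an LC `1`-cocycle
  have hXN : ∀ n m : N, X ((n : G), (m : G)) = c := by
    intro n m
    have := hXinv 1 1 n n.2 m m.2
    rwa [one_mul, one_mul] at this
  obtain ⟨a, ha⟩ := h1 (fun n => z (n : G) - c)
    (by
      intro n m
      have := hdz (n : G) (m : G)
      rw [hXN] at this
      simp only [Subgroup.coe_mul, map_sub, hcfix (n : G) n.2]
      have e : z ((n : G) * (m : G)) = A.ρ (n : G) (z (m : G)) + z (n : G) - c := by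
        rw [← this]; abel
      rw [e]; abel)
    (by
      obtain ⟨N', hN', hinv⟩ := hzLC
      refine ⟨N'.comap N.subtype, ⟨N', hN', rfl⟩, fun g s hs => ?_⟩
      simp only [Subgroup.coe_mul]
      rw [hinv (g : G) (s : G) hs])
  -- the corrected cochain
  set w : G → A := fun g => z g - (A.ρ g a - a) with hw
  have hdw : ∀ g h : G, A.ρ g (w h) - w (g * h) + w g = X (g, h) := by
    intro g h
    simp only [hw, map_sub, map_mul, Module.End.mul_apply]
    rw [← hdz g h]
    abel
  have hwN : ∀ n ∈ N, w n = c := by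
    intro n hn
    have := ha ⟨n, hn⟩
    simp only at this
    simp only [hw]
    rw [← this]
    abel
  have hwinv : ∀ g : G, ∀ s ∈ N, w (g * s) = w g := by
    intro g s hs
    have h1 := hdw g s
    have h2 : X (g, s) = A.ρ g c := by
      have := hXinv g 1 1 N.one_mem s hs
      rw [mul_one, one_mul] at this
      rw [this, hX2]
    rw [h2, hwN s hs] at h1
    have h3 : A.ρ g c - w (g * s) + w g - A.ρ g c = 0 := by rw [h1]; abel
    have h4 : w g - w (g * s) = 0 := by rw [← h3]; abel
    exact (sub_eq_zero.1 h4).symm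
  have hwfix : ∀ g : G, ∀ s ∈ N, A.ρ s (w g) = w g := by
    intro g s hs
    have h1 := hdw s g
    have h2 : X (s, g) = c := by
      have := hXinv 1 g s hs 1 N.one_mem
      rw [one_mul, mul_one] at this
      rw [this, hX1]
    have h3 : w (s * g) = w g := by
      have hconj : g⁻¹ * s * g ∈ N := by
        have := (inferInstance : N.Normal).conj_mem s hs g⁻¹
        simpa [mul_assoc] using this
      have : s * g = g * (g⁻¹ * s * g) := by group
      rw [this]
      exact hwinv g _ hconj
    rw [h2, h3, hwN s hs] at h1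
    have h4 : A.ρ s (w g) - w g = 0 := by
      have : A.ρ s (w g) - w g + c - c = 0 := by rw [h1]; abel
      rw [← this]; abel
    exact sub_eq_zero.1 h4
  refine ⟨w, hwinv, hwfix, ?_⟩
  funext ⟨g, h⟩
  rw [d₁₂_hom_apply]
  exact hdw g h

/-- A cochain inflated from `G ⧸ N` which is a coboundary at the level `N` is a coboundary on
`G ⧸ N`. -/
theorem mem_coboundaries₂_of_isCobAtLevel
    (x : (G ⧸ N) × (G ⧸ N) → A.quotientToInvariants N)
    (h : IsCobAtLevel A N (inflC₂ A N x)) :
    x ∈ coboundaries₂ (A.quotientToInvariants N) := by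
  obtain ⟨w, hwinv, hwfix, hdw⟩ := h
  refine ⟨deflC₁ (N := N) w hwinv hwfix, ?_⟩
  apply inflC₂_injective
  rw [inflC₂_d₁₂, inflC₁_deflC₁]
  exact hdw

/-- Conversely the inflation of a coboundary on `G ⧸ N` is a coboundary at the level `N`. -/
theorem isCobAtLevel_inflC₂ (w : (G ⧸ N) → A.quotientToInvariants N) :
    IsCobAtLevel A N (inflC₂ A N ((d₁₂ (A.quotientToInvariants N)).hom w)) :=
  ⟨inflC₁ A N w, fun g _ hs => inflC₁_mul_right w g hs,
    fun g s hs => (w (g : G ⧸ N)).2 ⟨s, hs⟩, (inflC₂_d₁₂ w).symm⟩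

/-- Cochain form: an inflated `2`-cocycle which is the differential of an LC `1`-cochain `z` is
already a coboundary on `G ⧸ N`, provided the LC `1`-cocycles of `N` are coboundaries. -/
theorem mem_coboundaries₂_of_inflC₂_eq_d₁₂ (h1 : H1VanishesOn L A N)
    (x : cocycles₂ (A.quotientToInvariants N)) (z : G → A) (hzLC : L.IsLC₁ z)
    (hz : (d₁₂ A).hom z = inflC₂ A N x.1) :
    (x : (G ⧸ N) × (G ⧸ N) → A.quotientToInvariants N) ∈
      coboundaries₂ (A.quotientToInvariants N) := by
  apply mem_coboundaries₂_of_isCobAtLevel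
  refine exists_level_cochain_of_d₁₂_eq h1 _ ?_
    (fun g h s hs t ht => inflC₂_mul_right x.1 g h hs ht)
    (fun p s hs => (x.1 ((p.1 : G ⧸ N), (p.2 : G ⧸ N))).2 ⟨s, hs⟩) z hzLC hz
  change (d₂₃ A).hom (inflC₂ A N x.1) = 0
  rw [← inflC₃_d₂₃]
  have : (d₂₃ (A.quotientToInvariants N)).hom x.1 = 0 := x.2
  rw [this, map_zero]

/-- **Inflation is injective in degree `2`** when the LC `1`-cocycles of `N` are coboundaries. -/
theorem inflH2_injective_of_forall_coboundary (hN : L.IsOpen N) (h1 : H1VanishesOn L A N) :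
    Function.Injective (inflH2 A N hN) := by
  rw [injective_iff_map_eq_zero]
  intro y hy
  obtain ⟨x, rfl⟩ : ∃ x, (groupCohomology.H2π (A.quotientToInvariants N)).hom x = y :=
    (ModuleCat.epi_iff_surjective _).1 inferInstance y
  rw [inflH2_H2π, H2π_eq_zero_iff, mem_B₂_iff] at hy
  obtain ⟨z, hzLC, hz⟩ := hy
  rw [groupCohomology.H2π_eq_zero_iff]
  exact mem_coboundaries₂_of_inflC₂_eq_d₁₂ h1 x z hzLC hz

omit [N.Normal] in
/-- `LC.H1 (N, A) = 0` gives the cochain form. -/
theorem h1VanishesOn_of_subsingleton_H1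
    (h1 : Subsingleton (H1 (L.comap N.subtype) (Rep.res N.subtype A))) :
    H1VanishesOn L A N := by
  intro z hz hzLC
  have hzmem : z ∈ Z₁ (L.comap N.subtype) (Rep.res N.subtype A) :=
    mem_Z₁_iff.2 ⟨(mem_cocycles₁_iff (A := Rep.res N.subtype A) z).2 fun n m => hz n m, hzLC⟩
  have h0 : H1π (L.comap N.subtype) (Rep.res N.subtype A) ⟨z, hzmem⟩ = 0 :=
    Subsingleton.elim _ _
  rw [H1π_eq_zero_iff] at h0
  obtain ⟨a, ha⟩ := h0
  refine ⟨a, fun n => ?_⟩
  have := congrFun ha n
  rw [d₀₁_hom_apply] at this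
  exact this.symm

/-- The same with the hypothesis in the form `LC.H1 (N, A) = 0`. -/
theorem inflH2_injective_of_subsingleton_H1 (hN : L.IsOpen N)
    (h1 : Subsingleton (H1 (L.comap N.subtype) (Rep.res N.subtype A))) :
    Function.Injective (inflH2 A N hN) :=
  inflH2_injective_of_forall_coboundary hN (h1VanishesOn_of_subsingleton_H1 h1)

end LC

end Fermat.Agent.CFT
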