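import Fermat.Agent.CFT.PT.JSInst
import Fermat.Agent.CFT.Global.SemiLocalGalois

/-!
# D3c-L, field-theoretic plumbing (C2)/(C3) for the local terms (helper16)

* `localFieldAt_bot`: the completion of `ℚ = ⊥ ⊆ ℚ̄` at any embedding is `ℚ_q = ⊥`;
* `embLayer q h`: the embedding `x ↦ padicEmbedding q x` of a layer `F/ℚ`; its local field
  is `S55.localField q F` (`localFieldAt_embLayer`);
* `levelTop_eq_localField`: the top field of a level of `G_{ℚ_q}` which is the preimage of
  `Gal(ℚ̄/F)` is `S55.localField q F`;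
* `exists_lift_layer`: every element of `Gal(K_F/ℚ_q)` is induced by some `σ ∈ G_ℚ`
  (in the decomposition group), in `ℚ̄_q`-coordinates.
-/

set_option autoImplicit false
set_option linter.unusedSectionVars false
set_option linter.style.haveILetI false

open CategoryTheory IntermediateField

noncomputable section

namespace Fermat.Agent.CFT.PT.Loc16

open Fermat.Agent.CFT Fermat.Agent.S55 ExtCitation GaloisTower

local notation "Qb" => AlgebraicClosure ℚ
local notation "GQ" => (AlgebraicClosure ℚ ≃ₐ[ℚ] AlgebraicClosure ℚ)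

variable (q : ℕ) [Fact q.Prime]

local notation "Ωq" => PadicAlgCl q

/-- **(C2a)** The completion of `ℚ = ⊥` at any embedding is `ℚ_q = ⊥`. -/
theorem localFieldAt_bot (τ : LocalEmb q ↥(⊥ : IntermediateField ℚ Qb)) :
    localFieldAt τ = ⊥ := by
  rw [eq_bot_iff, localFieldAt, IntermediateField.adjoin_le_iff]
  rintro _ ⟨x, rfl⟩
  obtain ⟨r, hr⟩ := IntermediateField.mem_bot.1 x.2
  have hx : x = ((r : ℚ) : ↥(⊥ : IntermediateField ℚ Qb)) := by
    apply Subtype.ext
    rw [← hr, eq_ratCast]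
    rfl
  rw [hx, SetLike.mem_coe, map_ratCast]
  have : ((r : ℚ) : Ωq) = algebraMap ℚ_[q] Ωq (r : ℚ_[q]) := by rw [map_ratCast]
  rw [this]
  exact IntermediateField.algebraMap_mem _ _

variable {q}

/-- The embedding `x ↦ padicEmbedding q x` of the layer `F/E`. -/
def embLayer {E F : IntermediateField ℚ Qb} (h : E ≤ F) : LocalEmb q ↥(layer h) :=
  (emb₀ q).comp (algebraMap (layer h) Qb)

@[simp] theorem embLayer_apply {E F : IntermediateField ℚ Qb} (h : E ≤ F) (x : layer h) :
    embLayer (q := q) h x = padicEmbedding q (x : Qb) := rfl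

/-- **(C2b)** The completion of the layer `F/E` at `padicEmbedding q` is `K_F = ℚ_q(ι F)`. -/
theorem localFieldAt_embLayer {E F : IntermediateField ℚ Qb} (h : E ≤ F) :
    localFieldAt (embLayer (q := q) h) = localField q F := by
  rw [localFieldAt, localField]
  congr 1
  ext y
  constructor
  · rintro ⟨x, rfl⟩
    exact ⟨(x : Qb), (IntermediateField.mem_extendScalars h).1 x.2, rfl⟩
  · rintro ⟨x, hx, rfl⟩
    exact ⟨⟨x, (IntermediateField.mem_extendScalars h).2 hx⟩, rfl⟩

/-- The restriction of `embLayer` to the base is `embLayer` of the trivial layer. -/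
theorem localEmbRestrict_embLayer_apply {E F : IntermediateField ℚ Qb} (h : E ≤ F) (x : E) :
    localEmbRestrict (↥E) (embLayer (q := q) h) x = padicEmbedding q (x : Qb) := rfl

variable (q)

/-- Two intermediate fields of `ℚ̄_q/ℚ_q` with the same fixing subgroup are equal. -/
theorem eq_of_fixingSubgroup_eq {E₁ E₂ : IntermediateField ℚ_[q] Ωq}
    (h : E₁.fixingSubgroup = E₂.fixingSubgroup) : E₁ = E₂ := by
  rw [← InfiniteGalois.fixedField_fixingSubgroup E₁, h,
    InfiniteGalois.fixedField_fixingSubgroup E₂]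

/-- **(C2c)** The top field of a level of `G_{ℚ_q}` (over the base `⊥ = ℚ_q`) which is the
preimage of `Gal(ℚ̄/F)` is `K_F = ℚ_q(ι F)`. -/
theorem levelTop_eq_localField
    (lq : ((levelOf (localGaloisToGlobal q)).comap
      (⊥ : IntermediateField ℚ_[q] Ωq).fixingSubgroup.subtype).Level)
    (F : IntermediateField ℚ Qb)
    (hF : ∀ σ : (⊥ : IntermediateField ℚ_[q] Ωq).fixingSubgroup,
      σ ∈ lq.N ↔ localGaloisToGlobal q (σ : Ωq ≃ₐ[ℚ_[q]] Ωq) ∈ F.fixingSubgroup) :
    levelTop (levelOf (localGaloisToGlobal q)) (levelOf_local_galoisType q) ⊥ lq =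
      localField q F := by
  apply eq_of_fixingSubgroup_eq
  ext σ
  have hσ : σ ∈ (⊥ : IntermediateField ℚ_[q] Ωq).fixingSubgroup := by
    rw [IntermediateField.fixingSubgroup_bot]
    exact Subgroup.mem_top σ
  rw [← mem_level_iff (levelOf (localGaloisToGlobal q)) (levelOf_local_galoisType q) ⊥ lq ⟨σ, hσ⟩,
    hF ⟨σ, hσ⟩, mem_fixingSubgroup_localField_iff]

/-- **(C3)** Every element of `Gal(K_F/ℚ_q)` is induced by an element of `G_ℚ`: in
`ℚ̄_q`-coordinates, `ι (σ x) = g (ι x)` for `x ∈ F`. -/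
theorem exists_lift_layer {F : IntermediateField ℚ Qb}
    (hL : (⊥ : IntermediateField ℚ_[q] Ωq) ≤ localField q F)
    [Normal ↥(⊥ : IntermediateField ℚ_[q] Ωq) (layer hL)]
    (g : layer hL ≃ₐ[↥(⊥ : IntermediateField ℚ_[q] Ωq)] layer hL) :
    ∃ τ : Ωq ≃ₐ[ℚ_[q]] Ωq, ∀ (x : Qb) (hx : x ∈ F),
      padicEmbedding q (localGaloisToGlobal q τ x) =
        ((g ⟨padicEmbedding q x, (IntermediateField.mem_extendScalars hL).2
          (padicEmbedding_mem_localField q hx)⟩ : layer hL) : Ωq) := by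
  obtain ⟨τ, rfl⟩ := layerRes_surjective hL g
  refine ⟨(τ : Ωq ≃ₐ[ℚ_[q]] Ωq), fun x hx => ?_⟩
  rw [padicEmbedding_localGaloisToGlobal, layerRes_apply]

end Fermat.Agent.CFT.PT.Loc16
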