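import Fermat.Agent.CFT.Global.GlobalInvConj
import Fermat.Agent.CFT.Local.LCDict
import Fermat.Agent.CFT.PT.JSInst

/-!
# Node D3c-L, comparison step (C): transport of a layer invariant along equal fields

* `inv_map_congr_fields`: for two layers `E₁ ≤ E₁'`, `E₂ ≤ E₂'` of `Ω/k` with `E₁ = E₂`,
  `E₁' = E₂'`, and two "localisation data" `(fL, φL)`, `(fR, φR)` from a `Γ`-module `M` to the
  units of the two layers which agree in `Ω`-coordinates, the invariants of the two image classes
  agree;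
* `localFieldAt_bot`: `localFieldAt τ = ⊥` for an embedding of `ℚ = ⊥`;
* `localFieldAt_layer_bot`: `localFieldAt (τ₀|_F) = localField q F`;
* `levelTop_bot_eq_localField`: the top field of the local dictionary at the preimage of the level
  `Gal(ℚ̄/F)` is `localField q F`;
* `exists_global_lift`: every automorphism of a layer over `ℚ_q` is induced by an element of
  `G_ℚ` through `τ₀`.
-/

set_option autoImplicit false
set_option linter.style.haveILetI false
set_option linter.unusedSectionVars false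

open CategoryTheory groupCohomology IntermediateField

namespace Fermat.Agent.CFT.PT.Loc24

open Fermat.Agent.CFT Fermat.Agent.S55 GaloisTower LayerMaps

local notation "Qb" => AlgebraicClosure ℚ
local notation "GQ" => (AlgebraicClosure ℚ ≃ₐ[ℚ] AlgebraicClosure ℚ)

section General

variable {k Ω : Type} [Field k] [Field Ω] [Algebra k Ω]

/-- **Transport of a layer invariant along equal fields.** -/
theorem inv_map_congr_fields (T : LayerInvSystem k Ω) {E₁ E₁' E₂ E₂' : IntermediateField k Ω}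
    (hL : E₁ ≤ E₁') (hR : E₂ ≤ E₂') (e : E₁ = E₂) (e' : E₁' = E₂')
    {Γ : Type} [Group Γ] (M : Rep.{0} ℤ Γ)
    (fL : (layer hL ≃ₐ[E₁] layer hL) →* Γ)
    (φL : Rep.res fL M ⟶ Rep.ofAlgebraAutOnUnits E₁ (layer hL))
    (fR : (layer hR ≃ₐ[E₂] layer hR) →* Γ)
    (φR : Rep.res fR M ⟶ Rep.ofAlgebraAutOnUnits E₂ (layer hR))
    (hf : ∀ (gL : layer hL ≃ₐ[E₁] layer hL) (gR : layer hR ≃ₐ[E₂] layer hR),
      (∀ (x : Ω) (hx : x ∈ E₁') (hx' : x ∈ E₂'),
        ((gL ⟨x, hx⟩ : layer hL) : Ω) = ((gR ⟨x, hx'⟩ : layer hR) : Ω)) → fL gL = fR gR)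
    (hφ : ∀ m : M.V,
      (((Additive.toMul (φL.hom m : Additive (layer hL)ˣ) : (layer hL)ˣ) : layer hL) : Ω) =
        (((Additive.toMul (φR.hom m : Additive (layer hR)ˣ) : (layer hR)ˣ) : layer hR) : Ω))
    (y : groupCohomology M 2) :
    T.inv hL ((groupCohomology.map fL φL 2).hom y) =
      T.inv hR ((groupCohomology.map fR φR 2).hom y) := by
  subst e e'
  have h1 : fL = fR := MonoidHom.ext fun g => hf g g fun x hx hx' => rfl
  subst h1
  have h2 : φL = φR := by
    refine Rep.hom_ext ?_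
    refine DFunLike.ext _ _ fun m => ?_
    apply Additive.toMul.injective
    apply Units.ext
    apply Subtype.ext
    exact hφ m
  subst h2
  rfl

end General

section Fields

variable (q : ℕ) [Fact q.Prime]

local notation "Ωq" => PadicAlgCl q

/-- The completion of `ℚ = ⊥` at any embedding is `ℚ_q = ⊥`. -/
theorem localFieldAt_bot (τ : LocalEmb q ↥(⊥ : IntermediateField ℚ Qb)) :
    localFieldAt τ = ⊥ := by
  rw [eq_bot_iff, localFieldAt, IntermediateField.adjoin_le_iff]
  rintro _ ⟨x, rfl⟩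
  obtain ⟨r, hr⟩ := IntermediateField.mem_bot.1 x.2
  have hx : x = ((r : ℚ) : (⊥ : IntermediateField ℚ Qb)) := by
    apply Subtype.ext
    rw [← hr, eq_ratCast (algebraMap ℚ Qb) r]
    norm_cast
  have h1 : τ x = algebraMap ℚ_[q] Ωq (r : ℚ_[q]) := by
    rw [hx, map_ratCast, map_ratCast]
  rw [SetLike.mem_coe, h1]
  exact IntermediateField.algebraMap_mem _ _

variable {E F : IntermediateField ℚ Qb} (h : E ≤ F)

/-- The completion of a layer `F/E` of `ℚ̄/ℚ` at the restriction of `τ₀` is `ℚ_q(τ₀ F)`. -/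
theorem localFieldAt_layer (τ' : LocalEmb q (layer h))
    (hτ' : ∀ x : layer h, τ' x = padicEmbedding q (x : Qb)) :
    localFieldAt τ' = localField q F := by
  unfold localFieldAt localField
  congr 1
  ext y
  constructor
  · rintro ⟨x, rfl⟩
    exact ⟨(x : Qb), x.2, (hτ' x).symm⟩
  · rintro ⟨x, hx, rfl⟩
    exact ⟨⟨x, hx⟩, hτ' ⟨x, hx⟩⟩

/-- The top field of the dictionary of `G_{ℚ_q}` at a level which is the preimage of `Gal(ℚ̄/F)`
is `ℚ_q(τ₀ F)`. -/
theorem levelTop_bot_eq_localField (F : IntermediateField ℚ Qb)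
    (lq : ((levelOf (localGaloisToGlobal q)).comap
      (⊥ : IntermediateField ℚ_[q] Ωq).fixingSubgroup.subtype).Level)
    (hlq : ∀ σ : (⊥ : IntermediateField ℚ_[q] Ωq).fixingSubgroup,
      σ ∈ lq.N ↔ localGaloisToGlobal q (σ : Gq q) ∈ F.fixingSubgroup) :
    levelTop (levelOf (localGaloisToGlobal q)) (levelOf_local_galoisType q) ⊥ lq =
      localField q F := by
  rw [← InfiniteGalois.fixedField_fixingSubgroup
      (levelTop (levelOf (localGaloisToGlobal q)) (levelOf_local_galoisType q) ⊥ lq),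
    ← InfiniteGalois.fixedField_fixingSubgroup (localField q F)]
  congr 1
  ext σ
  have hσ : σ ∈ (⊥ : IntermediateField ℚ_[q] Ωq).fixingSubgroup := by
    rw [IntermediateField.fixingSubgroup_bot]
    trivial
  rw [mem_fixingSubgroup_localField_iff,
    ← mem_level_iff (levelOf (localGaloisToGlobal q)) (levelOf_local_galoisType q) ⊥ lq ⟨σ, hσ⟩,
    hlq]

/-- Every automorphism of a normal layer of `ℚ̄_q/ℚ_q` is induced by an element of `G_ℚ`
through `τ₀`. -/
theorem exists_global_lift {E₁ E₁' : IntermediateField ℚ_[q] Ωq} (hL : E₁ ≤ E₁')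
    [Normal E₁ (layer hL)] (g : layer hL ≃ₐ[E₁] layer hL) :
    ∃ σ : GQ, ∀ (x : Qb) (hx : padicEmbedding q x ∈ E₁'),
      padicEmbedding q (σ x) = ((g ⟨padicEmbedding q x, hx⟩ : layer hL) : Ωq) := by
  obtain ⟨γ, rfl⟩ := layerRes_surjective hL g
  refine ⟨localGaloisToGlobal q (γ : Gq q), fun x hx => ?_⟩
  rw [padicEmbedding_localGaloisToGlobal, layerRes_apply]

end Fields

end Fermat.Agent.CFT.PT.Loc24
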