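import Fermat.Agent.CFT.PT.InvCompatDict
import Fermat.Agent.CFT.Global.InvCompatGlue
import Fermat.Agent.CFT.PT.JSInst
import Fermat.Agent.CFT.PT.JSTower
import Fermat.Agent.CFT.Global.LCFamilyLevels
import Fermat.Agent.CFT.Global.GlobalInvConj
import Fermat.Agent.CFT.Global.ClassLayerInvQ
import Fermat.Agent.CFT.Local.PadicLayerInv

/-!
# Node D3c-L: the local terms of the reciprocity sum at a finite level

`q ∈ S`, `l` a level of `G_ℚ` (for `globalLevel S`), cut out by the finite Galois extension `F/ℚ`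
(`h : ⊥ ≤ F`).  The `q`-th local term of the level formula `(hLG)` of `PT/InvCompat.lean`,

  `galInvLevel_q (level_q l) (locFin evQ q l.N y)`,

(localise the class `y ∈ H²(G_ℚ ⧸ l.N, J_S^{l.N})` to `G_{ℚ_q}`, evaluate at the fixed embedding,
apply the local invariant of the level) is the semi-local invariant of the `q`-component of the
finite-level class `Y ∈ H²(Gal(F/ℚ), ∏_{q ∈ S} A_q(F))` attached to `y` by the dictionary
`jsDictRepIso` (`galInvLevel_locFin_eq_semiLocalInv`).  These are the summands of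
`invJFun_extend_finset` (`Global/InvCompatGlobal.lean`).
-/

set_option autoImplicit false
set_option linter.style.haveILetI false
set_option linter.unusedSectionVars false

open CategoryTheory groupCohomology IntermediateField

namespace Fermat.Agent.CFT.PT

open Fermat.Agent.CFT Fermat.Agent.S55 ExtCitation GaloisTower LayerMaps

local notation "Qb" => AlgebraicClosure ℚ
local notation "GQ" => (AlgebraicClosure ℚ ≃ₐ[ℚ] AlgebraicClosure ℚ)

/-! ### A composition lemma for `groupCohomology.map` -/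

/-- A composite of three `groupCohomology.map`s equals a composite of four, as soon as the
composite group homomorphisms and module maps agree. -/
theorem map_comp₃_eq_map_comp₄ {k : Type} [CommRing k]
    {G₁ G₂ G₃ G₄ H₂ H₃ H₄ : Type} [Group G₁] [Group G₂] [Group G₃] [Group G₄]
    [Group H₂] [Group H₃] [Group H₄]
    {A₁ : Rep.{0} k G₁} {A₂ : Rep.{0} k G₂} {A₃ : Rep.{0} k G₃} {A₄ : Rep.{0} k G₄}
    {B₂ : Rep.{0} k H₂} {B₃ : Rep.{0} k H₃} {B₄ : Rep.{0} k H₄}
    (f₁ : G₂ →* G₁) (f₂ : G₃ →* G₂) (f₃ : G₄ →* G₃)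
    (φ₁ : Rep.res f₁ A₁ ⟶ A₂) (φ₂ : Rep.res f₂ A₂ ⟶ A₃) (φ₃ : Rep.res f₃ A₃ ⟶ A₄)
    (g₁ : H₂ →* G₁) (g₂ : H₃ →* H₂) (g₃ : H₄ →* H₃) (g₄ : G₄ →* H₄)
    (ψ₁ : Rep.res g₁ A₁ ⟶ B₂) (ψ₂ : Rep.res g₂ B₂ ⟶ B₃) (ψ₃ : Rep.res g₃ B₃ ⟶ B₄)
    (ψ₄ : Rep.res g₄ B₄ ⟶ A₄)
    (hgrp : ∀ x, f₁ (f₂ (f₃ x)) = g₁ (g₂ (g₃ (g₄ x))))
    (hmod : ∀ a : A₁.V, φ₃.hom (φ₂.hom (φ₁.hom a)) = ψ₄.hom (ψ₃.hom (ψ₂.hom (ψ₁.hom a))))
    (n : ℕ) :
    groupCohomology.map f₁ φ₁ n ≫ groupCohomology.map f₂ φ₂ n ≫ groupCohomology.map f₃ φ₃ n =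
      groupCohomology.map g₁ ψ₁ n ≫ groupCohomology.map g₂ ψ₂ n ≫
        groupCohomology.map g₃ ψ₃ n ≫ groupCohomology.map g₄ ψ₄ n := by
  rw [← groupCohomology.map_comp, ← groupCohomology.map_comp, ← groupCohomology.map_comp,
    ← groupCohomology.map_comp, ← groupCohomology.map_comp]
  refine groupCohomology.map_congr (MonoidHom.ext hgrp) ?_ n
  exact LinearMap.ext hmod

/-! ### The `J_S`-dictionary along `dictEquiv` -/

section JSDict

variable {k Ω : Type} [Field k] [Field Ω] [Algebra k Ω] [IsGalois k Ω]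
variable (L : LevelStructure (Ω ≃ₐ[k] Ω)) (S : Set Nat.Primes)
variable {E E' : IntermediateField k Ω} (h : E ≤ E') [Normal E (layer h)]
  (N : Subgroup E.fixingSubgroup) [N.Normal] (hN : N = (layerRes h).ker)
  (hopen : L.IsOpen E'.fixingSubgroup)

theorem sProdIncl_jsDictRepIso_hom (x : ((jsTowerRep L S E).quotientToInvariants N).V) :
    sProdIncl S h (Additive.toMul ((jsDictRepIso L S h N hN hopen).hom.hom x :
        Additive (SIdeleProd (layer h) S))) =
      ((Additive.toMul (x.1 : Additive (JS L Ω S)) : JS L Ω S) : SIdeleProd Ω S) := by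
  subst hN
  exact sProdIncl_jsInvariantsEquiv L S h hopen x

end JSDict

/-! ### One place above `q` for the base field `⊥ ≅ ℚ` -/

/-- Over the base field `⊥ ≅ ℚ` there is only one place above `q`: the semi-local invariant is the
local invariant at any embedding. -/
theorem semiLocalInv_bot_eq_semiLocalInvAt (I : LocalInvFamily)
    (hI : ∀ q, (I q).IsConjInvariant) {Ω : Type} [Field Ω] [Algebra ℚ Ω]
    [NumberField (⊥ : IntermediateField ℚ Ω)] {L : Type} [Field L]
    [Algebra (⊥ : IntermediateField ℚ Ω) L] [Normal (⊥ : IntermediateField ℚ Ω) L] [NumberField L]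
    (q : Nat.Primes) (τ' : LocalEmb ((q : Nat.Primes) : ℕ) L)
    (x : groupCohomology (semiLocalRep L (L ≃ₐ[(⊥ : IntermediateField ℚ Ω)] L)
      ((q : Nat.Primes) : ℕ)) 2) :
    semiLocalInv I (⊥ : IntermediateField ℚ Ω) q x =
      semiLocalInvAt I (⊥ : IntermediateField ℚ Ω) q τ' x :=
  semiLocalInv_eq_semiLocalInvAt_of_subsingleton I (⊥ : IntermediateField ℚ Ω) hI q τ' x

/-! ### The local layer cut out by a global layer over `⊥` -/

section Local

local instance instIsGaloisQbICL : IsGalois ℚ Qb :=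
  Fermat.Agent.S54.FrobExists.isGalois_rat_algebraicClosure

variable (q : ℕ) [Fact q.Prime]

/-- The map `Gal(ℚ̄_q/⊥) → Gal(ℚ̄/⊥)` induced by `localGaloisToGlobal`. -/
noncomputable def botLocalToGlobal :
    (⊥ : IntermediateField ℚ_[q] (PadicAlgCl q)).fixingSubgroup →*
      (⊥ : IntermediateField ℚ Qb).fixingSubgroup :=
  ((localGaloisToGlobal q).comp
    (⊥ : IntermediateField ℚ_[q] (PadicAlgCl q)).fixingSubgroup.subtype).codRestrict _
    (fun σ => by rw [IntermediateField.fixingSubgroup_bot]; exact Subgroup.mem_top _)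

@[simp] theorem coe_botLocalToGlobal
    (σ : (⊥ : IntermediateField ℚ_[q] (PadicAlgCl q)).fixingSubgroup) :
    ((botLocalToGlobal q σ : (⊥ : IntermediateField ℚ Qb).fixingSubgroup) : GQ) =
      localGaloisToGlobal q (σ : Gq q) := rfl

variable {E F : IntermediateField ℚ Qb} (h : E ≤ F)

/-- The fixed embedding `ℚ̄ → ℚ̄_q`, restricted to the top of a layer. -/
noncomputable def layerEmb : LocalEmb q (layer h) :=
  (emb₀ q).comp (algebraMap (layer h) Qb)

@[simp] theorem layerEmb_apply (x : layer h) :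
    layerEmb q h x = padicEmbedding q (x : Qb) := rfl

/-- `γ • τ' = τ'` iff the image of `γ` in `G_ℚ` fixes `F`. -/
theorem smul_layerEmb_eq_iff (γ : Gq q) :
    γ • layerEmb q h = layerEmb q h ↔ localGaloisToGlobal q γ ∈ F.fixingSubgroup := by
  rw [IntermediateField.mem_fixingSubgroup_iff]
  constructor
  · intro hγ x hx
    have h1 := congrArg (fun τ : LocalEmb q (layer h) => τ (⟨x, hx⟩ : layer h)) hγ
    have h2 : γ (padicEmbedding q x) = padicEmbedding q x := h1
    rw [← padicEmbedding_localGaloisToGlobal] at h2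
    exact (padicEmbedding q).injective h2
  · intro hγ
    ext x
    show γ (padicEmbedding q (x : Qb)) = padicEmbedding q (x : Qb)
    rw [← padicEmbedding_localGaloisToGlobal, hγ _ x.2]

/-- A finite extension `F_q` of `ℚ_q` whose Galois group is the preimage of `Gal(ℚ̄/F)` is the
completion `ℚ_q(τ' F)`. -/
theorem eq_localFieldAt_layerEmb (Fq : IntermediateField ℚ_[q] (PadicAlgCl q))
    (hfix : ∀ γ : Gq q, γ ∈ Fq.fixingSubgroup ↔ localGaloisToGlobal q γ ∈ F.fixingSubgroup) :
    Fq = localFieldAt (layerEmb q h) := by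
  ext x
  rw [← forall_fixingSubgroup_apply_eq_iff Fq x,
    ← forall_fixingSubgroup_apply_eq_iff (localFieldAt (layerEmb q h)) x]
  refine forall_congr' fun γ => ?_
  rw [hfix γ, mem_fixingSubgroup_localFieldAt_iff, smul_layerEmb_eq_iff]

/-- The completion of the base field `⊥ ≅ ℚ` is `⊥ = ℚ_q`. -/
theorem bot_eq_localFieldAt_restrict {L : Type} [Field L]
    [Algebra (⊥ : IntermediateField ℚ Qb) L] (τ' : LocalEmb q L) :
    (⊥ : IntermediateField ℚ_[q] (PadicAlgCl q)) =
      localFieldAt (localEmbRestrict (⊥ : IntermediateField ℚ Qb) τ') := by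
  refine le_antisymm bot_le ?_
  rw [localFieldAt, IntermediateField.adjoin_le_iff]
  rintro _ ⟨x, rfl⟩
  obtain ⟨r, hr⟩ := IntermediateField.mem_bot.1 x.2
  have hx : x = ((r : ℚ) : (⊥ : IntermediateField ℚ Qb)) :=
    Subtype.ext (by rw [← hr, eq_ratCast]; rfl)
  rw [hx, map_ratCast]
  exact SubfieldClass.ratCast_mem _ r

end Local

/-! ### The local invariant of a layer as a semi-local invariant -/

section LemmaG

local instance instIsGaloisQbICG : IsGalois ℚ Qb :=
  Fermat.Agent.S54.FrobExists.isGalois_rat_algebraicClosure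

variable (I : LocalInvFamily) (q : Nat.Primes) {F : IntermediateField ℚ Qb}
  (h : (⊥ : IntermediateField ℚ Qb) ≤ F)
  [Normal (⊥ : IntermediateField ℚ Qb) (layer h)]
  {Fq : IntermediateField ℚ_[(q : ℕ)] (PadicAlgCl (q : ℕ))}
  (hq : (⊥ : IntermediateField ℚ_[(q : ℕ)] (PadicAlgCl (q : ℕ))) ≤ Fq)
  [Normal (⊥ : IntermediateField ℚ_[(q : ℕ)] (PadicAlgCl (q : ℕ))) (layer hq)]
  (hfix : ∀ γ : Gq (q : ℕ), γ ∈ Fq.fixingSubgroup ↔
    localGaloisToGlobal (q : ℕ) γ ∈ F.fixingSubgroup)
  (ι : ((layer hq) ≃ₐ[(⊥ : IntermediateField ℚ_[(q : ℕ)] (PadicAlgCl (q : ℕ)))] (layer hq)) →*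
    ((layer h) ≃ₐ[(⊥ : IntermediateField ℚ Qb)] (layer h)))
  (hι : ∀ σ, ι (layerRes hq σ) = layerRes h (botLocalToGlobal (q : ℕ) σ))
  (ev : Rep.res ι (semiLocalRep (layer h)
      ((layer h) ≃ₐ[(⊥ : IntermediateField ℚ Qb)] (layer h)) (q : ℕ)) ⟶
    Rep.ofAlgebraAutOnUnits (⊥ : IntermediateField ℚ_[(q : ℕ)] (PadicAlgCl (q : ℕ))) (layer hq))
  (hev : ∀ f : Additive (semiLocalUnits (q : ℕ) (layer h)),
    (((Additive.toMul (ev.hom f : Additive (layer hq)ˣ) : (layer hq)ˣ) : layer hq) :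
      PadicAlgCl (q : ℕ)) =
    (((Additive.toMul f : semiLocalUnits (q : ℕ) (layer h)) :
      LocalEmb (q : ℕ) (layer h) → (PadicAlgCl (q : ℕ))ˣ) (layerEmb (q : ℕ) h) : PadicAlgCl (q : ℕ)))

include hfix hι hev in
/-- **The local invariant of the layer `F_q/ℚ_q` cut out by `F/ℚ` is the local invariant at the
fixed embedding** (transport through `inv_map_eq_of_comp`). -/
theorem inv_map_eq_semiLocalInvAt_layerEmb
    (x : groupCohomology (semiLocalRep (layer h)
      ((layer h) ≃ₐ[(⊥ : IntermediateField ℚ Qb)] (layer h)) (q : ℕ)) 2) :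
    (I q).inv hq ((groupCohomology.map ι ev 2).hom x) =
      semiLocalInvAt I (⊥ : IntermediateField ℚ Qb) q (layerEmb (q : ℕ) h) x := by
  rw [semiLocalInvAt_apply]
  refine inv_map_eq_of_comp (⊥ : IntermediateField ℚ Qb) (I q) (layerEmb (q : ℕ) h) 1 hq
    (bot_eq_localFieldAt_restrict (q : ℕ) _) (eq_localFieldAt_layerEmb (q : ℕ) h Fq hfix)
    ι ev ?_ ?_ x
  · intro g y x hy
    obtain ⟨σ, rfl⟩ := layerRes_surjective hq g
    rw [hι, layerRes_apply, hy]
    show (σ : Gq (q : ℕ)) (padicEmbedding (q : ℕ) ((x : layer h) : Qb)) =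
      padicEmbedding (q : ℕ) ((layerRes h (botLocalToGlobal (q : ℕ) σ) x : layer h) : Qb)
    rw [layerRes_apply, coe_botLocalToGlobal, padicEmbedding_localGaloisToGlobal]
  · intro f
    refine (hev f).trans ?_
    have h1 : (layerEmb (q : ℕ) h).comp
        (((1 : (layer h) ≃ₐ[(⊥ : IntermediateField ℚ Qb)] (layer h)) : (layer h) →+* (layer h))) =
        layerEmb (q : ℕ) h := RingHom.ext fun _ => rfl
    rw [h1]

end LemmaG

/-! ### The decomposition map `Gal(F_q/ℚ_q) → Gal(F/ℚ)` and the evaluation at the fixed embedding -/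

section Decomp

local instance instIsGaloisQbICD : IsGalois ℚ Qb :=
  Fermat.Agent.S54.FrobExists.isGalois_rat_algebraicClosure

variable (q : ℕ) [Fact q.Prime] {F : IntermediateField ℚ Qb}
  (h : (⊥ : IntermediateField ℚ Qb) ≤ F)
  [Normal (⊥ : IntermediateField ℚ Qb) (layer h)]
  {Fq : IntermediateField ℚ_[q] (PadicAlgCl q)}
  (hq : (⊥ : IntermediateField ℚ_[q] (PadicAlgCl q)) ≤ Fq)
  [Normal (⊥ : IntermediateField ℚ_[q] (PadicAlgCl q)) (layer hq)]
  (hfix : ∀ γ : Gq q, γ ∈ Fq.fixingSubgroup ↔ localGaloisToGlobal q γ ∈ F.fixingSubgroup)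

include hfix in
theorem ker_layerRes_le_comap_botLocalToGlobal :
    (layerRes hq).ker ≤ (layerRes h).ker.comap (botLocalToGlobal q) := by
  intro σ hσ
  rw [Subgroup.mem_comap, mem_ker_layerRes_iff, coe_botLocalToGlobal, ← hfix]
  exact (mem_ker_layerRes_iff hq σ).1 hσ

/-- The decomposition map `Gal(F_q/ℚ_q) → Gal(F/ℚ)`. -/
noncomputable def decompLayerHom :
    ((layer hq) ≃ₐ[(⊥ : IntermediateField ℚ_[q] (PadicAlgCl q))] (layer hq)) →*
      ((layer h) ≃ₐ[(⊥ : IntermediateField ℚ Qb)] (layer h)) :=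
  (layerEquiv h).toMonoidHom.comp
    ((QuotientGroup.map (layerRes hq).ker (layerRes h).ker (botLocalToGlobal q)
      (ker_layerRes_le_comap_botLocalToGlobal q h hq hfix)).comp
      (layerEquiv hq).symm.toMonoidHom)

theorem decompLayerHom_layerRes
    (σ : (⊥ : IntermediateField ℚ_[q] (PadicAlgCl q)).fixingSubgroup) :
    decompLayerHom q h hq hfix (layerRes hq σ) = layerRes h (botLocalToGlobal q σ) := by
  have h1 : (layerEquiv hq).symm (layerRes hq σ) = QuotientGroup.mk σ := by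
    rw [MulEquiv.symm_apply_eq]
    rfl
  show layerEquiv h (QuotientGroup.map _ _ (botLocalToGlobal q)
    (ker_layerRes_le_comap_botLocalToGlobal q h hq hfix)
    ((layerEquiv hq).symm (layerRes hq σ))) = _
  rw [h1]
  rfl

/-- `τ' ∘ ι(g) = σ • τ'` for `g = σ|_{F_q}`. -/
theorem layerEmb_comp_decompLayerHom
    (σ : (⊥ : IntermediateField ℚ_[q] (PadicAlgCl q)).fixingSubgroup) :
    (layerEmb q h).comp (MulSemiringAction.toRingHom
      ((layer h) ≃ₐ[(⊥ : IntermediateField ℚ Qb)] (layer h)) (layer h)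
      (decompLayerHom q h hq hfix (layerRes hq σ))) = (σ : Gq q) • layerEmb q h := by
  ext x
  show padicEmbedding q (((decompLayerHom q h hq hfix (layerRes hq σ)) x : layer h) : Qb) =
    (σ : Gq q) (padicEmbedding q (x : Qb))
  rw [decompLayerHom_layerRes, layerRes_apply, coe_botLocalToGlobal,
    padicEmbedding_localGaloisToGlobal]

include hfix in
theorem semiLocalUnits_layerEmb_mem (f : semiLocalUnits q (layer h)) :
    (((f : LocalEmb q (layer h) → (PadicAlgCl q)ˣ) (layerEmb q h) : (PadicAlgCl q)ˣ) :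
      PadicAlgCl q) ∈ Fq := by
  rw [eq_localFieldAt_layerEmb q h Fq hfix]
  exact semiLocalUnits_apply_mem f (layerEmb q h)

/-- Evaluation at the fixed embedding, `A_q(F) → F_qˣ`. -/
noncomputable def evLayerFun : semiLocalUnits q (layer h) →* (layer hq)ˣ where
  toFun f := Units.mk0
    (⟨((f : LocalEmb q (layer h) → (PadicAlgCl q)ˣ) (layerEmb q h) : PadicAlgCl q),
      semiLocalUnits_layerEmb_mem q h hfix f⟩ : layer hq)
    (fun h0 => ((f : LocalEmb q (layer h) → (PadicAlgCl q)ˣ) (layerEmb q h)).ne_zero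
      (congrArg Subtype.val h0))
  map_one' := by
    apply Units.ext
    apply Subtype.ext
    rfl
  map_mul' f g := by
    apply Units.ext
    apply Subtype.ext
    rfl

theorem evLayerFun_coe (f : semiLocalUnits q (layer h)) :
    (((evLayerFun q h hq hfix f : (layer hq)ˣ) : layer hq) : PadicAlgCl q) =
      ((f : LocalEmb q (layer h) → (PadicAlgCl q)ˣ) (layerEmb q h) : PadicAlgCl q) := rfl

/-- Shortcut instance (the generic search is slow). -/
noncomputable local instance (priority := high) mdmaLayerUnitsShortcut :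
    MulDistribMulAction ((layer hq) ≃ₐ[(⊥ : IntermediateField ℚ_[q] (PadicAlgCl q))] (layer hq))
      (layer hq)ˣ :=
  AlgEquiv.instMulDistribMulActionUnits

/-- Shortcut instance (the generic search is slow). -/
noncomputable local instance (priority := high) smulLayerUnitsShortcut :
    SMul ((layer hq) ≃ₐ[(⊥ : IntermediateField ℚ_[q] (PadicAlgCl q))] (layer hq))
      (layer hq)ˣ :=
  (AlgEquiv.instMulDistribMulActionUnits :
    MulDistribMulAction ((layer hq) ≃ₐ[(⊥ : IntermediateField ℚ_[q] (PadicAlgCl q))] (layer hq))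
      (layer hq)ˣ).toSMul

theorem evLayerFun_smul
    (g : (layer hq) ≃ₐ[(⊥ : IntermediateField ℚ_[q] (PadicAlgCl q))] (layer hq))
    (f : semiLocalUnits q (layer h)) :
    evLayerFun q h hq hfix (decompLayerHom q h hq hfix g • f) =
      (g • evLayerFun q h hq hfix f : (layer hq)ˣ) := by
  obtain ⟨σ, rfl⟩ := layerRes_surjective hq g
  apply Units.ext
  apply Subtype.ext
  show ((f : LocalEmb q (layer h) → (PadicAlgCl q)ˣ) ((layerEmb q h).comp
      (MulSemiringAction.toRingHom ((layer h) ≃ₐ[(⊥ : IntermediateField ℚ Qb)] (layer h))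
        (layer h) (decompLayerHom q h hq hfix (layerRes hq σ)))) : PadicAlgCl q) =
    ((layerRes hq σ ((evLayerFun q h hq hfix f : (layer hq)ˣ) : layer hq) : layer hq) :
      PadicAlgCl q)
  rw [layerEmb_comp_decompLayerHom, layerRes_apply, semiLocalUnits_apply_smul]
  rfl

/-- Evaluation at the fixed embedding as a morphism of representations of `Gal(F_q/ℚ_q)`. -/
noncomputable def evLayer :
    Rep.res (decompLayerHom q h hq hfix) (semiLocalRep (layer h)
      ((layer h) ≃ₐ[(⊥ : IntermediateField ℚ Qb)] (layer h)) q) ⟶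
    Rep.ofAlgebraAutOnUnits (⊥ : IntermediateField ℚ_[q] (PadicAlgCl q)) (layer hq) :=
  mulRepHomRes (decompLayerHom q h hq hfix) (evLayerFun q h hq hfix)
    (evLayerFun_smul q h hq hfix)

theorem evLayer_coe (f : Additive (semiLocalUnits q (layer h))) :
    (((Additive.toMul ((evLayer q h hq hfix).hom f : Additive (layer hq)ˣ) : (layer hq)ˣ) :
      layer hq) : PadicAlgCl q) =
    (((Additive.toMul f : semiLocalUnits q (layer h)) :
      LocalEmb q (layer h) → (PadicAlgCl q)ˣ) (layerEmb q h) : PadicAlgCl q) := rfl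

end Decomp

end Fermat.Agent.CFT.PT
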