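/-
S55 / D3c-L hedge, part (R) (helper7 msg 3196): **the RHS of `galInvLevel_locFin_eq_semiLocalInv`
in normal form.**

* `jsDictRepIso_apply_eval`: the value at `τ'` of the `q`-component of the image of `a ∈ J_S^N`
  under the dictionary `jsDictRepIso` is the value of `a_q` at any embedding of `Ω` extending `τ'`;
* `exists_semiLocalLocAt_dict_eq_map` (generic `k Ω L S E`): the localisation at `τ'` of the
  `q`-component of the class corresponding to `z ∈ H²(Gal(Ω/E) ⧸ N, J_S^N)` under the dictionary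
  is a single `groupCohomology.map f φ` (`dictEquiv (f g) = locGroupHom g`, `φ a = (dict a)_q(τ')`);
* `exists_semiLocalInv_dict_resFin_eq_inv_map` (over `ℚ`, bottom field, `τ' = τ₀|_F`):
  `semiLocalInv padicLocalInvFamily ⊥ q ((pr_q)_* (dict (resFin y))) =
    (padicLocalInvFamily q).inv (ℚ_q ≤ ℚ_q(τ₀ F)) ((groupCohomology.map fR φR 2) y)` with
  `fR g = [σ]` for any `σ ∈ G_ℚ` with `g ∘ τ₀ = τ₀ ∘ σ` on `F` (existence and uniqueness forms)
  and `φR a = a_q(τ₀) = evQFun a`.
-/
import Fermat.Agent.CFT.Global.InvCompatGlue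
import Fermat.Agent.CFT.PT.JSLocCoind
import Fermat.Agent.CFT.Local.PadicLayerInv
import Fermat.Agent.CFT.Global.ClassLayerInvQ

set_option autoImplicit false
set_option linter.unusedSectionVars false
set_option linter.style.haveILetI false

open CategoryTheory groupCohomology IntermediateField

noncomputable section

namespace Fermat.Agent.CFT.PT.Loc26

open Fermat.Agent.CFT Fermat.Agent.CFT.GaloisTower

section Generic

variable {k Ω : Type} [Field k] [Field Ω] [Algebra k Ω] [IsGalois k Ω]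
variable (L : LevelStructure (Ω ≃ₐ[k] Ω)) (S : Set Nat.Primes)
variable {E E' : IntermediateField k Ω} (h : E ≤ E') [Normal E (layer h)]
  (N : Subgroup E.fixingSubgroup) [N.Normal] (hN : N = (layerRes h).ker)
  (hopen : L.IsOpen E'.fixingSubgroup)
variable (q : S) (τ' : LocalEmb ((q : Nat.Primes) : ℕ) (layer h))

/-- The value at `τ'` of the `q`-component of the image of `a ∈ J_S^N` in `∏_{q ∈ S} A_q(E')` is
the value of the `q`-component of `a` at any embedding of `Ω` extending `τ'`. -/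
theorem jsDictRepIso_apply_eval (a : ((jsTowerRep L S E).quotientToInvariants N).V)
    (τ : LocalEmb ((q : Nat.Primes) : ℕ) Ω) (hτ : localEmbRestrict (layer h) τ = τ') :
    (((Additive.toMul ((jsDictRepIso L S h N hN hopen).hom.hom a) : SIdeleProd (layer h) S) q :
        semiLocalUnits ((q : Nat.Primes) : ℕ) (layer h)) :
        LocalEmb ((q : Nat.Primes) : ℕ) (layer h) → (PadicAlgCl ((q : Nat.Primes) : ℕ))ˣ) τ' =
      ((((Additive.toMul (a.1 : Additive (JS L Ω S)) : JS L Ω S) : SIdeleProd Ω S) q :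
        semiLocalUnits ((q : Nat.Primes) : ℕ) Ω) :
        LocalEmb ((q : Nat.Primes) : ℕ) Ω → (PadicAlgCl ((q : Nat.Primes) : ℕ))ˣ) τ := by
  subst hN
  subst hτ
  have h1 := sProdIncl_jsInvariantsEquiv L S h hopen a
  have h2 := congrFun h1 q
  rw [← h2]
  rfl

/-- **Tower form of the localisation**: the localisation at `τ'` of the `q`-component of the class
corresponding to `z ∈ H²(Gal(Ω/E) ⧸ N, J_S^N)` under the dictionary is a single
`groupCohomology.map`. -/
theorem exists_semiLocalLocAt_dict_eq_map :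
    ∃ (f : ((localLayer E τ') ≃ₐ[localFieldAt (localEmbRestrict E τ')] (localLayer E τ')) →*
        (E.fixingSubgroup ⧸ N))
      (φ : Rep.res f ((jsTowerRep L S E).quotientToInvariants N) ⟶
        Rep.ofAlgebraAutOnUnits (localFieldAt (localEmbRestrict E τ')) (localLayer E τ')),
      (∀ g, dictEquiv h N hN (f g) = locGroupHom E τ' g) ∧
      (∀ a : ((jsTowerRep L S E).quotientToInvariants N).V,
        ((((Additive.toMul (φ.hom a : Additive (localLayer E τ')ˣ) : (localLayer E τ')ˣ) :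
          localLayer E τ') : PadicAlgCl ((q : Nat.Primes) : ℕ))) =
        ((((Additive.toMul ((jsDictRepIso L S h N hN hopen).hom.hom a) :
          SIdeleProd (layer h) S) q : semiLocalUnits ((q : Nat.Primes) : ℕ) (layer h)) :
          LocalEmb ((q : Nat.Primes) : ℕ) (layer h) → (PadicAlgCl ((q : Nat.Primes) : ℕ))ˣ) τ' :
          PadicAlgCl ((q : Nat.Primes) : ℕ))) ∧
      ∀ z : groupCohomology ((jsTowerRep L S E).quotientToInvariants N) 2,
        semiLocalLocAt E (q : Nat.Primes) τ'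
          ((groupCohomology.map (MonoidHom.id ((layer h) ≃ₐ[E] (layer h)))
            (sProdProj ((layer h) ≃ₐ[E] (layer h)) (layer h) S q) 2).hom
            (cohLinearEquivOfRepIso _ _ (dictEquiv h N hN) (jsDictRepIso L S h N hN hopen) 2 z)) =
        (groupCohomology.map f φ 2).hom z := by
  obtain ⟨φ₀, hφ₀, hcoh⟩ := exists_cohLinearEquivOfRepIso_eq_map
    (sProdRep ((layer h) ≃ₐ[E] (layer h)) (layer h) S)
    ((jsTowerRep L S E).quotientToInvariants N) (dictEquiv h N hN)
    (jsDictRepIso L S h N hN hopen) 2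
  refine ⟨((dictEquiv h N hN).symm.toMonoidHom.comp
      (MonoidHom.id ((layer h) ≃ₐ[E] (layer h)))).comp (locGroupHom E τ'),
    (Rep.resFunctor (locGroupHom E τ')).map
      ((Rep.resFunctor (MonoidHom.id ((layer h) ≃ₐ[E] (layer h)))).map φ₀ ≫
        sProdProj ((layer h) ≃ₐ[E] (layer h)) (layer h) S q) ≫ locRepHom E τ', ?_, ?_, ?_⟩
  · intro g
    show dictEquiv h N hN ((dictEquiv h N hN).symm (locGroupHom E τ' g)) = _
    rw [MulEquiv.apply_symm_apply]
  · intro a
    have e1 : ((Rep.resFunctor (locGroupHom E τ')).map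
        ((Rep.resFunctor (MonoidHom.id ((layer h) ≃ₐ[E] (layer h)))).map φ₀ ≫
          sProdProj ((layer h) ≃ₐ[E] (layer h)) (layer h) S q) ≫ locRepHom E τ').hom a =
        (locRepHom E τ').hom
          ((sProdProj ((layer h) ≃ₐ[E] (layer h)) (layer h) S q).hom (φ₀.hom a)) := rfl
    rw [e1, hφ₀ a]
    exact locRepHom_val E τ' _
  · intro z
    rw [semiLocalLocAt_apply, hcoh z, groupCohomology.map_comp, groupCohomology.map_comp]
    rfl

end Generic

local notation "Qb" => AlgebraicClosure ℚ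
local notation "GQ" => (AlgebraicClosure ℚ ≃ₐ[ℚ] AlgebraicClosure ℚ)

local instance instIsGaloisQbLoc26 : IsGalois ℚ Qb :=
  Fermat.Agent.S54.FrobExists.isGalois_rat_algebraicClosure

section Q

variable (S : Finset Nat.Primes) (q : ↥S) (L : LevelStructure GQ) (l : L.Level)
  {F : IntermediateField ℚ Qb} (h : (⊥ : IntermediateField ℚ Qb) ≤ F) [FiniteDimensional ℚ F]
  [NumberField ↥(⊥ : IntermediateField ℚ Qb)]
  [Normal ↥(⊥ : IntermediateField ℚ Qb) (layer h)]
  (N : Subgroup (⊥ : IntermediateField ℚ Qb).fixingSubgroup) [N.Normal]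
  (hN : N = (layerRes h).ker)
  (hNl : N = l.N.comap (⊥ : IntermediateField ℚ Qb).fixingSubgroup.subtype)
  (hopen : L.IsOpen F.fixingSubgroup)

/-- The embedding of the layer `F/ℚ` into `ℚ̄_q` induced by the fixed embedding of `ℚ̄`. -/
abbrev embF : LocalEmb ((q.1 : Nat.Primes) : ℕ) (layer h) :=
  localEmbRestrict (layer h) (emb₀ ((q.1 : Nat.Primes) : ℕ))

theorem embF_apply (x : layer h) : embF S q h x = emb₀ ((q.1 : Nat.Primes) : ℕ) (x : Qb) := rfl

include hN hNl in
/-- `Gal(ℚ̄/F) ≤ l.N`. -/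
theorem fixingSubgroup_le_level : F.fixingSubgroup ≤ l.N := by
  intro ρ hρ
  have h1 : (⟨ρ, by
      rw [IntermediateField.mem_fixingSubgroup_iff]
      intro x hx
      obtain ⟨r, rfl⟩ := IntermediateField.mem_bot.1 hx
      exact ρ.commutes r⟩ : (⊥ : IntermediateField ℚ Qb).fixingSubgroup) ∈ N := by
    rw [hN]
    exact (mem_ker_layerRes_iff h _).2 hρ
  rw [hNl] at h1
  exact h1


/-- **(R) The RHS of `galInvLevel_locFin_eq_semiLocalInv` in normal form**: the semi-local
invariant at `q` of the class corresponding (under the dictionary at the bottom field) to the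
restriction of `y ∈ H²(G_ℚ ⧸ l.N, J_S^{l.N})` is the local invariant of the layer
`ℚ_q(τ₀ F)/ℚ_q` of the image of `y` under a single `groupCohomology.map fR φR`, where
`fR g` is the class of any `σ ∈ G_ℚ` with `g ∘ τ₀ = τ₀ ∘ σ` on `F`, and `φR a = a_q(τ₀)`. -/
theorem exists_semiLocalInv_dict_resFin_eq_inv_map :
    ∃ (fR : ((localLayer ↥(⊥ : IntermediateField ℚ Qb) (embF S q h)) ≃ₐ[localFieldAt
          (localEmbRestrict ↥(⊥ : IntermediateField ℚ Qb) (embF S q h))]
          (localLayer ↥(⊥ : IntermediateField ℚ Qb) (embF S q h))) →* (GQ ⧸ l.N))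
      (φR : Rep.res fR ((jsRep L Qb (↑S : Set Nat.Primes)).quotientToInvariants l.N) ⟶
        Rep.ofAlgebraAutOnUnits
          (localFieldAt (localEmbRestrict ↥(⊥ : IntermediateField ℚ Qb) (embF S q h)))
          (localLayer ↥(⊥ : IntermediateField ℚ Qb) (embF S q h))),
      (∀ g, ∃ σ : GQ, fR g = (QuotientGroup.mk σ : GQ ⧸ l.N) ∧ ∀ x : layer h,
        ((g (⟨embF S q h x, apply_mem_localFieldAt (embF S q h) x⟩ :
            localLayer ↥(⊥ : IntermediateField ℚ Qb) (embF S q h)) :
            localLayer ↥(⊥ : IntermediateField ℚ Qb) (embF S q h)) :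
            PadicAlgCl ((q.1 : Nat.Primes) : ℕ)) =
          emb₀ ((q.1 : Nat.Primes) : ℕ) (σ (x : Qb))) ∧
      (∀ g (σ : GQ), (∀ x : layer h,
        ((g (⟨embF S q h x, apply_mem_localFieldAt (embF S q h) x⟩ :
            localLayer ↥(⊥ : IntermediateField ℚ Qb) (embF S q h)) :
            localLayer ↥(⊥ : IntermediateField ℚ Qb) (embF S q h)) :
            PadicAlgCl ((q.1 : Nat.Primes) : ℕ)) =
          emb₀ ((q.1 : Nat.Primes) : ℕ) (σ (x : Qb))) →
        fR g = (QuotientGroup.mk σ : GQ ⧸ l.N)) ∧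
      (∀ a : ((jsRep L Qb (↑S : Set Nat.Primes)).quotientToInvariants l.N).V,
        ((((Additive.toMul (φR.hom a : Additive (localLayer ↥(⊥ : IntermediateField ℚ Qb)
            (embF S q h))ˣ) : (localLayer ↥(⊥ : IntermediateField ℚ Qb) (embF S q h))ˣ) :
          localLayer ↥(⊥ : IntermediateField ℚ Qb) (embF S q h)) :
          PadicAlgCl ((q.1 : Nat.Primes) : ℕ))) =
        ((evQFun L S q (Additive.toMul (a.1 : Additive (JS L Qb (↑S : Set Nat.Primes)))) :
          (PadicAlgCl ((q.1 : Nat.Primes) : ℕ))ˣ) : PadicAlgCl ((q.1 : Nat.Primes) : ℕ))) ∧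
      ∀ y : groupCohomology.H2 ((jsRep L Qb (↑S : Set Nat.Primes)).quotientToInvariants l.N),
        semiLocalInv padicLocalInvFamily ↥(⊥ : IntermediateField ℚ Qb) q.1
          ((groupCohomology.map (MonoidHom.id _)
            (sProdProj ((layer h) ≃ₐ[↥(⊥ : IntermediateField ℚ Qb)] (layer h)) (layer h)
              (↑S : Set Nat.Primes) ⟨q.1, Finset.mem_coe.2 q.2⟩) 2).hom
            (cohLinearEquivOfRepIso _ _ (dictEquiv h N hN)
              (jsDictRepIso L (↑S : Set Nat.Primes) h N hN hopen) 2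
              ((LC.resFin (jsRep L Qb (↑S : Set Nat.Primes)) hNl.le 2).hom y))) =
        (padicLocalInvFamily q.1).inv
          (localFieldAt_restrict_le ↥(⊥ : IntermediateField ℚ Qb) (embF S q h))
          ((groupCohomology.map fR φR 2).hom y) := by
  haveI : NumberField (layer h) := numberField_layer h
  obtain ⟨f, φ, hf, hφ, hmap⟩ := exists_semiLocalLocAt_dict_eq_map L (↑S : Set Nat.Primes) h N hN
    hopen ⟨q.1, Finset.mem_coe.2 q.2⟩ (embF S q h)
  -- the characterisation of the group homomorphism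
  have hchar : ∀ g, ∃ σ : GQ, (LC.quotRes hNl.le).comp f g = (QuotientGroup.mk σ : GQ ⧸ l.N) ∧
      ∀ x : layer h,
        ((g (⟨embF S q h x, apply_mem_localFieldAt (embF S q h) x⟩ :
            localLayer ↥(⊥ : IntermediateField ℚ Qb) (embF S q h)) :
            localLayer ↥(⊥ : IntermediateField ℚ Qb) (embF S q h)) :
            PadicAlgCl ((q.1 : Nat.Primes) : ℕ)) =
          emb₀ ((q.1 : Nat.Primes) : ℕ) (σ (x : Qb)) := by
    intro g
    obtain ⟨σ₀, hσ₀⟩ := QuotientGroup.mk_surjective (f g)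
    refine ⟨(σ₀ : GQ), ?_, fun x => ?_⟩
    · rw [MonoidHom.comp_apply, ← hσ₀]
      rfl
    · have h1 := hf g
      rw [← hσ₀, dictEquiv_mk] at h1
      have h2 := (locGroupHom_eq_iff ↥(⊥ : IntermediateField ℚ Qb) (embF S q h) g
        (layerRes h σ₀)).1 h1.symm x
      rw [h2, embF_apply, layerRes_apply]
  refine ⟨(LC.quotRes hNl.le).comp f,
    (Rep.resFunctor f).map (LC.invRes (jsRep L Qb (↑S : Set Nat.Primes)) hNl.le) ≫ φ,
    hchar, ?_, ?_, ?_⟩
  · intro g σ hσ
    obtain ⟨σ₁, hσ₁, hx₁⟩ := hchar g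
    rw [hσ₁]
    refine (QuotientGroup.eq).2 (fixingSubgroup_le_level L l h N hN hNl ?_)
    rw [IntermediateField.mem_fixingSubgroup_iff]
    intro x hx
    have h1 := (hx₁ ⟨x, hx⟩).symm.trans (hσ ⟨x, hx⟩)
    have h2 : σ₁ x = σ x := (emb₀ ((q.1 : Nat.Primes) : ℕ)).injective h1
    rw [AlgEquiv.mul_apply, ← h2]
    exact (σ₁.symm_apply_apply x)
  · intro a
    have e1 : ((Rep.resFunctor f).map (LC.invRes (jsRep L Qb (↑S : Set Nat.Primes)) hNl.le) ≫
        φ).hom a = φ.hom ((LC.invRes (jsRep L Qb (↑S : Set Nat.Primes)) hNl.le).hom a) := rfl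
    rw [e1, hφ, jsDictRepIso_apply_eval L (↑S : Set Nat.Primes) h N hN hopen
      ⟨q.1, Finset.mem_coe.2 q.2⟩ (embF S q h) _ (emb₀ ((q.1 : Nat.Primes) : ℕ)) rfl]
    rfl
  · intro y
    rw [semiLocalInv_eq_semiLocalInvAt_of_subsingleton padicLocalInvFamily
      ↥(⊥ : IntermediateField ℚ Qb) padicLocalInvFamily_isConjInvariant q.1 (embF S q h)]
    show (padicLocalInvFamily q.1).inv _ (semiLocalLocAt _ q.1 (embF S q h) _) = _
    rw [hmap]
    congr 1
    rw [groupCohomology.map_comp]
    rfl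

end Q

end Fermat.Agent.CFT.PT.Loc26
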