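import Fermat.Agent.CFT.Global.LCFullDict
import Fermat.Agent.CFT.PT.JSInst
import Fermat.Agent.CFT.PT.InvCompat
import Fermat.Agent.CFT.Global.SemiLocal

/-!
# D3c-L, field identification (3) `e'`

For a level `l` of `globalLevel S` with `l.N = Gal(ℚ̄/F)` (encoded by `hN`, `hNl` as in
`galInvLevel_locFin_eq_semiLocalInv`), the top field of the level
`lq = (levelComap_global S).level q l` of `G_{ℚ_q}` in the dictionary `galFullDict` is the local
field `ℚ_q · emb₀(F) = localFieldAt (emb₀|_F)`.
-/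

set_option autoImplicit false
set_option linter.style.haveILetI false
set_option linter.unusedSectionVars false

open CategoryTheory groupCohomology IntermediateField

namespace Fermat.Agent.CFT.PT.Top14

open Fermat.Agent.CFT Fermat.Agent.S55 ExtCitation GaloisTower

local notation "Qb" => AlgebraicClosure ℚ
local notation "GQ" => (AlgebraicClosure ℚ ≃ₐ[ℚ] AlgebraicClosure ℚ)

local instance instIsGaloisQbTop14 : IsGalois ℚ Qb :=
  Fermat.Agent.S54.FrobExists.isGalois_rat_algebraicClosure

variable (S : Finset Nat.Primes)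

/-- `l.N = Gal(ℚ̄/F)` from the two descriptions of `N`. -/
theorem mem_level_iff_mem_fixingSubgroup (l : (globalLevel S).Level)
    {F : IntermediateField ℚ Qb} (h : (⊥ : IntermediateField ℚ Qb) ≤ F)
    [Normal ↥(⊥ : IntermediateField ℚ Qb) (layer h)]
    (N : Subgroup (⊥ : IntermediateField ℚ Qb).fixingSubgroup)
    (hN : N = (layerRes h).ker)
    (hNl : N = l.N.comap (⊥ : IntermediateField ℚ Qb).fixingSubgroup.subtype) (σ : GQ) :
    σ ∈ l.N ↔ σ ∈ F.fixingSubgroup := by
  have hσ : σ ∈ (⊥ : IntermediateField ℚ Qb).fixingSubgroup := by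
    rw [IntermediateField.fixingSubgroup_bot]
    trivial
  have h1 : (⟨σ, hσ⟩ : (⊥ : IntermediateField ℚ Qb).fixingSubgroup) ∈ N ↔ σ ∈ l.N := by
    rw [hNl]
    rfl
  have h2 : (⟨σ, hσ⟩ : (⊥ : IntermediateField ℚ Qb).fixingSubgroup) ∈ N ↔
      σ ∈ F.fixingSubgroup := by
    rw [hN, mem_ker_layerRes_iff]
  rw [← h1, h2]

/-- **(3) `e'`**: the top field of the local level cut out by `l` is `ℚ_q · emb₀(F)`. -/
theorem galFullDict_top_eq_localFieldAt (q : ↥S) (l : (globalLevel S).Level)
    {F : IntermediateField ℚ Qb} (h : (⊥ : IntermediateField ℚ Qb) ≤ F)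
    [Normal ↥(⊥ : IntermediateField ℚ Qb) (layer h)]
    (N : Subgroup (⊥ : IntermediateField ℚ Qb).fixingSubgroup)
    (hN : N = (layerRes h).ker)
    (hNl : N = l.N.comap (⊥ : IntermediateField ℚ Qb).fixingSubgroup.subtype) :
    (galFullDict (levelOf (localGaloisToGlobal (q.1 : ℕ))) (levelOf_local_galoisType (q.1 : ℕ))
        (levelOf_local_cofinal (q.1 : ℕ))).top ((levelComap_global S).level q l) =
      localFieldAt ((emb₀ (q.1 : ℕ)).comp (algebraMap ↥(layer h) Qb)) := by
  ext x
  rw [← forall_fixingSubgroup_apply_eq_iff, ← forall_fixingSubgroup_apply_eq_iff]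
  have key : ∀ γ : Gq (q.1 : ℕ),
      γ ∈ ((galFullDict (levelOf (localGaloisToGlobal (q.1 : ℕ)))
        (levelOf_local_galoisType (q.1 : ℕ)) (levelOf_local_cofinal (q.1 : ℕ))).top
          ((levelComap_global S).level q l)).fixingSubgroup ↔
      γ ∈ (localFieldAt ((emb₀ (q.1 : ℕ)).comp (algebraMap ↥(layer h) Qb))).fixingSubgroup := by
    intro γ
    have hγ : γ ∈ (⊥ : IntermediateField ℚ_[(q.1 : ℕ)] (PadicAlgCl (q.1 : ℕ))).fixingSubgroup := by
      rw [IntermediateField.fixingSubgroup_bot]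
      trivial
    have h1 := mem_level_iff (levelOf (localGaloisToGlobal (q.1 : ℕ)))
      (levelOf_local_galoisType (q.1 : ℕ)) ⊥
      (botLevel (levelOf (localGaloisToGlobal (q.1 : ℕ))) ((levelComap_global S).level q l))
      ⟨γ, hγ⟩
    have h2 : (galFullDict (levelOf (localGaloisToGlobal (q.1 : ℕ)))
        (levelOf_local_galoisType (q.1 : ℕ)) (levelOf_local_cofinal (q.1 : ℕ))).top
          ((levelComap_global S).level q l) =
        levelTop (levelOf (localGaloisToGlobal (q.1 : ℕ))) (levelOf_local_galoisType (q.1 : ℕ)) ⊥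
          (botLevel (levelOf (localGaloisToGlobal (q.1 : ℕ)))
            ((levelComap_global S).level q l)) := rfl
    rw [h2, ← h1, mem_fixingSubgroup_localFieldAt_iff]
    have h3 : (⟨γ, hγ⟩ : (⊥ : IntermediateField ℚ_[(q.1 : ℕ)]
        (PadicAlgCl (q.1 : ℕ))).fixingSubgroup) ∈
        (botLevel (levelOf (localGaloisToGlobal (q.1 : ℕ)))
          ((levelComap_global S).level q l)).N ↔ localGaloisToGlobal (q.1 : ℕ) γ ∈ l.N := Iff.rfl
    rw [h3, mem_level_iff_mem_fixingSubgroup S l h N hN hNl,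
      IntermediateField.mem_fixingSubgroup_iff]
    constructor
    · intro hfix
      ext y
      show γ (padicEmbedding (q.1 : ℕ) (y : Qb)) = padicEmbedding (q.1 : ℕ) (y : Qb)
      rw [← padicEmbedding_localGaloisToGlobal, hfix _ y.2]
    · intro hfix y hy
      have h4 := congrArg (fun ρ : LocalEmb (q.1 : ℕ) ↥(layer h) => ρ ⟨y, hy⟩) hfix
      have h5 : γ (padicEmbedding (q.1 : ℕ) y) = padicEmbedding (q.1 : ℕ) y := h4
      rw [← padicEmbedding_localGaloisToGlobal] at h5
      exact (padicEmbedding (q.1 : ℕ)).injective h5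
  constructor
  · intro hx σ hσ
    exact hx σ ((key σ).2 hσ)
  · intro hx σ hσ
    exact hx σ ((key σ).1 hσ)

end Fermat.Agent.CFT.PT.Top14
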