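import Fermat.Agent.CFT.PT.CSFullTower

/-!
# Layer C, node C1d (J4c): `J_S → J'` (extension by `1`) in the Galois tower

`Ω/k` Galois with level structure `L`, `S` a finite set of primes, `E ≤ E'` with `E'/E` normal and
`Gal(Ω/E')` open.  Under the dictionaries `jsInvariantsIso` (`J_S^{Gal(Ω/E')} ≅ ∏_{q∈S} A_q(E')`)
and `jFullInvariantsIso` (`(J')^{Gal(Ω/E')} ≅ J_{E'}`) the map induced by
`jsToJFullHom : J_S ⟶ J'` on invariants is the finite-level extension by `1`,
`extendIdele (layer h) S hS : ∏_{q∈S} A_q(E') →* J_{E'}`.

* `ideleIncl_extendIdele` : the square of groups;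
* `extendRepHom` : extension by `1` as a morphism of representations `sProdRep ⟶ ideleRep`;
* `jFullInvariantsEquiv_of_jsToJFull` : elementwise form of the square on invariants;
* `jsToJFull_invariants_square` : the commutative square in `Rep`.
-/

set_option autoImplicit false
set_option linter.unusedSectionVars false
set_option linter.style.haveILetI false

noncomputable section

namespace Fermat.Agent.CFT.PT

open Fermat.Agent.CFT Fermat.Agent.CFT.GaloisTower IntermediateField CategoryTheory

/-- Extension by `1` as a morphism of representations `∏_{q ∈ S} A_q(K) ⟶ J_K`. -/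
def extendRepHom (H K : Type) [Group H] [Field K] [MulSemiringAction H K] (S : Set Nat.Primes)
    (hS : S.Finite) : sProdRep H K S ⟶ ideleRep K H :=
  mulRepHom (extendIdele K S hS) fun σ x => (smul_extendIdele hS σ x).symm

@[simp]
theorem extendRepHom_apply (H K : Type) [Group H] [Field K] [MulSemiringAction H K]
    (S : Set Nat.Primes) (hS : S.Finite) (x : Additive (SIdeleProd K S)) :
    ((extendRepHom H K S hS).hom x : Additive (ideleGroup K)) =
      Additive.ofMul (extendIdele K S hS (Additive.toMul x)) := rfl

variable {k Ω : Type} [Field k] [Field Ω] [Algebra k Ω] [IsGalois k Ω]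
variable (L : LevelStructure (Ω ≃ₐ[k] Ω)) (S : Set Nat.Primes)
variable {E E' : IntermediateField k Ω} (h : E ≤ E')

/-- **The square of groups**: extension by `1` commutes with the inclusions of the tower. -/
theorem ideleIncl_extendIdele (hS : S.Finite) (y : SIdeleProd (layer h) S) :
    ideleIncl h (extendIdele (layer h) S hS y) = extendIdele Ω S hS (sProdIncl S h y) := by
  apply Subtype.ext
  funext q
  rw [ideleIncl_apply, extendIdele_coe, extendIdele_coe]
  by_cases hq : q ∈ S
  · rw [extendByOne_of_mem _ hq, extendByOne_of_mem _ hq, sProdIncl_apply]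
  · rw [extendByOne_of_notMem _ hq, extendByOne_of_notMem _ hq, map_one]

variable [Normal E (layer h)] (hopen : L.IsOpen E'.fixingSubgroup)

/-- **Elementwise square on invariants**: if `x'` is the image of `x` under `J_S → J'`, then the
idele of `E'` corresponding to `x'` is the extension by `1` of the `S`-idele of `E'` corresponding
to `x`. -/
theorem jFullInvariantsEquiv_of_jsToJFull (hS : S.Finite)
    (x : Representation.invariants ((jsTowerRep L S E).ρ.comp (layerRes h).ker.subtype))
    (x' : Representation.invariants ((jFullTowerRep L E).ρ.comp (layerRes h).ker.subtype))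
    (hx : (Additive.toMul (x'.1 : Additive (JFull L Ω)) : JFull L Ω) =
      jsToJFull L Ω S hS (Additive.toMul (x.1 : Additive (JS L Ω S)))) :
    jFullInvariantsEquiv L h hopen x' =
      Additive.ofMul (extendIdele (layer h) S hS
        (Additive.toMul (jsInvariantsEquiv L S h hopen x))) := by
  apply Additive.toMul.injective
  apply ideleIncl_injective h
  rw [ideleIncl_jFullInvariantsEquiv, hx, jsToJFull_coe, toMul_ofMul, ideleIncl_extendIdele,
    sProdIncl_jsInvariantsEquiv]

/-- **The square in `Rep`**: under the dictionaries, `J_S ⟶ J'` on `Gal(Ω/E')`-invariants is the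
extension by `1` at the layer `E'`. -/
theorem jsToJFull_invariants_square (hS : S.Finite) :
    (Rep.quotientToInvariantsFunctor ℤ (layerRes h).ker).map
        ((Rep.resFunctor E.fixingSubgroup.subtype).map (jsToJFullHom L Ω S hS)) ≫
      (jFullInvariantsIso L h hopen).hom =
    (jsInvariantsIso L S h hopen).hom ≫
      (Rep.resFunctor (layerEquiv h).toMonoidHom).map
        (extendRepHom ((layer h) ≃ₐ[E] (layer h)) (layer h) S hS) := by
  ext x
  exact jFullInvariantsEquiv_of_jsToJFull L S h hopen hS x _ rfl

end Fermat.Agent.CFT.PT
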