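import Fermat.Agent.CFT.PT.LocalGlobalAbstract
import Fermat.Agent.CFT.Global.SModules
import Fermat.Agent.S55.LCBridgeLocal

/-!
# D2a: the localisation data of `J_S` at the places of an open subgroup

For a prime `q`, `σ ∈ G_ℚ` and a subgroup `U ≤ G_ℚ`:

* `embAt q σ : ℚ̄ → ℚ̄_q`, the embedding `padicEmbedding q ∘ σ`;
* `locSub q σ U ≤ G_{ℚ_q}`, the subgroup `{γ | σ⁻¹ r(γ) σ ∈ U}` (`r = localGaloisToGlobal q`):
  the decomposition group of the place of `ℚ̄^U` defined by `embAt q σ`;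
* `locHom q σ U : locSub q σ U →* U`, `γ ↦ σ⁻¹ r(γ) σ`;
* `evAt q σ : semiLocalUnits q ℚ̄ →* ℚ̄_qˣ`, evaluation at `embAt q σ`, and its equivariance
  `evAt_locHom_smul`;
* `jsLocHom`: the resulting morphism of representations
  `Rep.res (locHom q σ U) (Rep.res U.subtype (jsRep L ℚ̄ S)) ⟶ Rep.res _ (ℚ̄_qˣ)` for `q ∈ S`.
-/

set_option autoImplicit false
set_option linter.unusedSectionVars false

open CategoryTheory groupCohomology

noncomputable section

namespace Fermat.Agent.CFT.PT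

open Fermat.Agent.CFT

local notation "Qb" => AlgebraicClosure ℚ
local notation "GQ" => (AlgebraicClosure ℚ ≃ₐ[ℚ] AlgebraicClosure ℚ)

section Emb

variable (q : ℕ) [Fact q.Prime]

local notation "Ω" => PadicAlgCl q

/-- The embedding `padicEmbedding q ∘ σ : ℚ̄ → ℚ̄_q`. -/
def embAt (σ : GQ) : LocalEmb q Qb :=
  ((padicEmbedding q : Qb →ₐ[ℚ] Ω) : Qb →+* Ω).comp ((σ : Qb ≃+* Qb) : Qb →+* Qb)

@[simp]
theorem embAt_apply (σ : GQ) (x : Qb) : embAt q σ x = padicEmbedding q (σ x) := rfl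

/-- `γ ∘ embAt σ = embAt (r(γ) σ)`. -/
theorem smul_embAt (γ : Gq q) (σ : GQ) :
    γ • embAt q σ = embAt q (localGaloisToGlobal q γ * σ) := by
  ext x
  rw [localEmb_smul_apply, embAt_apply, embAt_apply, AlgEquiv.mul_apply,
    padicEmbedding_localGaloisToGlobal]

/-- `embAt σ ∘ g = embAt (σ g)`. -/
theorem embAt_comp (σ g : GQ) :
    (embAt q σ).comp (MulSemiringAction.toRingHom GQ Qb g) = embAt q (σ * g) := by
  ext x
  rfl

/-- Evaluation of semi-local units at `embAt q σ`. -/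
def evAt (σ : GQ) : semiLocalUnits q Qb →* Ωˣ where
  toFun f := (f : LocalEmb q Qb → Ωˣ) (embAt q σ)
  map_one' := rfl
  map_mul' _ _ := rfl

@[simp]
theorem evAt_apply (σ : GQ) (f : semiLocalUnits q Qb) :
    evAt q σ f = (f : LocalEmb q Qb → Ωˣ) (embAt q σ) := rfl

theorem evAt_smul (σ g : GQ) (f : semiLocalUnits q Qb) :
    evAt q σ (g • f) = evAt q (σ * g) f := by
  rw [evAt_apply, semiLocal_smul_apply, embAt_comp, evAt_apply]

theorem evAt_localGaloisToGlobal_mul (γ : Gq q) (σ : GQ) (f : semiLocalUnits q Qb) :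
    evAt q (localGaloisToGlobal q γ * σ) f = gqUnitsHom γ (evAt q σ f) := by
  rw [evAt_apply, ← smul_embAt, f.2 γ (embAt q σ), evAt_apply]

/-- The conjugated localisation map `γ ↦ σ⁻¹ r(γ) σ`. -/
def conjLoc (σ : GQ) : Gq q →* GQ :=
  (MulAut.conj σ⁻¹).toMonoidHom.comp (localGaloisToGlobal q)

@[simp]
theorem conjLoc_apply (σ : GQ) (γ : Gq q) :
    conjLoc q σ γ = σ⁻¹ * localGaloisToGlobal q γ * σ := by
  simp [conjLoc]

/-- The decomposition group of the place of `ℚ̄^U` defined by `embAt q σ`. -/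
def locSub (σ : GQ) (U : Subgroup GQ) : Subgroup (Gq q) := U.comap (conjLoc q σ)

theorem mem_locSub {σ : GQ} {U : Subgroup GQ} {γ : Gq q} :
    γ ∈ locSub q σ U ↔ σ⁻¹ * localGaloisToGlobal q γ * σ ∈ U := by
  rw [locSub, Subgroup.mem_comap, conjLoc_apply]

/-- `γ ↦ σ⁻¹ r(γ) σ` as a homomorphism `locSub q σ U →* U`. -/
def locHom (σ : GQ) (U : Subgroup GQ) : locSub q σ U →* U :=
  (conjLoc q σ).subgroupComap U

@[simp]
theorem coe_locHom (σ : GQ) (U : Subgroup GQ) (γ : locSub q σ U) :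
    ((locHom q σ U γ : U) : GQ) = σ⁻¹ * localGaloisToGlobal q (γ : Gq q) * σ :=
  conjLoc_apply q σ γ

/-- Equivariance of the evaluation: `ev_σ (f(γ) • x) = γ • ev_σ x`. -/
theorem evAt_locHom_smul (σ : GQ) (U : Subgroup GQ) (γ : locSub q σ U)
    (f : semiLocalUnits q Qb) :
    evAt q σ (((locHom q σ U γ : U) : GQ) • f) = gqUnitsHom (γ : Gq q) (evAt q σ f) := by
  rw [evAt_smul, coe_locHom, ← evAt_localGaloisToGlobal_mul]
  congr 1
  group

/-- The `G_{ℚ_q}`-module `ℚ̄_qˣ`. -/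
abbrev locUnitsRep : Rep ℤ (Gq q) := Rep.ofAlgebraAutOnUnits ℚ_[q] Ω

theorem locUnitsRep_ρ_apply (γ : Gq q) (u : Additive Ωˣ) :
    (locUnitsRep q).ρ γ u = Additive.ofMul (gqUnitsHom γ (Additive.toMul u)) := by
  apply Additive.toMul.injective
  apply Units.ext
  rfl

end Emb

section JS

/-- Shortcut instance (instance search for the action of `G_ℚ` on `J_S` is slow). -/
local instance (priority := high) instMDMAJS (L : LevelStructure GQ) (S : Set Nat.Primes) :
    MulDistribMulAction GQ ↥(JS L Qb S) :=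
  @smoothAction GQ _ L (SIdeleProd Qb S) _ (sIdeleProdAction Qb S)

/-- Shortcut instance. -/
local instance (priority := high) instSMulJS (L : LevelStructure GQ) (S : Set Nat.Primes) :
    SMul GQ ↥(JS L Qb S) := (instMDMAJS L S).toMulAction.toSMul

variable (L : LevelStructure GQ) (S : Set Nat.Primes) (q : Nat.Primes) (hq : q ∈ S)

local notation "Ω" => PadicAlgCl ((q : Nat.Primes) : ℕ)

/-- The component at `q ∈ S` of an element of `J_S`. -/
def jsProj : JS L Qb S →* semiLocalUnits ((q : Nat.Primes) : ℕ) Qb where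
  toFun x := (x : SIdeleProd Qb S) ⟨q, hq⟩
  map_one' := rfl
  map_mul' _ _ := rfl

@[simp]
theorem jsProj_apply (x : JS L Qb S) : jsProj L S q hq x = (x : SIdeleProd Qb S) ⟨q, hq⟩ := rfl

theorem jsProj_smul (g : GQ) (x : JS L Qb S) : jsProj L S q hq (g • x) = g • jsProj L S q hq x :=
  rfl

variable (σ : GQ) (U : Subgroup GQ)

/-- Evaluation of the `q`-component of an element of `J_S` at `embAt q σ`. -/
def jsEv : JS L Qb S →* Ωˣ := (evAt ((q : Nat.Primes) : ℕ) σ).comp (jsProj L S q hq)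

@[simp]
theorem jsEv_apply (x : JS L Qb S) :
    jsEv L S q hq σ x = evAt ((q : Nat.Primes) : ℕ) σ ((x : SIdeleProd Qb S) ⟨q, hq⟩) := rfl

theorem jsEv_locHom_smul (γ : locSub ((q : Nat.Primes) : ℕ) σ U) (x : JS L Qb S) :
    jsEv L S q hq σ (((locHom ((q : Nat.Primes) : ℕ) σ U γ : U) : GQ) • x) =
      gqUnitsHom (γ : Gq ((q : Nat.Primes) : ℕ)) (jsEv L S q hq σ x) :=
  evAt_locHom_smul ((q : Nat.Primes) : ℕ) σ U γ _

/-- The localisation morphism `J_S|_U → ℚ̄_qˣ` along `locHom q σ U`. -/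
def jsLocHom :
    Rep.res (locHom ((q : Nat.Primes) : ℕ) σ U) (Rep.res U.subtype (jsRep L Qb S)) ⟶
      Rep.res (locSub ((q : Nat.Primes) : ℕ) σ U).subtype
        (locUnitsRep ((q : Nat.Primes) : ℕ)) :=
  Rep.ofHom ⟨(jsEv L S q hq σ).toAdditive.toIntLinearMap, fun γ => by
    refine LinearMap.ext fun (x : Additive ↥(JS L Qb S)) => ?_
    show Additive.ofMul (jsEv L S q hq σ
        (((locHom ((q : Nat.Primes) : ℕ) σ U γ : U) : GQ) • Additive.toMul x)) =
      (locUnitsRep ((q : Nat.Primes) : ℕ)).ρ (γ : Gq ((q : Nat.Primes) : ℕ))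
        (Additive.ofMul (jsEv L S q hq σ (Additive.toMul x)))
    rw [jsEv_locHom_smul]
    exact (locUnitsRep_ρ_apply ((q : Nat.Primes) : ℕ) (γ : Gq ((q : Nat.Primes) : ℕ)) _).symm⟩

@[simp]
theorem jsLocHom_apply (x : Additive (JS L Qb S)) :
    (jsLocHom L S q hq σ U).hom x = Additive.ofMul (jsEv L S q hq σ (Additive.toMul x)) := rfl

end JS

end Fermat.Agent.CFT.PT

end
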