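import Fermat.Agent.CFT.Local.LCLocalFamily
import Fermat.Agent.CFT.HyperExt.LCDuality

/-!
# Layer D (D6): local duality, generic plug for a level group of Galois type

`(k, Ω)` a Galois extension with a level structure `L` on `Gal(Ω/k)` of Galois type
(`hGal`, `hcof`), `T : LayerInvSystem k Ω` a system of invariant maps, `p` a prime.

* `coprime_index_fixingSubgroup_adjoin_primitiveRoot`: `[k(ζ_p) : k]` is prime to `p`;
* `gal_local_duality`: the plug of `lc_duality` with helper22's invariant family
  (`galInvHp`, `galInvHpS`, `galInvHp_corH₂`): if the base case (`stdRes` perfect) holds for all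
  open subgroups `S ≤ G₀`, `G₀` open of index prime to `p`, then every finite smooth `p`-torsion
  module `M` of `Gal(Ω/k)` is perfect:
  `Ext^r(M, Ωˣ) ≅ Hom(H^{2-r}(M), ℤ/p)`, `r = 1, 2`;
* `gal_local_duality_zeta`: the same with `G₀ = Gal(Ω/k(ζ_p))`.
-/

set_option autoImplicit false
set_option linter.style.haveILetI false
set_option linter.unusedSectionVars false

open CategoryTheory groupCohomology IntermediateField

namespace Fermat.Agent.CFT

open GaloisTower LayerMaps

section Gal

variable {k Ω : Type} [Field k] [Field Ω] [Algebra k Ω] [IsGalois k Ω]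

/-- `Gal(Ω/k(ζ))` is the kernel of the cyclotomic character. -/
theorem fixingSubgroup_adjoin_primitiveRoot {p : ℕ} [NeZero p] {ζ : Ω}
    (hζ : IsPrimitiveRoot ζ p) (hp1 : 1 < p) :
    (IntermediateField.adjoin k {ζ}).fixingSubgroup = (hζ.autToPow k).ker := by
  ext σ
  have hspec : ζ ^ ((hζ.autToPow k σ : (ZMod p)ˣ) : ZMod p).val = σ ζ := hζ.autToPow_spec k σ
  have hfix : σ ∈ (IntermediateField.adjoin k {ζ}).fixingSubgroup ↔ σ ζ = ζ := by
    rw [IntermediateField.mem_fixingSubgroup_iff]
    constructor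
    · intro h
      exact h ζ (IntermediateField.mem_adjoin_simple_self k ζ)
    · intro h x hx
      induction hx using IntermediateField.adjoin_induction with
      | mem y hy =>
        rw [Set.mem_singleton_iff] at hy
        rw [hy, h]
      | algebraMap r => exact σ.commutes r
      | add x y _ _ hx hy => rw [map_add, hx, hy]
      | inv x _ hx => rw [map_inv₀, hx]
      | mul x y _ _ hx hy => rw [map_mul, hx, hy]
  rw [hfix, MonoidHom.mem_ker]
  constructor
  · intro h1
    rw [h1] at hspec
    have h2 : ((hζ.autToPow k σ : (ZMod p)ˣ) : ZMod p).val = 1 := by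
      haveI : Fact (1 < p) := ⟨hp1⟩
      refine hζ.pow_inj (ZMod.val_lt _) hp1 ?_
      rw [hspec, pow_one]
    apply Units.ext
    haveI : Fact (1 < p) := ⟨hp1⟩
    rw [Units.val_one, ← ZMod.natCast_zmod_val ((hζ.autToPow k σ : (ZMod p)ˣ) : ZMod p), h2,
      Nat.cast_one]
  · intro h1
    haveI : Fact (1 < p) := ⟨hp1⟩
    rw [h1, Units.val_one, ZMod.val_one, pow_one] at hspec
    exact hspec.symm

/-- `[k(ζ_p) : k]` is prime to `p`. -/
theorem coprime_index_fixingSubgroup_adjoin_primitiveRoot {p : ℕ} [Fact p.Prime] {ζ : Ω}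
    (hζ : IsPrimitiveRoot ζ p) :
    Nat.Coprime p (IntermediateField.adjoin k {ζ}).fixingSubgroup.index := by
  have hp : p.Prime := Fact.out
  haveI : NeZero p := ⟨hp.ne_zero⟩
  rw [fixingSubgroup_adjoin_primitiveRoot hζ hp.one_lt, Subgroup.index_ker]
  have h1 : Nat.card (hζ.autToPow k).range ∣ Nat.card (ZMod p)ˣ :=
    Subgroup.card_subgroup_dvd_card _
  have h2 : Nat.card (ZMod p)ˣ = p - 1 := by
    rw [Nat.card_eq_fintype_card, ZMod.card_units_eq_totient, Nat.totient_prime hp]
  rw [h2] at h1
  refine Nat.Coprime.coprime_dvd_right h1 ?_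
  rw [Nat.Prime.coprime_iff_not_dvd hp]
  exact Nat.not_dvd_of_pos_of_lt (by have := hp.one_lt; omega) (by have := hp.one_lt; omega)

variable (L : LevelStructure (Ω ≃ₐ[k] Ω))
  (hGal : ∀ N, L.IsLevel N → ∃ F : IntermediateField k Ω,
    FiniteDimensional k F ∧ Normal k F ∧ N = F.fixingSubgroup)
  (hcof : ∀ E' : IntermediateField k Ω, FiniteDimensional k E' →
    ∃ N, L.IsLevel N ∧ N ≤ E'.fixingSubgroup)
  (T : LayerInvSystem k Ω) (p : ℕ) [Fact p.Prime]

/-- **Local duality, generic plug.**  If the base case (the standard resolution of `𝔽_p` is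
perfect) holds over every open subgroup `S ≤ G₀`, where `G₀` is an open subgroup of index prime to
`p`, then every finite smooth `p`-torsion `Gal(Ω/k)`-module is perfect for the pairing into
`H²(Gal(Ω/k), Ωˣ)[p] ≅ ℤ/p`. -/
theorem gal_local_duality (G₀ : Subgroup (Ω ≃ₐ[k] Ω)) (hG₀ : L.IsOpen G₀)
    (hcop : Nat.Coprime p G₀.index)
    (hbase : ∀ (S : Subgroup (Ω ≃ₐ[k] Ω)) (hS : L.IsOpen S), S ≤ G₀ →
      (stdRes (L.comap S.subtype) p).IsPerfect p
        (LC.isSmooth_res (S := S) (isSmooth_galUnits L hcof)) zmod_nsmul_self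
        (galInvHpS L hGal hcof T p S hS))
    (M : PMod L p) :
    M.res.IsPerfect p (isSmooth_galUnits L hcof) M.tors (galInvHp L hGal hcof T p) :=
  lc_duality (isSmooth_galUnits L hcof) G₀ hG₀ hcop (galInvHp L hGal hcof T p)
    (fun S hS => galInvHpS L hGal hcof T p S hS)
    (fun S hS _ => galInvHp_corH₂ L hGal hcof T p S hS) hbase M

/-- **Local duality** with `G₀ = Gal(Ω/k(ζ_p))`: the base case is only needed over the finite
extensions of `k` containing `ζ_p`. -/
theorem gal_local_duality_zeta {ζ : Ω} (hζ : IsPrimitiveRoot ζ p)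
    (hbase : ∀ (S : Subgroup (Ω ≃ₐ[k] Ω)) (hS : L.IsOpen S),
      S ≤ (IntermediateField.adjoin k {ζ}).fixingSubgroup →
      (stdRes (L.comap S.subtype) p).IsPerfect p
        (LC.isSmooth_res (S := S) (isSmooth_galUnits L hcof)) zmod_nsmul_self
        (galInvHpS L hGal hcof T p S hS))
    (M : PMod L p) :
    M.res.IsPerfect p (isSmooth_galUnits L hcof) M.tors (galInvHp L hGal hcof T p) := by
  haveI : FiniteDimensional k (IntermediateField.adjoin k {ζ}) :=
    IntermediateField.adjoin.finiteDimensional (Algebra.IsIntegral.isIntegral ζ)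
  exact gal_local_duality L hGal hcof T p _
    (isOpen_fixingSubgroup L hcof (IntermediateField.adjoin k {ζ}))
    (coprime_index_fixingSubgroup_adjoin_primitiveRoot hζ) hbase M

end Gal

end Fermat.Agent.CFT
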