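import Fermat.Agent.CFT.PT.InflInjective

/-!
# Abstract local-global injectivity for level cohomology in degree `2`

Let `(G, L)` be a level group, `A` a smooth module and `(H i, LH i, f i : H i →* G, B i,
π i : Rep.res (f i) A ⟶ B i)` a family of "localisation data".  If

* (`hloc`) `LC.H1` of the preimages of the levels of `G` in the `H i` vanishes on `B i`
  (Hilbert 90 at the local places), and
* (`hfin`) a `2`-cocycle of a finite level `N` of `G` is a coboundary at the level `N` as soon as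
  all its localisations are coboundaries at the level `(f i)⁻¹ N` (the finite-level Hasse
  principle for the semi-local module),

then an LC `2`-cocycle of `G` all of whose localisations are LC coboundaries is an LC coboundary
(`LC.mem_B₂_of_forall_locC₂_mem_B₂`).
-/

set_option autoImplicit false

universe u

open CategoryTheory groupCohomology

namespace Fermat.Agent.CFT

namespace LC

variable {k G : Type u} [CommRing k] [Group G] {L : LevelStructure G} {A : Rep.{u} k G}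

section Loc

variable {H : Type u} [Group H] (f : H →* G) {B : Rep.{u} k H} (π : Rep.res f A ⟶ B)

/-- Localisation of `1`-cochains: pull back along `f`, push forward along `π`. -/
def locC₁ (x : G → A) : H → B := fun h => π.hom (x (f h))

/-- Localisation of `2`-cochains: pull back along `f`, push forward along `π`. -/
def locC₂ (x : G × G → A) : H × H → B := fun p => π.hom (x (f p.1, f p.2))

@[simp] lemma locC₁_apply (x : G → A) (h : H) : locC₁ f π x h = π.hom (x (f h)) := rfl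

@[simp] lemma locC₂_apply (x : G × G → A) (h h' : H) :
    locC₂ f π x (h, h') = π.hom (x (f h, f h')) := rfl

lemma π_ρ_apply (h : H) (a : A) : π.hom (A.ρ (f h) a) = B.ρ h (π.hom a) :=
  Rep.hom_comm_apply π h a

lemma locC₂_d₁₂ (x : G → A) :
    locC₂ f π ((d₁₂ A).hom x) = (d₁₂ B).hom (locC₁ f π x) := by
  funext ⟨h, h'⟩
  rw [locC₂_apply, d₁₂_hom_apply, d₁₂_hom_apply]
  simp only [locC₁_apply, map_add, map_sub, map_mul]
  rw [π_ρ_apply]

lemma locC₂_mem_cocycles₂ {x : G × G → A} (hx : x ∈ cocycles₂ A) :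
    locC₂ f π x ∈ cocycles₂ B := by
  rw [mem_cocycles₂_iff] at hx ⊢
  intro g h j
  simp only [locC₂_apply, map_mul]
  rw [← map_add, hx (f g) (f h) (f j), map_add, π_ρ_apply]

lemma locC₁_isLC {LH : LevelStructure H} (hf : LH.Compat L f) {x : G → A} (hx : L.IsLC₁ x) :
    LH.IsLC₁ (locC₁ f π x) :=
  (hf.isLC₁ hx).comp π.hom

lemma locC₂_isLC {LH : LevelStructure H} (hf : LH.Compat L f) {x : G × G → A}
    (hx : L.IsLC₂ x) : LH.IsLC₂ (locC₂ f π x) :=
  (hf.isLC₂ hx).comp π.hom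

lemma locC₂_mem_B₂ {LH : LevelStructure H} (hf : LH.Compat L f) {x : G × G → A}
    (hx : x ∈ B₂ L A) : locC₂ f π x ∈ B₂ LH B := by
  obtain ⟨z, hz, rfl⟩ := mem_B₂_iff.1 hx
  exact mem_B₂_iff.2 ⟨locC₁ f π z, locC₁_isLC f π hf hz, (locC₂_d₁₂ f π z).symm⟩

/-- The localisation of a cochain of level `N` has level `f⁻¹ N`. -/
lemma locC₂_inv {N : Subgroup G} {x : G × G → A}
    (hinv : ∀ g h : G, ∀ s ∈ N, ∀ t ∈ N, x (g * s, h * t) = x (g, h)) :
    ∀ g h : H, ∀ s ∈ N.comap f, ∀ t ∈ N.comap f,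
      locC₂ f π x (g * s, h * t) = locC₂ f π x (g, h) := by
  intro g h s hs t ht
  simp only [locC₂_apply, map_mul]
  rw [hinv (f g) (f h) (f s) hs (f t) ht]

lemma locC₂_fix {N : Subgroup G} {x : G × G → A}
    (hfix : ∀ p : G × G, ∀ s ∈ N, A.ρ s (x p) = x p) :
    ∀ p : H × H, ∀ s ∈ N.comap f, B.ρ s (locC₂ f π x p) = locC₂ f π x p := by
  rintro ⟨g, h⟩ s hs
  rw [locC₂_apply, ← π_ρ_apply, hfix _ (f s) hs]

end Loc

/-- **Abstract local-global principle in degree `2`.** -/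
theorem mem_B₂_of_forall_locC₂_mem_B₂ (hA : IsSmooth L A)
    {ι : Type*} {H : ι → Type u} [∀ i, Group (H i)] (LH : ∀ i, LevelStructure (H i))
    (f : ∀ i, H i →* G) (B : ∀ i, Rep.{u} k (H i)) (π : ∀ i, Rep.res (f i) A ⟶ B i)
    (hloc : ∀ (i : ι) (N : Subgroup G), L.IsLevel N →
      H1VanishesOn (LH i) (B i) (N.comap (f i)))
    (hfin : ∀ N : Subgroup G, L.IsLevel N → ∀ X : G × G → A, X ∈ cocycles₂ A →
      (∀ g h : G, ∀ s ∈ N, ∀ t ∈ N, X (g * s, h * t) = X (g, h)) →
      (∀ p : G × G, ∀ s ∈ N, A.ρ s (X p) = X p) →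
      (∀ i, IsCobAtLevel (B i) (N.comap (f i)) (locC₂ (f i) (π i) X)) → IsCobAtLevel A N X)
    {x : G × G → A} (hx : x ∈ Z₂ L A)
    (hxloc : ∀ i, locC₂ (f i) (π i) x ∈ B₂ (LH i) (B i)) : x ∈ B₂ L A := by
  obtain ⟨hxcoc, hxLC⟩ := mem_Z₂_iff.1 hx
  obtain ⟨N, hN, hinv, hfix⟩ := LevelStructure.IsLC₂.exists_good hA hxLC
  have := L.normal hN
  have hi : ∀ i, IsCobAtLevel (B i) (N.comap (f i)) (locC₂ (f i) (π i) x) := by
    intro i
    obtain ⟨z, hzLC, hz⟩ := mem_B₂_iff.1 (hxloc i)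
    exact exists_level_cochain_of_d₁₂_eq (hloc i N hN) _
      (locC₂_mem_cocycles₂ (f i) (π i) hxcoc) (locC₂_inv (f i) (π i) hinv)
      (locC₂_fix (f i) (π i) hfix) z hzLC hz
  obtain ⟨w, hwinv, -, hdw⟩ := hfin N hN x hxcoc hinv hfix hi
  exact mem_B₂_iff.2 ⟨w, ⟨N, hN, hwinv⟩, hdw⟩

end LC

end Fermat.Agent.CFT
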