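import Fermat.Agent.CFT.PT.JSLocCoind
import Fermat.Agent.CFT.PT.ESDivisible

/-!
# D3e, local facts: the local module `ℚ̄_qˣ` is divisible and its `p`-torsion is `μ_p`

For `q ∈ S` and `X_q := primeUnitsRep q` (the units of `ℚ̄_q` as a module over the local Galois
group of the Prelude):

* `primeUnitsRep_divisible_of_ne_zero` : `X_q` is `n`-divisible for every `n ≠ 0` (`ℚ̄_q` algebraically closed);
* `kappaQ p S hpS q : Res_{G_q} μ_p ⟶ X_q`, the composite
  `Res μ_p ⟶ Res E_S ⟶ Res J_S ⟶ X_q` (`muToEs`, `esToJsHom`, `evQ`): it is `ζ ↦ τ₀(ζ)`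
  (`kappaQ_hom_apply`), injective (`kappaQ_injective`), and every element of `X_q` killed by `p` is
  in its range (`exists_kappaQ_eq_of_zsmul_eq_zero`).
-/

set_option autoImplicit false

open CategoryTheory ExtCitation

noncomputable section

namespace Fermat.Agent.CFT.PT

open Fermat.Agent.CFT Fermat.Agent.S55

local notation "Qb" => AlgebraicClosure ℚ
local notation "GQ" => (AlgebraicClosure ℚ ≃ₐ[ℚ] AlgebraicClosure ℚ)

section Divisible

/-- **(F2)** The units of the algebraically closed field `ℚ̄_q` are divisible. -/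
theorem primeUnitsRep_divisible_of_ne_zero (q : Nat.Primes) {n : ℕ} (hn : n ≠ 0) (x : primeUnitsRep q) :
    ∃ y : primeUnitsRep q, (n : ℤ) • y = x := by
  let u : (PadicAlgCl (q : ℕ))ˣ := Additive.toMul (x : Additive (PadicAlgCl (q : ℕ))ˣ)
  obtain ⟨z, hz⟩ := IsAlgClosed.exists_pow_nat_eq ((u : (PadicAlgCl (q : ℕ))ˣ) : PadicAlgCl (q : ℕ))
    (Nat.pos_of_ne_zero hn)
  have hz0 : z ≠ 0 := by
    rintro rfl
    rw [zero_pow hn] at hz
    exact u.ne_zero hz.symm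
  have hpow : (Units.mk0 z hz0) ^ n = u := Units.ext (by simpa using hz)
  refine ⟨(Additive.ofMul (Units.mk0 z hz0) : Additive (PadicAlgCl (q : ℕ))ˣ), ?_⟩
  refine (Nat.cast_smul_eq_nsmul ℤ n _).trans ?_
  exact congrArg Additive.ofMul hpow

end Divisible

section Kappa

variable (p : ℕ) [hp : Fact p.Prime] (S : Finset Nat.Primes)

/-- **(F3)** The local comparison map `Res_{G_q} μ_p ⟶ Res E_S ⟶ Res J_S ⟶ ℚ̄_qˣ`. -/
def kappaQ (hpS : pPrime p ∈ S) (q : ↥S) :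
    Rep.res (ExtCitation.primeLocalToGlobal q.1) (muRep p) ⟶ primeUnitsRep q.1 :=
  Rep.resMap (ExtCitation.primeLocalToGlobal q.1) (muToEs p S hpS) ≫
    Rep.resMap (ExtCitation.primeLocalToGlobal q.1)
      (esToJsHom (globalLevel S) Qb (↑S : Set Nat.Primes)) ≫
    evQ (globalLevel S) S q

/-- `kappaQ` is `ζ ↦ τ₀(ζ)`, `τ₀ = padicEmbedding q`. -/
theorem kappaQ_hom_apply (hpS : pPrime p ∈ S) (q : ↥S) (ζ : Additive (rootsOfUnity p Qb)) :
    (kappaQ p S hpS q).hom ζ =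
      Additive.ofMul (Units.map ((padicEmbedding (q.1 : ℕ) : Qb →+* PadicAlgCl (q.1 : ℕ)) :
        Qb →* PadicAlgCl (q.1 : ℕ)) ((Additive.toMul ζ : rootsOfUnity p Qb) : Qbˣ)) := rfl

theorem kappaQ_injective (hpS : pPrime p ∈ S) (q : ↥S) :
    Function.Injective (kappaQ p S hpS q).hom := by
  intro a b h
  have ha := kappaQ_hom_apply p S hpS q a
  have hb := kappaQ_hom_apply p S hpS q b
  have h1 : Additive.ofMul (Units.map ((padicEmbedding (q.1 : ℕ) : Qb →+* PadicAlgCl (q.1 : ℕ)) :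
        Qb →* PadicAlgCl (q.1 : ℕ)) ((Additive.toMul a : rootsOfUnity p Qb) : Qbˣ)) =
      Additive.ofMul (Units.map ((padicEmbedding (q.1 : ℕ) : Qb →+* PadicAlgCl (q.1 : ℕ)) :
        Qb →* PadicAlgCl (q.1 : ℕ)) ((Additive.toMul b : rootsOfUnity p Qb) : Qbˣ)) := by
    rw [← ha, ← hb, h]
  have h2 := Additive.ofMul.injective h1
  have hinj : Function.Injective (Units.map ((padicEmbedding (q.1 : ℕ) :
      Qb →+* PadicAlgCl (q.1 : ℕ)) : Qb →* PadicAlgCl (q.1 : ℕ))) :=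
    Units.map_injective (padicEmbedding (q.1 : ℕ) : Qb →+* PadicAlgCl (q.1 : ℕ)).injective
  exact Additive.toMul.injective (Subtype.ext (hinj h2))

/-- The `p`-torsion of `ℚ̄_qˣ` is the image of `μ_p(ℚ̄)`. -/
theorem exists_kappaQ_eq_of_zsmul_eq_zero (hpS : pPrime p ∈ S) (q : ↥S)
    (x : primeUnitsRep q.1) (hx : (p : ℤ) • x = 0) :
    ∃ ζ : Additive (rootsOfUnity p Qb), (kappaQ p S hpS q).hom ζ = x := by
  let u : (PadicAlgCl (q.1 : ℕ))ˣ := Additive.toMul (x : Additive (PadicAlgCl (q.1 : ℕ))ˣ)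
  have hu : u ^ p = 1 := by
    have h1 : p • x = 0 := (Nat.cast_smul_eq_nsmul ℤ p x).symm.trans hx
    exact congrArg Additive.toMul h1
  have hu' : ((u : (PadicAlgCl (q.1 : ℕ))ˣ) : PadicAlgCl (q.1 : ℕ)) ^ p = 1 := by
    have := congrArg (fun v : (PadicAlgCl (q.1 : ℕ))ˣ => (v : PadicAlgCl (q.1 : ℕ))) hu
    simpa using this
  -- `u` is algebraic over `ℚ`, hence in the image of `ℚ̄`
  have hP : (Polynomial.X ^ p - 1 : Polynomial ℚ) ≠ 0 :=
    Polynomial.X_pow_sub_C_ne_zero hp.out.pos (1 : ℚ)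
  obtain ⟨b, hb⟩ := exists_padicEmbedding_eq_of_aeval_eq_zero (q.1 : ℕ) hP
    (β := ((u : (PadicAlgCl (q.1 : ℕ))ˣ) : PadicAlgCl (q.1 : ℕ))) (by
      simp [hu'])
  have hbp : b ^ p = 1 := by
    apply (padicEmbedding (q.1 : ℕ) : Qb →+* PadicAlgCl (q.1 : ℕ)).injective
    rw [map_pow, map_one]
    exact (congrArg (· ^ p) hb).trans hu'
  have hb0 : b ≠ 0 := by
    rintro rfl
    rw [zero_pow hp.out.ne_zero] at hbp
    exact zero_ne_one hbp
  let bu : Qbˣ := Units.mk0 b hb0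
  have hbu : bu ∈ rootsOfUnity p Qb := by
    rw [mem_rootsOfUnity]
    exact Units.ext (by simpa [bu] using hbp)
  refine ⟨Additive.ofMul (⟨bu, hbu⟩ : rootsOfUnity p Qb), ?_⟩
  rw [kappaQ_hom_apply]
  show Additive.ofMul (Units.map _ bu) = x
  have : Units.map ((padicEmbedding (q.1 : ℕ) : Qb →+* PadicAlgCl (q.1 : ℕ)) :
      Qb →* PadicAlgCl (q.1 : ℕ)) bu = u := Units.ext hb
  rw [this]
  rfl

end Kappa

end Fermat.Agent.CFT.PT
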