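import Fermat.Agent.CFT.PT.MainAbstract
import Fermat.Agent.CFT.PT.JSInst
import Fermat.Agent.CFT.PT.ExtResNat

/-!
# Poitou–Tate duality for `Ш¹`, `Ш²` over `ℚ_S`: the concrete assembly (node D3 Main)

`PT.main_js`: `PT.main_abstract` instantiated at
`G = G_ℚ` with `globalLevel S`, the local groups `G_{ℚ_q}` (`q ∈ S`), the sequence
`0 → E_S → J_S → C_S → 0`, the local modules `ℚ̄_qˣ` and the evaluations `evQ`.

All Shapiro-type hypotheses are discharged (`JSInst`, `JSLocCoind`, `ExtResNat.pair_loc`).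
The remaining hypotheses are the three deep inputs:
* `hPG`: global duality for `C_S` (`dual1` bijective), nodes A8 + C9 (D7);
* `hPL`: local duality for `ℚ̄_qˣ` (`dual1` surjective), nodes A8 + B7 (D6);
* `hG3`: the reciprocity sum formula `inv_G ∘ (J_S → C_S) = Σ_q inv_q ∘ loc_q` (D3c).
-/

set_option autoImplicit false

open CategoryTheory

namespace Fermat.Agent.CFT.PT

open Fermat.Agent.CFT Fermat.Agent.S55 ExtCitation HExt LatticePair

attribute [local instance 2000] Rep.hV2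

local notation "Qb" => AlgebraicClosure ℚ
local notation "GQ" => (AlgebraicClosure ℚ ≃ₐ[ℚ] AlgebraicClosure ℚ)

variable (S : Finset Nat.Primes)

/-- `E_S ⟶ J_S` is injective as soon as `S` is nonempty. -/
theorem esToJsHom_injective (hS : S.Nonempty) :
    Function.Injective (esToJsHom (globalLevel S) Qb (↑S : Set Nat.Primes)).hom := by
  obtain ⟨q, hq⟩ := hS
  have : Fact (q : ℕ).Prime := ⟨q.2⟩
  have hne : ∃ q : (↑S : Set Nat.Primes), Nonempty (LocalEmb ((q : Nat.Primes) : ℕ) Qb) :=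
    ⟨⟨q, Finset.mem_coe.2 hq⟩, ⟨emb₀ (q : ℕ)⟩⟩
  intro x y hxy
  exact congrArg Additive.ofMul (esToJs_injective (globalLevel S) Qb (↑S : Set Nat.Primes) hne
    (congrArg Additive.toMul hxy))

/-- `J_S ⟶ C_S` is surjective. -/
theorem jsToCsHom_surjective :
    Function.Surjective (jsToCsHom (globalLevel S) Qb (↑S : Set Nat.Primes)).hom := by
  intro c
  obtain ⟨x, hx⟩ := QuotientGroup.mk_surjective (Additive.toMul c)
  exact ⟨Additive.ofMul x, congrArg Additive.ofMul hx⟩

/-- `E_S ⟶ J_S ⟶ C_S` is exact. -/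
theorem exact_esToJsHom_jsToCsHom :
    Function.Exact (esToJsHom (globalLevel S) Qb (↑S : Set Nat.Primes)).hom
      (jsToCsHom (globalLevel S) Qb (↑S : Set Nat.Primes)).hom := by
  intro x
  constructor
  · intro hx
    have hx' : (QuotientGroup.mk (Additive.toMul x) :
        CS (globalLevel S) Qb (↑S : Set Nat.Primes)) = 1 := congrArg Additive.toMul hx
    obtain ⟨e, he⟩ := (QuotientGroup.eq_one_iff _).1 hx'
    exact ⟨Additive.ofMul e, congrArg Additive.ofMul he⟩
  · rintro ⟨e, rfl⟩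
    refine congrArg Additive.ofMul ?_
    exact (QuotientGroup.eq_one_iff _).2 ⟨Additive.toMul e, rfl⟩

variable (p : ℕ) [Fact p.Prime] {N : Rep.{0} ℤ GQ} (R : LatticeRes (globalLevel S) N)
  [Module.Free ℤ R.P₀] [Module.Free ℤ R.P₁] (hpN : ∀ n : N, p • n = 0)

/-- The localisation `H¹(G_ℚ, N) → ∏_{q ∈ S} H¹(G_{ℚ_q}, N)` (level cohomology of complexes). -/
noncomputable abbrev jsLoc1 :=
  mLoc1 (levelComap_global S) R

/-- The localisation `Ext²(N, E_S) → Ext²(N, J_S) → ∏_{q ∈ S} Ext²(N_q, ℚ̄_qˣ)`. -/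
noncomputable abbrev jsLoc2 :=
  mLoc2 (levelComap_global S) (isSmooth_esRep (globalLevel S) Qb (↑S : Set Nat.Primes))
    (isSmooth_jsRep (globalLevel S) Qb (↑S : Set Nat.Primes))
    (esToJsHom (globalLevel S) Qb (↑S : Set Nat.Primes))
    (fun q : ↥S => isSmooth_primeUnitsRep q.1) (evQ (globalLevel S) S) R

/-- **Poitou–Tate for `ℚ_S`, hypothesis form over the three deep inputs.** -/
theorem main_js (hS : S.Nonempty)
    (invG : LC.Hp p (isSmooth_csRep (globalLevel S) Qb (↑S : Set Nat.Primes)) 2 →+ ZMod p)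
    (invL : ∀ q : ↥S, LC.Hp p (isSmooth_primeUnitsRep q.1) 2 →+ ZMod p)
    (hPG : Function.Bijective
      (R.dual1 p (isSmooth_csRep (globalLevel S) Qb (↑S : Set Nat.Primes)) hpN invG))
    (hPL : ∀ q : ↥S, Function.Surjective
      ((R.res ((levelComap_global S).compat q)).dual1 p (isSmooth_primeUnitsRep q.1)
        (hpN_res (r := fun q : ↥S => primeLocalToGlobal q.1) p hpN q) (invL q)))
    (hG3 : ∀ (z : (LC.cx (isSmooth_jsRep (globalLevel S) Qb (↑S : Set Nat.Primes))).H 2),
      p • z = 0 →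
      ∀ (h1 : (LC.cxMap (isSmooth_jsRep (globalLevel S) Qb (↑S : Set Nat.Primes))
            (isSmooth_csRep (globalLevel S) Qb (↑S : Set Nat.Primes))
            (jsToCsHom (globalLevel S) Qb (↑S : Set Nat.Primes))).mapH 2 z ∈
          LC.Hp p (isSmooth_csRep (globalLevel S) Qb (↑S : Set Nat.Primes)) 2)
        (h2 : ∀ q : ↥S, (LC.locHom (levelComap_global S)
            (isSmooth_jsRep (globalLevel S) Qb (↑S : Set Nat.Primes))
            (fun q : ↥S => isSmooth_primeUnitsRep q.1) (evQ (globalLevel S) S) q).mapH 2 z ∈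
          LC.Hp p (isSmooth_primeUnitsRep q.1) 2),
        invG ⟨_, h1⟩ = ∑ q, invL q ⟨_, h2 q⟩) :
    Nonempty ((jsLoc2 S R).ker ≃+ ((jsLoc1 S R).ker →+ ZMod p)) :=
  main_abstract (levelComap_global S) p
    (isSmooth_esRep (globalLevel S) Qb (↑S : Set Nat.Primes))
    (isSmooth_jsRep (globalLevel S) Qb (↑S : Set Nat.Primes))
    (isSmooth_csRep (globalLevel S) Qb (↑S : Set Nat.Primes))
    (esToJsHom (globalLevel S) Qb (↑S : Set Nat.Primes))
    (jsToCsHom (globalLevel S) Qb (↑S : Set Nat.Primes))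
    (esToJsHom_injective S hS) (jsToCsHom_surjective S) (exact_esToJsHom_jsToCsHom S)
    (fun q : ↥S => isSmooth_primeUnitsRep q.1) (evQ (globalLevel S) S) R hpN invG invL
    (isLocCoind_ihom_js (globalLevel S) S R.P₀ R.smooth₀)
    (isLocCoind_ihom_js (globalLevel S) S R.P₁ R.smooth₁)
    (locH90_primeUnits S) hPG hPL hG3
    (fun q e c => LatticeRes.pair_loc (levelComap_global S) R
      (isSmooth_jsRep (globalLevel S) Qb (↑S : Set Nat.Primes))
      (fun q : ↥S => isSmooth_primeUnitsRep q.1) (evQ (globalLevel S) S) 0 1 1 rfl e c q)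

end Fermat.Agent.CFT.PT
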