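import Mathlib
import Fermat.Agent.CFT.PT.Loc2Ident
import Fermat.Agent.CFT.LC.CxPairingNat
import Fermat.Agent.CFT.HyperExt.LCDualitySES

/-!
# Identification of `Extⁿ(N, E)` with `Hⁿ(G, M₀)` in all degrees (GW-bridge, node M-ident)

Setting of `PT/Loc2Ident.lean`: a level group `(G, L)`, a family `r i : H i →* G`, a resolution
`R : LatticeRes L N`, smooth `G`-modules `E`, `J` with `j : E ⟶ J`, smooth `H i`-modules `Y i` with
`lam i : Res J ⟶ Y i`, the surjectivity hypotheses of the divisible case, and a morphism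
`θ : M₀ ⟶ Hom(N, E)` which is bijective and locally bijective (`thetaLoc`).

* `LatticeRes.identH n : Hⁿ(G, M₀) ≃ₗ Extⁿ(N, E)` (`θ_*` followed by `divEquiv`);
* `LatticeRes.identHLoc i n : Hⁿ(H i, Res M₀) ≃ₗ Extⁿ(Res N, Y i)`;
* `LatticeRes.loc_map₂_identH`: the localisation map `Extⁿ(N, E) → Extⁿ(N, J) → Extⁿ(Res N, Y i)`
  corresponds to the restriction `Hⁿ(G, M₀) → Hⁿ(H i, Res M₀)`;
* `LatticeRes.thetaPair θ : RepPairing M₀ N E`, `(m, x) ↦ θ(m)(x)`;
* `LatticeRes.pair_identH`, `LatticeRes.pair_identHLoc`: under these identifications the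
  hyper-Ext pairings are the cup products of `thetaPair θ` and of `thetaPair (thetaLoc j lam θ i)`.
-/

set_option autoImplicit false
set_option linter.unusedSectionVars false

universe u

open CategoryTheory

namespace Fermat.Agent.CFT

open HExt LevelStructure

/-- Forget the linearity of a `ℤ`-linear equivalence, for arbitrary `ℤ`-module structures (the
instance arguments are implicit, so that no instance diamond `AddCommGroup.toIntModule` /
`Cx.instModuleH` appears). -/
def addEquivOfIntLinearEquiv {A B : Type*} [AddCommGroup A] [AddCommGroup B] {mA : Module ℤ A}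
    {mB : Module ℤ B} (e : A ≃ₗ[ℤ] B) : A ≃+ B where
  toFun := e
  invFun := e.symm
  left_inv := e.left_inv
  right_inv := e.right_inv
  map_add' := e.map_add

@[simp] lemma addEquivOfIntLinearEquiv_apply {A B : Type*} [AddCommGroup A] [AddCommGroup B]
    {mA : Module ℤ A} {mB : Module ℤ B} (e : A ≃ₗ[ℤ] B) (a : A) :
    addEquivOfIntLinearEquiv e a = e a := rfl

/-! ### Naturality of the cup product on the cohomology of LC complexes -/

namespace LC

variable {k G : Type u} [CommRing k] [Group G] {L : LevelStructure G}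
  {A B C A' B' C' : Rep.{u} k G} (ψ : RepPairing A B C) (χ : RepPairing A' B' C')
  (u : A ⟶ A') (v : B ⟶ B') (w : C ⟶ C')
  (hA : IsSmooth L A) (hB : IsSmooth L B) (hC : IsSmooth L C)
  (hA' : IsSmooth L A') (hB' : IsSmooth L B') (hC' : IsSmooth L C')

/-- **Naturality of the cup product on cohomology**: if `χ(u a, v b) = w (ψ(a, b))` then
`w_* (x ∪_ψ y) = (u_* x) ∪_χ (v_* y)`. -/
theorem cxPairing_cupH_natural
    (hnat : ∀ (a : A) (b : B), χ.toLin (u.hom a) (v.hom b) = w.hom (ψ.toLin a b))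
    (a b c : ℕ) (h : a + b = c) (x : (cx hA).H a) (y : (cx hB).H b) :
    (cxMap hC hC' w).mapH c ((cxPairing ψ hA hB hC).cupH a b c h x y) =
      (cxPairing χ hA' hB' hC').cupH a b c h ((cxMap hA hA' u).mapH a x)
        ((cxMap hB hB' v).mapH b y) := by
  induction x using Cx.H.induction_on with
  | _ x hx =>
    induction y using Cx.H.induction_on with
    | _ y hy =>
      rw [Cx.Pairing.cupH_mk, Cx.Hom.mapH_mk, Cx.Hom.mapH_mk, Cx.Hom.mapH_mk, Cx.Pairing.cupH_mk]
      exact Cx.H.mk_congr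
        (cxPairing_natural ψ χ u v w hA hB hC hA' hB' hC' hnat a b c h x y) _

end LC

variable {k G : Type u} [CommRing k] [Group G] {L : LevelStructure G}
  {ι : Type*} {H : ι → Type u} [∀ i, Group (H i)] {LH : ∀ i, LevelStructure (H i)}
  {r : ∀ i, H i →* G}

namespace LatticeRes

/-- The pairing `M₀ × N → E`, `(m, x) ↦ θ(m)(x)`, attached to `θ : M₀ ⟶ Hom(N, E)`. -/
noncomputable def thetaPair {N E M₀ : Rep.{u} k G} (θ : M₀ ⟶ (Rep.ihom N).obj E) :
    RepPairing M₀ N E where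
  toLin := (RepPairing.eval N E).toLin ∘ₗ θ.hom.toLinearMap
  map_ρ g m x := by
    change (RepPairing.eval N E).toLin (θ.hom (M₀.ρ g m)) (N.ρ g x) = _
    rw [Rep.hom_comm_apply θ g m]
    exact (RepPairing.eval N E).map_ρ g (θ.hom m) x

lemma thetaPair_toLin_apply {N E M₀ : Rep.{u} k G} (θ : M₀ ⟶ (Rep.ihom N).obj E) (m : M₀)
    (x : N) : (thetaPair θ).toLin m x = (RepPairing.eval N E).toLin (θ.hom m) x := rfl

variable (hlev : LC.LevelComap L LH r) {N : Rep.{u} k G} [Module.Finite k N]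
  (R : LatticeRes L N) {E J : Rep.{u} k G} (hE : IsSmooth L E) (hJ : IsSmooth L J) (j : E ⟶ J)
  {Y : ∀ i, Rep.{u} k (H i)} (hY : ∀ i, IsSmooth (LH i) (Y i))
  (lam : ∀ i, Rep.res (r i) J ⟶ Y i)
  (hsurjE : Function.Surjective (Cup.precomp R.i E).hom)
  (hsurjY : ∀ i, Function.Surjective (Cup.precomp (R.res (hlev.compat i)).i (Y i)).hom)
  {M₀ : Rep.{u} k G} (hM₀ : IsSmooth L M₀) (θ : M₀ ⟶ (Rep.ihom N).obj E)
  (hθ : Function.Bijective θ.hom)
  (hθloc : ∀ i, Function.Bijective (thetaLoc j lam θ i).hom)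

/-- `Hⁿ(G, M₀) ≃ Extⁿ(N, E)`: `θ_*` followed by `divEquiv`. -/
noncomputable def identH (n : ℕ) : (LC.cx hM₀).H n ≃ₗ[k] R.Ext hE n :=
  (LinearEquiv.ofBijective ((LC.cxMap hM₀ (R.smooth.ihom hE) θ).mapH n)
    (Cx.Hom.mapH_bijective_of_bijective _
      (fun m => LC.cxMap_f_bijective _ _ _ hθ m) n)).trans
  (R.divEquiv hE (R.smooth.ihom hE) hsurjE n)

lemma identH_apply (n : ℕ) (y : (LC.cx hM₀).H n) :
    R.identH hE hsurjE hM₀ θ hθ n y =
      R.divEquiv hE (R.smooth.ihom hE) hsurjE n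
        ((LC.cxMap hM₀ (R.smooth.ihom hE) θ).mapH n y) := rfl

/-- `Hⁿ(H i, Res M₀) ≃ Extⁿ(Res N, Y i)`: `(thetaLoc i)_*` followed by the local `divEquiv`. -/
noncomputable def identHLoc (i : ι) (n : ℕ) :
    (LC.cx (hM₀.res (hlev.compat i))).H n ≃ₗ[k] (R.res (hlev.compat i)).Ext (hY i) n :=
  (LinearEquiv.ofBijective
    ((LC.cxMap (hM₀.res (hlev.compat i)) (R.smoothN_loc hlev hY i) (thetaLoc j lam θ i)).mapH n)
    (Cx.Hom.mapH_bijective_of_bijective _
      (fun m => LC.cxMap_f_bijective _ _ _ (hθloc i) m) n)).trans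
  ((R.res (hlev.compat i)).divEquiv (hY i) (R.smoothN_loc hlev hY i) (hsurjY i) n)

lemma identHLoc_apply (i : ι) (n : ℕ) (y : (LC.cx (hM₀.res (hlev.compat i))).H n) :
    R.identHLoc hlev j hY lam hsurjY hM₀ θ hθloc i n y =
      (R.res (hlev.compat i)).divEquiv (hY i) (R.smoothN_loc hlev hY i) (hsurjY i) n
        ((LC.cxMap (hM₀.res (hlev.compat i)) (R.smoothN_loc hlev hY i)
          (thetaLoc j lam θ i)).mapH n y) := rfl

/-- **The localisation square**: under `identH` and `identHLoc` the localisation map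
`Extⁿ(N, E) → Extⁿ(N, J) → Extⁿ(Res N, Y i)` is the restriction `Hⁿ(G, M₀) → Hⁿ(H i, Res M₀)`. -/
theorem loc_map₂_identH (n : ℕ) (y : (LC.cx hM₀).H n) (i : ι) :
    LatticePair.Ext.loc hlev R.toLatticePair hJ hY lam n
        (LatticePair.Ext.map₂ R.toLatticePair hE hJ j n
          (R.identH hE hsurjE hM₀ θ hθ n y)) i =
      R.identHLoc hlev j hY lam hsurjY hM₀ θ hθloc i n
        (LC.resH (hlev.compat i) hM₀ n y) := by
  rw [identH_apply, R.loc_map₂_divEquiv hlev hE hJ j hY lam hsurjE hsurjY n _ i,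
    R.locHomN_mapH_cxMap hlev hE j hY lam hM₀ θ i n y]
  rfl

/-- **Under `identH` the hyper-Ext pairing is the cup product of `thetaPair θ`.** -/
theorem pair_identH (n s m : ℕ) (hm : n + s = m) (x : (LC.cx hM₀).H (n + 1))
    (c : (LC.cx R.smooth).H s) :
    R.pair hE n s m hm (R.identH hE hsurjE hM₀ θ hθ (n + 1) x) c =
      (LC.cxPairing (thetaPair θ) hM₀ R.smooth hE).cupH (n + 1) s (m + 1) (by omega) x c := by
  rw [identH_apply, R.pair_divEquiv hE (R.smooth.ihom hE) hsurjE n s m hm]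
  have key := LC.cxPairing_cupH_natural (thetaPair θ) (RepPairing.eval N E) θ (𝟙 N) (𝟙 E)
    hM₀ R.smooth hE (R.smooth.ihom hE) R.smooth hE (fun _ _ => rfl)
    (n + 1) s (m + 1) (by omega) x c
  rw [LC.cxMap_id_mapH, LC.cxMap_id_mapH] at key
  exact key.symm

/-- **Under `identHLoc` the local hyper-Ext pairing is the cup product of
`thetaPair (thetaLoc j lam θ i)`.** -/
theorem pair_identHLoc (i : ι) (n s m : ℕ) (hm : n + s = m)
    (x : (LC.cx (hM₀.res (hlev.compat i))).H (n + 1))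
    (c : (LC.cx (R.res (hlev.compat i)).smooth).H s) :
    (R.res (hlev.compat i)).pair (hY i) n s m hm
        (R.identHLoc hlev j hY lam hsurjY hM₀ θ hθloc i (n + 1) x) c =
      (LC.cxPairing (thetaPair (thetaLoc j lam θ i)) (hM₀.res (hlev.compat i))
        (R.res (hlev.compat i)).smooth (hY i)).cupH (n + 1) s (m + 1) (by omega) x c := by
  rw [identHLoc_apply, (R.res (hlev.compat i)).pair_divEquiv (hY i) (R.smoothN_loc hlev hY i)
    (hsurjY i) n s m hm]
  have key := LC.cxPairing_cupH_natural (thetaPair (thetaLoc j lam θ i))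
    (RepPairing.eval (Rep.res (r i) N) (Y i)) (thetaLoc j lam θ i) (𝟙 _) (𝟙 _)
    (hM₀.res (hlev.compat i)) (R.res (hlev.compat i)).smooth (hY i) (R.smoothN_loc hlev hY i)
    (R.res (hlev.compat i)).smooth (hY i) (fun _ _ => rfl)
    (n + 1) s (m + 1) (by omega) x c
  rw [LC.cxMap_id_mapH, LC.cxMap_id_mapH] at key
  exact key.symm

end LatticeRes

end Fermat.Agent.CFT
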