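import Fermat.Agent.CFT.PT.MainAbstract

/-!
# Poitou–Tate: exactness at the middle terms, abstract form (GW-bridge, node M-abs)

Same setting and hypotheses as `PT.main_abstract` (`PT/MainAbstract.lean`).  We prove that the
five-term sequence

`Ext¹(N, E) → ∏ᵢ Ext¹(Res N, X i) → Hom(H¹(G, N), ℤ/p) → Ext²(N, E) → ∏ᵢ Ext²(Res N, X i)`

is exact at its three middle terms:

* `mLocE1`: the first localisation map `Ext¹(N, E) → Ext¹(N, J) → ∏ᵢ Ext¹(Res N, X i)`;
* `mDualLoc`: `e ↦ (y ↦ Σᵢ ⟨e i, resᵢ y⟩ᵢ)`, the map `∏ᵢ Ext¹(Res N, X i) → Hom(H¹(G, N), ℤ/p)`;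
* `middle_exact_J`: for `x ∈ Ext¹(N, J)`: `x` comes from `Ext¹(N, E)` iff its localisation is
  orthogonal to the image of `H¹(G, N)` (only injectivity of the global duality map is used);
* `middle_exact_loc1`: the same for `e ∈ ∏ᵢ Ext¹(Res N, X i)`: `mDualLoc e = 0 ↔ e ∈ range mLocE1`;
* `middle_exact_dual`: for `c ∈ Ext¹(N, C)`: `δ₂ c = 0 ↔ dual1 c ∈ range mDualLoc`;
* `middle_exact_loc2`: for `z ∈ Ext²(N, E)`: `mLoc2 z = 0 ↔ z ∈ range δ₂`.
-/

set_option autoImplicit false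
set_option linter.unusedSectionVars false

open CategoryTheory

namespace Fermat.Agent.CFT.PT

open HExt LatticePair

attribute [local instance 2000] Rep.hV2

variable {G : Type} [Group G] {L : LevelStructure G}
  {ι : Type} [Fintype ι] {H : ι → Type} [∀ i, Group (H i)] {LH : ∀ i, LevelStructure (H i)}
  {r : ∀ i, H i →* G} (hlev : LC.LevelComap L LH r)
  (p : ℕ) [Fact p.Prime]
  {E J C : Rep.{0} ℤ G} (hE : IsSmooth L E) (hJ : IsSmooth L J) (hC : IsSmooth L C)
  (f : E ⟶ J) (g : J ⟶ C)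
  (hf : Function.Injective f.hom) (hg : Function.Surjective g.hom)
  (hfg : Function.Exact f.hom g.hom)
  {X : ∀ i, Rep.{0} ℤ (H i)} (hX : ∀ i, IsSmooth (LH i) (X i))
  (lam : ∀ i, Rep.res (r i) J ⟶ X i)
  {N : Rep.{0} ℤ G} (R : LatticeRes L N) [Module.Free ℤ R.P₀] [Module.Free ℤ R.P₁]
  (hpN : ∀ n : N, p • n = 0)

/-- `Ext¹(N, E) → Ext¹(N, J) → ∏ᵢ Ext¹(Res N, X i)`. -/
noncomputable def mLocE1 :
    R.Ext hE 1 →+ ∀ i, (R.toLatticePair.res (r i) (hlev.compat i)).Ext (hX i) 1 :=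
  (Ext.loc hlev R.toLatticePair hJ hX lam 1).toAddMonoidHom.comp
    (Ext.map₂ R.toLatticePair hE hJ f 1).toAddMonoidHom

lemma mLocE1_apply (e : R.Ext hE 1) :
    mLocE1 hlev hE hJ f hX lam R e =
      Ext.loc hlev R.toLatticePair hJ hX lam 1 (Ext.map₂ R.toLatticePair hE hJ f 1 e) := rfl

variable (invG : LC.Hp p hC 2 →+ ZMod p) (invL : ∀ i, LC.Hp p (hX i) 2 →+ ZMod p)

/-- `∏ᵢ Ext¹(Res N, X i) → Hom(H¹(G, N), ℤ/p)`, `e ↦ (y ↦ Σᵢ ⟨e i, resᵢ y⟩ᵢ)`. -/
noncomputable def mDualLoc :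
    (∀ i, (R.res (hlev.compat i)).Ext (hX i) 1) →+ ((LC.cx R.smooth).H 1 →+ ZMod p) :=
  (AddMonoidHom.compHom' (mLoc1 hlev R)).comp (mPl hlev p hX R hpN invL)

lemma mDualLoc_apply (e : ∀ i, (R.res (hlev.compat i)).Ext (hX i) 1)
    (y : (LC.cx R.smooth).H 1) :
    mDualLoc hlev p hX R hpN invL e y = mPl hlev p hX R hpN invL e (mLoc1 hlev R y) := rfl

variable (hc₀ : LC.IsLocCoind L r ((Rep.ihom R.P₀).obj J)
    (fun i => (Rep.ihom (Rep.res (r i) R.P₀)).obj (X i)) (lamIhom R.P₀ lam))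
  (hc₁ : LC.IsLocCoind L r ((Rep.ihom R.P₁).obj J)
    (fun i => (Rep.ihom (Rep.res (r i) R.P₁)).obj (X i)) (lamIhom R.P₁ lam))
  (h90 : LC.LocH90 L LH r X)
  (hPGinj : Function.Injective (R.dual1 p hC hpN invG))
  (hG3 : ∀ (z : (LC.cx hJ).H 2), p • z = 0 →
    ∀ (h1 : (LC.cxMap hJ hC g).mapH 2 z ∈ LC.Hp p hC 2)
      (h2 : ∀ i, (LC.locHom hlev hJ hX lam i).mapH 2 z ∈ LC.Hp p (hX i) 2),
      invG ⟨_, h1⟩ = ∑ i, invL i ⟨_, h2 i⟩)
  (hpairloc : ∀ (i : ι) (e : R.Ext hJ 1) (c : (LC.cx R.smooth).H 1),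
    (R.res (hlev.compat i)).pair (hX i) 0 1 1 rfl
        (Ext.loc hlev R.toLatticePair hJ hX lam 1 e i)
        (LC.resH (hlev.compat i) R.smooth 1 c) =
      (LC.locHom hlev hJ hX lam i).mapH 2 (R.pair hJ 0 1 1 rfl e c))

include hG3 hpairloc in
/-- `main_compat` in terms of `mDualLoc`. -/
theorem dual1_map₂_eq_mDualLoc (x : R.Ext hJ 1) :
    R.dual1 p hC hpN invG (Ext.map₂ R.toLatticePair hJ hC g 1 x) =
      mDualLoc hlev p hX R hpN invL (Ext.loc hlev R.toLatticePair hJ hX lam 1 x) :=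
  AddMonoidHom.ext fun y => main_compat hlev p hJ hC g hX lam R hpN invG invL hG3 hpairloc x y

include hf hg hfg hPGinj hG3 hpairloc in
/-- **Middle exactness at `Ext¹(N, J)`**: a class of `Ext¹(N, J)` comes from `Ext¹(N, E)` iff its
localisation is orthogonal to the image of `H¹(G, N)` under the sum of the local pairings. -/
theorem middle_exact_J (x : R.Ext hJ 1) :
    mDualLoc hlev p hX R hpN invL (Ext.loc hlev R.toLatticePair hJ hX lam 1 x) = 0 ↔
      ∃ e : R.Ext hE 1, Ext.map₂ R.toLatticePair hE hJ f 1 e = x := by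
  rw [← dual1_map₂_eq_mDualLoc hlev p hJ hC g hX lam R hpN invG invL hG3 hpairloc x]
  have hex := Ext.exact_map₂_map₂ R.toLatticePair hE hJ hC f g hf hg hfg 1
  constructor
  · intro h
    have h0 : Ext.map₂ R.toLatticePair hJ hC g 1 x = 0 :=
      hPGinj (h.trans (map_zero _).symm)
    exact (hex x).1 h0
  · intro h
    rw [(hex x).2 h, map_zero]

include hf hg hfg hc₀ hc₁ h90 hPGinj hG3 hpairloc in
/-- **Middle exactness at `∏ᵢ Ext¹(Res N, X i)`**: the image of the first localisation map is the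
annihilator of the image of `H¹(G, N) → ∏ᵢ H¹(H i, Res N)` under the sum of the local pairings. -/
theorem middle_exact_loc1 (e : ∀ i, (R.res (hlev.compat i)).Ext (hX i) 1) :
    mDualLoc hlev p hX R hpN invL e = 0 ↔
      ∃ e' : R.Ext hE 1, mLocE1 hlev hE hJ f hX lam R e' = e := by
  obtain ⟨x, rfl⟩ :=
    (Ext.loc_one_bijective_of_free hlev R.toLatticePair hJ hX lam hc₀ hc₁ h90).2 e
  rw [middle_exact_J hlev p hE hJ hC f g hf hg hfg hX lam R hpN invG invL hPGinj hG3 hpairloc x]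
  constructor
  · rintro ⟨e', rfl⟩
    exact ⟨e', rfl⟩
  · rintro ⟨e', he'⟩
    refine ⟨e', ?_⟩
    exact (Ext.loc_one_bijective_of_free hlev R.toLatticePair hJ hX lam hc₀ hc₁ h90).1 he'

include hf hg hfg hc₀ hc₁ h90 hPGinj hG3 hpairloc in
/-- **Middle exactness at `Hom(H¹(G, N), ℤ/p)`** (in terms of `Ext¹(N, C)`): the connecting map
`δ₂ : Ext¹(N, C) → Ext²(N, E)` kills `c` iff the functional `dual1 c` on `H¹(G, N)` is a sum of
local functionals. -/
theorem middle_exact_dual (c : R.Ext hC 1) :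
    Ext.δ₂ R.toLatticePair hE hJ hC f g hf hg hfg 1 c = 0 ↔
      ∃ e : ∀ i, (R.res (hlev.compat i)).Ext (hX i) 1,
        mDualLoc hlev p hX R hpN invL e = R.dual1 p hC hpN invG c := by
  have hex := Ext.exact_map₂_δ₂ R.toLatticePair hE hJ hC f g hf hg hfg 1
  constructor
  · intro h
    obtain ⟨x, rfl⟩ := (hex c).1 h
    exact ⟨_, (dual1_map₂_eq_mDualLoc hlev p hJ hC g hX lam R hpN invG invL hG3 hpairloc x).symm⟩
  · rintro ⟨e, he⟩
    obtain ⟨x, rfl⟩ :=
      (Ext.loc_one_bijective_of_free hlev R.toLatticePair hJ hX lam hc₀ hc₁ h90).2 e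
    rw [← dual1_map₂_eq_mDualLoc hlev p hJ hC g hX lam R hpN invG invL hG3 hpairloc x] at he
    rw [← hPGinj he]
    exact (hex _).2 ⟨x, rfl⟩

include hc₀ hc₁ h90 in
/-- **Exactness at `Ext²(N, E)`**: the kernel of the second localisation map is the image of the
connecting map `δ₂ : Ext¹(N, C) → Ext²(N, E)`. -/
theorem middle_exact_loc2 (z : R.Ext hE 2) :
    mLoc2 hlev hE hJ f hX lam R z = 0 ↔
      ∃ c : R.Ext hC 1, Ext.δ₂ R.toLatticePair hE hJ hC f g hf hg hfg 1 c = z := by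
  have hex := Ext.exact_δ₂_map₂ R.toLatticePair hE hJ hC f g hf hg hfg 1
  have hinj := Ext.loc_two_injective_of_free hlev R.toLatticePair hJ hX lam hc₀ hc₁ h90
  constructor
  · intro h
    have h0 : Ext.map₂ R.toLatticePair hE hJ f 2 z = 0 :=
      hinj (h.trans (map_zero _).symm)
    exact (hex z).1 h0
  · intro h
    have h0 : Ext.map₂ R.toLatticePair hE hJ f 2 z = 0 := (hex z).2 h
    change Ext.loc hlev R.toLatticePair hJ hX lam 2 (Ext.map₂ R.toLatticePair hE hJ f 2 z) = 0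
    rw [h0, map_zero]

/-! ### Degree `(2, 0)`: the end of the sequence is a complex -/

/-- `H⁰(G, N) → ∏ᵢ H⁰(H i, Res N)`. -/
noncomputable def mLoc0 :
    (LC.cx R.smooth).H 0 →+ ∀ i, (LC.cx (R.res (hlev.compat i)).smooth).H 0 :=
  (LinearMap.pi fun i => (LC.resH (hlev.compat i) R.smooth 0 :
    (LC.cx R.smooth).H 0 →ₗ[ℤ] (LC.cx (R.res (hlev.compat i)).smooth).H 0)).toAddMonoidHom

/-- The sum of the local duality maps in degree `(2, 0)`, restricted to the global classes: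
`∏ᵢ Ext²(Res N, X i) → Hom(H⁰(G, N), ℤ/p)`. -/
noncomputable def mDualLoc₂ :
    (∀ i, (R.res (hlev.compat i)).Ext (hX i) 2) →+ ((LC.cx R.smooth).H 0 →+ ZMod p) :=
  AddMonoidHom.mk' (fun e => AddMonoidHom.mk'
      (fun c => ∑ i, (R.res (hlev.compat i)).dual2 p (hX i) (hpN_res p hpN i) (invL i) (e i)
        (LC.resH (hlev.compat i) R.smooth 0 c))
      (fun c c' => by simp only [map_add, Finset.sum_add_distrib]))
    (fun e e' => by
      ext c
      simp only [Pi.add_apply, map_add, AddMonoidHom.add_apply, Finset.sum_add_distrib,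
        AddMonoidHom.mk'_apply])

lemma mDualLoc₂_apply (e : ∀ i, (R.res (hlev.compat i)).Ext (hX i) 2)
    (c : (LC.cx R.smooth).H 0) :
    mDualLoc₂ hlev p hX R hpN invL e c =
      ∑ i, (R.res (hlev.compat i)).dual2 p (hX i) (hpN_res p hpN i) (invL i) (e i)
        (LC.resH (hlev.compat i) R.smooth 0 c) := rfl

variable (hpairloc₂ : ∀ (i : ι) (e : R.Ext hJ 2) (c : (LC.cx R.smooth).H 0),
    (R.res (hlev.compat i)).pair (hX i) 1 0 1 rfl
        (Ext.loc hlev R.toLatticePair hJ hX lam 2 e i)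
        (LC.resH (hlev.compat i) R.smooth 0 c) =
      (LC.locHom hlev hJ hX lam i).mapH 2 (R.pair hJ 1 0 1 rfl e c))

include hG3 hpairloc₂ in
/-- Compatibility of the global and the local duality pairings in degree `(2, 0)`. -/
theorem main_compat₂ (x : R.Ext hJ 2) (y : (LC.cx R.smooth).H 0) :
    R.dual2 p hC hpN invG (Ext.map₂ R.toLatticePair hJ hC g 2 x) y =
      mDualLoc₂ hlev p hX R hpN invL (Ext.loc hlev R.toLatticePair hJ hX lam 2 x) y := by
  refine Eq.trans ?_ (mDualLoc₂_apply hlev p hX R hpN invL _ _).symm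
  have hz : p • R.pair hJ 1 0 1 rfl x y = 0 := R.pair_mem_Hp p hJ hpN 1 0 1 rfl x y
  have key := hG3 (R.pair hJ 1 0 1 rfl x y) hz
    (by rw [← R.pair_map₂ hJ hC g 1 0 1 rfl x y]; exact R.pair_mem_Hp p hC hpN 1 0 1 rfl _ y)
    (fun i => by
      rw [← hpairloc₂ i x y]
      exact (R.res (hlev.compat i)).pair_mem_Hp p (hX i) (hpN_res p hpN i) 1 0 1 rfl _ _)
  rw [LatticeRes.dual_apply]
  refine Eq.trans (congrArg invG (Subtype.ext ?_)) (key.trans (Finset.sum_congr rfl fun i _ => ?_))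
  · exact R.pair_map₂ hJ hC g 1 0 1 rfl x y
  · exact congrArg (invL i) (Subtype.ext (hpairloc₂ i x y).symm)

include hf hg hfg hG3 hpairloc₂ in
/-- **The end of the Poitou–Tate sequence is a complex**: the localisation of a class of
`Ext²(N, E)` is orthogonal to the (diagonal) image of `H⁰(G, N)` under the sum of the local
pairings of degree `(2, 0)`. -/
theorem mDualLoc₂_mLoc2 (z : R.Ext hE 2) :
    mDualLoc₂ hlev p hX R hpN invL (mLoc2 hlev hE hJ f hX lam R z) = 0 := by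
  refine AddMonoidHom.ext fun y => ?_
  have h := main_compat₂ hlev p hJ hC g hX lam R hpN invG invL hG3 hpairloc₂
    (Ext.map₂ R.toLatticePair hE hJ f 2 z) y
  have h0 : Ext.map₂ R.toLatticePair hJ hC g 2 (Ext.map₂ R.toLatticePair hE hJ f 2 z) = 0 :=
    (Ext.exact_map₂_map₂ R.toLatticePair hE hJ hC f g hf hg hfg 2 _).2 ⟨z, rfl⟩
  rw [h0, map_zero] at h
  exact h.symm

end Fermat.Agent.CFT.PT
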