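import Mathlib
import Fermat.Agent.CFT.PT.Middle1Ident
import Fermat.Agent.CFT.PT.MiddleJS
import Fermat.Agent.CFT.PT.ShaIdent
import Fermat.Agent.CFT.PT.PTInputsInst
import Fermat.Agent.CFT.HyperExt.ZResRes

/-!
# Poitou–Tate over `ℚ_S`: exactness at the local `H¹` terms, in level cohomology
(GW-bridge, node M-H1)

Setting: `p` a prime, `S ∋ p` a finite set of primes, `N` a finite smooth `p`-torsion
`ℤ[G_ℚ]`-module (level structure `globalLevel S`), `M₀` a smooth `G_ℚ`-module with an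
isomorphism `θ₀ : M₀ ≅ Hom(N, μ_p)` (given as a bijective morphism).  All cohomology groups are
the cohomology groups `(LC.cx _).H n` of the complexes of level-continuous cochains.

* `midTheta : M₀ ⟶ Hom(N, μ_p) ⟶ Hom(N, E_S)`, bijective and locally bijective;
* `midIdent : H¹(G_ℚ, M₀) ≃+ Ext¹(N, E_S)`, `midIdentLoc q : H¹(G_{ℚ_q}, M₀) ≃+ Ext¹(N_q, ℚ̄_qˣ)`;
* `tateLoc invL q : H¹(G_{ℚ_q}, M₀) →+ H¹(G_{ℚ_q}, N) →+ ℤ/p`: the local Tate pairing attached to
  the invariant map `invL q`; `tateLoc_apply`: it is `invL q` of the cup product of the pairing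
  `M₀ × N → ℚ̄_qˣ`;
* `tateLoc_bijective`: for `invL q = invLoc p q` the pairing is perfect on the left
  (local Tate duality);
* **`middle_H1`**: for `x ∈ ∏_{q ∈ S} H¹(G_{ℚ_q}, M₀)`:
  `(∀ y ∈ H¹(G_ℚ, N), Σ_q ⟨x_q, res_q y⟩_q = 0) ↔ ∃ x₀ ∈ H¹(G_ℚ, M₀), ∀ q, res_q x₀ = x_q`;
* `sum_tateLoc_res_eq_zero`: the reciprocity law `Σ_q ⟨res_q x₀, res_q y⟩_q = 0`.
-/

set_option autoImplicit false
set_option linter.unusedSectionVars false
set_option linter.style.haveILetI false

open CategoryTheory ExtCitation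

noncomputable section

namespace Fermat.Agent.CFT.PT

open Fermat.Agent.CFT Fermat.Agent.S55 HExt LatticePair

local notation "Qb" => AlgebraicClosure ℚ
local notation "GQ" => (AlgebraicClosure ℚ ≃ₐ[ℚ] AlgebraicClosure ℚ)

attribute [local instance 2000] Rep.hV2
attribute [local instance 3000] projective_P₀_of_free projective_P₁_of_free

/-- Instance shortcut: a finite `ℤ[G]`-module is a finite `ℤ`-module. -/
theorem moduleFinite_of_finite_rep {G : Type} [Group G] (N : Rep.{0} ℤ G) [Finite N] :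
    Module.Finite ℤ N :=
  Module.Finite.of_finite

attribute [local instance 3000] moduleFinite_of_finite_rep

variable (p : ℕ) [hp : Fact p.Prime] (S : Finset Nat.Primes) (hpS : pPrime p ∈ S)
  (N : Rep.{0} ℤ GQ) [Finite N] (hN : IsSmooth (globalLevel S) N) (hpN : ∀ n : N, p • n = 0)
  {M₀ : Rep.{0} ℤ GQ} (hM₀ : IsSmooth (globalLevel S) M₀)
  (θ₀ : M₀ ⟶ (Rep.ihom N).obj (muRep p)) (hθ₀ : Function.Bijective θ₀.hom)

/-- `θ : M₀ ⟶ Hom(N, μ_p) ⟶ Hom(N, E_S)`. -/
def midTheta : M₀ ⟶ (Rep.ihom N).obj (esRep (globalLevel S) Qb (↑S : Set Nat.Primes)) :=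
  θ₀ ≫ Cup.postcomp N (muToEs p S hpS)

include hpN hθ₀ in
theorem midTheta_bijective : Function.Bijective (midTheta p S hpS N θ₀).hom :=
  (Cup.postcomp_bijective_of_torsion (muToEs p S hpS) p hpN (muToEs_injective p S hpS)
    (esRep_nsmul_eq_zero p S hpS)).comp hθ₀

include hpN hθ₀ in
/-- The local composites of `θ` are bijective. -/
theorem midTheta_thetaLoc_bijective (q : ↥S) :
    Function.Bijective (LatticeRes.thetaLoc (r := fun q : ↥S => primeLocalToGlobal q.1)
      (esToJsHom (globalLevel S) Qb (↑S : Set Nat.Primes)) (evQ (globalLevel S) S)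
      (midTheta p S hpS N θ₀) q).hom := by
  have h1 : Function.Bijective (Cup.postcomp (Rep.res (primeLocalToGlobal q.1) N)
      (muToLocal p S hpS q)).hom :=
    Cup.postcomp_bijective_of_torsion (muToLocal p S hpS q) p hpN
      (muToLocal_injective p S hpS q) (muToLocal_torsion p S hpS q)
  exact h1.comp hθ₀

include hpS hpN in
/-- Surjectivity of `Hom(P₀, E_S) → Hom(P₁, E_S)` for the canonical resolution of `N`. -/
theorem mid_hsurjE :
    Function.Surjective (Cup.precomp (zResR N hN).i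
      (esRep (globalLevel S) Qb (↑S : Set Nat.Primes))).hom :=
  (zResR N hN).precomp_surjective_of_divisible_nat _ p hpN (esRep_nsmul_surjective p S hpS)

include hpN in
/-- Surjectivity of `Hom(Res P₀, ℚ̄_qˣ) → Hom(Res P₁, ℚ̄_qˣ)` for the restricted resolutions. -/
theorem mid_hsurjY (q : ↥S) :
    Function.Surjective (Cup.precomp
      ((zResR N hN).res ((levelComap_global S).compat q)).i (primeUnitsRep q.1)).hom := by
  haveI : Module.Free ℤ ((zResR N hN).res ((levelComap_global S).compat q)).P₀ :=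
    inferInstanceAs (Module.Free ℤ (zResR N hN).P₀)
  exact ((zResR N hN).res ((levelComap_global S).compat q)).precomp_surjective_of_divisible_nat
    _ p hpN (primeUnitsRep_divisible p q.1)

/-- `H¹(G_ℚ, M₀) ≃ Ext¹(N, E_S)`. -/
def midIdent : (LC.cx hM₀).H 1 ≃+
    (zResR N hN).Ext (isSmooth_esRep (globalLevel S) Qb (↑S : Set Nat.Primes)) 1 :=
  addEquivOfIntLinearEquiv
    ((zResR N hN).identH (isSmooth_esRep (globalLevel S) Qb (↑S : Set Nat.Primes))
      (mid_hsurjE p S hpS N hN hpN) hM₀ (midTheta p S hpS N θ₀)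
      (midTheta_bijective p S hpS N hpN θ₀ hθ₀) 1)

/-- `H¹(G_{ℚ_q}, M₀) ≃ Ext¹(N_q, ℚ̄_qˣ)`. -/
def midIdentLoc (q : ↥S) :
    (LC.cx (hM₀.res ((levelComap_global S).compat q))).H 1 ≃+
      ((zResR N hN).res ((levelComap_global S).compat q)).Ext (isSmooth_primeUnitsRep q.1) 1 :=
  addEquivOfIntLinearEquiv
    ((zResR N hN).identHLoc (levelComap_global S)
      (esToJsHom (globalLevel S) Qb (↑S : Set Nat.Primes))
      (fun q : ↥S => isSmooth_primeUnitsRep q.1) (evQ (globalLevel S) S)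
      (mid_hsurjY p S N hN hpN) hM₀ (midTheta p S hpS N θ₀)
      (midTheta_thetaLoc_bijective p S hpS N hpN θ₀ hθ₀) q 1)

/-- The localisation square. -/
theorem jsLoc_midIdent (y : (LC.cx hM₀).H 1) (q : ↥S) :
    Ext.loc (levelComap_global S) (zResR N hN).toLatticePair
        (isSmooth_jsRep (globalLevel S) Qb (↑S : Set Nat.Primes))
        (fun q : ↥S => isSmooth_primeUnitsRep q.1) (evQ (globalLevel S) S) 1
        (Ext.map₂ (zResR N hN).toLatticePair
          (isSmooth_esRep (globalLevel S) Qb (↑S : Set Nat.Primes))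
          (isSmooth_jsRep (globalLevel S) Qb (↑S : Set Nat.Primes))
          (esToJsHom (globalLevel S) Qb (↑S : Set Nat.Primes)) 1
          (midIdent p S hpS N hN hpN hM₀ θ₀ hθ₀ y)) q =
      midIdentLoc p S hpS N hN hpN hM₀ θ₀ hθ₀ q
        (LC.resH ((levelComap_global S).compat q) hM₀ 1 y) :=
  (zResR N hN).loc_map₂_identH (levelComap_global S)
    (isSmooth_esRep (globalLevel S) Qb (↑S : Set Nat.Primes))
    (isSmooth_jsRep (globalLevel S) Qb (↑S : Set Nat.Primes))
    (esToJsHom (globalLevel S) Qb (↑S : Set Nat.Primes))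
    (fun q : ↥S => isSmooth_primeUnitsRep q.1) (evQ (globalLevel S) S)
    (mid_hsurjE p S hpS N hN hpN) (mid_hsurjY p S N hN hpN) hM₀ (midTheta p S hpS N θ₀)
    (midTheta_bijective p S hpS N hpN θ₀ hθ₀)
    (midTheta_thetaLoc_bijective p S hpS N hpN θ₀ hθ₀) 1 y q

variable (invL : ∀ q : ↥S, LC.Hp p (isSmooth_primeUnitsRep q.1) 2 →+ ZMod p)

/-- **The local Tate pairing** `H¹(G_{ℚ_q}, M₀) × H¹(G_{ℚ_q}, N) → ℤ/p` attached to the invariant
map `invL q`. -/
def tateLoc (q : ↥S) :
    (LC.cx (hM₀.res ((levelComap_global S).compat q))).H 1 →+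
      ((LC.cx ((zResR N hN).res ((levelComap_global S).compat q)).smooth).H 1 →+ ZMod p) :=
  (((zResR N hN).res ((levelComap_global S).compat q)).dual1 p (isSmooth_primeUnitsRep q.1)
      (hpN_res (r := fun q : ↥S => primeLocalToGlobal q.1) p hpN q) (invL q)).comp
    (midIdentLoc p S hpS N hN hpN hM₀ θ₀ hθ₀ q).toAddMonoidHom

theorem tateLoc_eq (q : ↥S)
    (x : (LC.cx (hM₀.res ((levelComap_global S).compat q))).H 1)
    (c : (LC.cx ((zResR N hN).res ((levelComap_global S).compat q)).smooth).H 1) :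
    tateLoc p S hpS N hN hpN hM₀ θ₀ hθ₀ invL q x c =
      ((zResR N hN).res ((levelComap_global S).compat q)).dual1 p (isSmooth_primeUnitsRep q.1)
        (hpN_res (r := fun q : ↥S => primeLocalToGlobal q.1) p hpN q) (invL q)
        (midIdentLoc p S hpS N hN hpN hM₀ θ₀ hθ₀ q x) c := rfl

/-- The pairing `M₀ × N → ℚ̄_qˣ` underlying the local Tate pairing. -/
def tatePair (q : ↥S) :
    RepPairing (Rep.res (primeLocalToGlobal q.1) M₀) (Rep.res (primeLocalToGlobal q.1) N)
      (primeUnitsRep q.1) :=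
  LatticeRes.thetaPair (LatticeRes.thetaLoc (r := fun q : ↥S => primeLocalToGlobal q.1)
    (esToJsHom (globalLevel S) Qb (↑S : Set Nat.Primes)) (evQ (globalLevel S) S)
    (midTheta p S hpS N θ₀) q)

/-- The local Tate pairing is the invariant of the cup product. -/
theorem coe_pairP_midIdentLoc (q : ↥S)
    (x : (LC.cx (hM₀.res ((levelComap_global S).compat q))).H 1)
    (c : (LC.cx ((zResR N hN).res ((levelComap_global S).compat q)).smooth).H 1) :
    ((((zResR N hN).res ((levelComap_global S).compat q)).pairP p (isSmooth_primeUnitsRep q.1)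
        (hpN_res (r := fun q : ↥S => primeLocalToGlobal q.1) p hpN q) 0 1 rfl
        (midIdentLoc p S hpS N hN hpN hM₀ θ₀ hθ₀ q x) c :
          LC.Hp p (isSmooth_primeUnitsRep q.1) 2) :
        (LC.cx (isSmooth_primeUnitsRep q.1)).H 2) =
      (LC.cxPairing (tatePair p S hpS N θ₀ q) (hM₀.res ((levelComap_global S).compat q))
        ((zResR N hN).res ((levelComap_global S).compat q)).smooth
        (isSmooth_primeUnitsRep q.1)).cupH 1 1 2 rfl x c :=
  (zResR N hN).pair_identHLoc (levelComap_global S)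
    (esToJsHom (globalLevel S) Qb (↑S : Set Nat.Primes))
    (fun q : ↥S => isSmooth_primeUnitsRep q.1) (evQ (globalLevel S) S)
    (mid_hsurjY p S N hN hpN) hM₀ (midTheta p S hpS N θ₀)
    (midTheta_thetaLoc_bijective p S hpS N hpN θ₀ hθ₀) q 0 1 1 rfl x c

/-- **Local Tate duality**: for the local invariant maps `invLoc`, the local Tate pairing
identifies `H¹(G_{ℚ_q}, M₀)` with the dual of `H¹(G_{ℚ_q}, N)`. -/
theorem tateLoc_bijective (q : ↥S) :
    Function.Bijective
      (tateLoc p S hpS N hN hpN hM₀ θ₀ hθ₀ (fun q : ↥S => invLoc p q.1) q) := by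
  have h1 : Function.Bijective
      (((zResR N hN).res ((levelComap_global S).compat q)).dual1 p (isSmooth_primeUnitsRep q.1)
        (hpN_res (r := fun q : ↥S => primeLocalToGlobal q.1) p hpN q) (invLoc p q.1)) :=
    ((zResR_res_isPerfect_iff N hN ((levelComap_global S).compat q)
      (isSmooth_primeUnitsRep q.1) p hpN (invLoc p q.1)).2
      (local_duality p q.1 ⟨Rep.res (primeLocalToGlobal q.1) N,
        hN.res ((levelComap_global S).compat q), hpN⟩)).1
  exact h1.comp (midIdentLoc p S hpS N hN hpN hM₀ θ₀ hθ₀ q).bijective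

variable {p S}

include hpS in
/-- **Exactness of the Poitou–Tate sequence at the local `H¹` terms**: a family of local classes
`x_q ∈ H¹(G_{ℚ_q}, M₀)`, `q ∈ S`, is the localisation of a global class of `H¹(G_ℚ, M₀)`
(level cohomology for `globalLevel S`) iff it is orthogonal to the localisation of every class of
`H¹(G_ℚ, N)` for the sum of the local Tate pairings. -/
theorem middle_H1 (I : PTInputs p S)
    (x : ∀ q : ↥S, (LC.cx (hM₀.res ((levelComap_global S).compat q))).H 1) :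
    (∀ y : (LC.cx (zResR N hN).smooth).H 1,
        ∑ q : ↥S, tateLoc p S hpS N hN hpN hM₀ θ₀ hθ₀ I.invL q (x q)
          (LC.resH ((levelComap_global S).compat q) (zResR N hN).smooth 1 y) = 0) ↔
      ∃ x₀ : (LC.cx hM₀).H 1,
        ∀ q : ↥S, LC.resH ((levelComap_global S).compat q) hM₀ 1 x₀ = x q := by
  have hS : S.Nonempty := ⟨_, hpS⟩
  have h := middle_js_loc1 I hS N hN hpN
    (fun q => midIdentLoc p S hpS N hN hpN hM₀ θ₀ hθ₀ q (x q))
  constructor
  · intro hx
    obtain ⟨e', he'⟩ := h.1 (AddMonoidHom.ext fun y => hx y)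
    refine ⟨(midIdent p S hpS N hN hpN hM₀ θ₀ hθ₀).symm e', fun q => ?_⟩
    apply (midIdentLoc p S hpS N hN hpN hM₀ θ₀ hθ₀ q).injective
    rw [← jsLoc_midIdent p S hpS N hN hpN hM₀ θ₀ hθ₀ _ q, AddEquiv.apply_symm_apply]
    exact congrFun he' q
  · rintro ⟨x₀, hx₀⟩ y
    have h1 : jsLocE1 S (zResR N hN) (midIdent p S hpS N hN hpN hM₀ θ₀ hθ₀ x₀) =
        fun q => midIdentLoc p S hpS N hN hpN hM₀ θ₀ hθ₀ q (x q) := by
      funext q
      rw [← hx₀ q]
      exact jsLoc_midIdent p S hpS N hN hpN hM₀ θ₀ hθ₀ x₀ q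
    exact DFunLike.congr_fun (h.2 ⟨_, h1⟩) y

include hpS in
/-- **Reciprocity law for the local Tate pairings**: `Σ_q ⟨res_q x₀, res_q y⟩_q = 0`. -/
theorem sum_tateLoc_res_eq_zero (I : PTInputs p S) (x₀ : (LC.cx hM₀).H 1)
    (y : (LC.cx (zResR N hN).smooth).H 1) :
    ∑ q : ↥S, tateLoc p S hpS N hN hpN hM₀ θ₀ hθ₀ I.invL q
        (LC.resH ((levelComap_global S).compat q) hM₀ 1 x₀)
        (LC.resH ((levelComap_global S).compat q) (zResR N hN).smooth 1 y) = 0 :=
  (middle_H1 hpS N hN hpN hM₀ θ₀ hθ₀ I _).2 ⟨x₀, fun _ => rfl⟩ y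

end Fermat.Agent.CFT.PT

end
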