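import Fermat.Agent.CFT.PT.GlobalDuality
import Fermat.Agent.CFT.PT.CSFullGlobal
import Fermat.Agent.CFT.PT.CSFullFin
import Fermat.Agent.CFT.Global.LCGlobalFamilyCS
import Fermat.Agent.CFT.Global.LCGlobalBase
import Fermat.Agent.CFT.Global.SClassInvSystemQ
import Fermat.Agent.CFT.Global.ExistenceEasyLayer
import Fermat.Agent.CFT.Global.GlobalOpenField
import Fermat.Agent.CFT.Global.RecipFinal

/-!
# Layer C/D, final assembly over `ℚ`: the inputs of Poitou–Tate

Everything is instantiated at `k = ℚ`, `Ω = ℚ̄`, `L = globalLevel S`,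
`Adm = AdmS S = (·.IsUnramifiedOutside S)`, `p` odd, `p ∈ S`:

* `PTQ.sSysQ` : the invariant system of the `S`-idele classes (`sClassInvSystemQ` with the
  reciprocity law `RecipFinal.invJFun_padic_layerH2f_eq_zero` plugged in — unconditional);
* `PTQ.famQ` : the family of invariants of `C_S'` (`PT.csFullPInvFamily`);
* `PTQ.dictQ F hF` : the dictionary of `Gal(ℚ̄/F)` (`PT.csFullDict`, all hypotheses discharged);
* `PTQ.hEB_Q` : the existence theorem mod `p` (E) for `C_S'` over the open subgroups of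
  `G₀ = Gal(ℚ̄/ℚ(μ_p))`; (easy) and (fin) are discharged, the only hypothesis is the hard half
  `hhard` (verbatim the hypothesis `hhard` of `CoeffDict.perfect_of_layers` for `dictQ F hF`,
  `F ∋ ζ_p`);
* `PTQ.ptInputsQ` : `PTInputs p S` from `hhard` (G4-HARD) and the reciprocity sum formula `hD3c`.
-/

set_option autoImplicit false
set_option linter.style.haveILetI false
set_option linter.unusedSectionVars false
set_option maxSynthPendingDepth 2

open CategoryTheory groupCohomology IntermediateField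

namespace Fermat.Agent.CFT.PTQ

open Fermat.Agent.CFT Fermat.Agent.S55 ExtCitation GaloisTower LayerMaps Fermat.Agent.CFT.PT

local notation "Qb" => AlgebraicClosure ℚ
local notation "GQ" => (AlgebraicClosure ℚ ≃ₐ[ℚ] AlgebraicClosure ℚ)

local instance instIsGaloisQbPTQ : IsGalois ℚ Qb :=
  Fermat.Agent.S54.FrobExists.isGalois_rat_algebraicClosure

variable (S : Finset Nat.Primes) {p : ℕ} [hp : Fact p.Prime] (hp2 : p ≠ 2)
  (hpS : pPrime p ∈ S)

include hp2 in
/-- The `p`-primary reciprocity law, in the shape of the hypothesis `hrecip` of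
`sClassInvSystemQ`. -/
theorem hrecipQ : ∀ {E E' : IntermediateField ℚ Qb} (h : E ≤ E')
    [FiniteDimensional ℚ E'] [NumberField E] [NumberField (layer h)] [Normal E (layer h)]
    (hP : PrincipalIsIdele (layer h))
    (u : groupCohomology (Rep.ofAlgebraAutOnUnits E (layer h)) 2),
    (∃ n : ℕ, p ^ n • u = 0) →
      invJFun padicLocalInvFamily E ((layerH2f h hP).hom u) = 0 :=
  fun h _ _ _ _ hP u hu => RecipFinal.invJFun_padic_layerH2f_eq_zero p hp2 h hP u hu

/-- **The invariant system of the `S`-idele class groups over `ℚ`**, unconditional. -/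
noncomputable def sSysQ :
    PLayerInvSystem (sClassCoeff ℚ Qb (↑S : Set Nat.Primes)) (AdmS S) p :=
  sClassInvSystemQ S hp2 hpS (hrecipQ hp2)

/-- The invariant system of the idele class groups over `ℚ` on the fields unramified outside
`S`, unconditional. -/
noncomputable def clSysQ :
    PLayerInvSystem (classCoeff ℚ Qb) (AdmS S) p :=
  classInvSystemQS S hp2 hpS (hrecipQ hp2)

/-- The invariant of the image in `H²(C_S)` of a class of `H²(C)`. -/
theorem sSysQ_inv_classS {E E' : IntermediateField ℚ Qb} (h : E ≤ E') (hE' : AdmS S E')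
    [Normal E (layer h)] (x : groupCohomology ((classCoeff ℚ Qb).M h) 2) :
    (sSysQ S hp2 hpS).inv h ((classToClassSLayer (↑S : Set Nat.Primes) h 2).hom x) =
      (clSysQ S hp2 hpS).inv h x :=
  sClassInvSystemQ_inv_classS S hp2 hpS (hrecipQ hp2) h hE' x

/-- **Local–global formula for `C_S`**: the invariant of the image in `H²(Gal(E'/E), C_S(E'))` of
a `p`-power torsion class `z ∈ H²(Gal(E'/E), J_{E'})` is the sum of the local invariants. -/
theorem sSysQ_inv_idele {E E' : IntermediateField ℚ Qb} (h : E ≤ E') (hE' : AdmS S E')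
    [Normal E (layer h)] [NumberField E] (z : groupCohomology ((ideleCoeff ℚ Qb).M h) 2)
    (hz : ∃ n : ℕ, p ^ n • z = 0) :
    (sSysQ S hp2 hpS).inv h
        ((classToClassSLayer (↑S : Set Nat.Primes) h 2).hom ((ideleToClassLayer h 2).hom z)) =
      invJFun padicLocalInvFamily E z :=
  sClassInvSystemQ_inv_idele S hp2 hpS (hrecipQ hp2) h hE' z hz

/-- **The family of invariants of `C_S'` over `ℚ`.** -/
noncomputable def famQ :
    LC.PInvFamily (globalLevel S) (csFullRep (globalLevel S) Qb (↑S : Set Nat.Primes))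
      (isSmooth_csFullRep (globalLevel S) Qb (↑S : Set Nat.Primes)) p :=
  PT.csFullPInvFamily (globalLevel S) (↑S : Set Nat.Primes) (AdmS S) (fun hF => admS_fd hF)
    (globalLevel_galType S) (globalLevel_cofinal S) (fun hB hB' => admS_sup hB hB')
    (exists_mem_localEmb_Qb S ⟨_, hpS⟩)
    (fun h h' hB'' _ => hasSClassDescent_of_admS S ⟨_, hpS⟩ h h' hB'')
    (fun hle hB' => admS_mono hle hB') (IntermediateField.isUnramifiedOutside_bot S)
    (sSysQ S hp2 hpS)

/-- The dictionary of `Gal(ℚ̄/F)`, `F` unramified outside `S` (`rfl`-equal to `csFullDictQ`). -/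
noncomputable abbrev dictQ (F : IntermediateField ℚ Qb) (hF : AdmS S F) :
    CoeffDict (sClassCoeff ℚ Qb (↑S : Set Nat.Primes)) (AdmS S) F
      ((globalLevel S).comap F.fixingSubgroup.subtype)
      (csFullTowerRep (globalLevel S) (↑S : Set Nat.Primes) F) :=
  PT.csFullDict (globalLevel S) (↑S : Set Nat.Primes) (AdmS S) (fun hF => admS_fd hF)
    (globalLevel_galType S) (globalLevel_cofinal S) (fun hB hB' => admS_sup hB hB')
    (exists_mem_localEmb_Qb S ⟨_, hpS⟩)
    (fun h h' hB'' _ => hasSClassDescent_of_admS S ⟨_, hpS⟩ h h' hB'') F hF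

theorem dictQ_eq_csFullDictQ (F : IntermediateField ℚ Qb) (hF : AdmS S F) :
    dictQ S hpS F hF = csFullDictQ S ⟨_, hpS⟩ F hF := rfl

/-- `F` contains a primitive `p`-th root of unity. -/
def HasZeta (p : ℕ) (F : IntermediateField ℚ Qb) : Prop := ∃ ζ ∈ F, IsPrimitiveRoot ζ p

include hp2 hpS in
/-- **(G4-FIN) over `ℚ`.** -/
theorem hfin_Q (F : IntermediateField ℚ Qb) (hF : AdmS S F) (hζ : HasZeta p F) :
    Finite (LCSym.VQuot (csFullTowerRep (globalLevel S) (↑S : Set Nat.Primes) F) p) := by
  obtain ⟨ζ, hζF, hζ⟩ := hζ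
  haveI : FiniteDimensional ℚ F := hF.1
  haveI : NumberField ↥F := ⟨⟩
  have hζ' : IsPrimitiveRoot (⟨ζ, hζF⟩ : ↥F) p :=
    IsPrimitiveRoot.of_map_of_injective (f := algebraMap ↥F Qb) hζ
      (algebraMap ↥F Qb).injective
  have h2 : 2 < p := lt_of_le_of_ne hp.out.two_le (Ne.symm hp2)
  exact finite_vQuot_csFullTowerRep_of_adm (globalLevel S) (↑S : Set Nat.Primes) F
    (exists_mem_localEmb_Qb S ⟨_, hpS⟩) (AdmS S)
    (globalLevel_galType S) (globalLevel_cofinal S) (fun hB hB' => admS_sup hB hB')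
    (fun h h' hB'' _ => hasSClassDescent_of_admS S ⟨_, hpS⟩ h h' hB'') hF p
    (index_range_pow_ideleClassS_self_ne_zero (↑S : Set Nat.Primes) F (pPrime p) h2 hζ'
      S.finite_toSet)

/-- **The existence theorem mod `p` (E) for `C_S'`** over the open subgroups of
`G₀ = Gal(ℚ̄/ℚ(μ_p))`, from the hard half (G4-HARD). -/
theorem hEB_Q
    (hhard : ∀ (F : IntermediateField ℚ Qb) (hF : AdmS S F), HasZeta p F →
      ∀ (a : csFullTowerRep (globalLevel S) (↑S : Set Nat.Primes) F)
        (ha : IsInv (csFullTowerRep (globalLevel S) (↑S : Set Nat.Primes) F) a),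
        (∀ (l : ((globalLevel S).comap F.fixingSubgroup.subtype).Level)
          (χ : (layer ((dictQ S hpS F hF).le_top l) ≃ₐ[F] layer ((dictQ S hpS F hF).le_top l)) →*
              Multiplicative (ZMod p)),
          (sSysQ S hp2 hpS).inv ((dictQ S hpS F hF).le_top l)
            (symClass ((sClassCoeff ℚ Qb (↑S : Set Nat.Primes)).M ((dictQ S hpS F hF).le_top l)) χ
              ((dictQ S hpS F hF).levelInv l a ha) ((dictQ S hpS F hF).isInv_levelInv l a ha))
            = 0) →
        ∃ b : csFullTowerRep (globalLevel S) (↑S : Set Nat.Primes) F,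
          IsInv (csFullTowerRep (globalLevel S) (↑S : Set Nat.Primes) F) b ∧ a = p • b)
    (U : Subgroup GQ) (hU : (globalLevel S).IsOpen U) (hle : U ≤ globalG0 p) :
    (Finite (LCSym.XChar ((globalLevel S).comap U.subtype) p) ∧
        Nat.card (LCSym.XChar ((globalLevel S).comap U.subtype) p) =
          Nat.card (LCSym.VQuot
            (Rep.res U.subtype (csFullRep (globalLevel S) Qb (↑S : Set Nat.Primes))) p)) ∧
      Function.Bijective
        (LCSym.pairLin ((globalLevel S).comap U.subtype)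
          (Rep.res U.subtype (csFullRep (globalLevel S) Qb (↑S : Set Nat.Primes)))
          ((famQ S hp2 hpS).tauS U hU)) ∧
      Function.Bijective
        (LCSym.pairLin ((globalLevel S).comap U.subtype)
          (Rep.res U.subtype (csFullRep (globalLevel S) Qb (↑S : Set Nat.Primes)))
          ((famQ S hp2 hpS).tauS U hU)).flip := by
  haveI : NeZero p := ⟨hp.out.ne_zero⟩
  refine GlobalBase.csFull_perfect_of_le (globalLevel S) (↑S : Set Nat.Primes) (AdmS S)
    (fun hF => admS_fd hF)
    (globalLevel_galType S) (globalLevel_cofinal S) (fun hB hB' => admS_sup hB hB')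
    (exists_mem_localEmb_Qb S ⟨_, hpS⟩)
    (fun h h' hB'' _ => hasSClassDescent_of_admS S ⟨_, hpS⟩ h h' hB'')
    (fun hle hB' => admS_mono hle hB') (IntermediateField.isUnramifiedOutside_bot S)
    (sSysQ S hp2 hpS) (HasZeta p) (globalG0 p) ?_ ?_ hhard
    (fun F hF hζ => hfin_Q S hp2 hpS F hF hζ) U hU hle
  · intro U hU hle
    obtain ⟨F, hF, hUF, hζ⟩ := exists_field_of_isOpen_le_globalG0 p S hU hle
    exact ⟨F, hF, hζ, hUF⟩
  · intro F hF _
    exact ExistenceNondeg.heasy_of_spec hp2 (↑S : Set Nat.Primes)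
      (clSysQ S hp2 hpS) (sSysQ S hp2 hpS)
      (fun h hadm _ x => sSysQ_inv_classS S hp2 hpS h hadm x)
      (fun hle hE2 => admS_mono hle hE2) (dictQ S hpS F hF)

include hp2 hpS in
/-- **(CF1a) for `C_S'`** over all open subgroups. -/
theorem hB1_Q (U : Subgroup GQ) (hU : (globalLevel S).IsOpen U)
    (c : LC.H1 ((globalLevel S).comap U.subtype)
      (Rep.res U.subtype (csFullRep (globalLevel S) Qb (↑S : Set Nat.Primes))))
    (hc : p • c = 0) : c = 0 :=
  GlobalBase.csFull_H1_eq_zero_of_nsmul (globalLevel S) (↑S : Set Nat.Primes) (AdmS S)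
    (fun hF => admS_fd hF)
    (globalLevel_galType S) (globalLevel_cofinal S) (fun hB hB' => admS_sup hB hB')
    (exists_mem_localEmb_Qb S ⟨_, hpS⟩)
    (fun h h' hB'' _ => hasSClassDescent_of_admS S ⟨_, hpS⟩ h h' hB'')
    (fun hle hB' => admS_mono hle hB')
    (sSysQ S hp2 hpS) U hU c hc

/-- **The global invariant map** `H²(G_S, C_S)[p] →+ ℤ/p` of Poitou–Tate over `ℚ`. -/
noncomputable def invGQ :
    LC.Hp p (isSmooth_csRep (globalLevel S) Qb (↑S : Set Nat.Primes)) 2 →+ ZMod p :=
  globalInvG S hpS (famQ S hp2 hpS)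

/-- **The inputs of Poitou–Tate over `ℚ`** (`p` odd, `p ∈ S`) from the hard half of the existence
theorem (G4-HARD) and the reciprocity sum formula (D3c). -/
noncomputable def ptInputsQ
    (hhard : ∀ (F : IntermediateField ℚ Qb) (hF : AdmS S F), HasZeta p F →
      ∀ (a : csFullTowerRep (globalLevel S) (↑S : Set Nat.Primes) F)
        (ha : IsInv (csFullTowerRep (globalLevel S) (↑S : Set Nat.Primes) F) a),
        (∀ (l : ((globalLevel S).comap F.fixingSubgroup.subtype).Level)
          (χ : (layer ((dictQ S hpS F hF).le_top l) ≃ₐ[F] layer ((dictQ S hpS F hF).le_top l)) →*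
              Multiplicative (ZMod p)),
          (sSysQ S hp2 hpS).inv ((dictQ S hpS F hF).le_top l)
            (symClass ((sClassCoeff ℚ Qb (↑S : Set Nat.Primes)).M ((dictQ S hpS F hF).le_top l)) χ
              ((dictQ S hpS F hF).levelInv l a ha) ((dictQ S hpS F hF).isInv_levelInv l a ha))
            = 0) →
        ∃ b : csFullTowerRep (globalLevel S) (↑S : Set Nat.Primes) F,
          IsInv (csFullTowerRep (globalLevel S) (↑S : Set Nat.Primes) F) b ∧ a = p • b)
    (hD3c : ∀ (z : (LC.cx (isSmooth_jsRep (globalLevel S) Qb (↑S : Set Nat.Primes))).H 2),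
      p • z = 0 →
      ∀ (h1 : (LC.cxMap (isSmooth_jsRep (globalLevel S) Qb (↑S : Set Nat.Primes))
            (isSmooth_csRep (globalLevel S) Qb (↑S : Set Nat.Primes))
            (jsToCsHom (globalLevel S) Qb (↑S : Set Nat.Primes))).mapH 2 z ∈
          LC.Hp p (isSmooth_csRep (globalLevel S) Qb (↑S : Set Nat.Primes)) 2)
        (h2 : ∀ q : ↥S, (LC.locHom (levelComap_global S)
            (isSmooth_jsRep (globalLevel S) Qb (↑S : Set Nat.Primes))
            (fun q : ↥S => isSmooth_primeUnitsRep q.1) (evQ (globalLevel S) S) q).mapH 2 z ∈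
          LC.Hp p (isSmooth_primeUnitsRep q.1) 2),
        invGQ S hp2 hpS ⟨_, h1⟩ = ∑ q : ↥S, invLoc p q.1 ⟨_, h2 q⟩) :
    PTInputs p S :=
  ptInputsOfFamily S hpS (famQ S hp2 hpS)
    (fun U hU _ c hc => hB1_Q S hp2 hpS U hU c hc)
    (hEB_Q S hp2 hpS hhard) hD3c

end Fermat.Agent.CFT.PTQ
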