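import Fermat.Agent.CFT.PT.PTInputsQNodes
import Fermat.Agent.CFT.Global.ExistenceHardQFinal

/-!
# Layer C/D, final assembly over `ℚ`, third step: only the finite-level formula is left

`PTQ.ptInputsQ_of_levels S hp2 hpS hLG : PTInputs p S`: with helper3's
`ExistenceHardQ.exists_unram_sublayer_of_mem_unramCharsOutside` ([G4-INFL-FIELD]) the hard half of
the existence theorem is unconditional (`PTQ.hhard_Q_final`, `PTQ.hEB_Q_final`,
`PTQ.global_duality_Q`: global duality for `C_S` over `ℚ`, unconditional); the only remaining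
hypothesis is the local–global formula `hLG` between the invariant maps of the finite levels of
`G_ℚ` ([D3c], shape of `PT.recip_of_levels`).
-/

set_option autoImplicit false
set_option linter.style.haveILetI false
set_option linter.unusedSectionVars false
set_option maxSynthPendingDepth 2

open CategoryTheory groupCohomology IntermediateField

namespace Fermat.Agent.CFT.PTQ

open Fermat.Agent.CFT Fermat.Agent.S55 ExtCitation GaloisTower LayerMaps Fermat.Agent.CFT.PT

local notation "Qb" => AlgebraicClosure ℚ
local notation "GQ" => (AlgebraicClosure ℚ ≃ₐ[ℚ] AlgebraicClosure ℚ)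

local instance instIsGaloisQbPTQLevels : IsGalois ℚ Qb :=
  Fermat.Agent.S54.FrobExists.isGalois_rat_algebraicClosure

variable (S : Finset Nat.Primes) {p : ℕ} [hp : Fact p.Prime] (hp2 : p ≠ 2)
  (hpS : pPrime p ∈ S)

include hp2 hpS in
/-- **(G4-HARD) over `ℚ`, unconditional**, in the shape of `PTQ.ptInputsQ`. -/
theorem hhard_Q_final (F : IntermediateField ℚ Qb) (hF : AdmS S F) (hζF : HasZeta p F)
    (a : csFullTowerRep (globalLevel S) (↑S : Set Nat.Primes) F)
    (ha : IsInv (csFullTowerRep (globalLevel S) (↑S : Set Nat.Primes) F) a)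
    (H : ∀ (l : ((globalLevel S).comap F.fixingSubgroup.subtype).Level)
      (χ : (layer ((dictQ S hpS F hF).le_top l) ≃ₐ[F] layer ((dictQ S hpS F hF).le_top l)) →*
          Multiplicative (ZMod p)),
      (sSysQ S hp2 hpS).inv ((dictQ S hpS F hF).le_top l)
        (symClass ((sClassCoeff ℚ Qb (↑S : Set Nat.Primes)).M ((dictQ S hpS F hF).le_top l)) χ
          ((dictQ S hpS F hF).levelInv l a ha) ((dictQ S hpS F hF).isInv_levelInv l a ha))
        = 0) :
    ∃ b : csFullTowerRep (globalLevel S) (↑S : Set Nat.Primes) F,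
      IsInv (csFullTowerRep (globalLevel S) (↑S : Set Nat.Primes) F) b ∧ a = p • b :=
  hhard_Q S hp2 hpS
    (fun _ hF' _ _ hT _ _ _ χ hχ =>
      ExistenceHardQ.exists_unram_sublayer_of_mem_unramCharsOutside hT hF' χ hχ)
    F hF hζF a ha H

/-- **The existence theorem mod `p` (E) for `C_S'`** over the open subgroups of
`G₀ = Gal(ℚ̄/ℚ(μ_p))`, unconditional. -/
theorem hEB_Q_final (U : Subgroup GQ) (hU : (globalLevel S).IsOpen U) (hle : U ≤ globalG0 p) :
    (Finite (LCSym.XChar ((globalLevel S).comap U.subtype) p) ∧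
        Nat.card (LCSym.XChar ((globalLevel S).comap U.subtype) p) =
          Nat.card (LCSym.VQuot
            (Rep.res U.subtype (csFullRep (globalLevel S) Qb (↑S : Set Nat.Primes))) p)) ∧
      Function.Bijective
        (LCSym.pairLin ((globalLevel S).comap U.subtype)
          (Rep.res U.subtype (csFullRep (globalLevel S) Qb (↑S : Set Nat.Primes)))
          ((famQ S hp2 hpS).tauS U hU)) ∧
      Function.Bijective
        (LCSym.pairLin ((globalLevel S).comap U.subtype)
          (Rep.res U.subtype (csFullRep (globalLevel S) Qb (↑S : Set Nat.Primes)))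
          ((famQ S hp2 hpS).tauS U hU)).flip :=
  hEB_Q S hp2 hpS (fun F hF hζ a ha H => hhard_Q_final S hp2 hpS F hF hζ a ha H) U hU hle

/-- **Global duality for `C_S` over `ℚ` (D7), unconditional** (`p` odd, `p ∈ S`): every finite
smooth `p`-torsion module of `G_ℚ` is perfect for `C_S` and `PTQ.invGQ`. -/
theorem global_duality_Q (M : PMod (globalLevel S) p) :
    M.res.IsPerfect p (isSmooth_csRep (globalLevel S) Qb (↑S : Set Nat.Primes)) M.tors
      (invGQ S hp2 hpS) :=
  global_duality S hpS (famQ S hp2 hpS) (fun U hU _ c hc => hB1_Q S hp2 hpS U hU c hc)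
    (hEB_Q_final S hp2 hpS) M

/-- **The inputs of Poitou–Tate over `ℚ`** (`p` odd, `p ∈ S`) from the finite-level local–global
formula `hLG` ([D3c]) alone. -/
noncomputable def ptInputsQ_of_levels
    (hLG : ∀ (l : (globalLevel S).Level)
      (y : groupCohomology.H2 ((jsRep (globalLevel S) Qb
        (↑S : Set Nat.Primes)).quotientToInvariants l.N)), p • y = 0 →
      tGQ S hp2 hpS l ((LC.coeffFinMap (jsToCsFullComp S) l.N 2).hom y) =
        ∑ q : ↥S, locInvLevel q.1 ((levelComap_global S).level q l)
          ((LC.locFin (evQ (globalLevel S) S) q l.N 2).hom y)) :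
    PTInputs p S :=
  ptInputsQ_of_nodes S hp2 hpS
    (fun _ hF' _ _ hT _ _ _ χ hχ =>
      ExistenceHardQ.exists_unram_sublayer_of_mem_unramCharsOutside hT hF' χ hχ) hLG

end Fermat.Agent.CFT.PTQ
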