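import Fermat.Agent.CFT.PT.PTInputsQ
import Fermat.Agent.CFT.PT.RecipPlug
import Fermat.Agent.CFT.Global.ExistenceHardQ

/-!
# Layer C/D, final assembly over `ℚ`, second step: the two last nodes

`PTQ.ptInputsQ` (`PT/PTInputsQ.lean`) has two hypotheses, `hhard` (G4-HARD) and `hD3c`.  Here they
are reduced to the two last open nodes, in the exact shapes of their owners:

* `hfield` **[G4-INFL-FIELD]** (shape of `ExistenceHardQ.hhard_csFullDictQ`): a character of a finite
  Galois layer `M/F` which is unramified outside `S` factors through a normal layer `Lχ/F`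
  unramified outside `S`;
* `hLG` **[D3c]** (shape of `PT.recip_of_levels`): the local–global formula between the invariant
  maps of one finite level of `G_ℚ`, for `tG = PTQ.tGQ` (= `coeffInvLevel` of `PTQ.sSysQ`).

`PTQ.ptInputsQ_of_nodes S hp2 hpS hfield hLG : PTInputs p S`.
-/

set_option autoImplicit false
set_option linter.style.haveILetI false
set_option linter.unusedSectionVars false
set_option maxSynthPendingDepth 2

open CategoryTheory groupCohomology IntermediateField

namespace Fermat.Agent.CFT.PTQ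

open Fermat.Agent.CFT Fermat.Agent.S55 ExtCitation GaloisTower LayerMaps Fermat.Agent.CFT.PT

local notation "Qb" => AlgebraicClosure ℚ
local notation "GQ" => (AlgebraicClosure ℚ ≃ₐ[ℚ] AlgebraicClosure ℚ)

local instance instIsGaloisQbPTQNodes : IsGalois ℚ Qb :=
  Fermat.Agent.S54.FrobExists.isGalois_rat_algebraicClosure

variable (S : Finset Nat.Primes) {p : ℕ} [hp : Fact p.Prime] (hp2 : p ≠ 2)
  (hpS : pPrime p ∈ S)

/-- The family of dictionaries of `C_S'` over `ℚ`. -/
noncomputable abbrev dictFamQ (F : IntermediateField ℚ Qb) (hF : AdmS S F) :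
    CoeffDict (sClassCoeff ℚ Qb (↑S : Set Nat.Primes)) (AdmS S) F
      ((globalLevel S).comap F.fixingSubgroup.subtype)
      (Rep.res F.fixingSubgroup.subtype (csFullRep (globalLevel S) Qb (↑S : Set Nat.Primes))) :=
  PT.csFullDictFamily (globalLevel S) (↑S : Set Nat.Primes) (AdmS S) (fun hF => admS_fd hF)
    (globalLevel_galType S) (globalLevel_cofinal S) (fun hB hB' => admS_sup hB hB')
    (exists_mem_localEmb_Qb S ⟨_, hpS⟩)
    (fun h h' hB'' _ => hasSClassDescent_of_admS S ⟨_, hpS⟩ h h' hB'') F hF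

/-- **The level family of the global invariant** of `C_S'` over `ℚ`. -/
noncomputable def tGQ (l : (globalLevel S).Level) :
    groupCohomology.H2 ((csFullRep (globalLevel S) Qb
      (↑S : Set Nat.Primes)).quotientToInvariants l.N) →+ AddCircle (1 : ℚ) :=
  coeffInvLevel (globalLevel S) (sSysQ S hp2 hpS) (dictFamQ S hpS)
    (IntermediateField.isUnramifiedOutside_bot S) l

theorem tGQ_inflFin (l l' : (globalLevel S).Level) (h : l'.N ≤ l.N)
    (y : groupCohomology.H2 ((csFullRep (globalLevel S) Qb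
      (↑S : Set Nat.Primes)).quotientToInvariants l.N)) :
    tGQ S hp2 hpS l'
        ((LC.inflFin (csFullRep (globalLevel S) Qb (↑S : Set Nat.Primes)) h 2).hom y) =
      tGQ S hp2 hpS l y :=
  coeffInvLevel_inflFin (globalLevel S)
    (isSmooth_csFullRep (globalLevel S) Qb (↑S : Set Nat.Primes)) (sSysQ S hp2 hpS)
    (dictFamQ S hpS) (IntermediateField.isUnramifiedOutside_bot S) l l' h y

/-- The global invariant of `C_S'` is the descent of the level family `tGQ`. -/
theorem famQ_invG_eq_descH2Add :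
    (famQ S hp2 hpS).invG =
      LC.descH2Add (tGQ S hp2 hpS) (tGQ_inflFin S hp2 hpS)
        (isSmooth_csFullRep (globalLevel S) Qb (↑S : Set Nat.Primes)) :=
  coeffInv_eq_descH2Add (globalLevel S)
    (isSmooth_csFullRep (globalLevel S) Qb (↑S : Set Nat.Primes)) (sSysQ S hp2 hpS)
    (dictFamQ S hpS) (IntermediateField.isUnramifiedOutside_bot S)

include hp2 hpS in
/-- **(G4-HARD) over `ℚ`** from the field-theoretic node `hfield`, in the shape of
`PTQ.ptInputsQ`. -/
theorem hhard_Q
    (hfield : ∀ (F : IntermediateField ℚ Qb), AdmS S F → ∀ [NumberField ↥F]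
      {M : IntermediateField ℚ Qb} (hT : F ≤ M) [NumberField ↥(layer hT)]
      [IsGalois ↥F ↥(layer hT)], FiniteDimensional ℚ M →
      ∀ χ ∈ ExistenceLocal.unramCharsOutside ↥F ↥(layer hT) p (↑S : Set Nat.Primes),
        ∃ (Lχ : IntermediateField ℚ Qb) (h1 : F ≤ Lχ) (h2 : Lχ ≤ M) (_ : Normal F (layer h1)),
          AdmS S Lχ ∧ ∃ χ' : (layer h1 ≃ₐ[F] layer h1) →* Multiplicative (ZMod p),
            χ = χ'.comp (ExistenceHard.layerGalRes h1 h2))
    (F : IntermediateField ℚ Qb) (hF : AdmS S F) (hζF : HasZeta p F)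
    (a : csFullTowerRep (globalLevel S) (↑S : Set Nat.Primes) F)
    (ha : IsInv (csFullTowerRep (globalLevel S) (↑S : Set Nat.Primes) F) a)
    (H : ∀ (l : ((globalLevel S).comap F.fixingSubgroup.subtype).Level)
      (χ : (layer ((dictQ S hpS F hF).le_top l) ≃ₐ[F] layer ((dictQ S hpS F hF).le_top l)) →*
          Multiplicative (ZMod p)),
      (sSysQ S hp2 hpS).inv ((dictQ S hpS F hF).le_top l)
        (symClass ((sClassCoeff ℚ Qb (↑S : Set Nat.Primes)).M ((dictQ S hpS F hF).le_top l)) χ
          ((dictQ S hpS F hF).levelInv l a ha) ((dictQ S hpS F hF).isInv_levelInv l a ha))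
        = 0) :
    ∃ b : csFullTowerRep (globalLevel S) (↑S : Set Nat.Primes) F,
      IsInv (csFullTowerRep (globalLevel S) (↑S : Set Nat.Primes) F) b ∧ a = p • b := by
  obtain ⟨ζ, hζF, hζ⟩ := hζF
  haveI : FiniteDimensional ℚ F := hF.1
  haveI : NumberField ↥F := ⟨⟩
  have hζ' : IsPrimitiveRoot (⟨ζ, hζF⟩ : ↥F) p :=
    IsPrimitiveRoot.of_map_of_injective (f := algebraMap ↥F Qb) hζ
      (algebraMap ↥F Qb).injective
  exact ExistenceHardQ.hhard_csFullDictQ S ⟨_, hpS⟩ hp2 hpS (hrecipQ hp2) F hF hζ'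
    (fun hT _ _ hM χ hχ => hfield F hF hT hM χ hχ) a ha H

/-- **The inputs of Poitou–Tate over `ℚ`** (`p` odd, `p ∈ S`) from the two last nodes:
`hfield` ([G4-INFL-FIELD]) and the finite-level local–global formula `hLG` ([D3c]). -/
noncomputable def ptInputsQ_of_nodes
    (hfield : ∀ (F : IntermediateField ℚ Qb), AdmS S F → ∀ [NumberField ↥F]
      {M : IntermediateField ℚ Qb} (hT : F ≤ M) [NumberField ↥(layer hT)]
      [IsGalois ↥F ↥(layer hT)], FiniteDimensional ℚ M →
      ∀ χ ∈ ExistenceLocal.unramCharsOutside ↥F ↥(layer hT) p (↑S : Set Nat.Primes),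
        ∃ (Lχ : IntermediateField ℚ Qb) (h1 : F ≤ Lχ) (h2 : Lχ ≤ M) (_ : Normal F (layer h1)),
          AdmS S Lχ ∧ ∃ χ' : (layer h1 ≃ₐ[F] layer h1) →* Multiplicative (ZMod p),
            χ = χ'.comp (ExistenceHard.layerGalRes h1 h2))
    (hLG : ∀ (l : (globalLevel S).Level)
      (y : groupCohomology.H2 ((jsRep (globalLevel S) Qb
        (↑S : Set Nat.Primes)).quotientToInvariants l.N)), p • y = 0 →
      tGQ S hp2 hpS l ((LC.coeffFinMap (jsToCsFullComp S) l.N 2).hom y) =
        ∑ q : ↥S, locInvLevel q.1 ((levelComap_global S).level q l)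
          ((LC.locFin (evQ (globalLevel S) S) q l.N 2).hom y)) :
    PTInputs p S :=
  ptInputsQ S hp2 hpS (fun F hF hζ a ha H => hhard_Q S hp2 hpS hfield F hF hζ a ha H)
    (recip_of_levels S hpS (famQ S hp2 hpS) (tGQ S hp2 hpS) (tGQ_inflFin S hp2 hpS)
      (famQ_invG_eq_descH2Add S hp2 hpS) hLG)

end Fermat.Agent.CFT.PTQ
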