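import Fermat.Agent.CFT.LC.Finite
import Fermat.Agent.S55.LCRes

/-!
# D4 (a): restriction of scalars `Rep k G → Rep ℤ G` and level cohomology

For a representation `M : Rep k G` over a commutative ring `k` (in the application `k = ZMod p`),
`repZ M : Rep ℤ G` is the same additive group with the same action, regarded as a
`ℤ`-representation.  Smoothness, LC cochains, cocycles and coboundaries do not change, so
`LC.H1 L M ≃+ LC.H1 L (repZ M)` and `LC.H2 L M ≃+ LC.H2 L (repZ M)` (`repZH1Equiv`,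
`repZH2Equiv`), compatibly with the restriction maps `lcResH1`, `lcResH2` of `S55/LCRes.lean`.
-/

set_option autoImplicit false

open CategoryTheory groupCohomology

noncomputable section

namespace Fermat.Agent.CFT.PT

open Fermat.Agent.CFT Fermat.Agent.S55

variable {k G : Type} [CommRing k] [Group G]

/-- The action of `G` on `M`, as a `ℤ`-linear representation. -/
def repZρ (M : Rep k G) : Representation ℤ G M where
  toFun g := (M.ρ g).toAddMonoidHom.toIntLinearMap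
  map_one' := by
    ext a
    simp
  map_mul' g h := by
    ext a
    simp

/-- Restriction of scalars to `ℤ`. -/
abbrev repZ (M : Rep k G) : Rep ℤ G := Rep.of (repZρ M)

@[simp]
theorem repZ_ρ_apply (M : Rep k G) (g : G) (a : M) : (repZ M).ρ g a = M.ρ g a := rfl

variable (L : LevelStructure G) (M : Rep k G)

theorem isSmooth_repZ_iff : IsSmooth L (repZ M) ↔ IsSmooth L M := Iff.rfl

/-! ### Cochains -/

theorem d₀₁_repZ (a : M) : (d₀₁ (repZ M)).hom a = (d₀₁ M).hom a := by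
  funext g
  rw [d₀₁_hom_apply, d₀₁_hom_apply]
  rfl

theorem d₁₂_repZ (f : G → M) : (d₁₂ (repZ M)).hom f = (d₁₂ M).hom f := by
  funext ⟨g, h⟩
  rw [d₁₂_hom_apply, d₁₂_hom_apply]
  rfl

theorem d₂₃_repZ (f : G × G → M) : (d₂₃ (repZ M)).hom f = (d₂₃ M).hom f := by
  funext ⟨g, h, j⟩
  rw [d₂₃_hom_apply, d₂₃_hom_apply]
  rfl

theorem mem_Z₁_repZ_iff (f : G → M) : f ∈ LC.Z₁ L (repZ M) ↔ f ∈ LC.Z₁ L M := by
  rw [LC.mem_Z₁_iff, LC.mem_Z₁_iff]
  refine and_congr ?_ Iff.rfl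
  change (d₁₂ (repZ M)).hom f = 0 ↔ (d₁₂ M).hom f = 0
  rw [d₁₂_repZ]

theorem mem_Z₂_repZ_iff (f : G × G → M) : f ∈ LC.Z₂ L (repZ M) ↔ f ∈ LC.Z₂ L M := by
  rw [LC.mem_Z₂_iff, LC.mem_Z₂_iff]
  refine and_congr ?_ Iff.rfl
  change (d₂₃ (repZ M)).hom f = 0 ↔ (d₂₃ M).hom f = 0
  rw [d₂₃_repZ]

theorem mem_B₁_repZ_iff (f : G → M) : f ∈ LC.B₁ L (repZ M) ↔ f ∈ LC.B₁ L M := by
  constructor
  · rintro ⟨a, rfl⟩
    exact ⟨a, (d₀₁_repZ M a).symm⟩
  · rintro ⟨a, rfl⟩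
    exact ⟨a, d₀₁_repZ M a⟩

theorem mem_B₂_repZ_iff (f : G × G → M) : f ∈ LC.B₂ L (repZ M) ↔ f ∈ LC.B₂ L M := by
  rw [LC.mem_B₂_iff, LC.mem_B₂_iff]
  constructor
  · rintro ⟨x, hx, rfl⟩
    exact ⟨x, hx, (d₁₂_repZ M x).symm⟩
  · rintro ⟨x, hx, rfl⟩
    exact ⟨x, hx, d₁₂_repZ M x⟩

/-- LC `1`-cocycles of `M` and of `repZ M` are the same. -/
def repZZ₁Equiv : ↥(LC.Z₁ L M) ≃+ ↥(LC.Z₁ L (repZ M)) where
  toFun f := ⟨f.1, (mem_Z₁_repZ_iff L M f.1).2 f.2⟩
  invFun f := ⟨f.1, (mem_Z₁_repZ_iff L M f.1).1 f.2⟩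
  left_inv _ := rfl
  right_inv _ := rfl
  map_add' _ _ := rfl

/-- LC `2`-cocycles of `M` and of `repZ M` are the same. -/
def repZZ₂Equiv : ↥(LC.Z₂ L M) ≃+ ↥(LC.Z₂ L (repZ M)) where
  toFun f := ⟨f.1, (mem_Z₂_repZ_iff L M f.1).2 f.2⟩
  invFun f := ⟨f.1, (mem_Z₂_repZ_iff L M f.1).1 f.2⟩
  left_inv _ := rfl
  right_inv _ := rfl
  map_add' _ _ := rfl

@[simp] theorem coe_repZZ₁Equiv (f : ↥(LC.Z₁ L M)) :
    ((repZZ₁Equiv L M f : ↥(LC.Z₁ L (repZ M))) : G → M) = f.1 := rfl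

@[simp] theorem coe_repZZ₂Equiv (f : ↥(LC.Z₂ L M)) :
    ((repZZ₂Equiv L M f : ↥(LC.Z₂ L (repZ M))) : G × G → M) = f.1 := rfl

/-! ### Cohomology -/

/-- `LC.H1 L M ≃+ LC.H1 L (repZ M)` (identity on cocycles). -/
def repZH1Equiv : LC.H1 L M ≃+ LC.H1 L (repZ M) :=
  QuotientAddGroup.congr _ _ (repZZ₁Equiv L M) (by
    ext f
    simp only [AddSubgroup.mem_map, Submodule.mem_toAddSubgroup, Submodule.mem_comap,
      Submodule.subtype_apply]
    constructor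
    · rintro ⟨f', hf', rfl⟩
      exact (mem_B₁_repZ_iff L M _).2 hf'
    · intro hf
      exact ⟨(repZZ₁Equiv L M).symm f, (mem_B₁_repZ_iff L M _).1 hf,
        (repZZ₁Equiv L M).apply_symm_apply f⟩)

/-- `LC.H2 L M ≃+ LC.H2 L (repZ M)` (identity on cocycles). -/
def repZH2Equiv : LC.H2 L M ≃+ LC.H2 L (repZ M) :=
  QuotientAddGroup.congr _ _ (repZZ₂Equiv L M) (by
    ext f
    simp only [AddSubgroup.mem_map, Submodule.mem_toAddSubgroup, Submodule.mem_comap,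
      Submodule.subtype_apply]
    constructor
    · rintro ⟨f', hf', rfl⟩
      exact (mem_B₂_repZ_iff L M _).2 hf'
    · intro hf
      exact ⟨(repZZ₂Equiv L M).symm f, (mem_B₂_repZ_iff L M _).1 hf,
        (repZZ₂Equiv L M).apply_symm_apply f⟩)

@[simp] theorem repZH1Equiv_mk (f : ↥(LC.Z₁ L M)) :
    repZH1Equiv L M (LC.H1π L M f) = LC.H1π L (repZ M) (repZZ₁Equiv L M f) := rfl

@[simp] theorem repZH2Equiv_mk (f : ↥(LC.Z₂ L M)) :
    repZH2Equiv L M (LC.H2π L M f) = LC.H2π L (repZ M) (repZZ₂Equiv L M f) := rfl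

/-! ### Compatibility with restriction -/

section Res

variable {H : Type} [Group H] {f : H →* G} {L} {L' : LevelStructure H}

/-- `repZH1Equiv` commutes with the restriction maps `lcResH1` of `S55/LCRes.lean`
(note `Rep.res f (repZ M) = repZ (Rep.res f M)` definitionally). -/
theorem lcResH1_repZ (hf : LevelCompat f L L') (x : LC.H1 L M) :
    lcResH1 (repZ M) hf (repZH1Equiv L M x) =
      (repZH1Equiv L' (Rep.res f M) (lcResH1 M hf x) : LC.H1 L' (repZ (Rep.res f M))) := by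
  obtain ⟨c, rfl⟩ := Submodule.mkQ_surjective _ x
  rfl

/-- `repZH2Equiv` commutes with the restriction maps `lcResH2` of `S55/LCRes.lean`. -/
theorem lcResH2_repZ (hf : LevelCompat f L L') (x : LC.H2 L M) :
    lcResH2 (repZ M) hf (repZH2Equiv L M x) =
      (repZH2Equiv L' (Rep.res f M) (lcResH2 M hf x) : LC.H2 L' (repZ (Rep.res f M))) := by
  obtain ⟨c, rfl⟩ := Submodule.mkQ_surjective _ x
  rfl

theorem lcResH1_repZ_eq_zero_iff (hf : LevelCompat f L L') (x : LC.H1 L M) :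
    lcResH1 (repZ M) hf (repZH1Equiv L M x) = 0 ↔ lcResH1 M hf x = 0 := by
  rw [lcResH1_repZ]
  exact (repZH1Equiv L' (Rep.res f M)).map_eq_zero_iff

theorem lcResH2_repZ_eq_zero_iff (hf : LevelCompat f L L') (x : LC.H2 L M) :
    lcResH2 (repZ M) hf (repZH2Equiv L M x) = 0 ↔ lcResH2 M hf x = 0 := by
  rw [lcResH2_repZ]
  exact (repZH2Equiv L' (Rep.res f M)).map_eq_zero_iff

end Res

end Fermat.Agent.CFT.PT

end
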