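import Fermat.Agent.CFT.Global.SemiLocal
import Fermat.Agent.CFT.GaloisTowerUnits

/-!
# Node D2a (part A1): the semi-local units in a Galois tower

`Ω/k` Galois (possibly infinite), `E ≤ E'` intermediate fields with `E'/E` normal, `q` a prime.
The `Gal(Ω/E)/Gal(Ω/E')`-module `A_q(Ω)^{Gal(Ω/E')}` (Mathlib's `Rep.quotientToInvariants` of the
restriction to `Gal(Ω/E)` of `semiLocalRep Ω Gal(Ω/k) q`) is the `Gal(E'/E)`-module `A_q(E')`
(`semiLocalRep (layer h) Gal(E'/E) q`), along `GaloisTower.layerEquiv`.  The isomorphism is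
`semiLocalMap (algebraMap (layer h) Ω)` (restriction of embeddings), read backwards.
-/

set_option autoImplicit false
set_option linter.unusedSectionVars false
set_option linter.style.haveILetI false

noncomputable section

namespace Fermat.Agent.CFT.PT

open Fermat.Agent.CFT Fermat.Agent.CFT.GaloisTower IntermediateField

variable {q : ℕ} [Fact q.Prime] {k Ω : Type} [Field k] [Field Ω] [Algebra k Ω] [IsGalois k Ω]
variable {E E' : IntermediateField k Ω} (h : E ≤ E')

/-- The `Gal(Ω/E)`-module `A_q(Ω)`. -/
abbrev slTowerRep (q : ℕ) [Fact q.Prime] (E : IntermediateField k Ω) : Rep ℤ E.fixingSubgroup :=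
  Rep.res E.fixingSubgroup.subtype (semiLocalRep Ω (Ω ≃ₐ[k] Ω) q)

theorem slTowerRep_ρ_apply (σ : E.fixingSubgroup) (x : Additive (semiLocalUnits q Ω)) :
    Additive.toMul ((slTowerRep q E).ρ σ x : Additive (semiLocalUnits q Ω)) =
      (σ : Ω ≃ₐ[k] Ω) • (Additive.toMul x : semiLocalUnits q Ω) := rfl

/-- The inclusion `A_q(E') → A_q(Ω)` (restriction of embeddings). -/
abbrev slIncl : semiLocalUnits q (layer h) →* semiLocalUnits q Ω :=
  semiLocalMap (q := q) (algebraMap (layer h) Ω)

theorem slIncl_injective : Function.Injective (slIncl (q := q) h) := by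
  haveI : Normal k Ω := IsGalois.to_normal
  haveI : Normal E Ω := Normal.tower_top_of_normal k E Ω
  haveI : Algebra.IsAlgebraic E Ω := Normal.toIsAlgebraic
  haveI : Algebra.IsAlgebraic (layer h) Ω := Algebra.IsAlgebraic.tower_top (K := E) (layer h)
  exact semiLocalMap_algebraMap_injective (q := q) (layer h)

/-- Equivariance of the inclusion: `σ • ι g = ι (σ|_{E'} • g)` for `σ ∈ Gal(Ω/E)`. -/
theorem smul_slIncl [Normal E (layer h)] (σ : E.fixingSubgroup)
    (g : semiLocalUnits q (layer h)) :
    (σ : Ω ≃ₐ[k] Ω) • slIncl h g = slIncl h (layerRes h σ • g) := by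
  apply Subtype.ext
  funext τ
  show (g : LocalEmb q (layer h) → (PadicAlgCl q)ˣ)
      ((τ.comp (MulSemiringAction.toRingHom (Ω ≃ₐ[k] Ω) Ω σ)).comp (algebraMap (layer h) Ω)) =
    (g : LocalEmb q (layer h) → (PadicAlgCl q)ˣ)
      ((τ.comp (algebraMap (layer h) Ω)).comp
        (MulSemiringAction.toRingHom ((layer h) ≃ₐ[E] (layer h)) (layer h) (layerRes h σ)))
  refine congrArg _ (RingHom.ext fun x => ?_)
  show τ ((σ : Ω ≃ₐ[k] Ω) (x : Ω)) = τ ((layerRes h σ x : layer h) : Ω)
  rw [layerRes_apply]

/-- An element of `A_q(Ω)` is fixed by `Gal(Ω/E')` iff it comes from `A_q(E')`. -/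
theorem mem_range_slIncl_iff (f : semiLocalUnits q Ω) :
    f ∈ (slIncl (q := q) h).range ↔ ∀ σ ∈ E'.fixingSubgroup, (σ : Ω ≃ₐ[k] Ω) • f = f := by
  haveI : Normal k Ω := IsGalois.to_normal
  haveI : Normal E Ω := Normal.tower_top_of_normal k E Ω
  haveI : Normal (layer h) Ω := Normal.tower_top_of_normal E (layer h) Ω
  rw [mem_range_semiLocalMap_iff (q := q) (layer h) f]
  constructor
  · intro hf σ hσ
    -- lift `σ` to an automorphism over `layer h`
    let σ' : Ω ≃ₐ[layer h] Ω :=
      { (σ : Ω ≃+* Ω) with
        commutes' := fun x => (IntermediateField.mem_fixingSubgroup_iff E' σ).1 hσ x x.2 }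
    have := hf σ'
    apply Subtype.ext
    funext τ
    have h2 := congrArg (fun F : semiLocalUnits q Ω => (F : LocalEmb q Ω → (PadicAlgCl q)ˣ) τ) this
    exact h2
  · intro hf σ'
    let σ : Ω ≃ₐ[k] Ω :=
      { (σ' : Ω ≃+* Ω) with
        commutes' := fun x =>
          σ'.commutes (⟨algebraMap k Ω x, E'.algebraMap_mem x⟩ : layer h) }
    have hσ : σ ∈ E'.fixingSubgroup := by
      rw [IntermediateField.mem_fixingSubgroup_iff]
      intro x hx
      exact σ'.commutes (⟨x, hx⟩ : layer h)
    have := hf σ hσ
    apply Subtype.ext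
    funext τ
    have h2 := congrArg (fun F : semiLocalUnits q Ω => (F : LocalEmb q Ω → (PadicAlgCl q)ˣ) τ) this
    exact h2

variable [Normal E (layer h)]

theorem mem_invariants_slTowerRep_iff (x : Additive (semiLocalUnits q Ω)) :
    x ∈ Representation.invariants ((slTowerRep q E).ρ.comp (layerRes h).ker.subtype) ↔
      (Additive.toMul x : semiLocalUnits q Ω) ∈ (slIncl (q := q) h).range := by
  rw [mem_range_slIncl_iff]
  constructor
  · intro hx σ hσ
    have hσE : σ ∈ E.fixingSubgroup := IntermediateField.fixingSubgroup_antitone h hσ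
    have hker : (⟨σ, hσE⟩ : E.fixingSubgroup) ∈ (layerRes h).ker :=
      (mem_ker_layerRes_iff h _).2 hσ
    exact congrArg Additive.toMul (hx ⟨⟨σ, hσE⟩, hker⟩)
  · intro hx σ
    have hσ : ((σ : E.fixingSubgroup) : Ω ≃ₐ[k] Ω) ∈ E'.fixingSubgroup :=
      (mem_ker_layerRes_iff h _).1 σ.2
    exact congrArg Additive.ofMul (hx _ hσ)

/-- The additive map `A_q(E') → A_q(Ω)^{Gal(Ω/E')}`. -/
def slInvariantsHom :
    Additive (semiLocalUnits q (layer h)) →+
      Representation.invariants ((slTowerRep q E).ρ.comp (layerRes h).ker.subtype) where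
  toFun y := ⟨Additive.ofMul (slIncl h (Additive.toMul y)),
    (mem_invariants_slTowerRep_iff h _).2 ⟨Additive.toMul y, rfl⟩⟩
  map_zero' := Subtype.ext (congrArg Additive.ofMul (map_one (slIncl (q := q) h)))
  map_add' y y' := Subtype.ext (congrArg Additive.ofMul
    (map_mul (slIncl (q := q) h) (Additive.toMul y) (Additive.toMul y')))

theorem slInvariantsHom_coe (y : Additive (semiLocalUnits q (layer h))) :
    Additive.toMul ((slInvariantsHom (q := q) h y).1 : Additive (semiLocalUnits q Ω)) =
      slIncl h (Additive.toMul y) := rfl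

theorem slInvariantsHom_bijective : Function.Bijective (slInvariantsHom (q := q) h) := by
  constructor
  · intro y y' hyy
    have := congrArg (fun z => Additive.toMul (z.1 : Additive (semiLocalUnits q Ω))) hyy
    exact congrArg Additive.ofMul (slIncl_injective h this)
  · intro x
    obtain ⟨g, hg⟩ := (mem_invariants_slTowerRep_iff h _).1 x.2
    exact ⟨Additive.ofMul g, Subtype.ext (congrArg Additive.ofMul hg)⟩

/-- `A_q(Ω)^{Gal(Ω/E')} ≃ A_q(E')`. -/
def slInvariantsEquiv :
    Representation.invariants ((slTowerRep q E).ρ.comp (layerRes h).ker.subtype) ≃+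
      Additive (semiLocalUnits q (layer h)) :=
  (AddEquiv.ofBijective (slInvariantsHom (q := q) h) (slInvariantsHom_bijective h)).symm

theorem slInvariantsEquiv_symm_apply (y : Additive (semiLocalUnits q (layer h))) :
    (slInvariantsEquiv (q := q) h).symm y = slInvariantsHom h y := rfl

theorem slIncl_slInvariantsEquiv
    (x : Representation.invariants ((slTowerRep q E).ρ.comp (layerRes h).ker.subtype)) :
    slIncl h (Additive.toMul (slInvariantsEquiv (q := q) h x)) =
      Additive.toMul (x.1 : Additive (semiLocalUnits q Ω)) := by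
  have := (slInvariantsEquiv (q := q) h).symm_apply_apply x
  rw [slInvariantsEquiv_symm_apply] at this
  exact congrArg (fun z => Additive.toMul (z.1 : Additive (semiLocalUnits q Ω))) this

/-- **Dictionary (A1)**: `A_q(Ω)^{Gal(Ω/E')}` as a module over `Gal(Ω/E)/Gal(Ω/E')` is `A_q(E')`
as a module over `Gal(E'/E)`. -/
def slInvariantsIso :
    (slTowerRep q E).quotientToInvariants (layerRes h).ker ≅
      Rep.res (layerEquiv h).toMonoidHom
        (semiLocalRep (layer h) ((layer h) ≃ₐ[E] (layer h)) q) :=
  Rep.mkIso (Representation.Equiv.mk (slInvariantsEquiv (q := q) h).toIntLinearEquiv (by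
    intro g
    induction g using QuotientGroup.induction_on with
    | H σ =>
      ext x
      apply (slInvariantsEquiv (q := q) h).symm.injective
      apply Subtype.ext
      apply Additive.toMul.injective
      show Additive.toMul ((((slInvariantsEquiv (q := q) h).symm
        ((slInvariantsEquiv (q := q) h) _)).1 : Additive (semiLocalUnits q Ω))) = _
      rw [AddEquiv.symm_apply_apply]
      show (σ : Ω ≃ₐ[k] Ω) • (Additive.toMul (x.1 : Additive (semiLocalUnits q Ω)) :
          semiLocalUnits q Ω) =
        slIncl h (layerRes h σ • (Additive.toMul (slInvariantsEquiv (q := q) h x) :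
          semiLocalUnits q (layer h)))
      rw [← smul_slIncl, slIncl_slInvariantsEquiv]
      rfl))

theorem slInvariantsIso_hom_apply
    (x : Representation.invariants ((slTowerRep q E).ρ.comp (layerRes h).ker.subtype)) :
    (slInvariantsIso (q := q) h).hom.hom x = slInvariantsEquiv h x := rfl

theorem slInvariantsIso_inv_apply (y : Additive (semiLocalUnits q (layer h))) :
    (slInvariantsIso (q := q) h).inv.hom y = slInvariantsHom h y := rfl

end Fermat.Agent.CFT.PT

end
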