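import Mathlib

/-!
# Abstract linear algebra of the Poitou–Tate sequence (node D3-abstract)

Given an exact sequence `X¹ --a--> Y¹ --b--> H² --c--> X²`, comparison maps `λ¹ : X¹ → L¹`
(surjective), `λ² : X² → L²` (injective) with `λ² ∘ c = loc₂`, a localisation map
`loc₁ : Hg → Hloc`, a perfect pairing `pg : Y¹ × Hg → k` and a pairing `pl : L¹ × Hloc → k` which
is onto the dual, such that `pg (a x) y = pl (λ¹ x) (loc₁ y)`, we get
`ker loc₂ ≃ Dual (ker loc₁)`.

Meaning: `X^r = Ext^r(M', J_S)`, `Y¹ = Ext¹(M', C_S)`, `H² = H²(G_S, M)`, `Hg = H¹(G_S, M')`,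
`Hloc = ∏_v H¹(G_v, M')`, `L^r = ∏_v H^r(G_v, M)`.
-/

set_option autoImplicit false

open Module

namespace Fermat.Agent.CFT.PT

variable {k : Type*} [Field k]
  {X1 Y1 H2 X2 Hg Hloc L1 L2 : Type*}
  [AddCommGroup X1] [Module k X1] [AddCommGroup Y1] [Module k Y1]
  [AddCommGroup H2] [Module k H2] [AddCommGroup X2] [Module k X2]
  [AddCommGroup Hg] [Module k Hg] [AddCommGroup Hloc] [Module k Hloc]
  [AddCommGroup L1] [Module k L1] [AddCommGroup L2] [Module k L2]

section theta

variable (loc1 : Hg →ₗ[k] Hloc) (pg : Y1 →ₗ[k] Hg →ₗ[k] k)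

/-- `y ↦ pg y |_{ker loc₁}`. -/
def shaTheta : Y1 →ₗ[k] Dual k (LinearMap.ker loc1) :=
  (LinearMap.lcomp k k (LinearMap.ker loc1).subtype) ∘ₗ pg

@[simp] theorem shaTheta_apply (y : Y1) (z : LinearMap.ker loc1) :
    shaTheta loc1 pg y z = pg y z := rfl

theorem shaTheta_surjective (hpg : Function.Surjective pg) :
    Function.Surjective (shaTheta loc1 pg) := by
  intro f
  obtain ⟨g, hg⟩ := LinearMap.exists_extend f
  obtain ⟨y, rfl⟩ := hpg g
  refine ⟨y, LinearMap.ext fun z => ?_⟩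
  rw [shaTheta_apply, ← hg]
  rfl

variable (a : X1 →ₗ[k] Y1) (lam1 : X1 →ₗ[k] L1) (pl : L1 →ₗ[k] Hloc →ₗ[k] k)

theorem ker_shaTheta (hlam1 : Function.Surjective lam1) (hpg : Function.Injective pg)
    (hpl : Function.Surjective pl)
    (hcompat : ∀ x y, pg (a x) y = pl (lam1 x) (loc1 y)) :
    LinearMap.ker (shaTheta loc1 pg) = LinearMap.range a := by
  ext y
  rw [LinearMap.mem_ker, LinearMap.mem_range]
  constructor
  · intro hy
    -- `pg y` kills `ker loc1`, so it factors through `loc1`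
    have hann : pg y ∈ (LinearMap.ker loc1).dualAnnihilator := by
      rw [Submodule.mem_dualAnnihilator]
      intro z hz
      exact LinearMap.congr_fun hy ⟨z, hz⟩
    rw [← LinearMap.range_dualMap_eq_dualAnnihilator_ker] at hann
    obtain ⟨ψ, hψ⟩ := hann
    obtain ⟨l, rfl⟩ := hpl ψ
    obtain ⟨x, rfl⟩ := hlam1 l
    refine ⟨x, hpg (LinearMap.ext fun z => ?_)⟩
    rw [hcompat, ← hψ]
    rfl
  · rintro ⟨x, rfl⟩
    refine LinearMap.ext fun z => ?_
    rw [shaTheta_apply, hcompat, (LinearMap.mem_ker.1 z.2), map_zero, LinearMap.zero_apply]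

end theta

variable (a : X1 →ₗ[k] Y1) (b : Y1 →ₗ[k] H2) (c : H2 →ₗ[k] X2)
  (lam1 : X1 →ₗ[k] L1) (lam2 : X2 →ₗ[k] L2) (loc2 : H2 →ₗ[k] L2) (loc1 : Hg →ₗ[k] Hloc)
  (pg : Y1 →ₗ[k] Hg →ₗ[k] k) (pl : L1 →ₗ[k] Hloc →ₗ[k] k)

theorem ker_loc2_eq_range (hbc : Function.Exact b c) (hlam2 : Function.Injective lam2)
    (hloc2 : ∀ x, lam2 (c x) = loc2 x) : LinearMap.ker loc2 = LinearMap.range b := by
  ext x
  rw [LinearMap.mem_ker, ← hloc2, LinearMap.mem_range]
  constructor
  · intro h
    have : c x = 0 := hlam2 (by rw [h, map_zero])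
    exact (hbc x).1 this
  · intro h
    rw [(hbc x).2 h, map_zero]

/-- **The abstract Poitou–Tate duality** `ker loc₂ ≃ (ker loc₁)^*`. -/
noncomputable def shaEquivDual (hab : Function.Exact a b) (hbc : Function.Exact b c)
    (hlam1 : Function.Surjective lam1) (hlam2 : Function.Injective lam2)
    (hloc2 : ∀ x, lam2 (c x) = loc2 x) (hpg : Function.Bijective pg)
    (hpl : Function.Surjective pl) (hcompat : ∀ x y, pg (a x) y = pl (lam1 x) (loc1 y)) :
    LinearMap.ker loc2 ≃ₗ[k] Dual k (LinearMap.ker loc1) :=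
  (LinearEquiv.ofEq _ _ (ker_loc2_eq_range b c lam2 loc2 hbc hlam2 hloc2)).trans <|
    (LinearMap.quotKerEquivRange b).symm.trans <|
      (Submodule.quotEquivOfEq _ _
        (((LinearMap.exact_iff).1 hab).trans
          (ker_shaTheta loc1 pg a lam1 pl hlam1 hpg.1 hpl hcompat).symm)).trans <|
        LinearMap.quotKerEquivOfSurjective (shaTheta loc1 pg) (shaTheta_surjective loc1 pg hpg.2)

/-- Explicit formula: the class `b y ∈ ker loc₂` corresponds to the functional `pg y |_{ker loc₁}`. -/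
theorem shaEquivDual_apply (hab : Function.Exact a b) (hbc : Function.Exact b c)
    (hlam1 : Function.Surjective lam1) (hlam2 : Function.Injective lam2)
    (hloc2 : ∀ x, lam2 (c x) = loc2 x) (hpg : Function.Bijective pg)
    (hpl : Function.Surjective pl) (hcompat : ∀ x y, pg (a x) y = pl (lam1 x) (loc1 y))
    (y : Y1) (h : b y ∈ LinearMap.ker loc2) (z : LinearMap.ker loc1) :
    shaEquivDual a b c lam1 lam2 loc2 loc1 pg pl hab hbc hlam1 hlam2 hloc2 hpg hpl hcompat
      ⟨b y, h⟩ z = pg y z := by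
  have h1 : (LinearMap.quotKerEquivRange b).symm
      (LinearEquiv.ofEq _ _ (ker_loc2_eq_range b c lam2 loc2 hbc hlam2 hloc2) ⟨b y, h⟩) =
      (LinearMap.ker b).mkQ y :=
    LinearMap.quotKerEquivRange_symm_apply_image b y _
  simp only [shaEquivDual, LinearEquiv.trans_apply, h1]
  rfl

/-- **Dimension form** (helper9's `sha_finrank_eq`). -/
theorem sha_finrank_eq (hab : Function.Exact a b) (hbc : Function.Exact b c)
    (hlam1 : Function.Surjective lam1) (hlam2 : Function.Injective lam2)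
    (hloc2 : ∀ x, lam2 (c x) = loc2 x) (hpg : Function.Bijective pg)
    (hpl : Function.Surjective pl) (hcompat : ∀ x y, pg (a x) y = pl (lam1 x) (loc1 y))
    [FiniteDimensional k Hg] :
    FiniteDimensional k (LinearMap.ker loc2) ∧
      finrank k (LinearMap.ker loc2) = finrank k (LinearMap.ker loc1) := by
  set e := shaEquivDual a b c lam1 lam2 loc2 loc1 pg pl hab hbc hlam1 hlam2 hloc2 hpg hpl hcompat
  exact ⟨LinearEquiv.finiteDimensional e.symm, e.finrank_eq.trans Subspace.dual_finrank_eq⟩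

/-- **Pairing form**: a pairing `ker loc₁ × ker loc₂ → k` nondegenerate on both sides (no
finiteness needed). -/
theorem exists_sha_pairing (hab : Function.Exact a b) (hbc : Function.Exact b c)
    (hlam1 : Function.Surjective lam1) (hlam2 : Function.Injective lam2)
    (hloc2 : ∀ x, lam2 (c x) = loc2 x) (hpg : Function.Bijective pg)
    (hpl : Function.Surjective pl) (hcompat : ∀ x y, pg (a x) y = pl (lam1 x) (loc1 y)) :
    ∃ B : LinearMap.ker loc1 →ₗ[k] LinearMap.ker loc2 →ₗ[k] k,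
      (∀ y, (∀ x, B y x = 0) → y = 0) ∧ (∀ x, (∀ y, B y x = 0) → x = 0) := by
  set e := shaEquivDual a b c lam1 lam2 loc2 loc1 pg pl hab hbc hlam1 hlam2 hloc2 hpg hpl hcompat
  refine ⟨e.toLinearMap.flip, fun y hy => ?_, fun x hx => ?_⟩
  · refine (Module.forall_dual_apply_eq_zero_iff k y).1 fun f => ?_
    have := hy (e.symm f)
    simpa using this
  · have : e x = 0 := LinearMap.ext fun y => hx y
    exact e.map_eq_zero_iff.1 this

end Fermat.Agent.CFT.PT
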